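import Fermat.Agent.S20.Free.Structure
import Fermat.Agent.S24.PartV.Main

/-!
# P-S20-FREE, WP-CB (helper89): bridge to the combinatorics of P-S24 Part V

Everything here is for `Γ = Gamma0 N`, `N ≠ 0`, on the coset space `SL(2,ℤ) ⧸ Gamma0 N` with the
left multiplication action.  The counts themselves are proved in `Fermat.Agent.S24.PartV`
(helper20, helper80); this file re-exports them in the shapes consumed by the final assembly of
P-S20-FREE.
-/

set_option autoImplicit false

open CongruenceSubgroup ModularGroup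
open scoped MatrixGroups

namespace Fermat.Agent.S20.Free

namespace Comb

variable (N : ℕ)

/-- `-1 ∈ Gamma0 N`. -/
theorem neg_one_mem_Gamma0 : (-1 : SL(2, ℤ)) ∈ Gamma0 N := by
  rw [Gamma0_mem]
  simp

variable [NeZero N]

/-- `Gamma0 N` has finite index (Mathlib instance, restated). -/
theorem finiteIndex_Gamma0 : (Gamma0 N).FiniteIndex := inferInstance

/-- The number of cosets is the Dedekind psi function. -/
theorem card_quotient : Nat.card (SL(2, ℤ) ⧸ Gamma0 N) = ModularCurve.dedekindPsi N :=
  Fermat.Agent.S24.PartV.card_coset N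

/-- The same with `Fintype.card`, for the `Fintype` instance of `Structure.lean`. -/
theorem fintypeCard_quotient :
    Fintype.card (SL(2, ℤ) ⧸ Gamma0 N) = ModularCurve.dedekindPsi N := by
  rw [← Nat.card_eq_fintype_card, card_quotient]

/-- The number of cosets fixed by `S` is `nuTwo N`. -/
theorem card_fixedBy_S :
    Nat.card (MulAction.fixedBy (SL(2, ℤ) ⧸ Gamma0 N) S) = ModularCurve.nuTwo N :=
  Fermat.Agent.S24.PartV.card_fixedBy_S N

/-- The number of cosets fixed by `S * T` is `nuThree N`. -/
theorem card_fixedBy_ST :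
    Nat.card (MulAction.fixedBy (SL(2, ℤ) ⧸ Gamma0 N) (S * T)) = ModularCurve.nuThree N :=
  Fermat.Agent.S24.PartV.card_fixedBy_ST N

/-- The number of orbits of `T` on the cosets (the number of cusps) is `cuspCount N`. -/
theorem card_orbits_T :
    Nat.card (MulAction.orbitRel.Quotient (Subgroup.zpowers (T : SL(2, ℤ)))
      (SL(2, ℤ) ⧸ Gamma0 N)) = ModularCurve.cuspCount N :=
  Fermat.Agent.S24.PartV.orbCount_T N

/-- The genus formula in terms of the four counts on the coset space. -/
theorem genusFormula_eq :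
    ModularCurve.genusFormula N =
      1 + (Nat.card (SL(2, ℤ) ⧸ Gamma0 N) : ℚ) / 12
        - (Nat.card (MulAction.fixedBy (SL(2, ℤ) ⧸ Gamma0 N) S) : ℚ) / 4
        - (Nat.card (MulAction.fixedBy (SL(2, ℤ) ⧸ Gamma0 N) (S * T)) : ℚ) / 3
        - (Nat.card (MulAction.orbitRel.Quotient (Subgroup.zpowers (T : SL(2, ℤ)))
            (SL(2, ℤ) ⧸ Gamma0 N)) : ℚ) / 2 := by
  rw [card_quotient, card_fixedBy_S, card_fixedBy_ST, card_orbits_T]
  rfl

end Comb

end Fermat.Agent.S20.Free
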