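/-
P-S20-FREE, module PermEigen (helper3).

Pure linear algebra: if `Φ : Matrix Q J ℂ` is invertible (two-sided inverse `Ψ`) and a permutation
`σ` of the rows acts on `Φ` by scaling the columns, `Φ (σ q) j = d j * Φ q j`, then
`∑ j, d j = #fixed points of σ` (trace of a permutation matrix).  Specialisations to `d j = c ^ a j`
with `c` a 4-th resp. 6-th (or 3-rd) root of unity and even weights `a j` give the congruence
counts of the weights modulo 4 and modulo 6.
-/
import Mathlib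

set_option autoImplicit false

namespace Fermat.Agent.S20.Free

open Matrix Finset

section Trace

variable {Q J : Type*} [Fintype Q] [Fintype J] [DecidableEq Q] [DecidableEq J]

/-- Trace identity: a row permutation acting on an invertible matrix through a diagonal matrix
on the right has as many fixed points as the trace of the diagonal matrix. -/
theorem PermEigen.sum_eq_card_fixed (σ : Equiv.Perm Q) (Φ : Matrix Q J ℂ) (Ψ : Matrix J Q ℂ)
    (h1 : Φ * Ψ = 1) (h2 : Ψ * Φ = 1) (d : J → ℂ)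
    (h : ∀ q j, Φ (σ q) j = d j * Φ q j) :
    ∑ j, d j = ((Finset.univ.filter fun q => σ q = q).card : ℂ) := by
  classical
  -- `∑ j, d j = ∑ j, ∑ q, Ψ j q * Φ (σ q) j`
  have e1 : ∀ j, d j = ∑ q, Ψ j q * Φ (σ q) j := by
    intro j
    have hjj : (Ψ * Φ) j j = 1 := by rw [h2]; simp
    rw [Matrix.mul_apply] at hjj
    calc d j = d j * ∑ q, Ψ j q * Φ q j := by rw [hjj, mul_one]
      _ = ∑ q, Ψ j q * Φ (σ q) j := by
          rw [Finset.mul_sum]
          refine Finset.sum_congr rfl fun q _ => ?_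
          rw [h q j]; ring
  have e2 : ∀ q, ∑ j, Φ (σ q) j * Ψ j q = if σ q = q then 1 else 0 := by
    intro q
    have := congrFun (congrFun h1 (σ q)) q
    rw [Matrix.mul_apply] at this
    rw [this, Matrix.one_apply]
  calc ∑ j, d j = ∑ j, ∑ q, Ψ j q * Φ (σ q) j := Finset.sum_congr rfl fun j _ => e1 j
    _ = ∑ q, ∑ j, Φ (σ q) j * Ψ j q := by
        rw [Finset.sum_comm]
        refine Finset.sum_congr rfl fun q _ => Finset.sum_congr rfl fun j _ => mul_comm _ _
    _ = ∑ q, (if σ q = q then (1 : ℂ) else 0) := Finset.sum_congr rfl fun q _ => e2 q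
    _ = ((Finset.univ.filter fun q => σ q = q).card : ℂ) := by
        rw [Finset.sum_boole]

/-- Square version with an invertible determinant. -/
theorem PermEigen.sum_eq_card_fixed_of_det (σ : Equiv.Perm Q) (Φ : Matrix Q Q ℂ)
    (hdet : Φ.det ≠ 0) (d : Q → ℂ) (h : ∀ q j, Φ (σ q) j = d j * Φ q j) :
    ∑ j, d j = ((Finset.univ.filter fun q => σ q = q).card : ℂ) := by
  have hu : IsUnit Φ.det := isUnit_iff_ne_zero.mpr hdet
  exact PermEigen.sum_eq_card_fixed σ Φ Φ⁻¹ (Matrix.mul_nonsing_inv Φ hu)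
    (Matrix.nonsing_inv_mul Φ hu) d h

end Trace

section Roots

/-- `c ^ a` for `c ^ 2 = -1` and even `a`. -/
theorem PermEigen.zpow_of_sq_eq_neg_one {c : ℂ} (hc : c ^ 2 = -1) {a : ℤ} (ha : Even a) :
    c ^ a = if a % 4 = 0 then 1 else -1 := by
  obtain ⟨b, rfl⟩ := ha
  have h2 : c ^ (b + b) = (-1 : ℂ) ^ b := by
    rw [← two_mul, _root_.zpow_mul, zpow_ofNat, hc]
  rw [h2]
  rcases Int.even_or_odd b with hb | hb
  · rw [hb.neg_one_zpow, if_pos]
    obtain ⟨k, rfl⟩ := hb; omega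
  · rw [hb.neg_one_zpow, if_neg]
    obtain ⟨k, rfl⟩ := hb; omega

/-- `c ^ a` for `ω = c ^ 2` a primitive cube root of unity and even `a`. -/
theorem PermEigen.zpow_of_sq_cube_root {c : ℂ} (hc : (c ^ 2) ^ 2 + c ^ 2 + 1 = 0) {a : ℤ}
    (ha : Even a) :
    c ^ a = if a % 6 = 0 then 1 else if a % 6 = 2 then c ^ 2 else -1 - c ^ 2 := by
  obtain ⟨b, rfl⟩ := ha
  set ω := c ^ 2 with hω
  have hω3 : ω ^ 3 = 1 := by linear_combination (ω - 1) * hc
  have h2 : c ^ (b + b) = ω ^ b := by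
    rw [← two_mul, _root_.zpow_mul, zpow_ofNat]
  rw [h2]
  have hb : b = 3 * (b / 3) + b % 3 := (Int.mul_ediv_add_emod b 3).symm
  have hω0 : ω ≠ 0 := by
    intro h0; rw [h0] at hc; norm_num at hc
  have h3 : ω ^ b = ω ^ (b % 3) := by
    conv_lhs => rw [hb]
    rw [zpow_add₀ hω0, _root_.zpow_mul, zpow_ofNat, hω3, _root_.one_zpow, one_mul]
  rw [h3]
  have hr : b % 3 = 0 ∨ b % 3 = 1 ∨ b % 3 = 2 := by omega
  rcases hr with hr | hr | hr
  · rw [hr, zpow_zero, if_pos (by omega)]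
  · rw [hr, zpow_one, if_neg (by omega), if_pos (by omega)]
  · rw [hr, if_neg (by omega), if_neg (by omega)]
    have : ω ^ (2 : ℤ) = ω ^ 2 := zpow_ofNat ω 2
    rw [this]; linear_combination hc

end Roots

section Count

/-- A root of `X^2 + X + 1` is not real. -/
theorem PermEigen.im_ne_zero_of_cube_root {ω : ℂ} (hω : ω ^ 2 + ω + 1 = 0) : ω.im ≠ 0 := by
  intro h0
  have hre : ω = (ω.re : ℂ) := by
    apply Complex.ext <;> simp [h0]
  rw [hre] at hω
  have : (ω.re ^ 2 + ω.re + 1 : ℝ) = 0 := by exact_mod_cast hω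
  nlinarith [sq_nonneg (ω.re + 1 / 2)]

/-- From the value of `∑ c^(a j)` (`c^2 = -1`, even weights) to the count modulo 4. -/
theorem PermEigen.card_mod_four_of_sum {J : Type*} [Fintype J] (a : J → ℤ) (ha : ∀ j, Even (a j))
    {c : ℂ} (hc : c ^ 2 = -1) (f : ℕ) (hs : ∑ j, c ^ (a j) = (f : ℂ)) :
    2 * (univ.filter fun j => a j % 4 = 0).card = Fintype.card J + f := by
  classical
  have e : ∑ j, c ^ (a j) = 2 * ((univ.filter fun j => a j % 4 = 0).card : ℂ)
      - (Fintype.card J : ℂ) := by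
    calc ∑ j, c ^ (a j) = ∑ j, (2 * (if a j % 4 = 0 then (1 : ℂ) else 0) - 1) := by
          refine Finset.sum_congr rfl fun j _ => ?_
          rw [PermEigen.zpow_of_sq_eq_neg_one hc (ha j)]
          split_ifs <;> norm_num
      _ = 2 * ((univ.filter fun j => a j % 4 = 0).card : ℂ) - (Fintype.card J : ℂ) := by
          rw [Finset.sum_sub_distrib, ← Finset.mul_sum, Finset.sum_boole]
          simp
  rw [e] at hs
  have : ((2 * (univ.filter fun j => a j % 4 = 0).card : ℕ) : ℂ)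
      = ((Fintype.card J + f : ℕ) : ℂ) := by
    push_cast; linear_combination hs
  exact_mod_cast this

/-- From the value of `∑ c^(a j)` (`c^2` a primitive cube root of unity, even weights) to the
counts modulo 6. -/
theorem PermEigen.card_mod_six_of_sum {J : Type*} [Fintype J] (a : J → ℤ) (ha : ∀ j, Even (a j))
    {c : ℂ} (hc : (c ^ 2) ^ 2 + c ^ 2 + 1 = 0) (f : ℕ) (hs : ∑ j, c ^ (a j) = (f : ℂ)) :
    3 * (univ.filter fun j => a j % 6 = 0).card = Fintype.card J + 2 * f ∧
      (univ.filter fun j => a j % 6 = 2).card = (univ.filter fun j => a j % 6 = 4).card ∧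
      3 * (univ.filter fun j => a j % 6 = 2).card + f = Fintype.card J := by
  classical
  set m0 := (univ.filter fun j => a j % 6 = 0).card with hm0
  set m2 := (univ.filter fun j => a j % 6 = 2).card with hm2
  set m4 := (univ.filter fun j => a j % 6 = 4).card with hm4
  have hn : Fintype.card J = m0 + m2 + m4 := by
    have : ∀ j : J, (1 : ℕ) = (if a j % 6 = 0 then 1 else 0) + (if a j % 6 = 2 then 1 else 0)
        + (if a j % 6 = 4 then 1 else 0) := by
      intro j
      obtain ⟨b, hb⟩ := ha j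
      have : a j % 6 = 0 ∨ a j % 6 = 2 ∨ a j % 6 = 4 := by omega
      rcases this with h' | h' | h' <;> simp [h']
    calc Fintype.card J = ∑ _j : J, 1 := by simp
      _ = ∑ j : J, ((if a j % 6 = 0 then 1 else 0) + (if a j % 6 = 2 then 1 else 0)
        + (if a j % 6 = 4 then 1 else 0)) := Finset.sum_congr rfl fun j _ => this j
      _ = m0 + m2 + m4 := by
        rw [Finset.sum_add_distrib, Finset.sum_add_distrib, Finset.sum_boole, Finset.sum_boole,
          Finset.sum_boole]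
        simp [hm0, hm2, hm4]
  have e : ∑ j, c ^ (a j) = (m0 : ℂ) + (m2 : ℂ) * c ^ 2 + (m4 : ℂ) * (-1 - c ^ 2) := by
    calc ∑ j, c ^ (a j) = ∑ j, ((if a j % 6 = 0 then (1 : ℂ) else 0)
          + (if a j % 6 = 2 then (1 : ℂ) else 0) * c ^ 2
          + (if a j % 6 = 4 then (1 : ℂ) else 0) * (-1 - c ^ 2)) := by
          refine Finset.sum_congr rfl fun j _ => ?_
          rw [PermEigen.zpow_of_sq_cube_root hc (ha j)]
          obtain ⟨b, hb⟩ := ha j
          have : a j % 6 = 0 ∨ a j % 6 = 2 ∨ a j % 6 = 4 := by omega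
          rcases this with h' | h' | h' <;> simp [h']
      _ = (m0 : ℂ) + (m2 : ℂ) * c ^ 2 + (m4 : ℂ) * (-1 - c ^ 2) := by
          rw [Finset.sum_add_distrib, Finset.sum_add_distrib, ← Finset.sum_mul, ← Finset.sum_mul,
            Finset.sum_boole, Finset.sum_boole, Finset.sum_boole]
  rw [e] at hs
  have him := PermEigen.im_ne_zero_of_cube_root hc
  have hI : ((m2 : ℝ) - (m4 : ℝ)) * (c ^ 2).im = 0 := by
    have := congrArg Complex.im hs
    simp at this
    linarith
  have h24 : (m2 : ℝ) = (m4 : ℝ) := by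
    rcases mul_eq_zero.mp hI with h' | h'
    · linarith
    · exact absurd h' him
  have h24' : m2 = m4 := by exact_mod_cast h24
  have hR : (m0 : ℝ) - (m4 : ℝ) = (f : ℝ) := by
    have := congrArg Complex.re hs
    simp at this
    rw [h24] at this
    linarith
  have hR' : m0 = m4 + f := by
    have : (m0 : ℝ) = ((m4 + f : ℕ) : ℝ) := by push_cast; linarith
    exact_mod_cast this
  refine ⟨by omega, h24', by omega⟩

variable {Q J : Type*} [Fintype Q] [Fintype J] [DecidableEq Q] [DecidableEq J]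

/-- Order-4 count: `Φ(i) diag(i^{-a_j}) = P_S Φ(i)` forces
`2 * #{j | a j ≡ 0 mod 4} = n + #Fix(S)`. -/
theorem PermEigen.card_mod_four (σ : Equiv.Perm Q) (Φ : Matrix Q J ℂ) (Ψ : Matrix J Q ℂ)
    (h1 : Φ * Ψ = 1) (h2 : Ψ * Φ = 1) (a : J → ℤ) (ha : ∀ j, Even (a j))
    {c : ℂ} (hc : c ^ 2 = -1) (h : ∀ q j, Φ (σ q) j = c ^ (a j) * Φ q j) :
    2 * (univ.filter fun j => a j % 4 = 0).card
      = Fintype.card J + (univ.filter fun q => σ q = q).card :=
  PermEigen.card_mod_four_of_sum a ha hc _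
    (PermEigen.sum_eq_card_fixed σ Φ Ψ h1 h2 (fun j => c ^ (a j)) h)

/-- Order-6 count: `Φ(ρ) diag(ζ^{-a_j}) = P_{ST} Φ(ρ)` (ζ a primitive 6-th root of unity) forces
`3 * #{a_j ≡ 0 mod 6} = n + 2 #Fix(ST)`, `#{a_j ≡ 2} = #{a_j ≡ 4}` and
`3 * #{a_j ≡ 2 mod 6} + #Fix(ST) = n`. -/
theorem PermEigen.card_mod_six (σ : Equiv.Perm Q) (Φ : Matrix Q J ℂ) (Ψ : Matrix J Q ℂ)
    (h1 : Φ * Ψ = 1) (h2 : Ψ * Φ = 1) (a : J → ℤ) (ha : ∀ j, Even (a j))
    {c : ℂ} (hc : (c ^ 2) ^ 2 + c ^ 2 + 1 = 0) (h : ∀ q j, Φ (σ q) j = c ^ (a j) * Φ q j) :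
    3 * (univ.filter fun j => a j % 6 = 0).card
        = Fintype.card J + 2 * (univ.filter fun q => σ q = q).card ∧
      (univ.filter fun j => a j % 6 = 2).card = (univ.filter fun j => a j % 6 = 4).card ∧
      3 * (univ.filter fun j => a j % 6 = 2).card + (univ.filter fun q => σ q = q).card
        = Fintype.card J :=
  PermEigen.card_mod_six_of_sum a ha hc _
    (PermEigen.sum_eq_card_fixed σ Φ Ψ h1 h2 (fun j => c ^ (a j)) h)

end Count

section Square

variable {Q : Type*} [Fintype Q] [DecidableEq Q]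

/-- Square version of `PermEigen.card_mod_four` with `det Φ ≠ 0`. -/
theorem PermEigen.card_mod_four_of_det (σ : Equiv.Perm Q) (Φ : Matrix Q Q ℂ) (hdet : Φ.det ≠ 0)
    (a : Q → ℤ) (ha : ∀ j, Even (a j)) {c : ℂ} (hc : c ^ 2 = -1)
    (h : ∀ q j, Φ (σ q) j = c ^ (a j) * Φ q j) :
    2 * (univ.filter fun j => a j % 4 = 0).card
      = Fintype.card Q + (univ.filter fun q => σ q = q).card := by
  have hu : IsUnit Φ.det := isUnit_iff_ne_zero.mpr hdet
  exact PermEigen.card_mod_four σ Φ Φ⁻¹ (Matrix.mul_nonsing_inv Φ hu)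
    (Matrix.nonsing_inv_mul Φ hu) a ha hc h

/-- Square version of `PermEigen.card_mod_six` with `det Φ ≠ 0`. -/
theorem PermEigen.card_mod_six_of_det (σ : Equiv.Perm Q) (Φ : Matrix Q Q ℂ) (hdet : Φ.det ≠ 0)
    (a : Q → ℤ) (ha : ∀ j, Even (a j)) {c : ℂ} (hc : (c ^ 2) ^ 2 + c ^ 2 + 1 = 0)
    (h : ∀ q j, Φ (σ q) j = c ^ (a j) * Φ q j) :
    3 * (univ.filter fun j => a j % 6 = 0).card
        = Fintype.card Q + 2 * (univ.filter fun q => σ q = q).card ∧
      (univ.filter fun j => a j % 6 = 2).card = (univ.filter fun j => a j % 6 = 4).card ∧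
      3 * (univ.filter fun j => a j % 6 = 2).card + (univ.filter fun q => σ q = q).card
        = Fintype.card Q := by
  have hu : IsUnit Φ.det := isUnit_iff_ne_zero.mpr hdet
  exact PermEigen.card_mod_six σ Φ Φ⁻¹ (Matrix.mul_nonsing_inv Φ hu)
    (Matrix.nonsing_inv_mul Φ hu) a ha hc h

end Square

end Fermat.Agent.S20.Free
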