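/-
P-S20-FREE, module Count (helper3).

The final linear algebra of the weight count: the multiset of weights `a j ∈ {0,2,…,10}` of a free
basis of `M_*(Γ₀(N))` over `ℂ[E₄,E₆]` is pinned down by
* `#{a j = 0} = 1`                                   (`M₀ = ℂ`),
* `#J = n`                                           (rank),
* `∑ a j = 6 (n - c)`                                (order of `det Φ` at `∞`),
* `2 #{a j ≡ 0 mod 4} = n + s`                       (evaluation at `i`),
* `3 #{a j ≡ 0 mod 6} = n + 2u`, `#{≡ 2} = #{≡ 4}`   (evaluation at `ρ`),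
and then `#{a j = 10} = 1 + n/12 - s/4 - u/3 - c/2`.
-/
import Mathlib
import Fermat.Prelude.Def_ModularCurve_GenusNumerics
import Fermat.Agent.S20.Free.PermEigen

set_option autoImplicit false

namespace Fermat.Agent.S20.Free

open Finset

/-- Solve the six linear equations for the number of generators of weight `10`. -/
theorem Count.card_weight_ten {J : Type*} [Fintype J] (a : J → ℤ)
    (hrange : ∀ j, Even (a j) ∧ 0 ≤ a j ∧ a j ≤ 10)
    (h0 : (univ.filter fun j => a j = 0).card = 1)
    (n s u c : ℕ) (hn : Fintype.card J = n)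
    (hsum : ∑ j, a j = 6 * ((n : ℤ) - c))
    (h4 : 2 * (univ.filter fun j => a j % 4 = 0).card = n + s)
    (h6 : 3 * (univ.filter fun j => a j % 6 = 0).card = n + 2 * u)
    (h24 : (univ.filter fun j => a j % 6 = 2).card = (univ.filter fun j => a j % 6 = 4).card) :
    ((univ.filter fun j => a j = 10).card : ℚ)
      = 1 + (n : ℚ) / 12 - (s : ℚ) / 4 - (u : ℚ) / 3 - (c : ℚ) / 2 := by
  classical
  have hval : ∀ j, a j = 0 ∨ a j = 2 ∨ a j = 4 ∨ a j = 6 ∨ a j = 8 ∨ a j = 10 := by
    intro j
    obtain ⟨⟨b, hb⟩, h1, h2⟩ := hrange j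
    omega
  -- indicator sums
  have key : ∀ p : J → Prop, ∀ [DecidablePred p],
      ((univ.filter p).card : ℤ) = ∑ j, (if p j then (1 : ℤ) else 0) := by
    intro p _
    rw [Finset.sum_boole]
  set m0 : ℤ := ((univ.filter fun j => a j = 0).card : ℤ) with hm0
  set m2 : ℤ := ((univ.filter fun j => a j = 2).card : ℤ) with hm2
  set m4 : ℤ := ((univ.filter fun j => a j = 4).card : ℤ) with hm4
  set m6 : ℤ := ((univ.filter fun j => a j = 6).card : ℤ) with hm6
  set m8 : ℤ := ((univ.filter fun j => a j = 8).card : ℤ) with hm8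
  set m10 : ℤ := ((univ.filter fun j => a j = 10).card : ℤ) with hm10
  have E0 : m0 = 1 := by rw [hm0, h0]; rfl
  -- total
  have E1 : (n : ℤ) = m0 + m2 + m4 + m6 + m8 + m10 := by
    rw [← hn, hm0, hm2, hm4, hm6, hm8, hm10, key, key, key, key, key, key,
      ← Finset.sum_add_distrib, ← Finset.sum_add_distrib, ← Finset.sum_add_distrib,
      ← Finset.sum_add_distrib, ← Finset.sum_add_distrib]
    have : (Fintype.card J : ℤ) = ∑ _j : J, (1 : ℤ) := by simp
    rw [this]
    refine Finset.sum_congr rfl fun j _ => ?_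
    rcases hval j with h | h | h | h | h | h <;> simp [h]
  -- weighted sum
  have E2 : ∑ j, a j = 2 * m2 + 4 * m4 + 6 * m6 + 8 * m8 + 10 * m10 := by
    rw [hm2, hm4, hm6, hm8, hm10, key, key, key, key, key,
      Finset.mul_sum, Finset.mul_sum, Finset.mul_sum, Finset.mul_sum, Finset.mul_sum,
      ← Finset.sum_add_distrib, ← Finset.sum_add_distrib, ← Finset.sum_add_distrib,
      ← Finset.sum_add_distrib]
    refine Finset.sum_congr rfl fun j _ => ?_
    rcases hval j with h | h | h | h | h | h <;> simp [h]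
  -- residues mod 4
  have E3 : ((univ.filter fun j => a j % 4 = 0).card : ℤ) = m0 + m4 + m8 := by
    rw [hm0, hm4, hm8, key, key, key, key, ← Finset.sum_add_distrib, ← Finset.sum_add_distrib]
    refine Finset.sum_congr rfl fun j _ => ?_
    rcases hval j with h | h | h | h | h | h <;> simp [h]
  -- residues mod 6
  have E4 : ((univ.filter fun j => a j % 6 = 0).card : ℤ) = m0 + m6 := by
    rw [hm0, hm6, key, key, key, ← Finset.sum_add_distrib]
    refine Finset.sum_congr rfl fun j _ => ?_
    rcases hval j with h | h | h | h | h | h <;> simp [h]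
  have E5 : ((univ.filter fun j => a j % 6 = 2).card : ℤ) = m2 + m8 := by
    rw [hm2, hm8, key, key, key, ← Finset.sum_add_distrib]
    refine Finset.sum_congr rfl fun j _ => ?_
    rcases hval j with h | h | h | h | h | h <;> simp [h]
  have E6 : ((univ.filter fun j => a j % 6 = 4).card : ℤ) = m4 + m10 := by
    rw [hm4, hm10, key, key, key, ← Finset.sum_add_distrib]
    refine Finset.sum_congr rfl fun j _ => ?_
    rcases hval j with h | h | h | h | h | h <;> simp [h]
  have h4' : 2 * (m0 + m4 + m8) = (n : ℤ) + s := by rw [← E3]; exact_mod_cast h4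
  have h6' : 3 * (m0 + m6) = (n : ℤ) + 2 * u := by rw [← E4]; exact_mod_cast h6
  have h24' : m2 + m8 = m4 + m10 := by rw [← E5, ← E6]; exact_mod_cast h24
  have hfin : 12 * m10 = 12 + (n : ℤ) - 3 * s - 4 * u - 6 * c := by
    rw [E2] at hsum
    linarith
  have hq : (12 : ℚ) * (m10 : ℚ) = 12 + (n : ℚ) - 3 * s - 4 * u - 6 * c := by exact_mod_cast hfin
  have hcast : ((univ.filter fun j => a j = 10).card : ℚ) = (m10 : ℚ) := by
    rw [hm10]; simp
  rw [hcast]
  linarith

/-- The same count, stated against the Prelude `genusFormula`. -/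
theorem Count.card_weight_ten_eq_genusFormula {J : Type*} [Fintype J] (N : ℕ) (a : J → ℤ)
    (hrange : ∀ j, Even (a j) ∧ 0 ≤ a j ∧ a j ≤ 10)
    (h0 : (univ.filter fun j => a j = 0).card = 1)
    (hn : Fintype.card J = ModularCurve.dedekindPsi N)
    (hsum : ∑ j, a j = 6 * ((ModularCurve.dedekindPsi N : ℤ) - ModularCurve.cuspCount N))
    (h4 : 2 * (univ.filter fun j => a j % 4 = 0).card
      = ModularCurve.dedekindPsi N + ModularCurve.nuTwo N)
    (h6 : 3 * (univ.filter fun j => a j % 6 = 0).card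
      = ModularCurve.dedekindPsi N + 2 * ModularCurve.nuThree N)
    (h24 : (univ.filter fun j => a j % 6 = 2).card = (univ.filter fun j => a j % 6 = 4).card) :
    ((univ.filter fun j => a j = 10).card : ℚ) = ModularCurve.genusFormula N := by
  rw [Count.card_weight_ten a hrange h0 _ _ _ _ hn hsum h4 h6 h24, ModularCurve.genusFormula]

/-- `ζ = exp(π i / 3)` is a primitive 6-th root of unity: `ζ²` is a root of `X² + X + 1`. -/
theorem Count.exp_pi_div_three_sq :
    ((Complex.exp (Real.pi * Complex.I / 3)) ^ 2) ^ 2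
      + (Complex.exp (Real.pi * Complex.I / 3)) ^ 2 + 1 = 0 := by
  set ζ := Complex.exp (Real.pi * Complex.I / 3) with hζ
  have h3 : ζ ^ 3 = -1 := by
    rw [hζ, ← Complex.exp_nat_mul]
    have : ((3 : ℕ) : ℂ) * (Real.pi * Complex.I / 3) = Real.pi * Complex.I := by
      push_cast; ring
    rw [this, Complex.exp_pi_mul_I]
  have hre : ζ.re = 1 / 2 := by
    rw [hζ, Complex.exp_re]
    have h1 : (Real.pi * Complex.I / 3 : ℂ).re = 0 := by simp
    have h2 : (Real.pi * Complex.I / 3 : ℂ).im = Real.pi / 3 := by simp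
    rw [h1, h2, Real.exp_zero, one_mul, Real.cos_pi_div_three]
  have hne : ζ + 1 ≠ 0 := by
    intro h
    have := congrArg Complex.re h
    simp [hre] at this
    norm_num at this
  have hfac : (ζ + 1) * ((ζ ^ 2) ^ 2 + ζ ^ 2 + 1) = 0 := by
    linear_combination (ζ ^ 2 + ζ + 1) * h3
  rcases mul_eq_zero.mp hfac with h | h
  · exact absurd h hne
  · exact h

/-- Work package WP-CT (task 167), exact requested signature. -/
theorem count_ten {ι : Type*} [Fintype ι] (wt : ι → ℤ) (n fS fU c : ℕ)
    (h0 : ∀ j, 0 ≤ wt j ∧ wt j ≤ 10 ∧ Even (wt j)) (hn : Fintype.card ι = n)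
    (hz : (Finset.univ.filter fun j => wt j = 0).card = 1)
    (hS : ∑ j, (Complex.I) ^ (-(wt j)) = (fS : ℂ))
    (hU : ∑ j, (Complex.exp (Real.pi * Complex.I / 3)) ^ (-(wt j)) = (fU : ℂ))
    (hT : ∑ j, wt j = 6 * ((n : ℤ) - c)) :
    (((Finset.univ.filter fun j => wt j = 10).card : ℕ) : ℚ)
      = 1 + (n : ℚ) / 12 - (fS : ℚ) / 4 - (fU : ℚ) / 3 - (c : ℚ) / 2 := by
  classical
  have hev : ∀ j, Even (-(wt j)) := fun j => (h0 j).2.2.neg
  have h4 := PermEigen.card_mod_four_of_sum (fun j => -(wt j)) hev Complex.I_sq fS hS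
  have h6 := PermEigen.card_mod_six_of_sum (fun j => -(wt j)) hev Count.exp_pi_div_three_sq fU hU
  have f4 : (univ.filter fun j => -(wt j) % 4 = 0) = (univ.filter fun j => wt j % 4 = 0) :=
    Finset.filter_congr fun j _ => by omega
  have f60 : (univ.filter fun j => -(wt j) % 6 = 0) = (univ.filter fun j => wt j % 6 = 0) :=
    Finset.filter_congr fun j _ => by omega
  have f62 : (univ.filter fun j => -(wt j) % 6 = 2) = (univ.filter fun j => wt j % 6 = 4) :=
    Finset.filter_congr fun j _ => by omega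
  have f64 : (univ.filter fun j => -(wt j) % 6 = 4) = (univ.filter fun j => wt j % 6 = 2) :=
    Finset.filter_congr fun j _ => by omega
  rw [f4, hn] at h4
  rw [f60, f62, f64, hn] at h6
  exact Count.card_weight_ten wt (fun j => ⟨(h0 j).2.2, (h0 j).1, (h0 j).2.1⟩) hz n fS fU c hn hT
    h4 h6.1 h6.2.1.symm

end Fermat.Agent.S20.Free
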