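import Fermat.Agent.S20.Free.Basic

/-!
# P-S20-FREE: free bases of `M_*(Γ)` over `M_*(SL(2,ℤ))` and the conjugate matrix
-/

set_option autoImplicit false

open UpperHalfPlane ModularForm SlashInvariantForm Filter Matrix.SpecialLinearGroup
open scoped MatrixGroups ModularForm Manifold Topology

namespace Fermat.Agent.S20.Free

variable (Γ : Subgroup SL(2, ℤ)) [Γ.FiniteIndex]

noncomputable instance instDecEqQuot : DecidableEq (SL(2, ℤ) ⧸ Γ) := Classical.decEq _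

noncomputable instance instFintypeQuot : Fintype (SL(2, ℤ) ⧸ Γ) := Fintype.ofFinite _

/-- `(wt, F)` is a homogeneous free basis of the graded module of modular forms on `Γ` over the
graded ring of level-one modular forms.  The index type is the coset space itself (the rank is
the index of `Γ`), which makes the conjugate matrix square. -/
structure IsFreeBasis (wt : SL(2, ℤ) ⧸ Γ → ℤ) (F : SL(2, ℤ) ⧸ Γ → ℍ → ℂ) : Prop where
  isMF : ∀ j, IsMF Γ (wt j) (F j)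
  span : ∀ (k : ℤ) (f : ℍ → ℂ), IsMF Γ k f →
    ∃ r : SL(2, ℤ) ⧸ Γ → ℍ → ℂ, (∀ j, IsMF1 (k - wt j) (r j)) ∧ f = ∑ j, r j * F j
  indep : ∀ (k : ℤ) (r : SL(2, ℤ) ⧸ Γ → ℍ → ℂ), (∀ j, IsMF1 (k - wt j) (r j)) →
    ∑ j, r j * F j = 0 → ∀ j, r j = 0

/-- The matrix of conjugates of a family of forms: rows = cosets, columns = generators. -/
noncomputable def conjMatrix (wt : SL(2, ℤ) ⧸ Γ → ℤ) (F : SL(2, ℤ) ⧸ Γ → ℍ → ℂ) (τ : ℍ) :
    Matrix (SL(2, ℤ) ⧸ Γ) (SL(2, ℤ) ⧸ Γ) ℂ :=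
  fun q j => conjFun Γ (wt j) (F j) q τ

/-- The form `u` of weight `w` separates the cosets of `Γ`. -/
def Separates (w : ℤ) (u : ℍ → ℂ) : Prop :=
  IsMF Γ w u ∧ ∀ q q' : SL(2, ℤ) ⧸ Γ, q ≠ q' → conjFun Γ w u q ≠ conjFun Γ w u q'

end Fermat.Agent.S20.Free
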