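import Mathlib
import Fermat.Agent.S20.Free.Structure

/-!
helper32 (P-S20-FREE, module SerreDeriv).  The normalised derivative `D` and the Serre derivative
preserve boundedness / vanishing at `i∞` (Cauchy estimate), and the Serre derivative maps
`M_k(Γ) → M_{k+2}(Γ)`, `S_k(Γ) → S_{k+2}(Γ)` for finite index subgroups `Γ ≤ SL(2, ℤ)`.
-/

set_option autoImplicit false

open UpperHalfPlane hiding I
open Real Complex Filter
open scoped Manifold MatrixGroups ModularForm Topology Derivative

namespace Fermat.Agent.S20.Free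

open Derivative

/-- Cauchy estimate for the normalised derivative `D`: a bound for `F` on `A ≤ Im z` gives a bound
for `D F` on `A + 1 ≤ Im z`. -/
theorem norm_D_le {F : ℍ → ℂ} (hF : MDiff F) {A M : ℝ} (hA : 0 < A)
    (h : ∀ z : ℍ, A ≤ z.im → ‖F z‖ ≤ M) (z : ℍ) (hz : A + 1 ≤ z.im) :
    ‖D F z‖ ≤ M / (2 * π) := by
  have hd : DifferentiableOn ℂ (F ∘ ofComplex) upperHalfPlaneSet :=
    UpperHalfPlane.mdifferentiable_iff.mp hF
  have hsub : ∀ w ∈ Metric.closedBall (z : ℂ) 1, A ≤ w.im := by
    intro w hw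
    have h1 : |(w - (z : ℂ)).im| ≤ ‖w - (z : ℂ)‖ := Complex.abs_im_le_norm _
    have h2 : ‖w - (z : ℂ)‖ ≤ 1 := by simpa [dist_eq_norm] using hw
    have h3 : |w.im - z.im| ≤ 1 := by simpa using h1.trans h2
    have := abs_le.mp h3
    linarith [this.1]
  have hsub' : Metric.closedBall (z : ℂ) 1 ⊆ upperHalfPlaneSet := fun w hw =>
    lt_of_lt_of_le hA (hsub w hw)
  have hdc : DiffContOnCl ℂ (F ∘ ofComplex) (Metric.ball (z : ℂ) 1) :=
    hd.diffContOnCl_ball hsub'
  have hC : ∀ w ∈ Metric.sphere (z : ℂ) 1, ‖(F ∘ ofComplex) w‖ ≤ M := by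
    intro w hw
    have him : A ≤ w.im := hsub w (Metric.sphere_subset_closedBall hw)
    have hpos : 0 < w.im := lt_of_lt_of_le hA him
    rw [Function.comp_apply, ofComplex_apply_of_im_pos hpos]
    exact h ⟨w, hpos⟩ him
  have key := Complex.norm_deriv_le_of_forall_mem_sphere_norm_le one_pos hdc hC
  rw [div_one] at key
  have hnorm : ‖(2 * (π : ℂ) * I)⁻¹‖ = (2 * π)⁻¹ := by
    rw [norm_inv, norm_mul, norm_mul, Complex.norm_I, mul_one]
    simp [abs_of_pos Real.pi_pos]
  rw [normalizedDerivOfComplex, norm_mul, hnorm, div_eq_inv_mul]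
  exact mul_le_mul_of_nonneg_left key (by positivity)

theorem isBoundedAtImInfty_D {F : ℍ → ℂ} (hF : MDiff F) (hb : IsBoundedAtImInfty F) :
    IsBoundedAtImInfty (D F) := by
  rw [isBoundedAtImInfty_iff] at hb ⊢
  obtain ⟨M, A, h⟩ := hb
  refine ⟨M / (2 * π), max A 1 + 1, fun z hz => ?_⟩
  refine norm_D_le hF (A := max A 1) (by positivity) (fun w hw => h w ((le_max_left A 1).trans hw))
    z hz

theorem isZeroAtImInfty_D {F : ℍ → ℂ} (hF : MDiff F) (hb : IsZeroAtImInfty F) :
    IsZeroAtImInfty (D F) := by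
  rw [isZeroAtImInfty_iff] at hb ⊢
  intro ε hε
  obtain ⟨A, h⟩ := hb ε hε
  refine ⟨max A 1 + 1, fun z hz => ?_⟩
  have := norm_D_le hF (A := max A 1) (M := ε) (by positivity)
    (fun w hw => h w ((le_max_left A 1).trans hw)) z hz
  refine this.trans ?_
  rw [div_le_iff₀ (by positivity)]
  have : 1 ≤ 2 * π := by linarith [Real.pi_gt_three]
  nlinarith

theorem isBoundedAtImInfty_serreDerivative (k : ℂ) {F : ℍ → ℂ} (hF : MDiff F)
    (hb : IsBoundedAtImInfty F) : IsBoundedAtImInfty (serreDerivative k F) := by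
  have h1 := isBoundedAtImInfty_D hF hb
  have h2 : IsBoundedAtImInfty (fun z : ℍ => k * 12⁻¹ * EisensteinSeries.E2 z * F z) := by
    have hc : IsBoundedAtImInfty (fun _ : ℍ => k * 12⁻¹) := const_boundedAtFilter _ _
    exact (BoundedAtFilter.mul (BoundedAtFilter.mul hc EisensteinSeries.isBoundedAtImInfty_E2) hb)
  have := BoundedAtFilter.add h1 (BoundedAtFilter.neg h2)
  refine this.congr_left (fun z => ?_)
  simp [sub_eq_add_neg]

theorem isZeroAtImInfty_serreDerivative (k : ℂ) {F : ℍ → ℂ} (hF : MDiff F)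
    (hb : IsZeroAtImInfty F) : IsZeroAtImInfty (serreDerivative k F) := by
  have h1 := isZeroAtImInfty_D hF hb
  have h2 : IsZeroAtImInfty (fun z : ℍ => k * 12⁻¹ * EisensteinSeries.E2 z * F z) := by
    have hc : IsBoundedAtImInfty (fun _ : ℍ => k * 12⁻¹) := const_boundedAtFilter _ _
    exact BoundedAtFilter.mul_zeroAtFilter
      (BoundedAtFilter.mul hc EisensteinSeries.isBoundedAtImInfty_E2) hb
  have := ZeroAtFilter.add h1 (ZeroAtFilter.neg h2)
  refine this.congr (fun z => ?_)
  simp [sub_eq_add_neg]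

variable {Γ : Subgroup SL(2, ℤ)} [Γ.FiniteIndex] {k : ℤ}

/-- slash by `γ ∈ SL(2,ℤ)` of a modular form on a finite index subgroup is bounded at `i∞` -/
theorem isBoundedAtImInfty_slash_of_modularForm (f : ModularForm Γ k) (γ : SL(2, ℤ)) :
    IsBoundedAtImInfty ((f : ℍ → ℂ) ∣[k] γ) := by
  have hc : IsCusp (Matrix.SpecialLinearGroup.mapGL ℝ γ • (OnePoint.infty : OnePoint ℝ)) 𝒮ℒ :=
    isCusp_SL2Z_iff'.mpr ⟨γ, rfl⟩
  have hc' : IsCusp (Matrix.SpecialLinearGroup.mapGL ℝ γ • (OnePoint.infty : OnePoint ℝ))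
      (Γ : Subgroup (GL (Fin 2) ℝ)) :=
    (Subgroup.IsArithmetic.isCusp_iff_isCusp_SL2Z _).mpr hc
  have := ModularFormClass.bdd_at_cusps f hc'
  exact (OnePoint.isBoundedAt_iff_forall_SL2Z hc).mp this γ rfl

theorem isZeroAtImInfty_slash_of_cuspForm (f : CuspForm Γ k) (γ : SL(2, ℤ)) :
    IsZeroAtImInfty ((f : ℍ → ℂ) ∣[k] γ) := by
  have hc : IsCusp (Matrix.SpecialLinearGroup.mapGL ℝ γ • (OnePoint.infty : OnePoint ℝ)) 𝒮ℒ :=
    isCusp_SL2Z_iff'.mpr ⟨γ, rfl⟩
  have hc' : IsCusp (Matrix.SpecialLinearGroup.mapGL ℝ γ • (OnePoint.infty : OnePoint ℝ))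
      (Γ : Subgroup (GL (Fin 2) ℝ)) :=
    (Subgroup.IsArithmetic.isCusp_iff_isCusp_SL2Z _).mpr hc
  have := CuspFormClass.zero_at_cusps f hc'
  exact (OnePoint.isZeroAt_iff_forall_SL2Z hc).mp this γ rfl

/-- The Serre derivative of a modular form of weight `k` on a finite index subgroup of `SL(2,ℤ)`,
as a modular form of weight `k + 2`. -/
noncomputable def serreDerivMF (f : ModularForm Γ k) : ModularForm Γ (k + 2) where
  toFun := serreDerivative k f
  slash_action_eq' := by
    rintro A ⟨γ, hγ, rfl⟩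
    have h : (f : ℍ → ℂ) ∣[k] γ = f :=
      SlashInvariantFormClass.slash_action_eq f _ ⟨γ, hγ, rfl⟩
    exact serreDerivative_slash_invariant (ModularFormClass.holo f) h
  holo' := serreDerivative_mdifferentiable (k : ℂ) (ModularFormClass.holo f)
  bdd_at_cusps' := by
    intro c hc
    rw [Subgroup.IsArithmetic.isCusp_iff_isCusp_SL2Z] at hc
    rw [OnePoint.isBoundedAt_iff_forall_SL2Z hc]
    intro γ _
    have hf : MDiff (f : ℍ → ℂ) := ModularFormClass.holo f
    rw [serreDerivative_slash_equivariant (k := k) hf (γ := γ)]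
    exact isBoundedAtImInfty_serreDerivative k (hf.slash k _)
      (isBoundedAtImInfty_slash_of_modularForm f γ)

@[simp] theorem serreDerivMF_apply (f : ModularForm Γ k) (z : ℍ) :
    serreDerivMF f z = serreDerivative k f z := rfl

theorem coe_serreDerivMF (f : ModularForm Γ k) :
    (serreDerivMF f : ℍ → ℂ) = serreDerivative k f := rfl

/-- The Serre derivative of a cusp form of weight `k` on a finite index subgroup of `SL(2,ℤ)`,
as a cusp form of weight `k + 2`. -/
noncomputable def serreDerivCF (f : CuspForm Γ k) : CuspForm Γ (k + 2) where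
  toFun := serreDerivative k f
  slash_action_eq' := by
    rintro A ⟨γ, hγ, rfl⟩
    have h : (f : ℍ → ℂ) ∣[k] γ = f :=
      SlashInvariantFormClass.slash_action_eq f _ ⟨γ, hγ, rfl⟩
    exact serreDerivative_slash_invariant (CuspFormClass.holo f) h
  holo' := serreDerivative_mdifferentiable (k : ℂ) (CuspFormClass.holo f)
  zero_at_cusps' := by
    intro c hc
    rw [Subgroup.IsArithmetic.isCusp_iff_isCusp_SL2Z] at hc
    rw [OnePoint.isZeroAt_iff_forall_SL2Z hc]
    intro γ _
    have hf : MDiff (f : ℍ → ℂ) := CuspFormClass.holo f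
    rw [serreDerivative_slash_equivariant (k := k) hf (γ := γ)]
    exact isZeroAtImInfty_serreDerivative k (hf.slash k _)
      (isZeroAtImInfty_slash_of_cuspForm f γ)

@[simp] theorem serreDerivCF_apply (f : CuspForm Γ k) (z : ℍ) :
    serreDerivCF f z = serreDerivative k f z := rfl

theorem coe_serreDerivCF (f : CuspForm Γ k) :
    (serreDerivCF f : ℍ → ℂ) = serreDerivative k f := rfl

theorem serreDerivMF_add (f g : ModularForm Γ k) :
    serreDerivMF (f + g) = serreDerivMF f + serreDerivMF g := by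
  ext z
  have := congrFun (serreDerivative_add (k : ℂ) f g (ModularFormClass.holo f)
    (ModularFormClass.holo g)) z
  simpa using this

theorem serreDerivMF_smul (c : ℂ) (f : ModularForm Γ k) :
    serreDerivMF (c • f) = c • serreDerivMF f := by
  ext z
  have := congrFun (serreDerivative_smul (k : ℂ) c f (ModularFormClass.holo f)) z
  simpa using this

/-- The Serre derivative as a `ℂ`-linear map `M_k(Γ) → M_{k+2}(Γ)`. -/
noncomputable def serreDerivLM : ModularForm Γ k →ₗ[ℂ] ModularForm Γ (k + 2) where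
  toFun := serreDerivMF
  map_add' := serreDerivMF_add
  map_smul' := serreDerivMF_smul

@[simp] theorem serreDerivLM_apply (f : ModularForm Γ k) (z : ℍ) :
    serreDerivLM f z = serreDerivative k f z := rfl

/-- Function-level form: if `f` is (the function of) a modular form of weight `k` for `Γ`, then
`serreDerivative k f` is a modular form of weight `k + 2`. -/
theorem exists_modularForm_serreDerivative {f : ℍ → ℂ}
    (hf : ∃ F : ModularForm Γ k, (F : ℍ → ℂ) = f) :
    ∃ G : ModularForm Γ (k + 2), (G : ℍ → ℂ) = serreDerivative k f := by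
  obtain ⟨F, rfl⟩ := hf
  exact ⟨serreDerivMF F, rfl⟩

theorem exists_cuspForm_serreDerivative {f : ℍ → ℂ}
    (hf : ∃ F : CuspForm Γ k, (F : ℍ → ℂ) = f) :
    ∃ G : CuspForm Γ (k + 2), (G : ℍ → ℂ) = serreDerivative k f := by
  obtain ⟨F, rfl⟩ := hf
  exact ⟨serreDerivCF F, rfl⟩

/-- Sanity check: the construction applies to `Γ₀(N)`. -/
noncomputable example (N : ℕ) [NeZero N] (f : ModularForm (CongruenceSubgroup.Gamma0 N) 2) :
    ModularForm (CongruenceSubgroup.Gamma0 N) (2 + 2) := serreDerivMF f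


/-! ### `IsMF` / `IsCF` forms (interfaces of `Defs.lean`) -/

section IsMFforms

variable {f : ℍ → ℂ}

theorem IsMF.serreDerivative (h : IsMF Γ k f) : IsMF Γ (k + 2) (Derivative.serreDerivative k f) :=
  exists_modularForm_serreDerivative h

theorem IsCF.serreDerivative (h : IsCF Γ k f) : IsCF Γ (k + 2) (Derivative.serreDerivative k f) :=
  exists_cuspForm_serreDerivative h

theorem IsMF1.serreDerivative (h : IsMF1 k f) : IsMF1 (k + 2) (Derivative.serreDerivative k f) := by
  obtain ⟨h1, h2, h3⟩ := isMF1_iff.mp h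
  exact isMF1_iff.mpr ⟨serreDerivative_mdifferentiable (k : ℂ) h1,
    fun γ => serreDerivative_slash_invariant h1 (h2 γ), isBoundedAtImInfty_serreDerivative k h1 h3⟩

theorem IsCF1.serreDerivative (h : IsCF1 k f) : IsCF1 (k + 2) (Derivative.serreDerivative k f) := by
  obtain ⟨h1, h2, h3⟩ := isCF1_iff.mp h
  exact isCF1_iff.mpr ⟨serreDerivative_mdifferentiable (k : ℂ) h1,
    fun γ => serreDerivative_slash_invariant h1 (h2 γ), isZeroAtImInfty_serreDerivative k h1 h3⟩

omit [Γ.FiniteIndex] in
/-- The Serre derivative commutes with taking conjugates. -/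
theorem conjFun_serreDerivative (hf : MDiff f) (q : SL(2, ℤ) ⧸ Γ) :
    conjFun Γ (k + 2) (Derivative.serreDerivative k f) q = Derivative.serreDerivative k (conjFun Γ k f q) :=
  serreDerivative_slash_equivariant hf

theorem IsMF.conjFun_serreDerivative (h : IsMF Γ k f) (q : SL(2, ℤ) ⧸ Γ) :
    conjFun Γ (k + 2) (Derivative.serreDerivative k f) q = Derivative.serreDerivative k (conjFun Γ k f q) :=
  Fermat.Agent.S20.Free.conjFun_serreDerivative h.mdiff q

end IsMFforms

/-- Ramanujan: `D Δ = E₂ Δ`. -/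
theorem D_discriminant (z : ℍ) :
    D (fun w : ℍ => ModularForm.discriminant w) z =
      EisensteinSeries.E2 z * ModularForm.discriminant z := by
  have hz : (z : ℂ) ∈ upperHalfPlaneSet := z.im_pos
  have heq : ((fun w : ℍ => ModularForm.discriminant w) ∘ ofComplex) =ᶠ[𝓝 (z : ℂ)]
      fun w => ModularForm.eta w ^ 24 := by
    filter_upwards [isOpen_upperHalfPlaneSet.mem_nhds hz] with w hw
    simp [Function.comp_apply, ofComplex_apply_of_im_pos hw, ModularForm.discriminant]
  have hη : DifferentiableAt ℂ ModularForm.eta (z : ℂ) :=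
    ModularForm.differentiableAt_eta_of_mem_upperHalfPlaneSet hz
  have hne : ModularForm.eta (z : ℂ) ≠ 0 := ModularForm.eta_ne_zero hz
  have hlog := ModularForm.logDeriv_eta_eq_E2 z
  rw [logDeriv_apply, div_eq_iff hne] at hlog
  rw [normalizedDerivOfComplex, heq.deriv_eq]
  have hd : deriv (fun w => ModularForm.eta w ^ 24) (z : ℂ) =
      24 * ModularForm.eta (z : ℂ) ^ 23 * deriv ModularForm.eta (z : ℂ) := by
    have := (hη.hasDerivAt.pow 24).deriv
    rw [show (fun w => ModularForm.eta w ^ 24) = ModularForm.eta ^ 24 from rfl, this]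
    norm_num
  rw [hd, hlog]
  have hpi : (2 * (π : ℂ) * I) ≠ 0 := by
    simp [Real.pi_ne_zero]
  simp only [ModularForm.discriminant]
  field_simp
  ring

/-- `D Δ = E₂ Δ` as an identity of functions. -/
theorem D_discriminant_eq :
    D (fun w : ℍ => ModularForm.discriminant w) =
      fun z => EisensteinSeries.E2 z * ModularForm.discriminant z :=
  funext D_discriminant

/-- The Serre derivative of weight `12` kills `Δ`. -/
theorem serreDerivative_discriminant :
    serreDerivative 12 (fun w : ℍ => ModularForm.discriminant w) = 0 := by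
  funext z
  rw [serreDerivative_apply, D_discriminant]
  simp only [Pi.zero_apply]
  ring

end Fermat.Agent.S20.Free
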