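import Fermat.Agent.S20.Free.Structure
import Fermat.Agent.S20.Free.SerreDeriv

/-!
# Jacobi's formula and the first order ODE for determinants of modular forms
(project P-S20-FREE, module DetODE, helper70)

## Deliverables (namespace `Fermat.Agent.S20.Free`)

* `D_det` : Jacobi's formula for `Φ B : ℍ → Matrix n n ℂ`: if `D Φ = Φ * B` entrywise then
  `D (det Φ) = tr B * det Φ`.
* `IsFreeBasis.ne_zero`, `wt_nonneg` : members of a free basis are nonzero and have weight `≥ 0`.
* `exists_serreDerivative_coeff` : `∂_{wt j} F j = ∑ l, A l j * F l` with level one coefficients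
  `A l j` of weight `wt j + 2 - wt l` and `A j j = 0`.
* `D_det_conjMatrix` : `D (det Φ) = ((∑ wt) / 12) E₂ det Φ` for `Φ = conjMatrix Γ wt F`.
* `det_conjMatrix_pow` : `(det Φ)^12 = c Δ^(∑ wt).toNat`, `c ≠ 0`, if `det Φ` is not identically 0.
* `det_conjMatrix_ne_zero` : then `det Φ` vanishes nowhere.

## Generic helpers (namespace `Fermat.Agent.S20.Free.DetODE`)

* `hasDerivAt_det` : Jacobi's formula `(det Φ)' = tr (adj Φ * Φ')` over any nontrivially normed
  field, with the corollaries `hasDerivAt_det_of_eq_mul` (`Φ' = Φ A`) and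
  `hasDerivAt_det_of_eq_mul'` (`Φ' = A Φ`).
* `D_det_eq_trace`, `D_det_of_eq_mul`, `D_det_of_eq_mul'` : the same for the normalized derivative
  `D = (2 π i)⁻¹ d/dτ` and a matrix `Φ : Matrix n n (ℍ → ℂ)` of holomorphic functions (the
  determinant is taken in the commutative ring `ℍ → ℂ`; `det_fun_apply` evaluates it).
* `serreDerivative_det` : if column `j` has weight `a j` and `∂_{a j} Φ i j = (Φ * A) i j` then
  `∂_{∑ a} (det Φ) = tr A * det Φ`.
* `exists_eq_smul_of_D_mul_eq` : if `g` has no zero and `D f * g = f * D g` then `f = c • g`.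
* `D_discriminant : D Δ = E₂ Δ`, `serreDerivative_discriminant : ∂₁₂ Δ = 0`.
* `exists_pow_twelve_eq_smul_discriminant_pow`, `ne_zero_of_serreDerivative_eq_zero`,
  `det_ne_zero_of_serreDerivative` : a nonzero solution of `∂_s f = 0` has no zeros, and
  `f ^ 12 = c Δ ^ s`.
* `isMF1_two_eq_zero`, `isMF_eq_zero_of_neg`, `isMF_serreDerivative`, `conjFun_serreDerivative`,
  `conjFun_congr_weight`, `conjMatrixFun` (the conjugate matrix as a matrix of functions).
-/

open Matrix
open scoped Topology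

namespace Fermat.Agent.S20.Free

namespace DetODE

section Pointwise

variable {𝕜 : Type*} [NontriviallyNormedField 𝕜] {n : Type*} [Fintype n] [DecidableEq n]

/-- **Jacobi's formula**, column form: the derivative of `det Φ` is the sum over the columns of
the determinants in which one column has been differentiated. -/
theorem hasDerivAt_det_updateCol {Φ : 𝕜 → Matrix n n 𝕜} {Φ' : Matrix n n 𝕜} {z : 𝕜}
    (hΦ : ∀ i j, HasDerivAt (fun w => Φ w i j) (Φ' i j) z) :
    HasDerivAt (fun w => (Φ w).det)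
      (∑ i, ((Φ z).updateCol i (fun j => Φ' j i)).det) z := by
  have h1 : ∀ σ : Equiv.Perm n, HasDerivAt (fun w => ∏ i, Φ w (σ i) i)
      (∑ i, (∏ j ∈ Finset.univ.erase i, Φ z (σ j) j) • Φ' (σ i) i) z := fun σ =>
    HasDerivAt.fun_finsetProd (fun i _ => hΦ (σ i) i)
  have h2 : HasDerivAt (fun w => ∑ σ : Equiv.Perm n, Equiv.Perm.sign σ • ∏ i, Φ w (σ i) i)
      (∑ σ : Equiv.Perm n, Equiv.Perm.sign σ •
        ∑ i, (∏ j ∈ Finset.univ.erase i, Φ z (σ j) j) • Φ' (σ i) i) z :=
    HasDerivAt.fun_sum (fun σ _ => (h1 σ).const_smul _)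
  have e1 : (fun w => (Φ w).det) =
      fun w => ∑ σ : Equiv.Perm n, Equiv.Perm.sign σ • ∏ i, Φ w (σ i) i := by
    funext w; rw [Matrix.det_apply]
  rw [e1]
  convert h2 using 1
  simp_rw [Matrix.det_apply, Finset.smul_sum]
  rw [Finset.sum_comm]
  refine Finset.sum_congr rfl fun σ _ => Finset.sum_congr rfl fun i _ => ?_
  congr 1
  rw [← Finset.prod_erase_mul _ _ (Finset.mem_univ i), smul_eq_mul]
  congr 1
  · refine Finset.prod_congr rfl fun j hj => ?_
    rw [Matrix.updateCol_ne (Finset.ne_of_mem_erase hj)]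
  · rw [Matrix.updateCol_self]

/-- purely algebraic: the sum of the column-replaced determinants is `tr (adj M * M')`. -/
theorem sum_det_updateCol_eq_trace {R : Type*} [CommRing R] (M M' : Matrix n n R) :
    ∑ i, (M.updateCol i (fun j => M' j i)).det = (adjugate M * M').trace := by
  simp only [Matrix.trace, Matrix.diag_apply]
  refine Finset.sum_congr rfl fun i _ => ?_
  rw [← Matrix.cramer_apply, Matrix.cramer_eq_adjugate_mulVec]
  rfl

/-- **Jacobi's formula**: `(det Φ)' = tr (adj Φ * Φ')`. -/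
theorem hasDerivAt_det {Φ : 𝕜 → Matrix n n 𝕜} {Φ' : Matrix n n 𝕜} {z : 𝕜}
    (hΦ : ∀ i j, HasDerivAt (fun w => Φ w i j) (Φ' i j) z) :
    HasDerivAt (fun w => (Φ w).det) ((adjugate (Φ z) * Φ').trace) z := by
  rw [← sum_det_updateCol_eq_trace]
  exact hasDerivAt_det_updateCol hΦ

/-- If `Φ' = Φ * A` then `(det Φ)' = tr A * det Φ`. -/
theorem hasDerivAt_det_of_eq_mul {Φ : 𝕜 → Matrix n n 𝕜} {Φ' A : Matrix n n 𝕜} {z : 𝕜}
    (hΦ : ∀ i j, HasDerivAt (fun w => Φ w i j) (Φ' i j) z) (h : Φ' = Φ z * A) :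
    HasDerivAt (fun w => (Φ w).det) (A.trace * (Φ z).det) z := by
  have := hasDerivAt_det hΦ
  rwa [h, ← Matrix.mul_assoc, Matrix.adjugate_mul, Matrix.smul_mul, Matrix.one_mul,
    Matrix.trace_smul, smul_eq_mul, mul_comm] at this

/-- If `Φ' = A * Φ` then `(det Φ)' = tr A * det Φ`. -/
theorem hasDerivAt_det_of_eq_mul' {Φ : 𝕜 → Matrix n n 𝕜} {Φ' A : Matrix n n 𝕜} {z : 𝕜}
    (hΦ : ∀ i j, HasDerivAt (fun w => Φ w i j) (Φ' i j) z) (h : Φ' = A * Φ z) :
    HasDerivAt (fun w => (Φ w).det) (A.trace * (Φ z).det) z := by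
  have := hasDerivAt_det hΦ
  rwa [h, Matrix.trace_mul_comm, Matrix.mul_assoc, Matrix.mul_adjugate, Matrix.mul_smul,
    Matrix.mul_one, Matrix.trace_smul, smul_eq_mul, mul_comm] at this

end Pointwise

section Upper

open UpperHalfPlane hiding I
open Complex Derivative
open scoped Manifold

variable {n : Type*} [Fintype n] [DecidableEq n]

/-- evaluation of a determinant of functions -/
theorem det_fun_apply {X : Type*} (Φ : Matrix n n (X → ℂ)) (x : X) :
    Φ.det x = (Φ.map (fun f => f x)).det := by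
  exact RingHom.map_det (Pi.evalRingHom (fun _ : X => ℂ) x) Φ

theorem hasDerivAt_comp_ofComplex {F : ℍ → ℂ} (hF : MDiff F) (τ : ℍ) :
    HasDerivAt (F ∘ ofComplex) (2 * Real.pi * I * D F τ) (τ : ℂ) := by
  have h1 : DifferentiableAt ℂ (F ∘ ofComplex) (τ : ℂ) :=
    (UpperHalfPlane.mdifferentiable_iff.mp hF).differentiableAt
      (isOpen_upperHalfPlaneSet.mem_nhds τ.im_pos)
  have h2 : (2 * Real.pi * I * D F τ) = deriv (F ∘ ofComplex) (τ : ℂ) := by
    have : (2 * (Real.pi : ℂ) * I) ≠ 0 := by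
      simp [Real.pi_ne_zero]
    simp only [normalizedDerivOfComplex]
    field_simp
  rw [h2]
  exact h1.hasDerivAt

theorem mdifferentiable_det (Φ : Matrix n n (ℍ → ℂ)) (hΦ : ∀ i j, MDiff (Φ i j)) :
    MDiff Φ.det := by
  rw [Matrix.det_apply]
  have hsum : ∀ (s : Finset (Equiv.Perm n)) (F : Equiv.Perm n → ℍ → ℂ),
      (∀ σ ∈ s, MDiff (F σ)) → MDiff (∑ σ ∈ s, F σ) := by
    intro s F
    induction s using Finset.induction_on with
    | empty =>
      intro _
      rw [Finset.sum_empty]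
      exact (mdifferentiable_const : MDiff (fun _ : ℍ => (0 : ℂ)))
    | insert a s ha ih =>
      intro h
      rw [Finset.sum_insert ha]
      exact (h a (Finset.mem_insert_self a s)).add
        (ih fun σ hσ => h σ (Finset.mem_insert_of_mem hσ))
  have hprod : ∀ (s : Finset n) (F : n → ℍ → ℂ),
      (∀ i ∈ s, MDiff (F i)) → MDiff (∏ i ∈ s, F i) := by
    intro s F
    induction s using Finset.induction_on with
    | empty =>
      intro _
      rw [Finset.prod_empty]
      exact (mdifferentiable_const : MDiff (fun _ : ℍ => (1 : ℂ)))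
    | insert a s ha ih =>
      intro h
      rw [Finset.prod_insert ha]
      exact (h a (Finset.mem_insert_self a s)).mul
        (ih fun σ hσ => h σ (Finset.mem_insert_of_mem hσ))
  refine hsum _ _ fun σ _ => ?_
  have h1 : MDiff (∏ i, Φ (σ i) i) := hprod _ _ fun i _ => hΦ (σ i) i
  rcases Int.units_eq_one_or (Equiv.Perm.sign σ) with h | h
  · rw [h, one_smul]; exact h1
  · rw [h, Units.neg_smul, one_smul]; exact h1.neg

/-- **Jacobi's formula** for the normalized derivative `D` and a square matrix of holomorphic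
functions on the upper half-plane (the determinant is taken in the ring `ℍ → ℂ`). -/
theorem D_det_eq_trace (Φ : Matrix n n (ℍ → ℂ)) (hΦ : ∀ i j, MDiff (Φ i j)) :
    D Φ.det = (adjugate Φ * Φ.map (fun f => D f)).trace := by
  funext τ
  have h := hasDerivAt_det (Φ := fun w : ℂ => Φ.map (fun f => f (ofComplex w)))
    (Φ' := (Φ.map (fun f => D f)).map (fun f => 2 * Real.pi * I * f τ)) (z := (τ : ℂ))
    (fun i j => by
      simp only [Matrix.map_apply]
      exact hasDerivAt_comp_ofComplex (hΦ i j) τ)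
  have e : (Φ.det ∘ ofComplex) = fun w : ℂ => (Φ.map (fun f => f (ofComplex w))).det := by
    funext w; simp [det_fun_apply]
  have hpi : (2 * (Real.pi : ℂ) * I) ≠ 0 := by
    simp [Real.pi_ne_zero]
  simp only [normalizedDerivOfComplex]
  rw [e, h.deriv, ofComplex_apply]
  have e2 : ((Φ.map (fun f => D f)).map (fun f => 2 * Real.pi * I * f τ)) =
      (2 * Real.pi * I) • ((Φ.map (fun f => D f)).map (fun f => f τ)) := by
    ext i j; simp
  rw [e2, Matrix.mul_smul, Matrix.trace_smul, smul_eq_mul, ← mul_assoc, inv_mul_cancel₀ hpi,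
    one_mul]
  have hadj : (Φ.map (fun f => f τ)).adjugate = (adjugate Φ).map (fun f => f τ) :=
    (RingHom.map_adjugate (Pi.evalRingHom (fun _ : ℍ => ℂ) τ) Φ).symm
  rw [hadj]
  simp [Matrix.trace, Matrix.mul_apply, Finset.sum_apply]

/-- If `D Φ = Φ * A` entrywise, then `D (det Φ) = tr A * det Φ`. -/
theorem D_det_of_eq_mul (Φ A : Matrix n n (ℍ → ℂ)) (hΦ : ∀ i j, MDiff (Φ i j))
    (h : Φ.map (fun f => D f) = Φ * A) : D Φ.det = A.trace * Φ.det := by
  rw [D_det_eq_trace Φ hΦ, h, ← Matrix.mul_assoc, Matrix.adjugate_mul, Matrix.smul_mul, Matrix.one_mul,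
    Matrix.trace_smul, smul_eq_mul, mul_comm]

/-- If `D Φ = A * Φ` entrywise, then `D (det Φ) = tr A * det Φ`. -/
theorem D_det_of_eq_mul' (Φ A : Matrix n n (ℍ → ℂ)) (hΦ : ∀ i j, MDiff (Φ i j))
    (h : Φ.map (fun f => D f) = A * Φ) : D Φ.det = A.trace * Φ.det := by
  rw [D_det_eq_trace Φ hΦ, h, Matrix.trace_mul_comm, Matrix.mul_assoc, Matrix.mul_adjugate,
    Matrix.mul_smul, Matrix.mul_one, Matrix.trace_smul, smul_eq_mul, mul_comm]

/-- **Serre derivative of a determinant.** If the column `j` of `Φ` consists of functions of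
weight `a j`, and the Serre derivatives of the entries satisfy `∂_{a j} Φ i j = (Φ * A) i j`,
then `∂_{∑ a} (det Φ) = tr A * det Φ`. -/
theorem serreDerivative_det (Φ A : Matrix n n (ℍ → ℂ)) (a : n → ℂ) (hΦ : ∀ i j, MDiff (Φ i j))
    (h : ∀ i j, serreDerivative (a j) (Φ i j) = (Φ * A) i j) :
    serreDerivative (∑ j, a j) Φ.det = A.trace * Φ.det := by
  have h1 : Φ.map (fun f => D f) =
      Φ * (A + Matrix.diagonal (fun j => (a j * 12⁻¹) • EisensteinSeries.E2)) := by
    ext i j τ
    have := congrFun (h i j) τ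
    simp only [serreDerivative_apply] at this
    rw [Matrix.mul_add, Matrix.add_apply, Pi.add_apply, ← this, Matrix.mul_diagonal]
    simp only [Matrix.map_apply, Pi.mul_apply, Pi.smul_apply, smul_eq_mul]
    ring
  have h2 := D_det_of_eq_mul Φ _ hΦ h1
  funext τ
  simp only [serreDerivative_apply, h2, Matrix.trace_add, Matrix.trace_diagonal, Pi.mul_apply,
    Pi.add_apply, Finset.sum_apply, Pi.smul_apply, smul_eq_mul, ← Finset.sum_mul]
  ring

/-- Uniqueness for the first order linear ODE on the upper half-plane: if `g` has no zeros and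
`D f * g = f * D g` then `f` is a constant multiple of `g`. -/
theorem exists_eq_smul_of_D_mul_eq {f g : ℍ → ℂ} (hf : MDiff f) (hg : MDiff g)
    (hg0 : ∀ τ, g τ ≠ 0) (h : D f * g = f * D g) : ∃ c : ℂ, f = c • g := by
  have hfU := UpperHalfPlane.mdifferentiable_iff.mp hf
  have hgU := UpperHalfPlane.mdifferentiable_iff.mp hg
  have hv0 : ∀ w ∈ upperHalfPlaneSet, (g ∘ ofComplex) w ≠ 0 := fun w _ => hg0 _
  have hq : DifferentiableOn ℂ (fun w => (f ∘ ofComplex) w / (g ∘ ofComplex) w)
      upperHalfPlaneSet := hfU.div hgU hv0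
  have hpi : (2 * (Real.pi : ℂ) * I) ≠ 0 := by
    simp [Real.pi_ne_zero]
  have hq' : upperHalfPlaneSet.EqOn
      (deriv (fun w => (f ∘ ofComplex) w / (g ∘ ofComplex) w)) 0 := by
    intro w hw
    have h1 := hasDerivAt_comp_ofComplex hf ⟨w, hw⟩
    have h2 := hasDerivAt_comp_ofComplex hg ⟨w, hw⟩
    have h3 := (h1.fun_div h2 (hv0 w hw)).deriv
    have h4 := congrFun h ⟨w, hw⟩
    simp only [Pi.mul_apply] at h4
    rw [h3]
    simp only [Function.comp_apply, ofComplex_apply_of_im_pos hw, Pi.zero_apply]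
    rw [div_eq_zero_iff]; left
    linear_combination (2 * (Real.pi : ℂ) * I) * h4
  obtain ⟨c, hc⟩ := isOpen_upperHalfPlaneSet.exists_is_const_of_deriv_eq_zero
    (Convex.isPreconnected (convex_halfSpace_im_gt 0)) hq hq'
  refine ⟨c, funext fun τ => ?_⟩
  have := hc τ τ.im_pos
  simp only [Function.comp_apply, ofComplex_apply] at this
  rw [Pi.smul_apply, smul_eq_mul, ← this, div_mul_cancel₀ _ (hg0 τ)]

section Discriminant

open ModularForm

local notation "Δ" => ModularForm.discriminant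

theorem mdifferentiable_discriminant : MDiff Δ :=
  CuspForm.discriminant.holo'

/-- `D Δ = E₂ Δ`. -/
theorem D_discriminant : D Δ = EisensteinSeries.E2 * Δ := by
  funext τ
  have hη : DifferentiableAt ℂ eta (τ : ℂ) := differentiableAt_eta_of_mem_upperHalfPlaneSet τ.im_pos
  have heq : (Δ ∘ ofComplex) =ᶠ[nhds (τ : ℂ)] fun w => ModularForm.eta w ^ 24 := by
    filter_upwards [isOpen_upperHalfPlaneSet.mem_nhds τ.im_pos] with w hw
    simp [ModularForm.discriminant, ofComplex_apply_of_im_pos hw]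
  have hlog := logDeriv_eta_eq_E2 τ
  rw [logDeriv_apply, div_eq_iff (eta_ne_zero τ.im_pos)] at hlog
  have hpi : (2 * (Real.pi : ℂ) * I) ≠ 0 := by
    simp [Real.pi_ne_zero]
  simp only [normalizedDerivOfComplex, Pi.mul_apply]
  rw [heq.deriv_eq, (hη.hasDerivAt.fun_pow 24).deriv, hlog]
  simp only [ModularForm.discriminant]
  field_simp
  ring

/-- `∂₁₂ Δ = 0`. -/
theorem serreDerivative_discriminant : serreDerivative 12 Δ = 0 := by
  funext τ
  simp [serreDerivative_apply, D_discriminant]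

/-- A holomorphic solution of `∂_s f = 0` (`s` a natural number) satisfies `f ^ 12 = c Δ ^ s`. -/
theorem exists_pow_twelve_eq_smul_discriminant_pow {f : ℍ → ℂ} (hf : MDiff f) (s : ℕ)
    (h : serreDerivative s f = 0) : ∃ c : ℂ, f ^ 12 = c • Δ ^ s := by
  have hDf : D f = fun τ => (s : ℂ) * 12⁻¹ * EisensteinSeries.E2 τ * f τ := by
    funext τ
    have := congrFun h τ
    simp only [serreDerivative_apply, Pi.zero_apply, sub_eq_zero] at this
    exact this
  refine exists_eq_smul_of_D_mul_eq (hf.pow 12) (mdifferentiable_discriminant.pow s)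
    (fun τ => pow_ne_zero _ (discriminant_ne_zero τ)) ?_
  rw [normalizedDerivOfComplex_pow f 12 hf,
    normalizedDerivOfComplex_pow Δ s mdifferentiable_discriminant, D_discriminant, hDf]
  funext τ
  simp only [Pi.mul_apply, Pi.pow_apply, Pi.natCast_apply]
  rcases Nat.eq_zero_or_pos s with rfl | hs
  · simp
  · have : Δ τ ^ s = Δ τ ^ (s - 1) * Δ τ := by
      rw [← pow_succ, Nat.sub_add_cancel hs]
    rw [this]
    push_cast
    ring

/-- A nonzero holomorphic solution of `∂_s f = 0` has no zeros on the upper half-plane. -/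
theorem ne_zero_of_serreDerivative_eq_zero {f : ℍ → ℂ} (hf : MDiff f) (s : ℕ)
    (h : serreDerivative s f = 0) (hne : f ≠ 0) (τ : ℍ) : f τ ≠ 0 := by
  obtain ⟨c, hc⟩ := exists_pow_twelve_eq_smul_discriminant_pow hf s h
  have hc0 : c ≠ 0 := by
    rintro rfl
    apply hne
    funext z
    have := congrFun hc z
    simpa using this
  intro h0
  have := congrFun hc τ
  simp only [Pi.pow_apply, Pi.smul_apply, smul_eq_mul, h0] at this
  have h2 : c * Δ τ ^ s ≠ 0 := mul_ne_zero hc0 (pow_ne_zero _ (discriminant_ne_zero τ))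
  exact h2 (by rw [← this]; simp)

variable {n : Type*} [Fintype n] [DecidableEq n]

/-- **Main consequence**: if the columns of `Φ` have (natural number) weights `a j`, the Serre
derivatives of the entries are given by `Φ * A` with `tr A = 0`, and `det Φ` is not identically
zero, then `det Φ` vanishes nowhere, and `(det Φ)^12 = c Δ^(∑ a)` with `c ≠ 0`. -/
theorem det_ne_zero_of_serreDerivative (Φ A : Matrix n n (ℍ → ℂ)) (a : n → ℕ)
    (hΦ : ∀ i j, MDiff (Φ i j))
    (h : ∀ i j, serreDerivative (a j) (Φ i j) = (Φ * A) i j) (hA : A.trace = 0)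
    (hdet : Φ.det ≠ 0) :
    (∀ τ, Φ.det τ ≠ 0) ∧ ∃ c : ℂ, c ≠ 0 ∧ Φ.det ^ 12 = c • Δ ^ (∑ j, a j) := by
  have hdiff : MDiff Φ.det := mdifferentiable_det Φ hΦ
  have h1 : serreDerivative ((∑ j, a j : ℕ) : ℂ) Φ.det = 0 := by
    have := serreDerivative_det Φ A (fun j => (a j : ℂ)) hΦ h
    rw [hA, zero_mul] at this
    rw [← this]; push_cast; rfl
  refine ⟨ne_zero_of_serreDerivative_eq_zero hdiff _ h1 hdet, ?_⟩
  obtain ⟨c, hc⟩ := exists_pow_twelve_eq_smul_discriminant_pow hdiff _ h1
  refine ⟨c, ?_, hc⟩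
  rintro rfl
  apply hdet
  funext z
  have := congrFun hc z
  simpa using this

end Discriminant

end Upper

end DetODE

section Basis

open UpperHalfPlane hiding I
open Complex Derivative ModularForm DetODE
open scoped Manifold MatrixGroups

/-! ### Deliverable (1): Jacobi's formula for `Φ : ℍ → Matrix n n ℂ` -/

/-- **Jacobi's formula** for the normalized derivative: if `D Φ = Φ * B` entrywise then
`D (det Φ) = tr B * det Φ`. -/
theorem D_det {n : Type*} [Fintype n] [DecidableEq n] (Φ B : ℍ → Matrix n n ℂ)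
    (hΦ : ∀ i j, MDiff fun τ => Φ τ i j)
    (hB : ∀ τ i j, D (fun t => Φ t i j) τ = (Φ τ * B τ) i j) :
    ∀ τ, D (fun t => (Φ t).det) τ = (B τ).trace * (Φ τ).det := by
  intro τ
  set ΦM : Matrix n n (ℍ → ℂ) := Matrix.of fun i j t => Φ t i j with hΦM
  set BM : Matrix n n (ℍ → ℂ) := Matrix.of fun i j t => B t i j with hBM
  have h1 : ΦM.map (fun f => D f) = ΦM * BM := by
    ext i j t
    simp only [Matrix.map_apply, Matrix.mul_apply, Finset.sum_apply, Pi.mul_apply, hΦM, hBM,
      Matrix.of_apply]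
    rw [hB t i j, Matrix.mul_apply]
  have h2 := D_det_of_eq_mul ΦM BM hΦ h1
  have e1 : ΦM.det = fun t => (Φ t).det := by
    funext t
    rw [det_fun_apply]
    rfl
  have e2 : BM.trace τ = (B τ).trace := by
    simp [Matrix.trace, Finset.sum_apply, hBM]
  rw [← e1, h2, Pi.mul_apply, e2, e1]

/-! ### Deliverable (2): the Serre derivative of a free basis -/

variable {Γ : Subgroup SL(2, ℤ)} [Γ.FiniteIndex]

theorem DetODE.isMF1_two_eq_zero {f : ℍ → ℂ} (h : IsMF1 2 f) : f = 0 := by
  obtain ⟨G, rfl⟩ := h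
  have := rank_zero_iff_forall_zero.mp levelOne_weight_two_rank_zero G
  rw [this]; rfl

theorem DetODE.isMF_eq_zero_of_neg {k : ℤ} (hk : k < 0) {f : ℍ → ℂ} (h : IsMF Γ k f) :
    f = 0 := by
  obtain ⟨G, rfl⟩ := h
  rw [ModularForm.isZero_of_neg_weight hk G]; rfl

theorem DetODE.isMF_serreDerivative {k : ℤ} {f : ℍ → ℂ} (h : IsMF Γ k f) :
    IsMF Γ (k + 2) (serreDerivative k f) :=
  exists_modularForm_serreDerivative h

omit [Γ.FiniteIndex] in
theorem DetODE.conjFun_congr_weight {k l : ℤ} (hkl : k = l) (f : ℍ → ℂ) (q : SL(2, ℤ) ⧸ Γ) :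
    conjFun Γ k f q = conjFun Γ l f q := by subst hkl; rfl

theorem DetODE.conjFun_serreDerivative {k : ℤ} {f : ℍ → ℂ} (h : IsMF Γ k f)
    (q : SL(2, ℤ) ⧸ Γ) :
    conjFun Γ (k + 2) (serreDerivative k f) q = serreDerivative k (conjFun Γ k f q) := by
  unfold conjFun
  exact serreDerivative_slash_equivariant h.mdiff

variable {wt : SL(2, ℤ) ⧸ Γ → ℤ} {F : SL(2, ℤ) ⧸ Γ → ℍ → ℂ}

theorem IsFreeBasis.ne_zero (hB : IsFreeBasis Γ wt F) (j : SL(2, ℤ) ⧸ Γ) : F j ≠ 0 := by
  intro h0
  have h1 := hB.indep (wt j) (fun l => if l = j then (1 : ℍ → ℂ) else 0) (fun l => by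
    by_cases hl : l = j
    · subst hl
      simp only [if_true]
      exact isMF1_one.congr_weight (by ring)
    · simp only [hl, if_false]
      exact isMF1_zero) (by
    rw [Finset.sum_eq_single j]
    · simp [h0]
    · intro l _ hl; simp [hl]
    · intro h; exact absurd (Finset.mem_univ j) h) j
  simp only [if_true] at h1
  exact one_ne_zero h1

/-- The weights of a free basis are nonnegative. -/
theorem wt_nonneg (hB : IsFreeBasis Γ wt F) (j : SL(2, ℤ) ⧸ Γ) : 0 ≤ wt j := by
  by_contra h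
  exact hB.ne_zero j (DetODE.isMF_eq_zero_of_neg (not_le.mp h) (hB.isMF j))

/-- The Serre derivatives of the members of a free basis, expressed in the basis: the matrix
of coefficients consists of level one forms and has zero diagonal. -/
theorem exists_serreDerivative_coeff (hB : IsFreeBasis Γ wt F) :
    ∃ A : SL(2, ℤ) ⧸ Γ → SL(2, ℤ) ⧸ Γ → ℍ → ℂ,
      (∀ l j, IsMF1 (wt j + 2 - wt l) (A l j)) ∧ (∀ j, A j j = 0) ∧
      ∀ j, serreDerivative (wt j) (F j) = ∑ l, A l j * F l := by
  have h := fun j => hB.span (wt j + 2) (serreDerivative (wt j) (F j))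
    (DetODE.isMF_serreDerivative (hB.isMF j))
  choose r hr1 hr2 using h
  refine ⟨fun l j => r j l, fun l j => hr1 j l, fun j => ?_, fun j => hr2 j⟩
  exact DetODE.isMF1_two_eq_zero ((hr1 j j).congr_weight (by ring))

/-- The matrix of conjugates, as a matrix with entries in the ring of functions. -/
noncomputable def DetODE.conjMatrixFun (Γ : Subgroup SL(2, ℤ)) [Γ.FiniteIndex]
    (wt : SL(2, ℤ) ⧸ Γ → ℤ) (F : SL(2, ℤ) ⧸ Γ → ℍ → ℂ) :
    Matrix (SL(2, ℤ) ⧸ Γ) (SL(2, ℤ) ⧸ Γ) (ℍ → ℂ) :=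
  Matrix.of fun q j => conjFun Γ (wt j) (F j) q

theorem DetODE.conjMatrixFun_det_apply (τ : ℍ) :
    (DetODE.conjMatrixFun Γ wt F).det τ = (conjMatrix Γ wt F τ).det := by
  rw [det_fun_apply]
  rfl

theorem DetODE.mdifferentiable_conjMatrixFun (hB : IsFreeBasis Γ wt F)
    (q j : SL(2, ℤ) ⧸ Γ) : MDiff (DetODE.conjMatrixFun Γ wt F q j) :=
  (hB.isMF j).mdiff_conjFun q

/-- `∂_{∑ wt} (det Φ) = 0` for the conjugate matrix of a free basis. -/
theorem DetODE.serreDerivative_conjMatrixFun_det (hB : IsFreeBasis Γ wt F) :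
    serreDerivative ((∑ j, wt j : ℤ) : ℂ) (DetODE.conjMatrixFun Γ wt F).det = 0 := by
  obtain ⟨A, hA1, hA2, hA3⟩ := exists_serreDerivative_coeff hB
  have key := serreDerivative_det (DetODE.conjMatrixFun Γ wt F) (Matrix.of A)
    (fun j => (wt j : ℂ)) (DetODE.mdifferentiable_conjMatrixFun hB) (fun q j => by
      simp only [DetODE.conjMatrixFun, Matrix.of_apply, Matrix.mul_apply]
      rw [← DetODE.conjFun_serreDerivative (hB.isMF j), hA3 j, conjFun_sum]
      refine Finset.sum_congr rfl fun l _ => ?_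
      rw [DetODE.conjFun_congr_weight (show wt j + 2 = (wt j + 2 - wt l) + wt l by ring),
        conjFun_mul, conjFun_of_isMF1 (hA1 l j), mul_comm])
  have htr : (Matrix.of A).trace = 0 := by
    simp [Matrix.trace, hA2]
  rw [htr, zero_mul] at key
  rw [← key]
  push_cast
  rfl

/-- `D (det Φ) = ((∑ wt) / 12) E₂ det Φ` for the conjugate matrix of a free basis. -/
theorem D_det_conjMatrix (hB : IsFreeBasis Γ wt F) (τ : ℍ) :
    D (fun t => (conjMatrix Γ wt F t).det) τ =
      ((∑ j, wt j : ℤ) : ℂ) * 12⁻¹ * EisensteinSeries.E2 τ * (conjMatrix Γ wt F τ).det := by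
  have h := congrFun (DetODE.serreDerivative_conjMatrixFun_det hB) τ
  have e : (DetODE.conjMatrixFun Γ wt F).det = fun t => (conjMatrix Γ wt F t).det :=
    funext DetODE.conjMatrixFun_det_apply
  rw [e] at h
  simp only [serreDerivative_apply, Pi.zero_apply, sub_eq_zero] at h
  exact h

/-! ### Deliverables (3), (4) -/

/-- `(det Φ)^12 = c Δ^(∑ wt)` with `c ≠ 0`, provided `det Φ` does not vanish identically. -/
theorem det_conjMatrix_pow (hB : IsFreeBasis Γ wt F)
    (hdet : ∃ τ, (conjMatrix Γ wt F τ).det ≠ 0) :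
    ∃ c : ℂ, c ≠ 0 ∧ ∀ τ, (conjMatrix Γ wt F τ).det ^ 12 =
      c * ModularForm.discriminant τ ^ (∑ j, wt j).toNat := by
  have hs : 0 ≤ ∑ j, wt j := Finset.sum_nonneg fun j _ => wt_nonneg hB j
  have hcast : ((∑ j, wt j : ℤ) : ℂ) = (((∑ j, wt j).toNat : ℕ) : ℂ) := by
    have : ((∑ j, wt j).toNat : ℤ) = ∑ j, wt j := Int.toNat_of_nonneg hs
    conv_lhs => rw [← this]
    exact Int.cast_natCast _
  have h1 := DetODE.serreDerivative_conjMatrixFun_det hB
  rw [hcast] at h1
  have hdiff : MDiff (DetODE.conjMatrixFun Γ wt F).det :=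
    mdifferentiable_det _ (DetODE.mdifferentiable_conjMatrixFun hB)
  obtain ⟨c, hc⟩ := exists_pow_twelve_eq_smul_discriminant_pow hdiff _ h1
  have hc' : ∀ τ, (conjMatrix Γ wt F τ).det ^ 12 =
      c * ModularForm.discriminant τ ^ (∑ j, wt j).toNat := by
    intro τ
    have := congrFun hc τ
    simpa [DetODE.conjMatrixFun_det_apply] using this
  refine ⟨c, ?_, hc'⟩
  rintro rfl
  obtain ⟨τ, hτ⟩ := hdet
  apply hτ
  have := hc' τ
  rw [zero_mul] at this
  exact pow_eq_zero_iff (by norm_num) |>.mp this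

/-- The determinant of the conjugate matrix of a free basis vanishes nowhere, provided it does
not vanish identically. -/
theorem det_conjMatrix_ne_zero (hB : IsFreeBasis Γ wt F)
    (hdet : ∃ τ, (conjMatrix Γ wt F τ).det ≠ 0) (τ : ℍ) : (conjMatrix Γ wt F τ).det ≠ 0 := by
  obtain ⟨c, hc0, hc⟩ := det_conjMatrix_pow hB hdet
  intro h0
  have := hc τ
  rw [h0, zero_pow (by norm_num)] at this
  exact mul_ne_zero hc0 (pow_ne_zero _ (discriminant_ne_zero τ)) this.symm

end Basis

end Fermat.Agent.S20.Free
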