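import Mathlib

set_option autoImplicit false

/-!
# Eigenvalue multiplicities of permutation operators (helper file of WP-EL, P-S20-FREE)

`X` a finite set, `σ : X → X`, acting on functions `X → ℂ` by `f ↦ f ∘ σ`.  If `φ_j` (`j : J`,
`#J = #X`) is a linearly independent family of eigenfunctions, `φ_j ∘ σ = d_j • φ_j`, then
`∑ j, d_j = #{x | σ x = x}` (trace computed in two bases).  Consequences for eigenvalues in
`{1, -1}` and in `{1, ω, ω²}`.
-/

namespace Fermat.Agent.S20.Free.EllipticTrace

open Matrix

/-- The trace of `f ↦ f ∘ σ` on `X → ℂ` is the number of fixed points of `σ`. -/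
theorem trace_funLeft {X : Type*} [Fintype X] [DecidableEq X] (σ : X → X) :
    LinearMap.trace ℂ (X → ℂ) (LinearMap.funLeft ℂ ℂ σ) = (Fintype.card {x // σ x = x} : ℂ) := by
  rw [LinearMap.trace_eq_matrix_trace ℂ (Pi.basisFun ℂ X), Matrix.trace]
  have h : ∀ x : X, Matrix.diag (LinearMap.toMatrix (Pi.basisFun ℂ X) (Pi.basisFun ℂ X)
      (LinearMap.funLeft ℂ ℂ σ)) x = if σ x = x then 1 else 0 := by
    intro x
    rw [Matrix.diag_apply, LinearMap.toMatrix_apply, Pi.basisFun_repr, Pi.basisFun_apply,
      LinearMap.funLeft_apply, Pi.single_apply]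
  rw [Finset.sum_congr rfl (fun x _ => h x), Finset.sum_boole, Fintype.card_subtype]

/-- The trace of an endomorphism with an eigenbasis is the sum of the eigenvalues. -/
theorem trace_eq_sum_of_eigenbasis {M J : Type*} [AddCommGroup M] [Module ℂ M] [Fintype J]
    [DecidableEq J] (f : M →ₗ[ℂ] M) (b : Module.Basis J ℂ M) (d : J → ℂ)
    (h : ∀ j, f (b j) = d j • b j) : LinearMap.trace ℂ M f = ∑ j, d j := by
  rw [LinearMap.trace_eq_matrix_trace ℂ b, Matrix.trace]
  refine Finset.sum_congr rfl fun j _ => ?_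
  rw [Matrix.diag_apply, LinearMap.toMatrix_apply, h, map_smul, Module.Basis.repr_self,
    Finsupp.smul_apply, Finsupp.single_eq_same, smul_eq_mul, mul_one]

/-- **Main lemma.** Sum of the eigenvalues of a full family of independent eigenfunctions of
`f ↦ f ∘ σ` equals the number of fixed points of `σ`. -/
theorem sum_eigenvalues_eq_card_fixed {X J : Type*} [Fintype X] [DecidableEq X] [Fintype J]
    (σ : X → X) (φ : J → X → ℂ) (d : J → ℂ) (hli : LinearIndependent ℂ φ)
    (hcard : Fintype.card J = Fintype.card X) (h : ∀ j x, φ j (σ x) = d j * φ j x) :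
    ∑ j, d j = (Fintype.card {x // σ x = x} : ℂ) := by
  classical
  rcases isEmpty_or_nonempty J with hJ | hJ
  · have hX : IsEmpty X := by
      rw [← Fintype.card_eq_zero_iff, ← hcard, Fintype.card_eq_zero_iff]; exact hJ
    rw [Finset.sum_of_isEmpty, Fintype.card_eq_zero, Nat.cast_zero]
  have hfr : Fintype.card J = Module.finrank ℂ (X → ℂ) := by
    rw [Module.finrank_fintype_fun_eq_card, hcard]
  let b : Module.Basis J ℂ (X → ℂ) := basisOfLinearIndependentOfCardEqFinrank hli hfr
  have hb : ∀ j, b j = φ j := fun j => by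
    simp only [b, coe_basisOfLinearIndependentOfCardEqFinrank]
  rw [← trace_funLeft σ]
  refine (trace_eq_sum_of_eigenbasis (LinearMap.funLeft ℂ ℂ σ) b d fun j => ?_).symm
  rw [hb]
  funext x
  rw [LinearMap.funLeft_apply, Pi.smul_apply, smul_eq_mul, h]

/-- Eigenvalues in `{1, -1}` (e.g. `σ` an involution): the multiplicity `a` of the eigenvalue `1`
satisfies `2 a = #X + #Fix σ`. -/
theorem two_mul_card_eigenvalue_one {X J : Type*} [Fintype X] [DecidableEq X] [Fintype J]
    (σ : X → X) (φ : J → X → ℂ) (d : J → ℂ) (hli : LinearIndependent ℂ φ)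
    (hcard : Fintype.card J = Fintype.card X) (h : ∀ j x, φ j (σ x) = d j * φ j x)
    (hd : ∀ j, d j = 1 ∨ d j = -1) :
    2 * Fintype.card {j // d j = 1} = Fintype.card X + Fintype.card {x // σ x = x} := by
  classical
  have hsum := sum_eigenvalues_eq_card_fixed σ φ d hli hcard h
  have hd' : ∀ j, d j = 2 * (if d j = 1 then (1 : ℂ) else 0) - 1 := by
    intro j
    rcases hd j with hj | hj
    · rw [if_pos hj, hj]; norm_num
    · have : d j ≠ 1 := by rw [hj]; norm_num
      rw [if_neg this, hj]; norm_num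
  rw [Finset.sum_congr rfl (fun j _ => hd' j), Finset.sum_sub_distrib, ← Finset.mul_sum,
    Finset.sum_boole, Finset.sum_const, Finset.card_univ, hcard, nsmul_eq_mul, mul_one,
    ← Fintype.card_subtype] at hsum
  have h2 : ((2 * Fintype.card {j // d j = 1} : ℕ) : ℂ)
      = ((Fintype.card X + Fintype.card {x // σ x = x} : ℕ) : ℂ) := by
    push_cast
    linear_combination hsum
  exact_mod_cast h2

/-- Eigenvalues in `{1, ω, ω²}` with `ω` a primitive cube root of unity (e.g. `σ³ = 1`):
the multiplicities `a, b, c` of `1, ω, ω²` satisfy `3 a = #X + 2 #Fix σ`,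
`3 b + #Fix σ = #X`, `3 c + #Fix σ = #X`. -/
theorem card_eigenvalues_cube_root {X J : Type*} [Fintype X] [DecidableEq X] [Fintype J]
    (σ : X → X) (φ : J → X → ℂ) (d : J → ℂ) (hli : LinearIndependent ℂ φ)
    (hcard : Fintype.card J = Fintype.card X) (h : ∀ j x, φ j (σ x) = d j * φ j x)
    {ω : ℂ} (hω : ω ^ 2 + ω + 1 = 0) (hd : ∀ j, d j = 1 ∨ d j = ω ∨ d j = ω ^ 2) :
    3 * Fintype.card {j // d j = 1} = Fintype.card X + 2 * Fintype.card {x // σ x = x} ∧
    3 * Fintype.card {j // d j = ω} + Fintype.card {x // σ x = x} = Fintype.card X ∧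
    3 * Fintype.card {j // d j = ω ^ 2} + Fintype.card {x // σ x = x} = Fintype.card X := by
  classical
  have hsum := sum_eigenvalues_eq_card_fixed σ φ d hli hcard h
  -- the three eigenvalues are distinct
  have h1 : ω ≠ 1 := by
    rintro rfl
    norm_num at hω
  have h2 : ω ^ 2 ≠ 1 := by
    intro h2
    have h3 : ω = -2 := by linear_combination hω - h2
    rw [h3] at hω
    norm_num at hω
  have h3 : ω ^ 2 ≠ ω := by
    intro h3
    have h4 : ω * (ω - 1) = 0 := by linear_combination h3
    rcases mul_eq_zero.mp h4 with h5 | h5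
    · rw [h5] at hω; norm_num at hω
    · exact h1 (sub_eq_zero.mp h5)
  -- `ω` is not real
  have him : ω.im ≠ 0 := by
    intro him
    have hre : ω = (ω.re : ℂ) := Complex.ext rfl (by simpa using him)
    rw [hre] at hω
    have : (ω.re) ^ 2 + ω.re + 1 = 0 := by exact_mod_cast hω
    nlinarith [sq_nonneg (ω.re + 1 / 2)]
  have hd' : ∀ j, d j = (if d j = 1 then (1 : ℂ) else 0) + ω * (if d j = ω then (1 : ℂ) else 0)
      + ω ^ 2 * (if d j = ω ^ 2 then (1 : ℂ) else 0) := by
    intro j
    rcases hd j with hj | hj | hj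
    · rw [hj, if_pos rfl, if_neg h1.symm, if_neg h2.symm]; ring
    · rw [hj, if_neg h1, if_pos rfl, if_neg h3.symm]; ring
    · rw [hj, if_neg h2, if_neg h3, if_pos rfl]; ring
  have hone : ∀ j, (1 : ℂ) = (if d j = 1 then (1 : ℂ) else 0) + (if d j = ω then (1 : ℂ) else 0)
      + (if d j = ω ^ 2 then (1 : ℂ) else 0) := by
    intro j
    rcases hd j with hj | hj | hj
    · rw [hj, if_pos rfl, if_neg h1.symm, if_neg h2.symm]; ring
    · rw [hj, if_neg h1, if_pos rfl, if_neg h3.symm]; ring
    · rw [hj, if_neg h2, if_neg h3, if_pos rfl]; ring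
  have hn : (Fintype.card X : ℂ) = (Fintype.card {j // d j = 1} : ℂ)
      + (Fintype.card {j // d j = ω} : ℂ) + (Fintype.card {j // d j = ω ^ 2} : ℂ) := by
    have : (Fintype.card J : ℂ) = ∑ _j : J, (1 : ℂ) := by
      rw [Finset.sum_const, Finset.card_univ, nsmul_eq_mul, mul_one]
    rw [← hcard, this, Finset.sum_congr rfl (fun j _ => hone j), Finset.sum_add_distrib,
      Finset.sum_add_distrib, Finset.sum_boole, Finset.sum_boole, Finset.sum_boole,
      ← Fintype.card_subtype, ← Fintype.card_subtype, ← Fintype.card_subtype]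
  rw [Finset.sum_congr rfl (fun j _ => hd' j), Finset.sum_add_distrib, Finset.sum_add_distrib,
    ← Finset.mul_sum, ← Finset.mul_sum, Finset.sum_boole, Finset.sum_boole, Finset.sum_boole,
    ← Fintype.card_subtype, ← Fintype.card_subtype, ← Fintype.card_subtype] at hsum
  set a := Fintype.card {j // d j = 1}
  set b := Fintype.card {j // d j = ω}
  set c := Fintype.card {j // d j = ω ^ 2}
  set n := Fintype.card X
  set k := Fintype.card {x // σ x = x}
  -- `(a - c - k) + (b - c) ω = 0`
  have key : ((a : ℂ) - c - k) + ((b : ℂ) - c) * ω = 0 := by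
    linear_combination hsum - (c : ℂ) * hω
  have key_im : ((b : ℝ) - c) * ω.im = 0 := by
    have := congrArg Complex.im key
    simpa using this
  have hbc : (b : ℝ) = c := by
    rcases mul_eq_zero.mp key_im with h5 | h5
    · linarith
    · exact absurd h5 him
  have key_re : (a : ℝ) - c - k = 0 := by
    have := congrArg Complex.re key
    simp only [Complex.add_re, Complex.sub_re, Complex.natCast_re, Complex.mul_re,
      Complex.sub_im, Complex.natCast_im, Complex.zero_re] at this
    rw [hbc] at this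
    linarith
  have hn' : (n : ℝ) = a + b + c := by exact_mod_cast hn
  have hbc' : b = c := by exact_mod_cast hbc
  have hack : a = c + k := by
    have : (a : ℝ) = c + k := by linarith
    exact_mod_cast this
  have hn'' : n = a + b + c := by exact_mod_cast hn'
  omega

end Fermat.Agent.S20.Free.EllipticTrace
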