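import Fermat.Agent.S20.Free.Structure
import Fermat.Agent.S20.Free.EllipticTrace

/-!
# P-S20-FREE, WP-EL: evaluation of the conjugate matrix at elliptic points

If `σ ∈ SL(2,ℤ)` fixes `τ₀` and the conjugate matrix `Φ(τ₀)` is invertible, then
`Φ(τ₀) · diag(denom σ τ₀ ^ (-wt j)) = P_σ · Φ(τ₀)`, hence (traces)
`∑ j, denom σ τ₀ ^ (-wt j) = #Fix(σ on SL(2,ℤ) ⧸ Γ)`.
-/

set_option autoImplicit false

open UpperHalfPlane ModularForm SlashInvariantForm Filter Matrix.SpecialLinearGroup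
open scoped MatrixGroups ModularForm Manifold Topology

namespace Fermat.Agent.S20.Free

variable {Γ : Subgroup SL(2, ℤ)} [Γ.FiniteIndex]

/-- Evaluation at a fixed point `τ₀` of `σ`: the sum of `denom σ τ₀ ^ (-wt j)` over the free
generators is the number of cosets fixed by `σ`. -/
theorem sum_denom_zpow_wt {wt : SL(2, ℤ) ⧸ Γ → ℤ} {F : SL(2, ℤ) ⧸ Γ → ℍ → ℂ}
    (hB : IsFreeBasis Γ wt F) (τ₀ : ℍ) (hdet : (conjMatrix Γ wt F τ₀).det ≠ 0)
    (σ : SL(2, ℤ)) (hσ : σ • τ₀ = τ₀) :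
    ∑ j, (denom σ τ₀) ^ (-(wt j)) = (Nat.card (MulAction.fixedBy (SL(2, ℤ) ⧸ Γ) σ) : ℂ) := by
  classical
  have hcol : ∀ (j q : SL(2, ℤ) ⧸ Γ), (conjMatrix Γ wt F τ₀).col j (σ⁻¹ • q)
      = (denom σ τ₀) ^ (-(wt j)) * (conjMatrix Γ wt F τ₀).col j q := by
    intro j q
    have h1 := congrFun (conjFun_slash (fun γ hγ => (hB.isMF j).slash_eq hγ) σ q) τ₀
    rw [SL_slash_apply, hσ] at h1
    show conjFun Γ (wt j) (F j) (σ⁻¹ • q) τ₀ = _ * conjFun Γ (wt j) (F j) q τ₀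
    rw [← h1, mul_comm]
  have hli : LinearIndependent ℂ (conjMatrix Γ wt F τ₀).col :=
    Matrix.linearIndependent_cols_of_det_ne_zero hdet
  have key := EllipticTrace.sum_eigenvalues_eq_card_fixed (fun q : SL(2, ℤ) ⧸ Γ => σ⁻¹ • q)
    (conjMatrix Γ wt F τ₀).col (fun j => (denom σ τ₀) ^ (-(wt j))) hli rfl hcol
  rw [key]
  congr 1
  rw [← MulAction.fixedBy_inv, Fintype.card_eq_nat_card]
  rfl

/-! ### The point `i` and the element `S` -/

theorem elliptic_S_smul_I : ModularGroup.S • UpperHalfPlane.I = UpperHalfPlane.I := by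
  rw [modular_S_smul]
  apply UpperHalfPlane.ext
  simp

theorem elliptic_denom_S_I :
    denom ((ModularGroup.S : SL(2, ℤ)) : GL (Fin 2) ℝ) UpperHalfPlane.I = Complex.I := by
  rw [ModularGroup.denom_S]
  simp

/-- **Deliverable 1 of WP-EL.** -/
theorem sum_I_zpow_wt {wt : SL(2, ℤ) ⧸ Γ → ℤ} {F : SL(2, ℤ) ⧸ Γ → ℍ → ℂ}
    (hB : IsFreeBasis Γ wt F) (hdet : ∀ τ, (conjMatrix Γ wt F τ).det ≠ 0) :
    ∑ j, (Complex.I) ^ (-(wt j))
      = (Nat.card (MulAction.fixedBy (SL(2, ℤ) ⧸ Γ) ModularGroup.S) : ℂ) := by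
  have h := sum_denom_zpow_wt hB UpperHalfPlane.I (hdet _) ModularGroup.S elliptic_S_smul_I
  rw [elliptic_denom_S_I] at h
  exact h

/-! ### The point `ρ = e^{πi/3} - 1 = e^{2πi/3}` and the element `S * T` -/

theorem elliptic_zeta_eq : Complex.exp (Real.pi * Complex.I / 3)
    = (1 / 2 : ℂ) + ((Real.sqrt 3 / 2 : ℝ) : ℂ) * Complex.I := by
  have h : (Real.pi : ℂ) * Complex.I / 3 = ((Real.pi / 3 : ℝ) : ℂ) * Complex.I := by
    push_cast; ring
  rw [h, Complex.exp_mul_I, ← Complex.ofReal_cos, ← Complex.ofReal_sin, Real.cos_pi_div_three,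
    Real.sin_pi_div_three]
  push_cast
  ring

/-- `ζ = e^{πi/3}` satisfies `ζ² - ζ + 1 = 0`. -/
theorem elliptic_zeta_sq : Complex.exp (Real.pi * Complex.I / 3) ^ 2
    - Complex.exp (Real.pi * Complex.I / 3) + 1 = 0 := by
  rw [elliptic_zeta_eq]
  have h3 : ((Real.sqrt 3 : ℝ) : ℂ) ^ 2 = 3 := by
    rw [← Complex.ofReal_pow, Real.sq_sqrt (by norm_num : (0 : ℝ) ≤ 3)]; norm_num
  push_cast
  ring_nf
  rw [Complex.I_sq, h3]
  ring

theorem elliptic_zeta_im : 0 < (Complex.exp (Real.pi * Complex.I / 3) - 1).im := by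
  rw [elliptic_zeta_eq]
  simp

/-- The elliptic point `ρ = e^{2πi/3} = e^{πi/3} - 1` of order 3. -/
noncomputable def ellipticRho : ℍ := ⟨Complex.exp (Real.pi * Complex.I / 3) - 1, elliptic_zeta_im⟩

theorem elliptic_ST_smul_rho : (ModularGroup.S * ModularGroup.T) • ellipticRho = ellipticRho := by
  rw [mul_smul, modular_T_smul, modular_S_smul]
  apply UpperHalfPlane.ext
  rw [UpperHalfPlane.coe_mk, UpperHalfPlane.coe_vadd]
  show (-(((1 : ℝ) : ℂ) + (Complex.exp (Real.pi * Complex.I / 3) - 1)))⁻¹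
    = Complex.exp (Real.pi * Complex.I / 3) - 1
  have hne : Complex.exp (Real.pi * Complex.I / 3) ≠ 0 := Complex.exp_ne_zero _
  rw [Complex.ofReal_one, add_sub_cancel, inv_eq_iff_eq_inv, eq_comm, inv_eq_iff_eq_inv]
  field_simp
  linear_combination elliptic_zeta_sq

theorem elliptic_denom_ST_rho :
    denom ((ModularGroup.S * ModularGroup.T : SL(2, ℤ)) : GL (Fin 2) ℝ) ellipticRho
      = Complex.exp (Real.pi * Complex.I / 3) := by
  rw [ModularGroup.denom_apply]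
  have h10 : (ModularGroup.S * ModularGroup.T) 1 0 = 1 := by decide
  have h11 : (ModularGroup.S * ModularGroup.T) 1 1 = 1 := by decide
  rw [h10, h11]
  show ((1 : ℤ) : ℂ) * (Complex.exp (Real.pi * Complex.I / 3) - 1) + ((1 : ℤ) : ℂ) = _
  push_cast
  ring

/-- **Deliverable 2 of WP-EL.** -/
theorem sum_zeta_zpow_wt {wt : SL(2, ℤ) ⧸ Γ → ℤ} {F : SL(2, ℤ) ⧸ Γ → ℍ → ℂ}
    (hB : IsFreeBasis Γ wt F) (hdet : ∀ τ, (conjMatrix Γ wt F τ).det ≠ 0) :
    ∑ j, (Complex.exp (Real.pi * Complex.I / 3)) ^ (-(wt j))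
      = (Nat.card (MulAction.fixedBy (SL(2, ℤ) ⧸ Γ) (ModularGroup.S * ModularGroup.T)) : ℂ) := by
  have h := sum_denom_zpow_wt hB ellipticRho (hdet _) (ModularGroup.S * ModularGroup.T)
    elliptic_ST_smul_rho
  rw [elliptic_denom_ST_rho] at h
  exact h

end Fermat.Agent.S20.Free
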