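import Mathlib

/-!
# Structure of level-one modular forms: `M_k(SL(2,ℤ)) = span { E₄^a E₆^b : 4a + 6b = k }`

Function-level statements (no dependent weight casts in the conclusions).
-/

namespace Fermat.Agent.S20.Free.LevelOne

open UpperHalfPlane ModularForm EisensteinSeries MatrixGroups CongruenceSubgroup

/-- The monomial function `E₄^a E₆^b` on the upper half plane. -/
noncomputable def monoFun (a b : ℕ) : ℍ → ℂ := fun z => E₄ z ^ a * E₆ z ^ b

/-- The `ℂ`-span of the monomials `E₄^a E₆^b` with `4a + 6b = k`. -/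
noncomputable def monoSpan (k : ℤ) : Submodule ℂ (ℍ → ℂ) :=
  Submodule.span ℂ {g | ∃ a b : ℕ, (4 * (a : ℤ) + 6 * (b : ℤ) = k) ∧ g = monoFun a b}

/-- The monomial `E₄^a E₆^b` as a modular form of weight `k = 4a + 6b`. -/
noncomputable def monoForm {k : ℤ} (a b : ℕ) (h : 4 * (a : ℤ) + 6 * (b : ℤ) = k) :
    ModularForm 𝒮ℒ k :=
  ModularForm.mcast (by rw [← h]; ring) ((E₄.pow a).mul (E₆.pow b))

theorem coe_monoForm {k : ℤ} (a b : ℕ) (h : 4 * (a : ℤ) + 6 * (b : ℤ) = k) :
    (monoForm a b h : ℍ → ℂ) = monoFun a b := by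
  ext z
  simp [monoForm, monoFun]

theorem monoFun_mem_monoSpan {k : ℤ} (a b : ℕ) (h : 4 * (a : ℤ) + 6 * (b : ℤ) = k) :
    monoFun a b ∈ monoSpan k :=
  Submodule.subset_span ⟨a, b, h, rfl⟩

theorem qExpansion_monoForm_coeff_zero {k : ℤ} (a b : ℕ) (h : 4 * (a : ℤ) + 6 * (b : ℤ) = k) :
    (qExpansion 1 (monoForm a b h)).coeff 0 = 1 := by
  have h4 : (qExpansion 1 E₄).coeff 0 = 1 := E_qExpansion_coeff_zero _ ⟨2, rfl⟩
  have h6 : (qExpansion 1 E₆).coeff 0 = 1 := E_qExpansion_coeff_zero _ ⟨3, rfl⟩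
  simp only [PowerSeries.coeff_zero_eq_constantCoeff] at h4 h6 ⊢
  simp only [monoForm, ModularForm.qExpansion_mcast,
    ModularForm.qExpansion_mul one_pos one_mem_strictPeriods_SL,
    ModularForm.qExpansion_pow one_pos one_mem_strictPeriods_SL, map_mul, map_pow, h4, h6,
    one_pow, mul_one]

/-- `Δ * (E₄^a E₆^b)` lies in the span at weight `k + 12`. -/
theorem discriminant_mul_mem {k : ℤ} {g : ℍ → ℂ} (hg : g ∈ monoSpan k) :
    (fun z => ModularForm.discriminant z * g z) ∈ monoSpan (k + 12) := by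
  induction hg using Submodule.span_induction with
  | mem x hx =>
    obtain ⟨a, b, hab, rfl⟩ := hx
    have e : (fun z => ModularForm.discriminant z * monoFun a b z) =
        (1 / 1728 : ℂ) • (monoFun (a + 3) b - monoFun a (b + 2)) := by
      ext z
      simp only [monoFun, Pi.smul_apply, Pi.sub_apply, smul_eq_mul,
        discriminant_eq_E₄_cube_sub_E₆_sq z]
      ring
    rw [e]
    refine (monoSpan (k + 12)).smul_mem _ ((monoSpan (k + 12)).sub_mem ?_ ?_)
    · exact monoFun_mem_monoSpan _ _ (by push_cast; linarith)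
    · exact monoFun_mem_monoSpan _ _ (by push_cast; linarith)
  | zero =>
    have : (fun z => ModularForm.discriminant z * (0 : ℍ → ℂ) z) = 0 := by
      ext z; simp
    rw [this]; exact (monoSpan (k + 12)).zero_mem
  | add x y _ _ hx hy =>
    have : (fun z => ModularForm.discriminant z * (x + y) z) =
        (fun z => ModularForm.discriminant z * x z) + (fun z => ModularForm.discriminant z * y z) := by
      ext z; simp [mul_add]
    rw [this]; exact (monoSpan (k + 12)).add_mem hx hy
  | smul c x _ hx =>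
    have : (fun z => ModularForm.discriminant z * (c • x) z) =
        c • (fun z => ModularForm.discriminant z * x z) := by
      ext z; simp; ring
    rw [this]; exact (monoSpan (k + 12)).smul_mem _ hx

theorem exists_weights {k : ℤ} (hk : 4 ≤ k) (hev : Even k) :
    ∃ a b : ℕ, 4 * (a : ℤ) + 6 * (b : ℤ) = k := by
  obtain ⟨m, hm⟩ := hev
  rcases Int.even_or_odd' m with ⟨j, hj | hj⟩
  · refine ⟨j.toNat, 0, ?_⟩
    have : 0 ≤ j := by omega
    rw [Int.toNat_of_nonneg this]; omega
  · refine ⟨(j - 1).toNat, 1, ?_⟩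
    have : 0 ≤ j - 1 := by omega
    rw [Int.toNat_of_nonneg this]; omega

theorem coe_mem_monoSpan_aux (n : ℕ) : ∀ (k : ℤ), k.toNat = n → ∀ f : ModularForm 𝒮ℒ k,
    (f : ℍ → ℂ) ∈ monoSpan k := by
  induction n using Nat.strong_induction_on with | h n ih =>
  intro k hkn f
  rcases lt_or_ge k 0 with hneg | hnonneg
  · have : f = 0 := rank_zero_iff_forall_zero.mp (levelOne_neg_weight_rank_zero hneg) f
    rw [this]; exact (monoSpan k).zero_mem
  rcases Int.even_or_odd k with hev | hodd
  swap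
  · rw [ModularForm.levelOne_odd_weight_eq_zero hodd f]; exact (monoSpan k).zero_mem
  rcases lt_or_ge k 4 with hlt | hge
  · -- k = 0 or k = 2
    have h02 : k = 0 ∨ k = 2 := by
      obtain ⟨m, hm⟩ := hev; omega
    rcases h02 with rfl | rfl
    · obtain ⟨c, hc⟩ := ModularFormClass.levelOne_weight_zero_const f
      have : (f : ℍ → ℂ) = c • monoFun 0 0 := by
        rw [hc]; ext z; simp [monoFun]
      rw [this]
      exact (monoSpan 0).smul_mem _ (monoFun_mem_monoSpan 0 0 (by simp))
    · have : f = 0 := rank_zero_iff_forall_zero.mp levelOne_weight_two_rank_zero f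
      rw [this]; exact (monoSpan 2).zero_mem
  · obtain ⟨a, b, hab⟩ := exists_weights hge hev
    set m := monoForm a b hab with hm
    have hm0 := qExpansion_monoForm_coeff_zero a b hab
    set c := (qExpansion 1 f).coeff 0 with hc
    have hcusp := (isCuspForm_iff_coeffZero_eq_zero _).mp (sub_smul_isCuspForm f m hm0)
    set g := toCuspForm (f - c • m) hcusp with hg
    set h := CuspForm.discriminantEquiv g with hh
    have ihh := ih (k - 12).toNat (by omega) (k - 12) rfl h
    have key := discriminant_mul_mem ihh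
    have e : (f : ℍ → ℂ) = c • monoFun a b + (fun z => ModularForm.discriminant z * h z) := by
      ext z
      have h1 : ModularForm.discriminant z * h z = g z :=
        discriminant_mul_discriminantEquiv_apply g z
      have h2 : g z = f z - c * m z := by
        simp [hg]
      have h3 : m z = monoFun a b z := by
        rw [hm, coe_monoForm]
      simp only [Pi.add_apply, Pi.smul_apply, smul_eq_mul, h1, h2, h3]
      ring
    rw [e]
    have hk12 : k - 12 + 12 = k := by ring
    rw [hk12] at key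
    exact (monoSpan k).add_mem ((monoSpan k).smul_mem _ (monoFun_mem_monoSpan a b hab)) key

/-- **Structure theorem for level one**: every modular form of weight `k` for `SL(2,ℤ)` is a
linear combination of the monomials `E₄^a E₆^b` with `4a + 6b = k`. -/
theorem coe_mem_monoSpan {k : ℤ} (f : ModularForm 𝒮ℒ k) : (f : ℍ → ℂ) ∈ monoSpan k :=
  coe_mem_monoSpan_aux _ k rfl f

/-- Conversely every element of `monoSpan k` is (the function of) a level-one modular form
of weight `k`. -/
theorem exists_modularForm_of_mem_monoSpan {k : ℤ} {g : ℍ → ℂ} (hg : g ∈ monoSpan k) :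
    ∃ F : ModularForm 𝒮ℒ k, (F : ℍ → ℂ) = g := by
  induction hg using Submodule.span_induction with
  | mem x hx =>
    obtain ⟨a, b, hab, rfl⟩ := hx
    exact ⟨monoForm a b hab, coe_monoForm a b hab⟩
  | zero => exact ⟨0, rfl⟩
  | add x y _ _ hx hy =>
    obtain ⟨F, rfl⟩ := hx
    obtain ⟨G, rfl⟩ := hy
    exact ⟨F + G, rfl⟩
  | smul c x _ hx =>
    obtain ⟨F, rfl⟩ := hx
    exact ⟨c • F, rfl⟩

/-- A function is a level-one modular form of weight `k` iff it lies in `monoSpan k`. -/
theorem mem_monoSpan_iff {k : ℤ} {g : ℍ → ℂ} :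
    g ∈ monoSpan k ↔ ∃ F : ModularForm 𝒮ℒ k, (F : ℍ → ℂ) = g :=
  ⟨exists_modularForm_of_mem_monoSpan, fun ⟨F, hF⟩ => hF ▸ coe_mem_monoSpan F⟩

/-- Level-one cusp forms are `Δ` times an element of the span at weight `k - 12`. -/
theorem cuspForm_eq_discriminant_mul {k : ℤ} (f : CuspForm 𝒮ℒ k) :
    ∃ g ∈ monoSpan (k - 12), ∀ z, f z = ModularForm.discriminant z * g z :=
  ⟨_, coe_mem_monoSpan (CuspForm.discriminantEquiv f), fun z =>
    (discriminant_mul_discriminantEquiv_apply f z).symm⟩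

/-- The span is zero in negative weight. -/
theorem monoSpan_eq_bot_of_neg {k : ℤ} (hk : k < 0) : monoSpan k = ⊥ := by
  rw [eq_bot_iff]
  intro g hg
  obtain ⟨F, rfl⟩ := exists_modularForm_of_mem_monoSpan hg
  rw [Submodule.mem_bot]
  exact ModularFormClass.levelOne_neg_weight_eq_zero hk F

/-- The span is zero in odd weight. -/
theorem monoSpan_eq_bot_of_odd {k : ℤ} (hk : Odd k) : monoSpan k = ⊥ := by
  rw [eq_bot_iff]
  intro g hg
  obtain ⟨F, rfl⟩ := exists_modularForm_of_mem_monoSpan hg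
  rw [Submodule.mem_bot, ModularForm.levelOne_odd_weight_eq_zero hk F]
  rfl

/-- The span is zero in weight two. -/
theorem monoSpan_two : monoSpan 2 = ⊥ := by
  rw [eq_bot_iff]
  intro g hg
  obtain ⟨F, rfl⟩ := exists_modularForm_of_mem_monoSpan hg
  rw [Submodule.mem_bot, rank_zero_iff_forall_zero.mp levelOne_weight_two_rank_zero F]
  rfl

/-- In weight zero the span consists of the constants. -/
theorem mem_monoSpan_zero_iff {g : ℍ → ℂ} : g ∈ monoSpan 0 ↔ ∃ c : ℂ, g = fun _ => c := by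
  constructor
  · intro hg
    obtain ⟨F, rfl⟩ := exists_modularForm_of_mem_monoSpan hg
    obtain ⟨c, hc⟩ := ModularFormClass.levelOne_weight_zero_const F
    exact ⟨c, hc⟩
  · rintro ⟨c, rfl⟩
    have : (fun _ : ℍ => c) = c • monoFun 0 0 := by
      ext z; simp [monoFun]
    rw [this]
    exact (monoSpan 0).smul_mem _ (monoFun_mem_monoSpan 0 0 (by simp))

/-- Products: `monoSpan k * monoSpan l ⊆ monoSpan (k + l)`. -/
theorem mul_mem_monoSpan {k l : ℤ} {f g : ℍ → ℂ} (hf : f ∈ monoSpan k) (hg : g ∈ monoSpan l) :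
    f * g ∈ monoSpan (k + l) := by
  obtain ⟨F, rfl⟩ := exists_modularForm_of_mem_monoSpan hf
  obtain ⟨G, rfl⟩ := exists_modularForm_of_mem_monoSpan hg
  exact coe_mem_monoSpan (F.mul G)

/-- `E₄ ∈ monoSpan 4`. -/
theorem E₄_mem_monoSpan : (E₄ : ℍ → ℂ) ∈ monoSpan 4 := coe_mem_monoSpan E₄

/-- `E₆ ∈ monoSpan 6`. -/
theorem E₆_mem_monoSpan : (E₆ : ℍ → ℂ) ∈ monoSpan 6 := coe_mem_monoSpan E₆

/-- `Δ ∈ monoSpan 12`. -/
theorem discriminant_mem_monoSpan : (ModularForm.discriminant : ℍ → ℂ) ∈ monoSpan 12 := by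
  have e : (ModularForm.discriminant : ℍ → ℂ) =
      (1 / 1728 : ℂ) • (monoFun 3 0 - monoFun 0 2) := by
    ext z
    simp only [monoFun, Pi.smul_apply, Pi.sub_apply, smul_eq_mul,
      discriminant_eq_E₄_cube_sub_E₆_sq z]
    ring
  rw [e]
  exact (monoSpan 12).smul_mem _ ((monoSpan 12).sub_mem
    (monoFun_mem_monoSpan 3 0 (by norm_num)) (monoFun_mem_monoSpan 0 2 (by norm_num)))

/-- **Ideal form** (`R₊ = E₄ R + E₆ R`): every level-one form of weight `k ≠ 0` is
`E₄ * u + E₆ * v` with `u ∈ monoSpan (k - 4)`, `v ∈ monoSpan (k - 6)`. -/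
theorem exists_eq_E₄_mul_add_E₆_mul {k : ℤ} (hk : k ≠ 0) {f : ℍ → ℂ} (hf : f ∈ monoSpan k) :
    ∃ u ∈ monoSpan (k - 4), ∃ v ∈ monoSpan (k - 6),
      f = (E₄ : ℍ → ℂ) * u + (E₆ : ℍ → ℂ) * v := by
  induction hf using Submodule.span_induction with
  | mem x hx =>
    obtain ⟨a, b, hab, rfl⟩ := hx
    rcases Nat.eq_zero_or_pos a with ha | ha
    · have hb : 0 < b := by
        rcases Nat.eq_zero_or_pos b with hb | hb
        · subst ha hb; simp at hab; exact absurd hab.symm hk
        · exact hb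
      refine ⟨0, (monoSpan _).zero_mem, monoFun a (b - 1),
        monoFun_mem_monoSpan _ _ ?_, ?_⟩
      · have : ((b - 1 : ℕ) : ℤ) = (b : ℤ) - 1 := by
          rw [Nat.cast_sub hb]; simp
        rw [this]; linarith
      · ext z
        simp only [monoFun, Pi.add_apply, Pi.mul_apply, Pi.zero_apply, mul_zero, zero_add]
        obtain ⟨b', rfl⟩ : ∃ b', b = b' + 1 := ⟨b - 1, by omega⟩
        simp [pow_succ]; ring
    · refine ⟨monoFun (a - 1) b, monoFun_mem_monoSpan _ _ ?_, 0, (monoSpan _).zero_mem, ?_⟩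
      · have : ((a - 1 : ℕ) : ℤ) = (a : ℤ) - 1 := by
          rw [Nat.cast_sub ha]; simp
        rw [this]; linarith
      · ext z
        simp only [monoFun, Pi.add_apply, Pi.mul_apply, Pi.zero_apply, mul_zero, add_zero]
        obtain ⟨a', rfl⟩ : ∃ a', a = a' + 1 := ⟨a - 1, by omega⟩
        simp [pow_succ]; ring
  | zero =>
    exact ⟨0, (monoSpan _).zero_mem, 0, (monoSpan _).zero_mem, by simp⟩
  | add x y _ _ hx hy =>
    obtain ⟨u, hu, v, hv, rfl⟩ := hx
    obtain ⟨u', hu', v', hv', rfl⟩ := hy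
    exact ⟨u + u', (monoSpan _).add_mem hu hu', v + v', (monoSpan _).add_mem hv hv', by ring⟩
  | smul c x _ hx =>
    obtain ⟨u, hu, v, hv, rfl⟩ := hx
    refine ⟨c • u, (monoSpan _).smul_mem _ hu, c • v, (monoSpan _).smul_mem _ hv, ?_⟩
    ext z; simp; ring

end Fermat.Agent.S20.Free.LevelOne
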