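import Fermat.Agent.S20.Free.Structure
import Fermat.Agent.S20.Free.LevelOneIdeal

/-!
# P-S20-FREE, WP-L1: level-one modular forms at the level of functions

The functions `E4f`, `E6f`, `Δf` and the structure of level-one forms phrased with the predicates
`IsMF1`, `IsCF1`.  The structure theorem itself is in `LevelOneIdeal.lean`; this file is the
adaptor to the function-level predicates.
-/

set_option autoImplicit false

open UpperHalfPlane ModularForm SlashInvariantForm Filter Matrix.SpecialLinearGroup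
  EisensteinSeries
open scoped MatrixGroups ModularForm Manifold Topology

namespace Fermat.Agent.S20.Free

/-- The Eisenstein series `E₄` as a function on the upper half plane. -/
noncomputable def E4f : ℍ → ℂ := ⇑E₄

/-- The Eisenstein series `E₆` as a function on the upper half plane. -/
noncomputable def E6f : ℍ → ℂ := ⇑E₆

/-- The discriminant as a function on the upper half plane. -/
noncomputable def Δf : ℍ → ℂ := ModularForm.discriminant

theorem E4f_apply (τ : ℍ) : E4f τ = E₄ τ := rfl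
theorem E6f_apply (τ : ℍ) : E6f τ = E₆ τ := rfl
theorem Δf_apply (τ : ℍ) : Δf τ = ModularForm.discriminant τ := rfl
theorem coe_E₄ : (⇑E₄ : ℍ → ℂ) = E4f := rfl
theorem coe_E₆ : (⇑E₆ : ℍ → ℂ) = E6f := rfl
theorem coe_discriminant : (⇑CuspForm.discriminant : ℍ → ℂ) = Δf := rfl

theorem isMF1_E4f : IsMF1 4 E4f := ⟨E₄, rfl⟩

theorem isMF1_E6f : IsMF1 6 E6f := ⟨E₆, rfl⟩

theorem isCF1_Δf : IsCF1 12 Δf := ⟨CuspForm.discriminant, rfl⟩

theorem isMF1_Δf : IsMF1 12 Δf := isCF1_Δf.isMF1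

theorem Δf_ne_zero (τ : ℍ) : Δf τ ≠ 0 := ModularForm.discriminant_ne_zero τ

theorem Δf_eq : Δf = (1 / 1728 : ℂ) • (E4f ^ 3 - E6f ^ 2) := by
  funext τ
  simp only [Δf, E4f, E6f, Pi.smul_apply, Pi.sub_apply, Pi.pow_apply, smul_eq_mul,
    ModularForm.discriminant_eq_E₄_cube_sub_E₆_sq τ]
  ring

theorem E4f_or_E6f_ne_zero (τ : ℍ) : E4f τ ≠ 0 ∨ E6f τ ≠ 0 := by
  by_contra h
  rw [not_or, not_not, not_not] at h
  have := Δf_ne_zero τ
  rw [Δf_eq] at this
  simp [h.1, h.2] at this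

theorem mdiff_E4f : MDiff E4f := isMF1_E4f.mdiff
theorem mdiff_E6f : MDiff E6f := isMF1_E6f.mdiff
theorem mdiff_Δf : MDiff Δf := isMF1_Δf.mdiff

/-- A level-one modular form tends to the constant term of its `q`-expansion at `i∞`. -/
theorem tendsto_modularForm_levelOne {k : ℤ} (F : ModularForm 𝒮ℒ k) :
    Tendsto F atImInfty (𝓝 ((qExpansion 1 F).coeff 0)) := by
  have han := ModularFormClass.analyticAt_cuspFunction_zero F one_pos one_mem_strictPeriods_SL
  have hF : (cuspFunction 1 F ∘ fun τ : ℍ => Function.Periodic.qParam 1 τ) = F := by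
    funext τ
    exact SlashInvariantFormClass.eq_cuspFunction F τ one_mem_strictPeriods_SL one_ne_zero
  have h0 : (qExpansion 1 F).coeff 0 = cuspFunction 1 F 0 := by simp [qExpansion_coeff]
  rw [h0]
  have := han.continuousAt.tendsto.comp (qParam_tendsto_atImInfty one_pos)
  rwa [hF] at this

theorem tendsto_E4f : Tendsto E4f atImInfty (𝓝 1) := by
  have := tendsto_modularForm_levelOne E₄
  rwa [E_qExpansion_coeff_zero (by norm_num) ⟨2, rfl⟩] at this

theorem tendsto_E6f : Tendsto E6f atImInfty (𝓝 1) := by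
  have := tendsto_modularForm_levelOne E₆
  rwa [E_qExpansion_coeff_zero (by norm_num) ⟨3, rfl⟩] at this

theorem tendsto_Δf : Tendsto Δf atImInfty (𝓝 0) := isCF1_Δf.zero_at

variable {k : ℤ} {f : ℍ → ℂ}

theorem isMF1_iff_mem_monoSpan : IsMF1 k f ↔ f ∈ LevelOne.monoSpan k :=
  LevelOne.mem_monoSpan_iff.symm

theorem isMF1_eq_zero_of_neg (hk : k < 0) (h : IsMF1 k f) : f = 0 := by
  obtain ⟨F, rfl⟩ := h
  exact ModularFormClass.levelOne_neg_weight_eq_zero hk F

theorem isMF1_zero_weight (h : IsMF1 0 f) : ∃ c : ℂ, f = fun _ => c := by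
  obtain ⟨F, rfl⟩ := h
  obtain ⟨c, hc⟩ := ModularFormClass.levelOne_weight_zero_const F
  exact ⟨c, hc⟩

theorem isMF1_eq_zero_of_odd (hk : Odd k) (h : IsMF1 k f) : f = 0 := by
  obtain ⟨F, rfl⟩ := h
  rw [ModularForm.levelOne_odd_weight_eq_zero hk F]
  rfl

theorem isMF1_two_eq_zero (h : IsMF1 2 f) : f = 0 := by
  obtain ⟨F, rfl⟩ := h
  rw [rank_zero_iff_forall_zero.mp ModularForm.levelOne_weight_two_rank_zero F]
  rfl

theorem isCF1_iff_mul_Δf : IsCF1 k f ↔ ∃ g, IsMF1 (k - 12) g ∧ f = Δf * g := by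
  constructor
  · rintro ⟨F, rfl⟩
    refine ⟨CuspForm.discriminantEquiv F, ⟨_, rfl⟩, ?_⟩
    funext τ
    exact (ModularForm.discriminant_mul_discriminantEquiv_apply F τ).symm
  · rintro ⟨g, hg, rfl⟩
    exact (isCF1_Δf.mul_isMF1 hg).congr_weight (by ring)

theorem exists_E4_E6_decomp (hk : k ≠ 0) (h : IsMF1 k f) :
    ∃ g h, IsMF1 (k - 4) g ∧ IsMF1 (k - 6) h ∧ f = E4f * g + E6f * h := by
  obtain ⟨u, hu, v, hv, e⟩ :=
    LevelOne.exists_eq_E₄_mul_add_E₆_mul hk (isMF1_iff_mem_monoSpan.mp h)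
  exact ⟨u, v, isMF1_iff_mem_monoSpan.mpr hu, isMF1_iff_mem_monoSpan.mpr hv, e⟩

theorem exists_monomial (hk : 4 ≤ k) (hk2 : Even k) :
    ∃ m, IsMF1 k m ∧ Tendsto m atImInfty (𝓝 1) := by
  obtain ⟨a, b, hab⟩ := LevelOne.exists_weights hk hk2
  refine ⟨LevelOne.monoForm a b hab, ⟨_, rfl⟩, ?_⟩
  have := tendsto_modularForm_levelOne (LevelOne.monoForm a b hab)
  rwa [LevelOne.qExpansion_monoForm_coeff_zero a b hab] at this

/-- Explicit form of `exists_monomial`: the monomial `E₄^a E₆^b`. -/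
theorem isMF1_monomial (a b : ℕ) : IsMF1 (4 * a + 6 * b) (E4f ^ a * E6f ^ b) := by
  refine ⟨LevelOne.monoForm a b rfl, ?_⟩
  rw [LevelOne.coe_monoForm]
  rfl

theorem tendsto_monomial (a b : ℕ) : Tendsto (E4f ^ a * E6f ^ b) atImInfty (𝓝 1) := by
  have := (tendsto_E4f.pow a).mul (tendsto_E6f.pow b)
  rw [one_pow, one_pow, one_mul] at this
  exact this

end Fermat.Agent.S20.Free
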