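import Fermat.Agent.S20.Free.DualBasis
import Fermat.Agent.S20.Free.Elliptic
import Fermat.Agent.S20.Free.DetODE
import Fermat.Agent.S20.Free.Count
import Fermat.Agent.S20.Free.Comb
import Fermat.Agent.S20.Free.LevelOne

/-!
# P-S20-FREE: final assembly (helper20)

From a free basis of `M_*(Γ₀(N))` over `ℂ[E₄,E₆]` whose conjugate matrix has a determinant that
does not vanish identically (WP Rank), and the two cusp statements (CX1), (CX2), we deduce
`dim S₂(Γ₀(N)) = genusFormula N`.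

* `Assembly.card_wt_zero`: exactly one generator has weight `0`;
* `Assembly.sum_wt_eq`: `∑ wt = 6 (n - c∞)` from the order of `det Φ` at `∞`;
* `Assembly.finrank_of_inputs`: the final count for a general `Γ ∋ -1`;
* `Assembly.s20_of_inputs`: the statement S20 for `Γ₀(N)`.
-/

set_option autoImplicit false

open UpperHalfPlane ModularForm SlashInvariantForm Filter Matrix.SpecialLinearGroup
open scoped MatrixGroups ModularForm Manifold Topology

namespace Fermat.Agent.S20.Free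

namespace Assembly

variable {Γ : Subgroup SL(2, ℤ)} [Γ.FiniteIndex]
variable {wt : SL(2, ℤ) ⧸ Γ → ℤ} {F : SL(2, ℤ) ⧸ Γ → ℍ → ℂ}

/-! ### Weight zero -/

/-- A modular form of weight `0` on `Γ` is constant. -/
theorem isMF_zero_weight {f : ℍ → ℂ} (h : IsMF Γ 0 f) : ∃ c : ℂ, f = fun _ => c := by
  obtain ⟨G, rfl⟩ := h
  obtain ⟨c, hc⟩ := ModularForm.eq_const_of_weight_zero G
  exact ⟨c, hc⟩

/-- Exactly one member of a free basis has weight `0`. -/
theorem card_wt_zero (hB : IsFreeBasis Γ wt F) :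
    (Finset.univ.filter fun j => wt j = 0).card = 1 := by
  classical
  rw [Finset.card_eq_one]
  -- existence
  have hex : ∃ j, wt j = 0 := by
    by_contra hne
    push Not at hne
    obtain ⟨r, hr, h1⟩ := hB.span 0 1 isMF_one
    have hr0 : ∀ j, r j = 0 := by
      intro j
      have hpos : 0 < wt j := lt_of_le_of_ne (wt_nonneg hB j) (Ne.symm (hne j))
      exact isMF1_eq_zero_of_neg (by omega) (hr j)
    have : (1 : ℍ → ℂ) = 0 := by
      rw [h1]
      exact Finset.sum_eq_zero fun j _ => by rw [hr0 j, zero_mul]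
    exact one_ne_zero (congrFun this UpperHalfPlane.I)
  obtain ⟨j0, hj0⟩ := hex
  refine ⟨j0, ?_⟩
  ext j
  simp only [Finset.mem_filter, Finset.mem_univ, true_and, Finset.mem_singleton]
  constructor
  · intro hj
    by_contra hne
    -- two distinct generators of weight 0: both are constants, hence dependent
    obtain ⟨a, ha⟩ := isMF_zero_weight ((hB.isMF j0).congr_weight hj0)
    obtain ⟨b, hb⟩ := isMF_zero_weight ((hB.isMF j).congr_weight hj)
    let r : SL(2, ℤ) ⧸ Γ → ℍ → ℂ := fun l =>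
      if l = j0 then (fun _ => b) else if l = j then (fun _ => -a) else 0
    have hr : ∀ l, IsMF1 (0 - wt l) (r l) := by
      intro l
      by_cases h1 : l = j0
      · subst h1
        simp only [r, if_true]
        exact (isMF1_const b).congr_weight (by omega)
      · by_cases h2 : l = j
        · subst h2
          simp only [r, if_neg h1, if_true]
          exact (isMF1_const (-a)).congr_weight (by omega)
        · simp only [r, if_neg h1, if_neg h2]
          exact isMF1_zero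
    have hsum : ∑ l, r l * F l = 0 := by
      have hsub : ∀ l ∈ (Finset.univ : Finset (SL(2, ℤ) ⧸ Γ)), l ∉ ({j0, j} : Finset _) →
          r l * F l = 0 := by
        intro l _ hl
        simp only [Finset.mem_insert, Finset.mem_singleton, not_or] at hl
        simp only [r, if_neg hl.1, if_neg hl.2, zero_mul]
      rw [← Finset.sum_subset (Finset.subset_univ ({j0, j} : Finset _)) hsub,
        Finset.sum_pair (Ne.symm hne)]
      have hne' : j ≠ j0 := hne
      funext τ
      simp only [r, if_true, if_neg hne', Pi.add_apply, Pi.mul_apply, Pi.zero_apply, ha, hb]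
      ring
    have h0 := hB.indep 0 r hr hsum j0
    simp only [r, if_true] at h0
    have hb0 : b = 0 := congrFun h0 UpperHalfPlane.I
    apply hB.ne_zero j
    rw [hb, hb0]
    rfl
  · rintro rfl
    exact hj0

/-! ### The sum of the weights -/

/-- `exp (2π i k τ)` has no nonzero limit at `i∞` unless `k = 0`. -/
theorem int_eq_zero_of_tendsto_cexp {k : ℤ} {L : ℂ} (hL : L ≠ 0)
    (h : Tendsto (fun τ : ℍ => Complex.exp (2 * Real.pi * Complex.I * k * τ)) atImInfty (𝓝 L)) :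
    k = 0 := by
  have hq := UpperHalfPlane.qParam_tendsto_atImInfty (h := 1) one_pos
  have hqe : ∀ τ : ℍ, Function.Periodic.qParam 1 (τ : ℂ) =
      Complex.exp (2 * Real.pi * Complex.I * τ) := by
    intro τ
    simp [Function.Periodic.qParam]
  by_contra hk
  rcases lt_or_gt_of_ne hk with hneg | hpos
  · -- `k < 0`: the inverse tends to `0` and to `L⁻¹`
    obtain ⟨n, hn⟩ : ∃ n : ℕ, -k = n := ⟨(-k).toNat, by omega⟩
    have hn0 : n ≠ 0 := by omega
    have h1 : Tendsto (fun τ : ℍ => (Function.Periodic.qParam 1 (τ : ℂ)) ^ n) atImInfty (𝓝 0) := by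
      have := hq.pow n
      simpa [zero_pow hn0] using this
    have h2 : Tendsto (fun τ : ℍ => (Complex.exp (2 * Real.pi * Complex.I * k * τ))⁻¹) atImInfty
        (𝓝 L⁻¹) := h.inv₀ hL
    have h3 : (fun τ : ℍ => (Complex.exp (2 * Real.pi * Complex.I * k * τ))⁻¹) =
        fun τ : ℍ => (Function.Periodic.qParam 1 (τ : ℂ)) ^ n := by
      funext τ
      rw [hqe, ← Complex.exp_neg, ← Complex.exp_nat_mul]
      congr 1
      have : (k : ℂ) = -(n : ℂ) := by
        have : ((-k : ℤ) : ℂ) = ((n : ℤ) : ℂ) := by rw [hn]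
        push_cast at this
        linear_combination -this
      rw [this]
      ring
    rw [h3] at h2
    exact inv_ne_zero hL (tendsto_nhds_unique h2 h1)
  · obtain ⟨n, hn⟩ : ∃ n : ℕ, k = n := ⟨k.toNat, by omega⟩
    have hn0 : n ≠ 0 := by omega
    have h1 : Tendsto (fun τ : ℍ => (Function.Periodic.qParam 1 (τ : ℂ)) ^ n) atImInfty (𝓝 0) := by
      have := hq.pow n
      simpa [zero_pow hn0] using this
    have h3 : (fun τ : ℍ => Complex.exp (2 * Real.pi * Complex.I * k * τ)) =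
        fun τ : ℍ => (Function.Periodic.qParam 1 (τ : ℂ)) ^ n := by
      funext τ
      rw [hqe, ← Complex.exp_nat_mul]
      congr 1
      rw [hn]
      push_cast
      ring
    rw [h3] at h
    exact hL (tendsto_nhds_unique h h1)

/-- The sum of the weights of a free basis, from the order of `det Φ` at `i∞` (statement (CX1),
with an arbitrary natural number `c` in place of the number of cusps). -/
theorem sum_wt_eq (hB : IsFreeBasis Γ wt F) (n c : ℕ)
    (hCX1 : ∃ c₀ : ℂ, c₀ ≠ 0 ∧ Tendsto (fun τ : ℍ => (conjMatrix Γ wt F τ).det *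
      Complex.exp (-(Real.pi * Complex.I * ((n : ℂ) - c) * τ))) atImInfty (𝓝 c₀)) :
    ∑ j, wt j = 6 * ((n : ℤ) - c) := by
  obtain ⟨c₁, hc₁, hlim⟩ := hCX1
  -- the determinant does not vanish identically
  have hdet0 : ∃ τ, (conjMatrix Γ wt F τ).det ≠ 0 := by
    by_contra hall
    push Not at hall
    have : Tendsto (fun τ : ℍ => (conjMatrix Γ wt F τ).det *
        Complex.exp (-(Real.pi * Complex.I * ((n : ℂ) - c) * τ))) atImInfty (𝓝 0) := by
      have h0 : (fun τ : ℍ => (conjMatrix Γ wt F τ).det *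
          Complex.exp (-(Real.pi * Complex.I * ((n : ℂ) - c) * τ))) = fun _ => 0 := by
        funext τ
        rw [hall τ, zero_mul]
      rw [h0]
      exact tendsto_const_nhds
    exact hc₁ (tendsto_nhds_unique hlim this)
  obtain ⟨c₀, hc₀, hpow⟩ := det_conjMatrix_pow hB hdet0
  have hs : 0 ≤ ∑ j, wt j := Finset.sum_nonneg fun j _ => wt_nonneg hB j
  set m : ℕ := (∑ j, wt j).toNat with hm
  have hmz : ((m : ℕ) : ℤ) = ∑ j, wt j := Int.toNat_of_nonneg hs
  set k : ℤ := (m : ℤ) - 6 * ((n : ℤ) - c) with hk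
  -- the product `P τ = Δ τ / q` tends to `1`
  have hP := ModularForm.tendsto_atImInfty_tprod_one_sub_eta_q_pow
  set P : ℍ → ℂ := fun x => ∏' (i : ℕ), (1 - ModularForm.eta_q i ↑x) ^ 24 with hPdef
  have hPm : Tendsto (fun τ => c₀ * P τ ^ m) atImInfty (𝓝 c₀) := by
    have := (hP.pow m).const_mul c₀
    simpa using this
  have h12 : Tendsto (fun τ : ℍ => ((conjMatrix Γ wt F τ).det *
      Complex.exp (-(Real.pi * Complex.I * ((n : ℂ) - c) * τ))) ^ 12) atImInfty (𝓝 (c₁ ^ 12)) :=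
    hlim.pow 12
  -- the key identity
  have hid : ∀ τ : ℍ, ((conjMatrix Γ wt F τ).det *
      Complex.exp (-(Real.pi * Complex.I * ((n : ℂ) - c) * τ))) ^ 12 =
      (c₀ * P τ ^ m) * Complex.exp (2 * Real.pi * Complex.I * k * τ) := by
    intro τ
    rw [mul_pow, hpow τ, ModularForm.discriminant_eq_q_prod, mul_pow, ← Complex.exp_nat_mul]
    have hq : (Function.Periodic.qParam 1 (τ : ℂ)) ^ m =
        Complex.exp (2 * Real.pi * Complex.I * m * τ) := by
      rw [Function.Periodic.qParam, ← Complex.exp_nat_mul]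
      congr 1
      simp only [Complex.ofReal_one, div_one]
      ring
    rw [hq]
    have hk' : (k : ℂ) = (m : ℂ) - 6 * ((n : ℂ) - c) := by
      rw [hk]; push_cast; ring
    rw [hk']
    have hexp : Complex.exp (2 * Real.pi * Complex.I * ((m : ℂ) - 6 * ((n : ℂ) - c)) * τ) =
        Complex.exp (2 * Real.pi * Complex.I * m * τ) *
          Complex.exp (((12 : ℕ) : ℂ) * -(Real.pi * Complex.I * ((n : ℂ) - c) * τ)) := by
      rw [← Complex.exp_add]
      congr 1
      push_cast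
      ring
    rw [hexp]
    ring
  -- hence `exp (2π i k τ)` tends to `c₁ ^ 12 / c₀`
  have hev : ∀ᶠ τ in atImInfty, c₀ * P τ ^ m ≠ 0 :=
    hPm.eventually_ne hc₀
  have hquot : Tendsto (fun τ : ℍ => Complex.exp (2 * Real.pi * Complex.I * k * τ)) atImInfty
      (𝓝 (c₁ ^ 12 / c₀)) := by
    have hdiv := h12.div hPm hc₀
    refine hdiv.congr' ?_
    filter_upwards [hev] with τ hτ
    simp only [Pi.div_apply]
    rw [hid τ, mul_div_cancel_left₀ _ hτ]
  have hk0 := int_eq_zero_of_tendsto_cexp (div_ne_zero (pow_ne_zero 12 hc₁) hc₀) hquot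
  rw [← hmz]
  omega

/-! ### The final count -/

/-- The dimension of `S₂(Γ)` from the inputs of P-S20-FREE, for a general `Γ ∋ -1`. -/
theorem finrank_of_inputs (hneg : -1 ∈ Γ) (hB : IsFreeBasis Γ wt F) (c : ℕ)
    (hCX1 : ∃ c₀ : ℂ, c₀ ≠ 0 ∧ Tendsto (fun τ : ℍ => (conjMatrix Γ wt F τ).det *
      Complex.exp (-(Real.pi * Complex.I * ((Nat.card (SL(2, ℤ) ⧸ Γ) : ℂ) - c) * τ)))
      atImInfty (𝓝 c₀))
    (hCX2 : ∀ q j, IsZeroAtImInfty (fun τ => Δf τ * ((conjMatrix Γ wt F τ)⁻¹ j q))) :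
    (Module.finrank ℂ (CuspForm (Γ : Subgroup (GL (Fin 2) ℝ)) 2) : ℚ) =
      1 + (Nat.card (SL(2, ℤ) ⧸ Γ) : ℚ) / 12
        - (Nat.card (MulAction.fixedBy (SL(2, ℤ) ⧸ Γ) ModularGroup.S) : ℚ) / 4
        - (Nat.card (MulAction.fixedBy (SL(2, ℤ) ⧸ Γ) (ModularGroup.S * ModularGroup.T)) : ℚ) / 3
        - (c : ℚ) / 2 := by
  classical
  have hsum := sum_wt_eq hB (Nat.card (SL(2, ℤ) ⧸ Γ)) c hCX1
  -- the determinant vanishes nowhere
  have hdet0 : ∃ τ, (conjMatrix Γ wt F τ).det ≠ 0 := by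
    obtain ⟨c₁, hc₁, hlim⟩ := hCX1
    by_contra hall
    push Not at hall
    have h0 : (fun τ : ℍ => (conjMatrix Γ wt F τ).det * Complex.exp
        (-(Real.pi * Complex.I * ((Nat.card (SL(2, ℤ) ⧸ Γ) : ℂ) - c) * τ))) = fun _ => 0 := by
      funext τ
      rw [hall τ, zero_mul]
    rw [h0] at hlim
    exact hc₁ (tendsto_nhds_unique hlim tendsto_const_nhds)
  have hdet : ∀ τ, (conjMatrix Γ wt F τ).det ≠ 0 := det_conjMatrix_ne_zero hB hdet0
  rw [hB.finrank_cuspForm_two hdet hCX2 hneg]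
  have hrange : ∀ j, 0 ≤ wt j ∧ wt j ≤ 10 ∧ Even (wt j) := fun j =>
    ⟨wt_nonneg hB j, hB.wt_le_ten hdet hCX2 hneg j, DualBasis.wt_even hB.isMF hdet hneg j⟩
  have hcard : Fintype.card (SL(2, ℤ) ⧸ Γ) = Nat.card (SL(2, ℤ) ⧸ Γ) :=
    (Nat.card_eq_fintype_card).symm
  exact count_ten wt _ _ _ c hrange hcard (card_wt_zero hB) (sum_I_zpow_wt hB hdet)
    (sum_zeta_zpow_wt hB hdet) hsum

/-- **S20 from the remaining inputs** (WP Rank, CX1, CX2) for `Γ₀(N)`. -/
theorem s20_of_inputs (N : ℕ) [NeZero N]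
    (wt : SL(2, ℤ) ⧸ CongruenceSubgroup.Gamma0 N → ℤ)
    (F : SL(2, ℤ) ⧸ CongruenceSubgroup.Gamma0 N → ℍ → ℂ)
    (hB : IsFreeBasis (CongruenceSubgroup.Gamma0 N) wt F)
    (hCX1 : ∃ c₀ : ℂ, c₀ ≠ 0 ∧ Tendsto (fun τ : ℍ =>
      (conjMatrix (CongruenceSubgroup.Gamma0 N) wt F τ).det *
      Complex.exp (-(Real.pi * Complex.I *
        ((Nat.card (SL(2, ℤ) ⧸ CongruenceSubgroup.Gamma0 N) : ℂ) -
          (Nat.card (MulAction.orbitRel.Quotient (Subgroup.zpowers (ModularGroup.T : SL(2, ℤ)))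
            (SL(2, ℤ) ⧸ CongruenceSubgroup.Gamma0 N)) : ℕ)) * τ))) atImInfty (𝓝 c₀))
    (hCX2 : ∀ q j, IsZeroAtImInfty
      (fun τ => Δf τ * ((conjMatrix (CongruenceSubgroup.Gamma0 N) wt F τ)⁻¹ j q))) :
    (Module.finrank ℂ (CuspForm (CongruenceSubgroup.Gamma0 N) 2) : ℚ) =
      ModularCurve.genusFormula N := by
  rw [Comb.genusFormula_eq N]
  exact finrank_of_inputs (Comb.neg_one_mem_Gamma0 N) hB _ hCX1 hCX2

/-- The same with the inputs quantified over all free bases (the shapes delivered by the work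
packages Rank and CX). -/
theorem s20_of_wp (N : ℕ) [NeZero N]
    (hRank : ∃ (wt : SL(2, ℤ) ⧸ CongruenceSubgroup.Gamma0 N → ℤ)
      (F : SL(2, ℤ) ⧸ CongruenceSubgroup.Gamma0 N → ℍ → ℂ),
      IsFreeBasis (CongruenceSubgroup.Gamma0 N) wt F)
    (hCX1 : ∀ (wt : SL(2, ℤ) ⧸ CongruenceSubgroup.Gamma0 N → ℤ)
      (F : SL(2, ℤ) ⧸ CongruenceSubgroup.Gamma0 N → ℍ → ℂ),
      IsFreeBasis (CongruenceSubgroup.Gamma0 N) wt F →
      ∃ c₀ : ℂ, c₀ ≠ 0 ∧ Tendsto (fun τ : ℍ =>
        (conjMatrix (CongruenceSubgroup.Gamma0 N) wt F τ).det *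
        Complex.exp (-(Real.pi * Complex.I *
          ((Nat.card (SL(2, ℤ) ⧸ CongruenceSubgroup.Gamma0 N) : ℂ) -
            (Nat.card (MulAction.orbitRel.Quotient (Subgroup.zpowers (ModularGroup.T : SL(2, ℤ)))
              (SL(2, ℤ) ⧸ CongruenceSubgroup.Gamma0 N)) : ℕ)) * τ))) atImInfty (𝓝 c₀))
    (hCX2 : ∀ (wt : SL(2, ℤ) ⧸ CongruenceSubgroup.Gamma0 N → ℤ)
      (F : SL(2, ℤ) ⧸ CongruenceSubgroup.Gamma0 N → ℍ → ℂ),
      IsFreeBasis (CongruenceSubgroup.Gamma0 N) wt F →
      ∀ q j, IsZeroAtImInfty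
        (fun τ => Δf τ * ((conjMatrix (CongruenceSubgroup.Gamma0 N) wt F τ)⁻¹ j q))) :
    (Module.finrank ℂ (CuspForm (CongruenceSubgroup.Gamma0 N) 2) : ℚ) =
      ModularCurve.genusFormula N := by
  obtain ⟨wt, F, hB⟩ := hRank
  exact s20_of_inputs N wt F hB (hCX1 wt F hB) (hCX2 wt F hB)

end Assembly

end Fermat.Agent.S20.Free
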