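import Fermat.Agent.S20.Free.Structure
import Fermat.Agent.S20.Free.LevelOne

/-!
# P-S20-FREE, WP-DB: the dual basis `Δ · (Φᵀ)⁻¹` of cusp forms

`Φ = conjMatrix Γ wt F` is the matrix of conjugates of a free basis `F` of `M_*(Γ)` over
`M_*(SL(2,ℤ))`.  Assuming `det Φ` vanishes nowhere and the entries of `Δ · Φ⁻¹` vanish at `i∞`,
the functions `Gd l := Δ · (Φ⁻¹)_{l, [1]}` are cusp forms of weight `12 - wt l` on `Γ`, they form a
free basis of `S_*(Γ)` over `M_*(SL(2,ℤ))`, hence `wt l ≤ 10` and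
`dim S_2(Γ) = #{l | wt l = 10}`.
-/

set_option autoImplicit false
set_option linter.unusedSectionVars false

open UpperHalfPlane ModularForm SlashInvariantForm Filter Matrix.SpecialLinearGroup
open scoped MatrixGroups ModularForm Manifold Topology

namespace Fermat.Agent.S20.Free

variable {Γ : Subgroup SL(2, ℤ)} [Γ.FiniteIndex]
variable {wt : SL(2, ℤ) ⧸ Γ → ℤ} {F : SL(2, ℤ) ⧸ Γ → ℍ → ℂ}

/-! ### Transformation law of the conjugate matrix and of its inverse -/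

omit [Γ.FiniteIndex] in
theorem DualBasis.denom_ne_zero (σ : SL(2, ℤ)) (τ : ℍ) : denom σ τ ≠ 0 :=
  UpperHalfPlane.denom_ne_zero _ τ

omit [Γ.FiniteIndex] in
theorem DualBasis.apply_smul_of_slash {k : ℤ} {f g : ℍ → ℂ} {σ : SL(2, ℤ)} (h : f ∣[k] σ = g)
    (τ : ℍ) : f (σ • τ) = denom σ τ ^ k * g τ := by
  have h1 := congrFun h τ
  rw [SL_slash_apply] at h1
  rw [← h1, mul_comm, mul_assoc, ← zpow_add₀ (DualBasis.denom_ne_zero σ τ)]
  simp

theorem DualBasis.conjMatrix_smul (hinv : ∀ j, ∀ γ ∈ Γ, F j ∣[wt j] γ = F j) (σ : SL(2, ℤ))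
    (τ : ℍ) (q j : SL(2, ℤ) ⧸ Γ) :
    conjMatrix Γ wt F (σ • τ) q j = denom σ τ ^ (wt j) * conjMatrix Γ wt F τ (σ⁻¹ • q) j :=
  DualBasis.apply_smul_of_slash (conjFun_slash (hinv j) σ q) τ

theorem DualBasis.conjMatrix_inv_smul (hinv : ∀ j, ∀ γ ∈ Γ, F j ∣[wt j] γ = F j) (σ : SL(2, ℤ))
    (τ : ℍ) (hdet : (conjMatrix Γ wt F τ).det ≠ 0) (l q : SL(2, ℤ) ⧸ Γ) :
    (conjMatrix Γ wt F (σ • τ))⁻¹ l q =
      denom σ τ ^ (-(wt l)) * (conjMatrix Γ wt F τ)⁻¹ l (σ⁻¹ • q) := by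
  have hd := DualBasis.denom_ne_zero σ τ
  set A := (conjMatrix Γ wt F τ)⁻¹ with hA
  have hAΦ : A * conjMatrix Γ wt F τ = 1 :=
    Matrix.nonsing_inv_mul _ (isUnit_iff_ne_zero.mpr hdet)
  set B : Matrix (SL(2, ℤ) ⧸ Γ) (SL(2, ℤ) ⧸ Γ) ℂ :=
    fun l q => denom σ τ ^ (-(wt l)) * A l (σ⁻¹ • q) with hB
  have hBΦ : B * conjMatrix Γ wt F (σ • τ) = 1 := by
    ext l j
    rw [Matrix.mul_apply]
    have h1 : ∀ q, B l q * conjMatrix Γ wt F (σ • τ) q j =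
        denom σ τ ^ (-(wt l)) * denom σ τ ^ (wt j) *
          (A l (σ⁻¹ • q) * conjMatrix Γ wt F τ (σ⁻¹ • q) j) := by
      intro q
      rw [DualBasis.conjMatrix_smul hinv]
      simp only [hB]
      ring
    simp_rw [h1]
    rw [← Finset.mul_sum]
    have h2 : ∑ q, A l (σ⁻¹ • q) * conjMatrix Γ wt F τ (σ⁻¹ • q) j =
        ∑ q, A l q * conjMatrix Γ wt F τ q j :=
      Equiv.sum_comp (MulAction.toPerm σ⁻¹) (fun q => A l q * conjMatrix Γ wt F τ q j)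
    rw [h2, ← Matrix.mul_apply, hAΦ]
    by_cases hlj : l = j
    · subst hlj
      rw [Matrix.one_apply_eq, mul_one, ← zpow_add₀ hd]
      simp
    · rw [Matrix.one_apply_ne hlj, mul_zero]
  rw [Matrix.inv_eq_left_inv hBΦ]

/-! ### Holomorphy of determinants and inverses -/

theorem DualBasis.mdiff_inv {f : ℍ → ℂ} (hf : MDiff f) (h0 : ∀ τ, f τ ≠ 0) :
    MDiff (fun τ => (f τ)⁻¹) := by
  rw [UpperHalfPlane.mdifferentiable_iff] at hf ⊢
  exact hf.inv (fun z _ => h0 _)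

theorem DualBasis.mdiff_det {n : Type} [Fintype n] [DecidableEq n] (M : ℍ → Matrix n n ℂ)
    (h : ∀ i j, MDiff (fun τ => M τ i j)) : MDiff (fun τ => (M τ).det) := by
  have h1 : (fun τ => (M τ).det) =
      ∑ σ : Equiv.Perm n, ((Equiv.Perm.sign σ : ℤ) : ℂ) • ∏ i, (fun τ => M τ (σ i) i) := by
    funext τ
    rw [Matrix.det_apply']
    simp [Finset.sum_apply, Finset.prod_apply]
  rw [h1]
  refine MDifferentiable.sum (fun σ _ => MDifferentiable.const_smul _ ?_)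
  exact MDifferentiable.prod (fun i _ => h (σ i) i)

theorem DualBasis.mdiff_adjugate {n : Type} [Fintype n] [DecidableEq n] (M : ℍ → Matrix n n ℂ)
    (h : ∀ i j, MDiff (fun τ => M τ i j)) (i j : n) :
    MDiff (fun τ => (M τ).adjugate i j) := by
  simp_rw [Matrix.adjugate_apply]
  refine DualBasis.mdiff_det (fun τ => (M τ).updateRow j (Pi.single i 1)) (fun a b => ?_)
  simp_rw [Matrix.updateRow_apply]
  by_cases hab : a = j
  · simp only [hab, if_true]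
    exact mdifferentiable_const
  · simp only [hab, if_false]
    exact h a b

theorem DualBasis.mdiff_inv_apply {n : Type} [Fintype n] [DecidableEq n] (M : ℍ → Matrix n n ℂ)
    (h : ∀ i j, MDiff (fun τ => M τ i j)) (hdet : ∀ τ, (M τ).det ≠ 0) (i j : n) :
    MDiff (fun τ => (M τ)⁻¹ i j) := by
  have h1 : (fun τ => (M τ)⁻¹ i j) =
      (fun τ => ((M τ).det)⁻¹) * (fun τ => (M τ).adjugate i j) := by
    funext τ
    rw [Matrix.inv_def, Ring.inverse_eq_inv']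
    simp
  rw [h1]
  exact (DualBasis.mdiff_inv (DualBasis.mdiff_det M h) hdet).mul (DualBasis.mdiff_adjugate M h i j)

/-! ### The dual family `Δ · Φ⁻¹` -/

variable (Γ wt F) in
/-- The entries of `Δ · Φ⁻¹`, `Φ = conjMatrix Γ wt F`. -/
noncomputable def DualBasis.dualFun (l q : SL(2, ℤ) ⧸ Γ) : ℍ → ℂ :=
  fun τ => discriminant τ * (conjMatrix Γ wt F τ)⁻¹ l q

variable (Γ wt F) in
/-- The dual basis: `Gd l = Δ · (Φ⁻¹)_{l, [1]}`. -/
noncomputable def Gd (l : SL(2, ℤ) ⧸ Γ) : ℍ → ℂ :=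
  DualBasis.dualFun Γ wt F l ((1 : SL(2, ℤ)) : SL(2, ℤ) ⧸ Γ)

theorem DualBasis.dualFun_apply (l q : SL(2, ℤ) ⧸ Γ) (τ : ℍ) :
    DualBasis.dualFun Γ wt F l q τ = discriminant τ * (conjMatrix Γ wt F τ)⁻¹ l q := rfl

theorem Gd_apply (l : SL(2, ℤ) ⧸ Γ) (τ : ℍ) :
    Gd Γ wt F l τ =
      discriminant τ * (conjMatrix Γ wt F τ)⁻¹ l ((1 : SL(2, ℤ)) : SL(2, ℤ) ⧸ Γ) := rfl

theorem DualBasis.discriminant_slash (σ : SL(2, ℤ)) :
    (discriminant : ℍ → ℂ) ∣[(12 : ℤ)] σ = discriminant :=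
  SlashInvariantFormClass.slash_action_eq CuspForm.discriminant (mapGL ℝ σ) ⟨σ, rfl⟩

theorem DualBasis.discriminant_smul (σ : SL(2, ℤ)) (τ : ℍ) :
    discriminant (σ • τ) = denom σ τ ^ (12 : ℤ) * discriminant τ :=
  DualBasis.apply_smul_of_slash (DualBasis.discriminant_slash σ) τ

theorem DualBasis.dualFun_slash (hinv : ∀ j, ∀ γ ∈ Γ, F j ∣[wt j] γ = F j)
    (hdet : ∀ τ, (conjMatrix Γ wt F τ).det ≠ 0) (σ : SL(2, ℤ)) (l q : SL(2, ℤ) ⧸ Γ) :
    DualBasis.dualFun Γ wt F l q ∣[12 - wt l] σ = DualBasis.dualFun Γ wt F l (σ⁻¹ • q) := by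
  funext τ
  have hd := DualBasis.denom_ne_zero σ τ
  rw [SL_slash_apply, DualBasis.dualFun_apply, DualBasis.dualFun_apply,
    DualBasis.discriminant_smul, DualBasis.conjMatrix_inv_smul hinv σ τ (hdet τ)]
  have h1 : denom σ τ ^ (12 : ℤ) * denom σ τ ^ (-(wt l)) * denom σ τ ^ (-(12 - wt l)) = 1 := by
    rw [← zpow_add₀ hd, ← zpow_add₀ hd]
    have : (12 : ℤ) + -(wt l) + -(12 - wt l) = 0 := by ring
    rw [this, zpow_zero]
  calc denom σ τ ^ (12 : ℤ) * discriminant τ *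
        (denom σ τ ^ (-(wt l)) * (conjMatrix Γ wt F τ)⁻¹ l (σ⁻¹ • q)) *
        denom σ τ ^ (-(12 - wt l))
      = (denom σ τ ^ (12 : ℤ) * denom σ τ ^ (-(wt l)) * denom σ τ ^ (-(12 - wt l))) *
        (discriminant τ * (conjMatrix Γ wt F τ)⁻¹ l (σ⁻¹ • q)) := by ring
    _ = discriminant τ * (conjMatrix Γ wt F τ)⁻¹ l (σ⁻¹ • q) := by rw [h1, one_mul]

theorem DualBasis.mdiff_conjMatrix (hF : ∀ j, IsMF Γ (wt j) (F j)) (q j : SL(2, ℤ) ⧸ Γ) :
    MDiff (fun τ => conjMatrix Γ wt F τ q j) :=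
  (hF j).mdiff_conjFun q

theorem DualBasis.mdiff_dualFun (hF : ∀ j, IsMF Γ (wt j) (F j))
    (hdet : ∀ τ, (conjMatrix Γ wt F τ).det ≠ 0) (l q : SL(2, ℤ) ⧸ Γ) :
    MDiff (DualBasis.dualFun Γ wt F l q) := by
  have h1 : DualBasis.dualFun Γ wt F l q =
      (discriminant : ℍ → ℂ) * (fun τ => (conjMatrix Γ wt F τ)⁻¹ l q) := rfl
  rw [h1]
  exact CuspForm.discriminant.holo'.mul
    (DualBasis.mdiff_inv_apply _ (DualBasis.mdiff_conjMatrix hF) hdet l q)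

theorem DualBasis.smul_one_coset (g : SL(2, ℤ)) :
    g • ((1 : SL(2, ℤ)) : SL(2, ℤ) ⧸ Γ) = (g : SL(2, ℤ) ⧸ Γ) := by
  show ((g * 1 : SL(2, ℤ)) : SL(2, ℤ) ⧸ Γ) = g
  rw [mul_one]

theorem Gd_slash (hF : ∀ j, IsMF Γ (wt j) (F j))
    (hdet : ∀ τ, (conjMatrix Γ wt F τ).det ≠ 0) (l : SL(2, ℤ) ⧸ Γ) {γ : SL(2, ℤ)} (hγ : γ ∈ Γ) :
    Gd Γ wt F l ∣[12 - wt l] γ = Gd Γ wt F l := by
  unfold Gd
  rw [DualBasis.dualFun_slash (fun j _ h => (hF j).slash_eq h) hdet, DualBasis.smul_one_coset]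
  congr 1
  rw [eq_comm, QuotientGroup.eq]
  simpa using inv_mem hγ

theorem conjFun_Gd (hF : ∀ j, IsMF Γ (wt j) (F j))
    (hdet : ∀ τ, (conjMatrix Γ wt F τ).det ≠ 0) (l q : SL(2, ℤ) ⧸ Γ) :
    conjFun Γ (12 - wt l) (Gd Γ wt F l) q = DualBasis.dualFun Γ wt F l q := by
  unfold conjFun Gd
  rw [DualBasis.dualFun_slash (fun j _ h => (hF j).slash_eq h) hdet, inv_inv,
    DualBasis.smul_one_coset]
  congr 1
  exact QuotientGroup.out_eq' q

theorem isCF_Gd (hF : ∀ j, IsMF Γ (wt j) (F j))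
    (hdet : ∀ τ, (conjMatrix Γ wt F τ).det ≠ 0)
    (hz : ∀ q j, IsZeroAtImInfty (DualBasis.dualFun Γ wt F j q)) (l : SL(2, ℤ) ⧸ Γ) :
    IsCF Γ (12 - wt l) (Gd Γ wt F l) := by
  refine isCF_of_conjFun (DualBasis.mdiff_dualFun hF hdet l _)
    (fun γ hγ => Gd_slash hF hdet l hγ) (fun q => ?_)
  rw [conjFun_Gd hF hdet]
  exact hz q l

/-! ### Expansion of cusp forms in the dual family -/

theorem DualBasis.mul_slash_of_eq {k k1 k2 : ℤ} (h : k = k1 + k2) (σ : SL(2, ℤ)) (f g : ℍ → ℂ) :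
    (f * g) ∣[k] σ = f ∣[k1] σ * g ∣[k2] σ := by
  subst h
  exact mul_slash_SL2 k1 k2 σ f g

theorem DualBasis.isZeroAtImInfty_mul {f g : ℍ → ℂ} (hf : IsBoundedAtImInfty f)
    (hg : IsZeroAtImInfty g) : IsZeroAtImInfty (f * g) := by
  have h := Filter.Tendsto.zero_mul_isBoundedUnder_le (f := g) (g := f) hg hf.isBoundedUnder_le
  have h2 : (fun x => g x * f x) = f * g := by
    funext x
    simp [mul_comm]
  rw [h2] at h
  exact h

theorem DualBasis.isZeroAtImInfty_sum {ι : Type*} (s : Finset ι) {f : ι → ℍ → ℂ}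
    (h : ∀ i ∈ s, IsZeroAtImInfty (f i)) : IsZeroAtImInfty (∑ i ∈ s, f i) := by
  classical
  induction s using Finset.induction_on with
  | empty =>
    simp only [Finset.sum_empty]
    exact Filter.zero_zeroAtFilter _
  | insert i t hi ih =>
    rw [Finset.sum_insert hi]
    exact Filter.ZeroAtFilter.add (h i (Finset.mem_insert_self i t))
      (ih fun j hj => h j (Finset.mem_insert_of_mem hj))

variable (Γ wt F) in
/-- The trace `∑_q (F_l)_q · g_q`. -/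
noncomputable def DualBasis.traceFun (k : ℤ) (g : ℍ → ℂ) (l : SL(2, ℤ) ⧸ Γ) : ℍ → ℂ :=
  ∑ q, conjFun Γ (wt l) (F l) q * conjFun Γ k g q

theorem DualBasis.isCF1_traceFun (hF : ∀ j, IsMF Γ (wt j) (F j)) {k : ℤ} {g : ℍ → ℂ}
    (hg : IsCF Γ k g) (l : SL(2, ℤ) ⧸ Γ) :
    IsCF1 (wt l + k) (DualBasis.traceFun Γ wt F k g l) := by
  refine isCF1_iff.mpr ⟨?_, fun σ => ?_, ?_⟩
  · exact MDifferentiable.sum fun q _ => ((hF l).mdiff_conjFun q).mul (hg.isMF.mdiff_conjFun q)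
  · unfold DualBasis.traceFun
    rw [SlashAction.sum_slash]
    have h1 : ∀ q, (conjFun Γ (wt l) (F l) q * conjFun Γ k g q) ∣[wt l + k] σ =
        conjFun Γ (wt l) (F l) (σ⁻¹ • q) * conjFun Γ k g (σ⁻¹ • q) := by
      intro q
      rw [mul_slash_SL2, conjFun_slash (fun γ h => (hF l).slash_eq h),
        conjFun_slash (fun γ h => hg.slash_eq h)]
    simp_rw [h1]
    exact Equiv.sum_comp (MulAction.toPerm σ⁻¹)
      (fun q => conjFun Γ (wt l) (F l) q * conjFun Γ k g q)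
  · exact DualBasis.isZeroAtImInfty_sum _ fun q _ =>
      DualBasis.isZeroAtImInfty_mul ((hF l).bdd_conjFun q) (hg.zero_at_conjFun q)

variable (Γ wt F) in
/-- The coefficient `(∑_q (F_l)_q · g_q) / Δ` of `g` along `Gd l`. -/
noncomputable def DualBasis.coeffFun (k : ℤ) (g : ℍ → ℂ) (l : SL(2, ℤ) ⧸ Γ) : ℍ → ℂ :=
  fun τ => DualBasis.traceFun Γ wt F k g l τ / discriminant τ

theorem DualBasis.isMF1_coeffFun (hF : ∀ j, IsMF Γ (wt j) (F j)) {k : ℤ} {g : ℍ → ℂ}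
    (hg : IsCF Γ k g) (l : SL(2, ℤ) ⧸ Γ) :
    IsMF1 (k + wt l - 12) (DualBasis.coeffFun Γ wt F k g l) := by
  obtain ⟨T, hT⟩ := DualBasis.isCF1_traceFun hF hg l
  have h1 : IsMF1 (wt l + k - 12) (DualBasis.coeffFun Γ wt F k g l) := by
    refine ⟨CuspForm.discriminantEquiv T, ?_⟩
    funext τ
    unfold DualBasis.coeffFun
    rw [← hT, ← discriminant_mul_discriminantEquiv_apply T τ,
      mul_div_cancel_left₀ _ (discriminant_ne_zero τ)]
  exact h1.congr_weight (by ring)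

theorem DualBasis.discriminant_mul_coeffFun (k : ℤ) (g : ℍ → ℂ) (l : SL(2, ℤ) ⧸ Γ) (τ : ℍ) :
    discriminant τ * DualBasis.coeffFun Γ wt F k g l τ = DualBasis.traceFun Γ wt F k g l τ := by
  unfold DualBasis.coeffFun
  rw [mul_div_cancel₀ _ (discriminant_ne_zero τ)]

/-- Every cusp form is a combination of the `Gd l` with level-one coefficients. -/
theorem eq_sum_coeffFun_mul_Gd
    (hdet : ∀ τ, (conjMatrix Γ wt F τ).det ≠ 0) {k : ℤ} {g : ℍ → ℂ} (hg : IsCF Γ k g) :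
    g = ∑ l, DualBasis.coeffFun Γ wt F k g l * Gd Γ wt F l := by
  funext τ
  rw [Finset.sum_apply]
  have h1 : ∀ l, (DualBasis.coeffFun Γ wt F k g l * Gd Γ wt F l) τ =
      ∑ q, conjFun Γ k g q τ * (conjMatrix Γ wt F τ q l *
        (conjMatrix Γ wt F τ)⁻¹ l ((1 : SL(2, ℤ)) : SL(2, ℤ) ⧸ Γ)) := by
    intro l
    rw [Pi.mul_apply, Gd_apply, ← mul_assoc, mul_comm _ (discriminant τ),
      DualBasis.discriminant_mul_coeffFun]
    unfold DualBasis.traceFun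
    rw [Finset.sum_apply, Finset.sum_mul]
    refine Finset.sum_congr rfl fun q _ => ?_
    rw [Pi.mul_apply]
    unfold conjMatrix
    ring
  simp_rw [h1]
  rw [Finset.sum_comm]
  simp_rw [← Finset.mul_sum, ← Matrix.mul_apply,
    Matrix.mul_nonsing_inv _ (isUnit_iff_ne_zero.mpr (hdet τ)), Matrix.one_apply]
  rw [Finset.sum_eq_single ((1 : SL(2, ℤ)) : SL(2, ℤ) ⧸ Γ)]
  · rw [if_pos rfl, mul_one, conjFun_one_coset (fun γ h => hg.slash_eq h)]
  · intro q _ hq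
    rw [if_neg hq, mul_zero]
  · intro h
    exact absurd (Finset.mem_univ _) h

theorem exists_dualExpansion (hF : ∀ j, IsMF Γ (wt j) (F j))
    (hdet : ∀ τ, (conjMatrix Γ wt F τ).det ≠ 0) {k : ℤ} {g : ℍ → ℂ} (hg : IsCF Γ k g) :
    ∃ r : SL(2, ℤ) ⧸ Γ → ℍ → ℂ, (∀ l, IsMF1 (k - (12 - wt l)) (r l)) ∧
      g = ∑ l, r l * Gd Γ wt F l :=
  ⟨DualBasis.coeffFun Γ wt F k g,
    fun l => (DualBasis.isMF1_coeffFun hF hg l).congr_weight (by ring),
    eq_sum_coeffFun_mul_Gd hdet hg⟩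

/-- Uniqueness of the expansion along the dual family. -/
theorem Gd_indep (hF : ∀ j, IsMF Γ (wt j) (F j))
    (hdet : ∀ τ, (conjMatrix Γ wt F τ).det ≠ 0) (k : ℤ) (r : SL(2, ℤ) ⧸ Γ → ℍ → ℂ)
    (hr : ∀ l, IsMF1 (k - (12 - wt l)) (r l)) (h0 : ∑ l, r l * Gd Γ wt F l = 0) :
    ∀ l, r l = 0 := by
  have hq : ∀ q : SL(2, ℤ) ⧸ Γ, ∑ l, r l * DualBasis.dualFun Γ wt F l q = 0 := by
    intro q
    have h1 := congrArg (fun f => f ∣[k] (Quotient.out q)⁻¹) h0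
    simp only [SlashAction.sum_slash, SlashAction.zero_slash] at h1
    rw [← h1]
    refine Finset.sum_congr rfl fun l _ => ?_
    rw [DualBasis.mul_slash_of_eq (k1 := k - (12 - wt l)) (k2 := 12 - wt l) (by ring),
      (hr l).slash_eq]
    congr 1
    exact (conjFun_Gd hF hdet l q).symm
  intro l
  funext τ
  have hunit := isUnit_iff_ne_zero.mpr (hdet τ)
  have hv : Matrix.vecMul (fun l => r l τ * discriminant τ) (conjMatrix Γ wt F τ)⁻¹ = 0 := by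
    funext q
    have := congrFun (hq q) τ
    rw [Finset.sum_apply, Pi.zero_apply] at this
    rw [Pi.zero_apply, ← this]
    unfold Matrix.vecMul dotProduct
    refine Finset.sum_congr rfl fun l _ => ?_
    rw [Pi.mul_apply, DualBasis.dualFun_apply]
    ring
  have hv2 := congrArg (fun v => Matrix.vecMul v (conjMatrix Γ wt F τ)) hv
  simp only [Matrix.vecMul_vecMul, Matrix.nonsing_inv_mul _ hunit, Matrix.vecMul_one,
    Matrix.zero_vecMul] at hv2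
  have hl := congrFun hv2 l
  simp only [Pi.zero_apply, mul_eq_zero] at hl
  exact hl.resolve_right (discriminant_ne_zero τ)

/-! ### Weights are at most `10` -/

/-- A cusp form of weight `≤ 0` on `Γ` vanishes. -/
theorem DualBasis.isCF_eq_zero_of_nonpos {k : ℤ} {f : ℍ → ℂ} (hf : IsCF Γ k f) (hk : k ≤ 0) :
    f = 0 := by
  obtain ⟨M, rfl⟩ := hf.isMF
  rcases lt_or_eq_of_le hk with hk | rfl
  · rw [ModularForm.isZero_of_neg_weight hk M]
    rfl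
  · obtain ⟨c, hc⟩ := ModularForm.eq_const_of_weight_zero M
    have hz : IsZeroAtImInfty (⇑M) := by
      have := hf.zero_at 1
      rwa [SlashAction.slash_one] at this
    rw [hc] at hz
    have hc0 : c = 0 := tendsto_nhds_unique tendsto_const_nhds hz
    rw [hc, hc0]
    rfl

theorem Gd_ne_zero (hF : ∀ j, IsMF Γ (wt j) (F j))
    (hdet : ∀ τ, (conjMatrix Γ wt F τ).det ≠ 0) (l : SL(2, ℤ) ⧸ Γ) : Gd Γ wt F l ≠ 0 := by
  intro h
  have hq : ∀ q, DualBasis.dualFun Γ wt F l q = 0 := by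
    intro q
    rw [← conjFun_Gd hF hdet, h, conjFun_zero]
  have hunit := isUnit_iff_ne_zero.mpr (hdet UpperHalfPlane.I)
  have h1 := congrFun (congrFun (Matrix.nonsing_inv_mul _ hunit) l) l
  rw [Matrix.mul_apply, Matrix.one_apply_eq] at h1
  have h2 : ∀ q, (conjMatrix Γ wt F UpperHalfPlane.I)⁻¹ l q = 0 := by
    intro q
    have := congrFun (hq q) UpperHalfPlane.I
    rw [DualBasis.dualFun_apply, Pi.zero_apply, mul_eq_zero] at this
    exact this.resolve_left (discriminant_ne_zero _)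
  simp [h2] at h1

theorem DualBasis.neg_one_mem_coe (hneg : -1 ∈ Γ) :
    (-1 : GL (Fin 2) ℝ) ∈ (Γ : Subgroup (GL (Fin 2) ℝ)) := by
  have := (mem_coe_iff (Γ := Γ) (-1)).mpr hneg
  convert this using 1
  ext i j
  fin_cases i <;> fin_cases j <;> simp

theorem DualBasis.wt_even (hF : ∀ j, IsMF Γ (wt j) (F j))
    (hdet : ∀ τ, (conjMatrix Γ wt F τ).det ≠ 0) (hneg : -1 ∈ Γ) (l : SL(2, ℤ) ⧸ Γ) :
    Even (wt l) := by
  by_contra hodd
  rw [Int.not_even_iff_odd] at hodd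
  obtain ⟨M, hM⟩ := hF l
  have hM0 : M = 0 := ModularForm.eq_zero_of_neg_one_mem (DualBasis.neg_one_mem_coe hneg) hodd M
  have hFl : F l = 0 := by
    rw [← hM, hM0]
    rfl
  refine hdet UpperHalfPlane.I (Matrix.det_eq_zero_of_column_eq_zero l fun q => ?_)
  unfold conjMatrix
  rw [hFl, conjFun_zero]
  rfl

theorem wt_le_ten (hF : ∀ j, IsMF Γ (wt j) (F j))
    (hdet : ∀ τ, (conjMatrix Γ wt F τ).det ≠ 0)
    (hz : ∀ q j, IsZeroAtImInfty (DualBasis.dualFun Γ wt F j q)) (hneg : -1 ∈ Γ)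
    (l : SL(2, ℤ) ⧸ Γ) : wt l ≤ 10 := by
  have h1 : ¬ (12 - wt l ≤ 0) := fun h =>
    Gd_ne_zero hF hdet l (DualBasis.isCF_eq_zero_of_nonpos (isCF_Gd hF hdet hz l) h)
  obtain ⟨m, hm⟩ := DualBasis.wt_even hF hdet hneg l
  omega

/-! ### The dimension of `S_2(Γ)` -/

/-- `Gd l` as a cusp form of weight `2` when `wt l = 10`. -/
noncomputable def DualBasis.cuspTwo (hF : ∀ j, IsMF Γ (wt j) (F j))
    (hdet : ∀ τ, (conjMatrix Γ wt F τ).det ≠ 0)
    (hz : ∀ q j, IsZeroAtImInfty (DualBasis.dualFun Γ wt F j q))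
    (l : {l : SL(2, ℤ) ⧸ Γ // wt l = 10}) : CuspForm (Γ : Subgroup (GL (Fin 2) ℝ)) 2 :=
  Classical.choose ((isCF_Gd hF hdet hz l.1).congr_weight (l := 2) (by rw [l.2]; norm_num))

theorem DualBasis.coe_cuspTwo (hF : ∀ j, IsMF Γ (wt j) (F j))
    (hdet : ∀ τ, (conjMatrix Γ wt F τ).det ≠ 0)
    (hz : ∀ q j, IsZeroAtImInfty (DualBasis.dualFun Γ wt F j q))
    (l : {l : SL(2, ℤ) ⧸ Γ // wt l = 10}) :
    ⇑(DualBasis.cuspTwo hF hdet hz l) = Gd Γ wt F l.1 :=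
  Classical.choose_spec ((isCF_Gd hF hdet hz l.1).congr_weight (l := 2) (by rw [l.2]; norm_num))

/-- The linear map `c ↦ ∑ c_l · Gd l` onto `S_2(Γ)`. -/
noncomputable def DualBasis.combTwo (hF : ∀ j, IsMF Γ (wt j) (F j))
    (hdet : ∀ τ, (conjMatrix Γ wt F τ).det ≠ 0)
    (hz : ∀ q j, IsZeroAtImInfty (DualBasis.dualFun Γ wt F j q)) :
    ({l : SL(2, ℤ) ⧸ Γ // wt l = 10} → ℂ) →ₗ[ℂ] CuspForm (Γ : Subgroup (GL (Fin 2) ℝ)) 2 where
  toFun c := ∑ l, c l • DualBasis.cuspTwo hF hdet hz l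
  map_add' c d := by
    simp only [Pi.add_apply, add_smul, Finset.sum_add_distrib]
  map_smul' a c := by
    simp only [Pi.smul_apply, smul_eq_mul, RingHom.id_apply, Finset.smul_sum, mul_smul]

variable (Γ wt) in
/-- Extension of a coefficient vector on `{l | wt l = 10}` to constant functions. -/
noncomputable def DualBasis.extTwo (c : {l : SL(2, ℤ) ⧸ Γ // wt l = 10} → ℂ)
    (l : SL(2, ℤ) ⧸ Γ) : ℍ → ℂ :=
  if h : wt l = 10 then (fun _ => c ⟨l, h⟩) else 0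

theorem DualBasis.isMF1_extTwo (c : {l : SL(2, ℤ) ⧸ Γ // wt l = 10} → ℂ) (l : SL(2, ℤ) ⧸ Γ) :
    IsMF1 (2 - (12 - wt l)) (DualBasis.extTwo Γ wt c l) := by
  unfold DualBasis.extTwo
  split_ifs with h
  · exact (isMF1_const _).congr_weight (by rw [h]; norm_num)
  · exact isMF1_zero

theorem DualBasis.coe_combTwo (hF : ∀ j, IsMF Γ (wt j) (F j))
    (hdet : ∀ τ, (conjMatrix Γ wt F τ).det ≠ 0)
    (hz : ∀ q j, IsZeroAtImInfty (DualBasis.dualFun Γ wt F j q))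
    (c : {l : SL(2, ℤ) ⧸ Γ // wt l = 10} → ℂ) :
    (⇑(DualBasis.combTwo hF hdet hz c) : ℍ → ℂ) =
      ∑ l : SL(2, ℤ) ⧸ Γ, DualBasis.extTwo Γ wt c l * Gd Γ wt F l := by
  have h1 : (⇑(DualBasis.combTwo hF hdet hz c) : ℍ → ℂ) =
      ∑ l : {l : SL(2, ℤ) ⧸ Γ // wt l = 10}, c l • Gd Γ wt F l.1 := by
    show (⇑(∑ l, c l • DualBasis.cuspTwo hF hdet hz l) : ℍ → ℂ) = _
    rw [← FunLike.coeAddMonoidHom_apply, map_sum]
    refine Finset.sum_congr rfl fun l _ => ?_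
    rw [FunLike.coeAddMonoidHom_apply, FunLike.coe_smul, DualBasis.coe_cuspTwo]
  rw [h1]
  have h2 : ∀ l : {l : SL(2, ℤ) ⧸ Γ // wt l = 10}, c l • Gd Γ wt F l.1 =
      (fun l : SL(2, ℤ) ⧸ Γ => DualBasis.extTwo Γ wt c l * Gd Γ wt F l) l.1 := by
    intro l
    funext τ
    simp only [Pi.smul_apply, Pi.mul_apply, smul_eq_mul, DualBasis.extTwo, dif_pos l.2]
  simp_rw [h2]
  rw [← Finset.sum_subtype (Finset.univ.filter fun l : SL(2, ℤ) ⧸ Γ => wt l = 10)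
    (fun l => by simp) (fun l : SL(2, ℤ) ⧸ Γ => DualBasis.extTwo Γ wt c l * Gd Γ wt F l)]
  refine Finset.sum_filter_of_ne fun l _ hl => ?_
  by_contra h
  apply hl
  simp only [DualBasis.extTwo, dif_neg h, zero_mul]

theorem DualBasis.combTwo_injective (hF : ∀ j, IsMF Γ (wt j) (F j))
    (hdet : ∀ τ, (conjMatrix Γ wt F τ).det ≠ 0)
    (hz : ∀ q j, IsZeroAtImInfty (DualBasis.dualFun Γ wt F j q)) :
    Function.Injective (DualBasis.combTwo hF hdet hz) := by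
  rw [← LinearMap.ker_eq_bot, LinearMap.ker_eq_bot']
  intro c hc
  have h0 : ∑ l : SL(2, ℤ) ⧸ Γ, DualBasis.extTwo Γ wt c l * Gd Γ wt F l = 0 := by
    rw [← DualBasis.coe_combTwo hF hdet hz, hc]
    rfl
  have h1 := Gd_indep hF hdet 2 _ (DualBasis.isMF1_extTwo c) h0
  funext l
  have h2 := congrFun (h1 l.1) UpperHalfPlane.I
  simp only [DualBasis.extTwo, dif_pos l.2, Pi.zero_apply] at h2
  exact h2

theorem DualBasis.combTwo_surjective (hF : ∀ j, IsMF Γ (wt j) (F j))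
    (hdet : ∀ τ, (conjMatrix Γ wt F τ).det ≠ 0)
    (hz : ∀ q j, IsZeroAtImInfty (DualBasis.dualFun Γ wt F j q)) (hneg : -1 ∈ Γ) :
    Function.Surjective (DualBasis.combTwo hF hdet hz) := by
  intro g
  obtain ⟨r, hr, hg⟩ := exists_dualExpansion hF hdet (k := 2) (g := ⇑g) ⟨g, rfl⟩
  refine ⟨fun l => r l.1 UpperHalfPlane.I, DFunLike.coe_injective ?_⟩
  rw [DualBasis.coe_combTwo, hg]
  refine Finset.sum_congr rfl fun l _ => ?_
  congr 1
  unfold DualBasis.extTwo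
  split_ifs with h
  · have h1 : IsMF1 0 (r l) := (hr l).congr_weight (by rw [h]; norm_num)
    obtain ⟨M, hM⟩ := h1
    obtain ⟨c, hc⟩ := ModularFormClass.levelOne_weight_zero_const M
    have hrl : r l = Function.const ℍ c := hM.symm.trans hc
    funext τ
    simp only [hrl, Function.const_apply]
  · have hlt : 2 - (12 - wt l) < 0 := by
      have := wt_le_ten hF hdet hz hneg l
      omega
    obtain ⟨M, hM⟩ := hr l
    rw [← hM, ModularFormClass.levelOne_neg_weight_eq_zero hlt M]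

/-- `dim S_2(Γ)` is the number of generators of weight `10`. -/
theorem finrank_cuspForm_two (hF : ∀ j, IsMF Γ (wt j) (F j))
    (hdet : ∀ τ, (conjMatrix Γ wt F τ).det ≠ 0)
    (hz : ∀ q j, IsZeroAtImInfty (DualBasis.dualFun Γ wt F j q)) (hneg : -1 ∈ Γ) :
    Module.finrank ℂ (CuspForm (Γ : Subgroup (GL (Fin 2) ℝ)) 2) =
      (Finset.univ.filter fun l : SL(2, ℤ) ⧸ Γ => wt l = 10).card := by
  have e := LinearEquiv.ofBijective (DualBasis.combTwo hF hdet hz)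
    ⟨DualBasis.combTwo_injective hF hdet hz, DualBasis.combTwo_surjective hF hdet hz hneg⟩
  rw [← e.finrank_eq, Module.finrank_fintype_fun_eq_card, Fintype.card_subtype]

/-! ### Statements in the shape of the work package (with `Δf` and `IsFreeBasis`) -/

theorem DualBasis.dualFun_eq (l q : SL(2, ℤ) ⧸ Γ) :
    DualBasis.dualFun Γ wt F l q = fun τ => Δf τ * ((conjMatrix Γ wt F τ)⁻¹ l q) := rfl

theorem Gd_eq (l : SL(2, ℤ) ⧸ Γ) :
    Gd Γ wt F l =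
      fun τ => Δf τ * ((conjMatrix Γ wt F τ)⁻¹ l ((1 : SL(2, ℤ)) : SL(2, ℤ) ⧸ Γ)) := rfl

/-- WP-DB (1): the dual family consists of cusp forms, with explicit conjugates. -/
theorem IsFreeBasis.isCF_Gd (hB : IsFreeBasis Γ wt F)
    (hdet : ∀ τ, (conjMatrix Γ wt F τ).det ≠ 0)
    (hz : ∀ q j, IsZeroAtImInfty (fun τ => Δf τ * ((conjMatrix Γ wt F τ)⁻¹ j q)))
    (l : SL(2, ℤ) ⧸ Γ) :
    IsCF Γ (12 - wt l) (Gd Γ wt F l) ∧
      ∀ q τ, conjFun Γ (12 - wt l) (Gd Γ wt F l) q τ = Δf τ * (conjMatrix Γ wt F τ)⁻¹ l q :=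
  ⟨Free.isCF_Gd hB.isMF hdet hz l, fun q τ => by rw [conjFun_Gd hB.isMF hdet]; rfl⟩

/-- WP-DB (2): expansion of cusp forms along the dual family, with uniqueness. -/
theorem IsFreeBasis.dualExpansion (hB : IsFreeBasis Γ wt F)
    (hdet : ∀ τ, (conjMatrix Γ wt F τ).det ≠ 0) {k : ℤ} {g : ℍ → ℂ} (hg : IsCF Γ k g) :
    (∀ l, IsMF1 (k + wt l - 12)
      (fun τ => (∑ q, conjFun Γ (wt l) (F l) q τ * conjFun Γ k g q τ) / Δf τ)) ∧
    g = ∑ l, (fun τ => (∑ q, conjFun Γ (wt l) (F l) q τ * conjFun Γ k g q τ) / Δf τ) *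
      Gd Γ wt F l := by
  have h : ∀ l, (fun τ => (∑ q, conjFun Γ (wt l) (F l) q τ * conjFun Γ k g q τ) / Δf τ) =
      DualBasis.coeffFun Γ wt F k g l := by
    intro l
    funext τ
    simp [DualBasis.coeffFun, DualBasis.traceFun, Finset.sum_apply, Δf]
  simp_rw [h]
  exact ⟨DualBasis.isMF1_coeffFun hB.isMF hg, eq_sum_coeffFun_mul_Gd hdet hg⟩

/-- WP-DB (3). -/
theorem IsFreeBasis.wt_le_ten (hB : IsFreeBasis Γ wt F)
    (hdet : ∀ τ, (conjMatrix Γ wt F τ).det ≠ 0)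
    (hz : ∀ q j, IsZeroAtImInfty (fun τ => Δf τ * ((conjMatrix Γ wt F τ)⁻¹ j q)))
    (hneg : -1 ∈ Γ) (l : SL(2, ℤ) ⧸ Γ) : wt l ≤ 10 :=
  Free.wt_le_ten hB.isMF hdet hz hneg l

/-- WP-DB (4). -/
theorem IsFreeBasis.finrank_cuspForm_two (hB : IsFreeBasis Γ wt F)
    (hdet : ∀ τ, (conjMatrix Γ wt F τ).det ≠ 0)
    (hz : ∀ q j, IsZeroAtImInfty (fun τ => Δf τ * ((conjMatrix Γ wt F τ)⁻¹ j q)))
    (hneg : -1 ∈ Γ) :
    Module.finrank ℂ (CuspForm (Γ : Subgroup (GL (Fin 2) ℝ)) 2) =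
      (Finset.univ.filter fun l : SL(2, ℤ) ⧸ Γ => wt l = 10).card :=
  Free.finrank_cuspForm_two hB.isMF hdet hz hneg

end Fermat.Agent.S20.Free
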