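import Fermat.Agent.S20.Free.Structure
import Fermat.Agent.S20.Free.LevelOne

/-!
# P-S20-FREE: division lemmas (regular sequence `E₄, E₆`; division by `Δ`)

* `exists_div_of_regular`: if `A, B` are level-one forms without common zero, `A → 1` at `i∞`,
  and `B * f = A * g` for forms `f, g` on `Γ`, then `f = A * h'`, `g = B * h'` for a form `h'`
  on `Γ`.
* `exists_div_of_isBigO`: a form on `Γ` all of whose conjugates are `O(exp (-2π Im τ))` is
  divisible by a nowhere vanishing level-one cusp form `D` with `exp (-2π Im τ) = O(D)`.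
-/

set_option autoImplicit false

open UpperHalfPlane hiding I
open ModularForm SlashInvariantForm Filter Matrix.SpecialLinearGroup Complex
open scoped MatrixGroups ModularForm Manifold Topology Real

namespace Fermat.Agent.S20.Free

variable {Γ : Subgroup SL(2, ℤ)} [Γ.FiniteIndex]

/-- The piecewise quotient used in the division lemma. -/
noncomputable def regularQuot (A B f g : ℍ → ℂ) (τ : ℍ) : ℂ :=
  if A τ ≠ 0 then f τ / A τ else g τ / B τ

theorem regularQuot_of_left {A B f g : ℍ → ℂ} {τ : ℍ} (hA : A τ ≠ 0) :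
    regularQuot A B f g τ = f τ / A τ := by
  simp [regularQuot, hA]

theorem regularQuot_of_right {A B f g : ℍ → ℂ} (h : B * f = A * g) {τ : ℍ} (hB : B τ ≠ 0) :
    regularQuot A B f g τ = g τ / B τ := by
  by_cases hA : A τ ≠ 0
  · rw [regularQuot_of_left hA, div_eq_div_iff hA hB]
    have := congrFun h τ
    simp only [Pi.mul_apply] at this
    rw [mul_comm, this, mul_comm]
  · simp [regularQuot, hA]

theorem mul_regularQuot_left {A B f g : ℍ → ℂ} (h : B * f = A * g)
    (hne : ∀ τ, A τ ≠ 0 ∨ B τ ≠ 0) : A * regularQuot A B f g = f := by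
  funext τ
  simp only [Pi.mul_apply]
  by_cases hA : A τ ≠ 0
  · rw [regularQuot_of_left hA, mul_div_cancel₀ _ hA]
  · have hB : B τ ≠ 0 := (hne τ).resolve_left hA
    rw [not_not] at hA
    have := congrFun h τ
    simp only [Pi.mul_apply, hA, zero_mul] at this
    rw [hA, zero_mul]
    exact ((mul_eq_zero.mp this).resolve_left hB).symm

theorem mul_regularQuot_right {A B f g : ℍ → ℂ} (h : B * f = A * g)
    (hne : ∀ τ, A τ ≠ 0 ∨ B τ ≠ 0) : B * regularQuot A B f g = g := by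
  funext τ
  simp only [Pi.mul_apply]
  by_cases hB : B τ ≠ 0
  · rw [regularQuot_of_right h hB, mul_div_cancel₀ _ hB]
  · have hA : A τ ≠ 0 := (hne τ).resolve_right hB
    rw [not_not] at hB
    have := congrFun h τ
    simp only [Pi.mul_apply, hB, zero_mul] at this
    rw [hB, zero_mul]
    exact ((mul_eq_zero.mp this.symm).resolve_left hA).symm

theorem mdiff_regularQuot {A B f g : ℍ → ℂ} (hA : MDiff A) (hB : MDiff B) (hf : MDiff f)
    (hg : MDiff g) (h : B * f = A * g) (hne : ∀ τ, A τ ≠ 0 ∨ B τ ≠ 0) :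
    MDiff (regularQuot A B f g) := by
  intro τ
  rw [mdifferentiableAt_iff]
  have hAd := mdifferentiableAt_iff.mp (hA τ)
  have hBd := mdifferentiableAt_iff.mp (hB τ)
  have hfd := mdifferentiableAt_iff.mp (hf τ)
  have hgd := mdifferentiableAt_iff.mp (hg τ)
  rcases hne τ with hτ | hτ
  · have hAτ : (A ∘ ofComplex) (τ : ℂ) ≠ 0 := by simpa using hτ
    have hev : ∀ᶠ z in 𝓝 (τ : ℂ), (A ∘ ofComplex) z ≠ 0 :=
      hAd.continuousAt.eventually_ne hAτ
    refine (hfd.div hAd hAτ).congr_of_eventuallyEq ?_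
    filter_upwards [hev] with z hz
    simp only [Function.comp_apply, Pi.div_apply] at hz ⊢
    exact regularQuot_of_left hz
  · have hBτ : (B ∘ ofComplex) (τ : ℂ) ≠ 0 := by simpa using hτ
    have hev : ∀ᶠ z in 𝓝 (τ : ℂ), (B ∘ ofComplex) z ≠ 0 :=
      hBd.continuousAt.eventually_ne hBτ
    refine (hgd.div hBd hBτ).congr_of_eventuallyEq ?_
    filter_upwards [hev] with z hz
    simp only [Function.comp_apply, Pi.div_apply] at hz ⊢
    exact regularQuot_of_right h hz

/-- Cancellation: if `A * u = A * v` and `B * u = B * v` with `A, B` without common zero then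
`u = v`. -/
theorem eq_of_mul_eq_of_regular {A B u v : ℍ → ℂ} (hne : ∀ τ, A τ ≠ 0 ∨ B τ ≠ 0)
    (h1 : A * u = A * v) (h2 : B * u = B * v) : u = v := by
  funext τ
  rcases hne τ with hτ | hτ
  · have := congrFun h1 τ
    simp only [Pi.mul_apply] at this
    exact mul_left_cancel₀ hτ this
  · have := congrFun h2 τ
    simp only [Pi.mul_apply] at this
    exact mul_left_cancel₀ hτ this

/-- If `A * u` is bounded at `i∞` and `A → 1`, then `u` is bounded at `i∞`. -/
theorem isBoundedAtImInfty_of_mul {A u : ℍ → ℂ} (hA1 : Tendsto A atImInfty (𝓝 1))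
    (h : IsBoundedAtImInfty (A * u)) : IsBoundedAtImInfty u := by
  have hAinv : Tendsto (fun τ => (A τ)⁻¹) atImInfty (𝓝 1) := by
    simpa using hA1.inv₀ one_ne_zero
  have hbd : IsBoundedAtImInfty (fun τ => (A τ)⁻¹) := hAinv.isBigO_one ℝ
  have hev : ∀ᶠ τ in atImInfty, A τ ≠ 0 := hA1.eventually_ne one_ne_zero
  have hprod : IsBoundedAtImInfty ((fun τ => (A τ)⁻¹) * (A * u)) := hbd.mul h
  refine (Asymptotics.IsBigO.congr' (g₁ := (1 : ℍ → ℝ)) (g₂ := (1 : ℍ → ℝ)) hprod ?_
    EventuallyEq.rfl)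
  filter_upwards [hev] with τ hτ
  simp only [Pi.mul_apply]
  rw [← mul_assoc, inv_mul_cancel₀ hτ, one_mul]

/-- **Division lemma** (regular sequence). -/
theorem exists_div_of_regular {A B : ℍ → ℂ} {a b : ℤ} (hA : IsMF1 a A) (hB : IsMF1 b B)
    (hne : ∀ τ, A τ ≠ 0 ∨ B τ ≠ 0) (hA1 : Tendsto A atImInfty (𝓝 1))
    {k : ℤ} {f g : ℍ → ℂ} (hf : IsMF Γ k f) (hg : IsMF Γ (k + b - a) g)
    (h : B * f = A * g) :
    ∃ h' : ℍ → ℂ, IsMF Γ (k - a) h' ∧ f = A * h' ∧ g = B * h' := by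
  refine ⟨regularQuot A B f g, ?_, (mul_regularQuot_left h hne).symm,
    (mul_regularQuot_right h hne).symm⟩
  have hmd : MDiff (regularQuot A B f g) :=
    mdiff_regularQuot hA.mdiff hB.mdiff hf.mdiff hg.mdiff h hne
  -- slash of the quotient by an arbitrary element
  have hslA : ∀ γ : SL(2, ℤ), A * (regularQuot A B f g ∣[k - a] γ) = f ∣[k] γ := by
    intro γ
    have := mul_slash_SL2 a (k - a) γ A (regularQuot A B f g)
    rw [mul_regularQuot_left h hne, hA.slash_eq γ, show a + (k - a) = k by ring] at this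
    exact this.symm
  have hslB : ∀ γ : SL(2, ℤ), B * (regularQuot A B f g ∣[k - a] γ) = g ∣[k + b - a] γ := by
    intro γ
    have := mul_slash_SL2 b (k - a) γ B (regularQuot A B f g)
    rw [mul_regularQuot_right h hne, hB.slash_eq γ, show b + (k - a) = k + b - a by ring] at this
    exact this.symm
  refine isMF_iff.mpr ⟨hmd, fun γ hγ => ?_, fun γ => ?_⟩
  · apply eq_of_mul_eq_of_regular hne
    · rw [hslA γ, hf.slash_eq hγ, mul_regularQuot_left h hne]
    · rw [hslB γ, hg.slash_eq hγ, mul_regularQuot_right h hne]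
  · apply isBoundedAtImInfty_of_mul hA1
    rw [hslA γ]
    exact hf.bdd γ

/-- If `u = O(D)` at `i∞` with `D` nowhere zero then `u / D` is bounded at `i∞`. -/
theorem isBoundedAtImInfty_div_of_isBigO {u D : ℍ → ℂ} (hD : ∀ τ, D τ ≠ 0)
    (h : u =O[atImInfty] D) : IsBoundedAtImInfty (u / D) := by
  obtain ⟨C, hC⟩ := h.bound
  refine Asymptotics.IsBigO.of_bound C ?_
  filter_upwards [hC] with τ hτ
  simp only [Pi.div_apply, Pi.one_apply, norm_one, mul_one, norm_div]
  rw [div_le_iff₀ (norm_pos_iff.mpr (hD τ))]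
  exact hτ

/-- **Division by a nowhere vanishing level-one cusp form**: a form on `Γ` all of whose
conjugates are `O(E)` at `i∞`, where `E = O(D)`, is divisible by `D`. -/
theorem exists_div_of_isBigO {D : ℍ → ℂ} {d : ℤ} (hD : IsMF1 d D) (hD0 : ∀ τ, D τ ≠ 0)
    {E : ℍ → ℝ} (hED : E =O[atImInfty] D)
    {k : ℤ} {f : ℍ → ℂ} (hf : IsMF Γ k f)
    (hO : ∀ q : SL(2, ℤ) ⧸ Γ, conjFun Γ k f q =O[atImInfty] E) :
    ∃ g : ℍ → ℂ, IsMF Γ (k - d) g ∧ f = D * g := by
  refine ⟨f / D, ?_, ?_⟩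
  · have hsl : ∀ γ : SL(2, ℤ), (f / D) ∣[k - d] γ = (f ∣[k] γ) / D := by
      intro γ
      rw [div_slash_SL2, hD.slash_eq γ]
    refine isMF_iff.mpr ⟨?_, fun γ hγ => ?_, fun γ => ?_⟩
    · intro τ
      rw [mdifferentiableAt_iff]
      have hfd := mdifferentiableAt_iff.mp (hf.mdiff τ)
      have hDd := mdifferentiableAt_iff.mp (hD.mdiff τ)
      have hDτ : (D ∘ ofComplex) (τ : ℂ) ≠ 0 := by simpa using hD0 τ
      exact hfd.div hDd hDτ
    · rw [hsl γ, hf.slash_eq hγ]
    · rw [hsl γ]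
      apply isBoundedAtImInfty_div_of_isBigO hD0
      have := hO ((γ⁻¹ : SL(2, ℤ)) : SL(2, ℤ) ⧸ Γ)
      rw [conjFun_mk (fun γ hγ => hf.slash_eq hγ), inv_inv] at this
      exact this.trans hED
  · funext τ
    simp only [Pi.mul_apply, Pi.div_apply]
    rw [mul_div_cancel₀ _ (hD0 τ)]

/-- **Division lemma for `(E₄, E₆)`**: if `E₆ f = E₄ g` then `f = E₄ h'`, `g = E₆ h'`. -/
theorem exists_div_E4 {k : ℤ} {f g : ℍ → ℂ} (hf : IsMF Γ k f) (hg : IsMF Γ (k + 2) g)
    (h : E6f * f = E4f * g) :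
    ∃ h' : ℍ → ℂ, IsMF Γ (k - 4) h' ∧ f = E4f * h' ∧ g = E6f * h' :=
  exists_div_of_regular isMF1_E4f isMF1_E6f E4f_or_E6f_ne_zero tendsto_E4f hf
    (hg.congr_weight (by ring)) h

/-- **Division by `Δ`**: a form all of whose conjugates are `O(exp (-2π Im τ))` at `i∞` is
divisible by `Δ`. -/
theorem exists_div_Δ {k : ℤ} {f : ℍ → ℂ} (hf : IsMF Γ k f)
    (hO : ∀ q : SL(2, ℤ) ⧸ Γ,
      conjFun Γ k f q =O[atImInfty] fun τ : ℍ => Real.exp (-2 * π * τ.im)) :
    ∃ g : ℍ → ℂ, IsMF Γ (k - 12) g ∧ f = Δf * g :=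
  exists_div_of_isBigO isMF1_Δf Δf_ne_zero
    (E := fun τ : ℍ => Real.exp (-2 * π * τ.im)) ModularForm.exp_isBigO_discriminant hf hO

end Fermat.Agent.S20.Free
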