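import Fermat.Agent.S20.Free.FreeBasisMF
import Fermat.Agent.S20.Free.Regular

/-!
# P-S20-FREE: homogeneous free generators of `M_*(Γ)` over `M_*(SL(2,ℤ))`, unconditionally

`FreeBasisMF.lean` instantiates the abstract free basis theorem with the division lemma as a
hypothesis; `Regular.lean` proves the division lemma.  This file puts the two together.
-/

set_option autoImplicit false

open UpperHalfPlane ModularForm SlashInvariantForm Filter Matrix.SpecialLinearGroup
open scoped MatrixGroups ModularForm Manifold Topology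

namespace Fermat.Agent.S20.Free

variable {Γ : Subgroup SL(2, ℤ)} [Γ.FiniteIndex]

/-- **Homogeneous free generators** of the modular forms on `Γ` over the level-one ring, with an
abstract index type `J`: every form of weight `k` on `Γ` is a combination `∑ r j * F j` with
level-one coefficients of weight `k - a j`, and such combinations vanish only trivially. -/
theorem exists_free_generators_mf_uncond :
    ∃ (J : Type) (a : J → ℤ) (F : J → ℍ → ℂ),
      (∀ j, 0 ≤ a j) ∧ (∀ j, IsMF Γ (a j) (F j)) ∧
      (∀ (k : ℤ) (f : ℍ → ℂ), IsMF Γ k f → ∃ (S : Finset J) (r : J → ℍ → ℂ),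
        (∀ j, IsMF1 (k - a j) (r j)) ∧ f = ∑ j ∈ S, r j * F j) ∧
      (∀ (k : ℤ) (S : Finset J) (r : J → ℍ → ℂ), (∀ j ∈ S, IsMF1 (k - a j) (r j)) →
        ∑ j ∈ S, r j * F j = 0 → ∀ j ∈ S, r j = 0) :=
  exists_free_generators_mf fun _ _ _ hf hg h => by
    obtain ⟨h', hh', e, -⟩ := exists_div_E4 hf hg h
    exact ⟨h', hh', e⟩

end Fermat.Agent.S20.Free
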