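import Mathlib
import Fermat.Agent.S20.Free.Structure
import Fermat.Agent.S24.Growth

/-!
helper32 (P-S20-FREE, WP-SEP).  A weight 12 form on `Γ₀(N)` with pairwise distinct conjugates:
`sepFun N = Δ ∣[12] diag(N, 1) = N¹¹ Δ(N τ)`.

* `sepFun_slash_of_mem_Gamma0` : invariance under `Γ₀(N)`;
* `sepFun_slash_eq_upper` : every conjugate is `Δ ∣[12] !![a, b; 0, d]` with `a d = N`;
* `mem_Gamma0_of_sepFun_slash_eq` : the stabiliser of `sepFun N` in `SL(2, ℤ)` is `Γ₀(N)`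
  (growth comparison at `i∞`);
* `separates_sepFun`, `exists_separates`.
-/

set_option autoImplicit false

open UpperHalfPlane ModularForm Filter Asymptotics Matrix.SpecialLinearGroup
open scoped MatrixGroups ModularForm Manifold Topology Real

namespace Fermat.Agent.S20.Free

local notation "Δ" => ModularForm.discriminant

/-- comparing exponential rates at `i∞` -/
theorem sep_rate_le_of_isBigO {c₁ c₂ : ℝ}
    (h : (fun τ : ℍ => Real.exp (-(c₁ * τ.im))) =O[atImInfty]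
      fun τ : ℍ => Real.exp (-(c₂ * τ.im))) : c₂ ≤ c₁ := by
  by_contra hlt
  push Not at hlt
  obtain ⟨C, hC⟩ := h.bound
  rw [Filter.Eventually, atImInfty_mem] at hC
  obtain ⟨A, hA⟩ := hC
  set δ := c₂ - c₁ with hδ
  have hδpos : 0 < δ := by linarith
  set y : ℝ := max (max A 1) (|C| / δ + 1) with hy
  have hy1 : 1 ≤ y := (le_max_right A 1).trans (le_max_left _ _)
  have hyA : A ≤ y := (le_max_left A 1).trans (le_max_left _ _)
  have hyC : |C| / δ + 1 ≤ y := le_max_right _ _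
  have hypos : 0 < y := by linarith
  have key := hA ⟨⟨0, y⟩, hypos⟩ hyA
  simp only [Set.mem_ofPred_eq, Real.norm_eq_abs, abs_of_pos (Real.exp_pos _)] at key
  have him : (⟨⟨0, y⟩, hypos⟩ : ℍ).im = y := rfl
  rw [him] at key
  -- exp (δ y) ≤ C
  have h1 : Real.exp (δ * y) ≤ C := by
    have hpos : 0 < Real.exp (-(c₂ * y)) := Real.exp_pos _
    have : Real.exp (-(c₁ * y)) = Real.exp (δ * y) * Real.exp (-(c₂ * y)) := by
      rw [← Real.exp_add]; congr 1; rw [hδ]; ring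
    rw [this] at key
    exact le_of_mul_le_mul_right key hpos
  have h2 : δ * y + 1 ≤ Real.exp (δ * y) := Real.add_one_le_exp _
  have h3 : |C| < δ * y := by
    have : |C| / δ < y := by linarith
    rwa [div_lt_iff₀ hδpos, mul_comm] at this
  have h4 : C ≤ |C| := le_abs_self C
  linarith

/-- `Δ` as a plain function. -/
noncomputable def sepΔ : ℍ → ℂ := fun z => Δ z

/-- slash of `Δ` by an upper triangular matrix of positive determinant -/
theorem sepΔ_slash_upper_apply {u : GL (Fin 2) ℝ} (h10 : u 1 0 = 0) (hdet : 0 < u.det.val)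
    (τ : ℍ) :
    (sepΔ ∣[(12 : ℤ)] u) τ =
      Δ (u • τ) * (((u.det.val : ℝ) : ℂ) ^ (11 : ℤ) * ((u 1 1 : ℝ) : ℂ) ^ (-12 : ℤ)) := by
  rw [ModularForm.slash_apply]
  have hdet' : 0 < (u : Matrix (Fin 2) (Fin 2) ℝ).det := by
    rwa [← Matrix.GeneralLinearGroup.val_det_apply]
  have hσ : σ u (sepΔ (u • τ)) = sepΔ (u • τ) := by
    simp [σ, hdet']
  rw [hσ, abs_of_pos hdet]
  simp only [denom, h10, Complex.ofReal_zero, zero_mul, zero_add, sepΔ]
  norm_num
  ring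

theorem sepΔ_slash_upper_const_ne_zero {u : GL (Fin 2) ℝ} (h10 : u 1 0 = 0)
    (hdet : 0 < u.det.val) :
    (((u.det.val : ℝ) : ℂ) ^ (11 : ℤ) * ((u 1 1 : ℝ) : ℂ) ^ (-12 : ℤ)) ≠ 0 := by
  have hd : u.det.val = u 0 0 * u 1 1 := by
    have := Matrix.det_fin_two (u : Matrix (Fin 2) (Fin 2) ℝ)
    simp only [h10, mul_zero, sub_zero] at this
    simpa using this
  have h11 : u 1 1 ≠ 0 := by
    intro h; rw [hd, h, mul_zero] at hdet; exact lt_irrefl _ hdet
  refine mul_ne_zero (zpow_ne_zero _ ?_) (zpow_ne_zero _ ?_)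
  · exact_mod_cast hdet.ne'
  · exact_mod_cast h11

/-- upper bound for the growth of `Δ ∣ u` -/
theorem sepΔ_slash_upper_isBigO {u : GL (Fin 2) ℝ} (h10 : u 1 0 = 0) (hdet : 0 < u.det.val) :
    (sepΔ ∣[(12 : ℤ)] u) =O[atImInfty]
      fun τ : ℍ => Real.exp (-(2 * π * (u 0 0 / u 1 1) * τ.im)) := by
  have h1 : (fun τ : ℍ => Δ τ) =O[atImInfty] fun τ : ℍ => Real.exp (-(2 * π * τ.im)) := by
    have := Fermat.Agent.S24.discriminant_pow_isBigO_exp 1
    simpa using this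
  have h2 := h1.comp_tendsto (tendsto_smul_atImInfty h10)
  have h4 : (fun _ : ℍ => (((u.det.val : ℝ) : ℂ) ^ (11 : ℤ) *
      ((u 1 1 : ℝ) : ℂ) ^ (-12 : ℤ))) =O[atImInfty] fun _ : ℍ => (1 : ℝ) :=
    isBigO_const_const _ one_ne_zero _
  have h5 := h2.mul h4
  refine (h5.congr_left ?_).congr_right ?_
  · intro τ
    rw [sepΔ_slash_upper_apply h10 hdet]
    rfl
  · intro τ
    simp only [Function.comp_apply, mul_one]
    rw [Fermat.Agent.S24.im_smul_of_upper h10 hdet]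
    congr 1; ring

/-- lower bound for the growth of `Δ ∣ u` -/
theorem isBigO_sepΔ_slash_upper {u : GL (Fin 2) ℝ} (h10 : u 1 0 = 0) (hdet : 0 < u.det.val) :
    (fun τ : ℍ => Real.exp (-(2 * π * (u 0 0 / u 1 1) * τ.im))) =O[atImInfty]
      (sepΔ ∣[(12 : ℤ)] u) := by
  have h1 : (fun τ : ℍ => Real.exp (-2 * π * τ.im)) =O[atImInfty] fun τ : ℍ => Δ τ :=
    ModularForm.exp_isBigO_discriminant
  have h2 := h1.comp_tendsto (tendsto_smul_atImInfty h10)
  have hc := sepΔ_slash_upper_const_ne_zero h10 hdet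
  have h4 : (fun _ : ℍ => (1 : ℝ)) =O[atImInfty] (fun _ : ℍ =>
      (((u.det.val : ℝ) : ℂ) ^ (11 : ℤ) * ((u 1 1 : ℝ) : ℂ) ^ (-12 : ℤ))) :=
    isBigO_const_const _ hc _
  have h5 := h2.mul h4
  refine (h5.congr_left ?_).congr_right ?_
  · intro τ
    simp only [Function.comp_apply, mul_one]
    rw [Fermat.Agent.S24.im_smul_of_upper h10 hdet]
    congr 1; ring
  · intro τ
    rw [sepΔ_slash_upper_apply h10 hdet]
    rfl

theorem sepΔ_mdiff : MDiff sepΔ := CuspForm.discriminant.holo'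

theorem sepΔ_slash_SL (γ : SL(2, ℤ)) : sepΔ ∣[(12 : ℤ)] γ = sepΔ :=
  CuspForm.discriminant.slash_action_eq' _ ⟨γ, rfl⟩

theorem sepΔ_isBoundedAtImInfty : IsBoundedAtImInfty sepΔ :=
  ModularForm.discriminant_isZeroAtImInfty.isBoundedAtImInfty

/-- equal slashes of `Δ` by upper triangular matrices have the same ratio `u₀₀ / u₁₁` -/
theorem sep_ratio_eq_of_slash_eq {u v : GL (Fin 2) ℝ} (hu10 : u 1 0 = 0) (hudet : 0 < u.det.val)
    (hv10 : v 1 0 = 0) (hvdet : 0 < v.det.val)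
    (h : sepΔ ∣[(12 : ℤ)] u = sepΔ ∣[(12 : ℤ)] v) : u 0 0 / u 1 1 = v 0 0 / v 1 1 := by
  have key : ∀ {u v : GL (Fin 2) ℝ}, u 1 0 = 0 → 0 < u.det.val → v 1 0 = 0 → 0 < v.det.val →
      sepΔ ∣[(12 : ℤ)] u = sepΔ ∣[(12 : ℤ)] v → v 0 0 / v 1 1 ≤ u 0 0 / u 1 1 := by
    intro u v hu10 hudet hv10 hvdet h
    have h1 := isBigO_sepΔ_slash_upper hu10 hudet
    rw [h] at h1
    have h2 := h1.trans (sepΔ_slash_upper_isBigO hv10 hvdet)
    have h3 := sep_rate_le_of_isBigO h2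
    have hpi : 0 < 2 * π := by positivity
    exact le_of_mul_le_mul_left h3 hpi
  exact le_antisymm (key hv10 hvdet hu10 hudet h.symm) (key hu10 hudet hv10 hvdet h)

variable (N : ℕ) [NeZero N]

/-- the matrix `diag(N, 1)` -/
noncomputable def sepDiag : GL (Fin 2) ℝ :=
  Matrix.GeneralLinearGroup.mkOfDetNeZero !![(N : ℝ), 0; 0, 1]
    (by simp [Matrix.det_fin_two_of, NeZero.ne])

theorem sepDiag_val : (sepDiag N : Matrix (Fin 2) (Fin 2) ℝ) = !![(N : ℝ), 0; 0, 1] := rfl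

theorem sepDiag_det_pos : 0 < (sepDiag N).det.val := by
  rw [Matrix.GeneralLinearGroup.val_det_apply, sepDiag_val, Matrix.det_fin_two_of]
  have : (0 : ℝ) < N := Nat.cast_pos.mpr (NeZero.pos N)
  simpa using this

/-- `N¹¹ Δ(N τ)`, as the slash of `Δ` by `diag(N, 1)` -/
noncomputable def sepFun : ℍ → ℂ := sepΔ ∣[(12 : ℤ)] sepDiag N

theorem sepFun_mdiff : MDiff (sepFun N) := sepΔ_mdiff.slash 12 _

theorem sepFun_slash (γ : SL(2, ℤ)) :
    sepFun N ∣[(12 : ℤ)] γ = sepΔ ∣[(12 : ℤ)] (sepDiag N * (γ : GL (Fin 2) ℝ)) := by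
  rw [sepFun, ModularForm.SL_slash, ← SlashAction.slash_mul]

/-- the integer matrix of `diag(N,1) * γ` -/
def sepMat (γ : SL(2, ℤ)) : Matrix (Fin 2) (Fin 2) ℤ :=
  !![(N : ℤ) * γ 0 0, (N : ℤ) * γ 0 1; γ 1 0, γ 1 1]

theorem sepMat_spec (γ : SL(2, ℤ)) :
    ((sepDiag N * (γ : GL (Fin 2) ℝ) : GL (Fin 2) ℝ) : Matrix (Fin 2) (Fin 2) ℝ) =
      (sepMat N γ).map (Int.cast : ℤ → ℝ) := by
  ext i j
  fin_cases i <;> fin_cases j <;>
    simp [sepMat, sepDiag_val, Matrix.mul_apply, Fin.sum_univ_two]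

omit [NeZero N] in
theorem sepMat_det (γ : SL(2, ℤ)) : (sepMat N γ).det = N := by
  have h := γ.det_coe
  rw [Matrix.det_fin_two] at h
  rw [sepMat, Matrix.det_fin_two_of]
  linear_combination (N : ℤ) * h

theorem sepDiag_mul_det_pos (γ : SL(2, ℤ)) :
    0 < (sepDiag N * (γ : GL (Fin 2) ℝ)).det.val := by
  rw [map_mul, Units.val_mul]
  have : ((γ : GL (Fin 2) ℝ)).det.val = 1 := by simp
  rw [this, mul_one]
  exact sepDiag_det_pos N

/-- every conjugate of `sepFun` is the slash of `Δ` by an upper triangular integer matrix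
`!![a, b; 0, d]` with `a d = N`, and the bottom-left entry of `γ` is `γ'₁₀ * a` -/
theorem sepFun_slash_eq_upper (γ : SL(2, ℤ)) :
    ∃ (γ' : SL(2, ℤ)) (u : GL (Fin 2) ℝ) (a b d : ℤ), 0 < a ∧ 0 < d ∧ a * d = N ∧
      (u : Matrix (Fin 2) (Fin 2) ℝ) = !![(a : ℝ), (b : ℝ); 0, (d : ℝ)] ∧
      sepFun N ∣[(12 : ℤ)] γ = sepΔ ∣[(12 : ℤ)] u ∧ γ 1 0 = γ' 1 0 * a := by
  obtain ⟨γ', u, a, b, d, ha, hd, had, hu, hg⟩ :=
    Fermat.Agent.S24.exists_SL2_mul_upper_GL _ (sepMat N γ) (sepMat_spec N γ)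
      (sepDiag_mul_det_pos N γ)
  refine ⟨γ', u, a, b, d, ha, hd, by rw [had, sepMat_det], hu, ?_, ?_⟩
  · rw [sepFun_slash, hg, SlashAction.slash_mul, ← ModularForm.SL_slash, sepΔ_slash_SL]
  · have h0 := sepMat_spec N γ
    rw [hg, Units.val_mul, hu] at h0
    have h1 := congrFun (congrFun h0 1) 0
    simp [sepMat, Matrix.mul_apply, Fin.sum_univ_two] at h1
    exact_mod_cast h1.symm

/-- conjugates of `sepFun` are bounded at `i∞` -/
theorem sepFun_slash_isBoundedAtImInfty (γ : SL(2, ℤ)) :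
    IsBoundedAtImInfty (sepFun N ∣[(12 : ℤ)] γ) := by
  obtain ⟨γ', u, a, b, d, ha, hd, had, hu, hslash, -⟩ := sepFun_slash_eq_upper N γ
  rw [hslash]
  have h10 : u 1 0 = 0 := by
    have := congrFun (congrFun hu 1) 0
    simpa using this
  exact UpperHalfPlane.IsBoundedAtImInfty.slash 12 h10 sepΔ_isBoundedAtImInfty

/-- `sepFun` is invariant under `Γ₀(N)` -/
theorem sepFun_slash_of_mem_Gamma0 {γ : SL(2, ℤ)} (hγ : γ ∈ CongruenceSubgroup.Gamma0 N) :
    sepFun N ∣[(12 : ℤ)] γ = sepFun N := by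
  rw [CongruenceSubgroup.Gamma0_mem] at hγ
  obtain ⟨c', hc'⟩ : (N : ℤ) ∣ γ 1 0 := (ZMod.intCast_zmod_eq_zero_iff_dvd _ _).mp hγ
  have hdet := γ.det_coe
  rw [Matrix.det_fin_two] at hdet
  have hγ''det : (!![γ 0 0, (N : ℤ) * γ 0 1; c', γ 1 1] : Matrix (Fin 2) (Fin 2) ℤ).det = 1 := by
    rw [Matrix.det_fin_two_of]
    rw [hc'] at hdet
    linear_combination hdet
  set γ'' : SL(2, ℤ) := ⟨!![γ 0 0, (N : ℤ) * γ 0 1; c', γ 1 1], hγ''det⟩ with hγ''
  have e00 : (γ'' : Matrix (Fin 2) (Fin 2) ℤ) 0 0 = γ 0 0 := rfl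
  have e01 : (γ'' : Matrix (Fin 2) (Fin 2) ℤ) 0 1 = (N : ℤ) * γ 0 1 := rfl
  have e10 : (γ'' : Matrix (Fin 2) (Fin 2) ℤ) 1 0 = c' := rfl
  have e11 : (γ'' : Matrix (Fin 2) (Fin 2) ℤ) 1 1 = γ 1 1 := rfl
  have hcomm : sepDiag N * (γ : GL (Fin 2) ℝ) = (γ'' : GL (Fin 2) ℝ) * sepDiag N := by
    apply Units.ext
    ext i j
    fin_cases i <;> fin_cases j <;>
      simp [sepDiag_val, Matrix.mul_apply, Fin.sum_univ_two, e00, e01, e10, e11, hc', mul_comm]
  rw [sepFun_slash, hcomm, SlashAction.slash_mul, ← ModularForm.SL_slash, sepΔ_slash_SL, sepFun]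

/-- the stabiliser of `sepFun` in `SL(2, ℤ)` is contained in `Γ₀(N)` -/
theorem mem_Gamma0_of_sepFun_slash_eq {γ : SL(2, ℤ)} (h : sepFun N ∣[(12 : ℤ)] γ = sepFun N) :
    γ ∈ CongruenceSubgroup.Gamma0 N := by
  obtain ⟨γ', u, a, b, d, ha, hd, had, hu, hslash, h10⟩ := sepFun_slash_eq_upper N γ
  have hu10 : u 1 0 = 0 := by
    have := congrFun (congrFun hu 1) 0
    simpa using this
  have hu00 : u 0 0 = a := by
    have := congrFun (congrFun hu 0) 0
    simpa using this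
  have hu11 : u 1 1 = d := by
    have := congrFun (congrFun hu 1) 1
    simpa using this
  have haR : (0 : ℝ) < a := by exact_mod_cast ha
  have hdR : (0 : ℝ) < d := by exact_mod_cast hd
  have hudet : 0 < u.det.val := by
    rw [Matrix.GeneralLinearGroup.val_det_apply, hu, Matrix.det_fin_two_of]
    simp only [mul_zero, sub_zero]
    positivity
  have hD10 : (sepDiag N) 1 0 = 0 := by simp [sepDiag_val]
  have hratio := sep_ratio_eq_of_slash_eq hu10 hudet hD10 (sepDiag_det_pos N)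
    (by rw [← hslash, h, sepFun])
  rw [hu00, hu11] at hratio
  have hD00 : (sepDiag N) 0 0 = N := by simp [sepDiag_val]
  have hD11 : (sepDiag N) 1 1 = 1 := by simp [sepDiag_val]
  rw [hD00, hD11, div_one, div_eq_iff hdR.ne'] at hratio
  -- a = N * d in ℤ
  have haNd : a = N * d := by exact_mod_cast hratio
  have hd1 : d = 1 := by
    have hN : (N : ℤ) ≠ 0 := by exact_mod_cast NeZero.ne N
    have h1 : (N : ℤ) * (d * d) = N * 1 := by
      have h0 := had
      rw [haNd] at h0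
      rw [mul_one]
      linear_combination h0
    have h2 : d * d = 1 := mul_left_cancel₀ hN h1
    nlinarith
  rw [CongruenceSubgroup.Gamma0_mem, h10, haNd, hd1]
  simp

/-- **Separation.** The weight 12 form `N¹¹ Δ(N τ)` on `Γ₀(N)` has pairwise distinct
conjugates. -/
theorem separates_sepFun : Separates (CongruenceSubgroup.Gamma0 N) 12 (sepFun N) := by
  have hinv : ∀ γ ∈ CongruenceSubgroup.Gamma0 N, sepFun N ∣[(12 : ℤ)] γ = sepFun N :=
    fun γ hγ => sepFun_slash_of_mem_Gamma0 N hγ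
  refine ⟨isMF_iff.mpr ⟨sepFun_mdiff N, hinv, sepFun_slash_isBoundedAtImInfty N⟩, ?_⟩
  intro q q' hqq' heq
  apply hqq'
  unfold conjFun at heq
  have h1 : sepFun N ∣[(12 : ℤ)] ((Quotient.out q)⁻¹ * Quotient.out q') = sepFun N := by
    rw [SlashAction.slash_mul, heq, ← SlashAction.slash_mul, inv_mul_cancel,
      SlashAction.slash_one]
  have h2 := mem_Gamma0_of_sepFun_slash_eq N h1
  have h3 : ((Quotient.out q : SL(2, ℤ)) : SL(2, ℤ) ⧸ CongruenceSubgroup.Gamma0 N) =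
      ((Quotient.out q' : SL(2, ℤ)) : SL(2, ℤ) ⧸ CongruenceSubgroup.Gamma0 N) :=
    QuotientGroup.eq.mpr h2
  rwa [QuotientGroup.out_eq', QuotientGroup.out_eq'] at h3

theorem exists_separates : ∃ (w : ℤ) (u : ℍ → ℂ), Separates (CongruenceSubgroup.Gamma0 N) w u :=
  ⟨12, sepFun N, separates_sepFun N⟩

end Fermat.Agent.S20.Free
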