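import Fermat.Agent.S20.Free.Rank
import Fermat.Agent.S20.Free.Instantiate
import Fermat.Agent.S20.Free.DetODE
import Fermat.Agent.S20.Free.Separation

/-!
# P-S20-FREE: existence of a free basis indexed by the coset space

Combines the abstract free generators (`Instantiate`), the rank computation (`Rank`) and the
determinant ODE (`DetODE`): for `Γ` with a separating form there is an `IsFreeBasis Γ wt F` whose
matrix of conjugates is invertible at every point of `ℍ`.
-/

set_option autoImplicit false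

open UpperHalfPlane ModularForm SlashInvariantForm Filter Matrix.SpecialLinearGroup
open scoped MatrixGroups ModularForm Manifold Topology

namespace Fermat.Agent.S20.Free

variable {Γ : Subgroup SL(2, ℤ)} [Γ.FiniteIndex]

/-- A free basis indexed by `SL(2,ℤ) ⧸ Γ` exists as soon as some form separates the cosets, and
its matrix of conjugates is invertible everywhere. -/
theorem exists_isFreeBasis_of_separates {w : ℤ} {u : ℍ → ℂ} (hu : Separates Γ w u) :
    ∃ (wt : SL(2, ℤ) ⧸ Γ → ℤ) (F : SL(2, ℤ) ⧸ Γ → ℍ → ℂ),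
      IsFreeBasis Γ wt F ∧ ∀ τ, (conjMatrix Γ wt F τ).det ≠ 0 := by
  obtain ⟨J, a, F, -, hMF, hspan, hindep⟩ := exists_free_generators_mf_uncond (Γ := Γ)
  obtain ⟨e, hB, hdet⟩ := rank_exists_equiv hMF
    (fun k f hf => by
      obtain ⟨S, r, hr, hf'⟩ := hspan k f hf
      exact ⟨S, r, fun j _ => hr j, hf'⟩)
    hindep hu
  exact ⟨a ∘ e, F ∘ e, hB, det_conjMatrix_ne_zero hB hdet⟩

/-- The free basis for `Γ₀(N)`. -/
theorem exists_isFreeBasis_Gamma0 (N : ℕ) [NeZero N] :
    ∃ (wt : SL(2, ℤ) ⧸ CongruenceSubgroup.Gamma0 N → ℤ)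
      (F : SL(2, ℤ) ⧸ CongruenceSubgroup.Gamma0 N → ℍ → ℂ),
      IsFreeBasis (CongruenceSubgroup.Gamma0 N) wt F ∧
        ∀ τ, (conjMatrix (CongruenceSubgroup.Gamma0 N) wt F τ).det ≠ 0 := by
  obtain ⟨w, u, hu⟩ := exists_separates N
  exact exists_isFreeBasis_of_separates hu

end Fermat.Agent.S20.Free
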