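import Fermat.Agent.S20.Free.Structure
import Fermat.Agent.S20.Free.LevelOne
import Fermat.Agent.S20.Free.Regular
import Fermat.Agent.S20.Free.DetODE

/-!
# P-S20-FREE: the leading matrix of a free basis is invertible (helper20, backup of `Leading`)

If a constant vector `c` makes every row `∑ j, Φ τ q j * c j` of the conjugate matrix of a free
basis decay like `exp (-2π Im τ)`, then `c = 0`.  This is exactly the hypothesis `hH` of the
abstract cusp theorem (`cusp_abstract`).
-/

set_option autoImplicit false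

open UpperHalfPlane ModularForm SlashInvariantForm Filter Matrix.SpecialLinearGroup Asymptotics
open scoped MatrixGroups ModularForm Manifold Topology Real

namespace Fermat.Agent.S20.Free

namespace LeadingIndep

variable {Γ : Subgroup SL(2, ℤ)} [Γ.FiniteIndex]
variable {wt : SL(2, ℤ) ⧸ Γ → ℤ} {F : SL(2, ℤ) ⧸ Γ → ℍ → ℂ}

/-- A level one form tending to `1` at `i∞` is `1 + O(exp (-2π Im τ))`. -/
theorem isBigO_sub_one {k : ℤ} {m : ℍ → ℂ} (hm : IsMF1 k m) (h1 : Tendsto m atImInfty (𝓝 1)) :
    (fun τ => m τ - 1) =O[atImInfty] fun τ : ℍ => Real.exp (-2 * π * τ.im) := by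
  obtain ⟨M, rfl⟩ := hm
  have hper : Function.Periodic ((M : ℍ → ℂ) ∘ ofComplex) (1 : ℝ) :=
    SlashInvariantFormClass.periodic_comp_ofComplex M one_mem_strictPeriods_SL
  have hbd : IsBoundedAtImInfty (M : ℍ → ℂ) := (isMF1_iff.mp ⟨M, rfl⟩).2.2
  have h := UpperHalfPlane.exp_decay_sub_atImInfty (h := 1) one_pos hper M.holo' hbd
  have hv : valueAtInfty (M : ℍ → ℂ) = 1 := h1.limUnder_eq
  rw [hv] at h
  simpa using h

/-- **The leading matrix is invertible**, in the form consumed by the abstract cusp theorem. -/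
theorem eq_zero_of_isBigO (hB : IsFreeBasis Γ wt F) (hev : ∀ j, Even (wt j))
    (c : SL(2, ℤ) ⧸ Γ → ℂ)
    (hc : ∀ q, (fun τ => ∑ j, conjMatrix Γ wt F τ q j * c j) =O[atImInfty]
      fun τ : ℍ => Real.exp (-2 * π * τ.im)) : c = 0 := by
  classical
  -- a common weight
  set K : ℤ := 4 + ∑ l, wt l with hK
  have hwt0 : ∀ j, 0 ≤ wt j := wt_nonneg hB
  have hK4 : ∀ j, 4 ≤ K - wt j := by
    intro j
    have : wt j ≤ ∑ l, wt l :=
      Finset.single_le_sum (fun l _ => hwt0 l) (Finset.mem_univ j)
    omega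
  have hKev : ∀ j, Even (K - wt j) := by
    intro j
    have h1 : Even (∑ l, wt l) := Finset.even_sum _ fun l _ => hev l
    have h4 : Even (4 : ℤ) := ⟨2, by norm_num⟩
    exact (h4.add h1).sub (hev j)
  choose m hm hm1 using fun j => exists_monomial (hK4 j) (hKev j)
  -- the form `f = ∑ c_j m_j F_j` of weight `K`
  set f : ℍ → ℂ := ∑ j, c j • (m j * F j) with hf
  have hmF : ∀ j, IsMF Γ K (m j * F j) := fun j =>
    (((hm j).isMF (Γ := Γ)).mul (hB.isMF j)).congr_weight (by ring)
  have hfMF : IsMF Γ K f := IsMF.sum _ fun j _ => (hmF j).smul (c j)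
  -- conjugates of `f`
  have hconj : ∀ q τ, conjFun Γ K f q τ = ∑ j, c j * (m j τ * conjMatrix Γ wt F τ q j) := by
    intro q τ
    rw [hf, conjFun_sum, Finset.sum_apply]
    refine Finset.sum_congr rfl fun j _ => ?_
    rw [conjFun_smul]
    have hw : K = (K - wt j) + wt j := by ring
    have h2 : conjFun Γ K (m j * F j) q = conjFun Γ ((K - wt j) + wt j) (m j * F j) q :=
      DetODE.conjFun_congr_weight hw _ q
    rw [h2, conjFun_mul, conjFun_of_isMF1 (hm j)]
    simp [conjMatrix]
  have hO : ∀ q, conjFun Γ K f q =O[atImInfty] fun τ : ℍ => Real.exp (-2 * π * τ.im) := by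
    intro q
    have hsplit : conjFun Γ K f q = fun τ => (∑ j, conjMatrix Γ wt F τ q j * c j) +
        ∑ j, c j * ((m j τ - 1) * conjMatrix Γ wt F τ q j) := by
      funext τ
      rw [hconj q τ, ← Finset.sum_add_distrib]
      refine Finset.sum_congr rfl fun j _ => ?_
      ring
    rw [hsplit]
    refine (hc q).add (IsBigO.fun_sum fun j _ => ?_)
    have hb : IsBoundedAtImInfty (fun τ => conjMatrix Γ wt F τ q j) :=
      (hB.isMF j).bdd_conjFun q
    have h1 : (fun τ => (m j τ - 1) * conjMatrix Γ wt F τ q j) =O[atImInfty]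
        fun τ : ℍ => Real.exp (-2 * π * τ.im) * (1 : ℝ) :=
      (isBigO_sub_one (hm j) (hm1 j)).mul hb
    simp only [mul_one] at h1
    exact h1.const_mul_left (c j)
  -- divide by `Δ`
  obtain ⟨g, hg, hfg⟩ := exists_div_Δ hfMF hO
  obtain ⟨r, hr, hgr⟩ := hB.span (K - 12) g hg
  -- compare coefficients
  have hcoef : ∀ j, IsMF1 (K - wt j) (c j • m j - Δf * r j) := by
    intro j
    refine ((hm j).smul (c j)).sub ?_
    exact (isMF1_Δf.mul (hr j)).congr_weight (by ring)
  have hsum0 : ∑ j, (c j • m j - Δf * r j) * F j = 0 := by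
    have h1 : ∑ j, (c j • m j - Δf * r j) * F j = f - Δf * g := by
      rw [hf, hgr, Finset.mul_sum, ← Finset.sum_sub_distrib]
      refine Finset.sum_congr rfl fun j _ => ?_
      funext τ
      simp only [Pi.sub_apply, Pi.mul_apply, Pi.smul_apply, smul_eq_mul]
      ring
    rw [h1, hfg, sub_self]
  have hzero := hB.indep K _ hcoef hsum0
  funext j
  -- take the limit at `i∞`
  have hlim1 : Tendsto (fun τ => c j * m j τ) atImInfty (𝓝 (c j * 1)) :=
    (hm1 j).const_mul (c j)
  have hbr : IsBoundedAtImInfty (r j) := (hr j).bdd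
  have hlim2 : Tendsto (fun τ => Δf τ * r j τ) atImInfty (𝓝 0) := by
    have : IsZeroAtImInfty (Δf * r j) :=
      (isCF1_Δf.zero_at : ZeroAtFilter atImInfty Δf).mul_boundedAtFilter hbr
    exact this
  have heq : (fun τ => c j * m j τ) = fun τ => Δf τ * r j τ := by
    funext τ
    have := congrFun (hzero j) τ
    simp only [Pi.sub_apply, Pi.mul_apply, Pi.smul_apply, smul_eq_mul, Pi.zero_apply,
      sub_eq_zero] at this
    exact this
  rw [heq] at hlim1
  have := tendsto_nhds_unique hlim1 hlim2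
  simpa using this

end LeadingIndep

end Fermat.Agent.S20.Free
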