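import Fermat.Agent.S20.Free.CuspExp
import Fermat.Agent.S20.Free.LeadingIndep
import Fermat.Agent.S20.Free.DualBasis
import Fermat.Agent.S20.Free.FreeBasisExists
import Fermat.Agent.S20.Free.Assembly

/-!
# P-S20-FREE: the cusp statements (CX1), (CX2) and the dimension formula (helper20)

We combine `CuspExp` (helper21: expansions of the conjugate matrix at `i∞`) with `LeadingIndep`
(the leading matrix of a free basis is invertible) and the `Assembly`.
-/

set_option autoImplicit false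

open UpperHalfPlane hiding I
open ModularForm SlashInvariantForm Filter Matrix.SpecialLinearGroup Complex Asymptotics
open scoped MatrixGroups ModularForm Manifold Topology Real

namespace Fermat.Agent.S20.Free

namespace CuspFinal

variable {Γ : Subgroup SL(2, ℤ)} [Γ.FiniteIndex]
variable {wt : SL(2, ℤ) ⧸ Γ → ℤ} {F : SL(2, ℤ) ⧸ Γ → ℍ → ℂ}

/-- The leading matrix of the conjugate matrix of a free basis (with even weights) is
invertible. -/
theorem det_leading_ne_zero (hB : IsFreeBasis Γ wt F) (hev : ∀ j, Even (wt j))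
    {Φ0 : Matrix (CuspIdx Γ) (CuspIdx Γ) ℂ}
    (hlead : CuspMatrix.IsLeading (cuspMatrix Γ wt F) (cuspExponent Γ) Φ0) : Φ0.det ≠ 0 := by
  classical
  intro hdet
  obtain ⟨c', hc'0, hc'⟩ := Matrix.exists_mulVec_eq_zero_iff.mpr hdet
  apply hc'0
  have hT := isTwisted_cuspMatrix (Γ := Γ) (wt := wt) (F := F) hB.isMF
  -- rows of the transformed matrix decay
  have h1 : ∀ i, (fun τ : ℍ => ∑ j, c' j * cuspMatrix Γ wt F τ i j) =O[atImInfty]
      fun τ : ℍ => Real.exp (-2 * π * τ.im) := by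
    intro i
    have := hlead.isBigO_of_mulVec_eq_zero hT hc' (fun _ _ => 1) (fun _ => mdifferentiable_const)
      (fun _ _ => rfl) (fun _ => tendsto_const_nhds) i
    simpa using this
  -- rows of the reindexed conjugate matrix decay
  have hW : IsUnit (rowMatrix Γ).det := isUnit_iff_ne_zero.mpr (rowMatrix_det_ne_zero Γ)
  have h2 : ∀ k, (fun τ : ℍ => ∑ j, c' j * conjMatrixR Γ wt F τ k j) =O[atImInfty]
      fun τ : ℍ => Real.exp (-2 * π * τ.im) := by
    intro k
    have hk : (fun τ : ℍ => ∑ j, c' j * conjMatrixR Γ wt F τ k j) =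
        fun τ : ℍ => ∑ i, (rowMatrix Γ)⁻¹ k i * ∑ j, c' j * cuspMatrix Γ wt F τ i j := by
      funext τ
      have e1 : conjMatrixR Γ wt F τ = (rowMatrix Γ)⁻¹ * cuspMatrix Γ wt F τ := by
        rw [cuspMatrix, ← Matrix.mul_assoc, Matrix.nonsing_inv_mul _ hW, Matrix.one_mul]
      have e2 : ∀ j, conjMatrixR Γ wt F τ k j =
          ∑ i, (rowMatrix Γ)⁻¹ k i * cuspMatrix Γ wt F τ i j := by
        intro j
        rw [e1, Matrix.mul_apply]
      simp_rw [e2, Finset.mul_sum]
      rw [Finset.sum_comm]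
      refine Finset.sum_congr rfl fun i _ => Finset.sum_congr rfl fun j _ => ?_
      ring
    rw [hk]
    exact IsBigO.fun_sum fun i _ => (h1 i).const_mul_left _
  -- back to the coset space
  have h3 : ∀ q, (fun τ => ∑ j, conjMatrix Γ wt F τ q j * (c' (cuspEquiv Γ j))) =O[atImInfty]
      fun τ : ℍ => Real.exp (-2 * π * τ.im) := by
    intro q
    have hq : (fun τ => ∑ j, conjMatrix Γ wt F τ q j * (c' (cuspEquiv Γ j))) =
        fun τ : ℍ => ∑ j, c' j * conjMatrixR Γ wt F τ (cuspEquiv Γ q) j := by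
      funext τ
      rw [← Equiv.sum_comp (cuspEquiv Γ)]
      refine Finset.sum_congr rfl fun j _ => ?_
      rw [conjMatrixR_apply, Equiv.symm_apply_apply, Equiv.symm_apply_apply, mul_comm]
      rfl
    rw [hq]
    exact h2 _
  have h4 := LeadingIndep.eq_zero_of_isBigO hB hev (fun j => c' (cuspEquiv Γ j)) h3
  funext i
  have := congrFun h4 ((cuspEquiv Γ).symm i)
  simpa using this

/-- `Δ` decays like `exp (-2π Im τ)`. -/
theorem isBigO_Δf : Δf =O[atImInfty] fun τ : ℍ => Real.exp (-2 * π * τ.im) := by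
  have h := CuspFormClass.exp_decay_atImInfty (h := 1) CuspForm.discriminant one_pos
    one_mem_strictPeriods_SL
  simp only [div_one] at h
  exact h

/-- **(CX1)** -/
theorem tendsto_det_conjMatrix (hB : IsFreeBasis Γ wt F) (hev : ∀ j, Even (wt j)) :
    ∃ c : ℂ, c ≠ 0 ∧ Tendsto (fun τ : ℍ => (conjMatrix Γ wt F τ).det *
      cexp (-(π * I * ((Nat.card (SL(2, ℤ) ⧸ Γ) : ℂ) - (cuspNum Γ : ℂ)) * (τ : ℂ))))
      atImInfty (𝓝 c) := by
  obtain ⟨Φ0, hlead⟩ := (isTwisted_cuspMatrix (Γ := Γ) (wt := wt) (F := F) hB.isMF).exists_isLeading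
  exact ⟨_, div_ne_zero (det_leading_ne_zero hB hev hlead) (rowMatrix_det_ne_zero Γ),
    tendsto_det_conjMatrix_of_isLeading hlead⟩

/-- **(CX2)** -/
theorem isZeroAtImInfty_Δ_mul_inv (hB : IsFreeBasis Γ wt F) (hev : ∀ j, Even (wt j))
    (q j : SL(2, ℤ) ⧸ Γ) :
    IsZeroAtImInfty (fun τ => Δf τ * ((conjMatrix Γ wt F τ)⁻¹ j q)) := by
  obtain ⟨Φ0, hlead⟩ := (isTwisted_cuspMatrix (Γ := Γ) (wt := wt) (F := F) hB.isMF).exists_isLeading
  exact tendsto_mul_inv_conjMatrix_of_isLeading hlead (det_leading_ne_zero hB hev hlead)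
    isBigO_Δf j q

/-- **The dimension formula** `dim S₂(Γ₀(N)) = genusFormula N`. -/
theorem finrank_cuspForm_Gamma0 (N : ℕ) [NeZero N] :
    (Module.finrank ℂ (CuspForm (CongruenceSubgroup.Gamma0 N) 2) : ℚ) =
      ModularCurve.genusFormula N := by
  obtain ⟨wt, F, hB, hdet⟩ := exists_isFreeBasis_Gamma0 N
  have hev : ∀ j, Even (wt j) := DualBasis.wt_even hB.isMF hdet (Comb.neg_one_mem_Gamma0 N)
  exact Assembly.s20_of_inputs N wt F hB (tendsto_det_conjMatrix hB hev)
    (isZeroAtImInfty_Δ_mul_inv hB hev)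

end CuspFinal

end Fermat.Agent.S20.Free
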