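import Mathlib

/-!
# P-S20-FREE: shared definitions

Function-level predicates for modular forms on a finite-index subgroup `Γ ≤ SL(2,ℤ)`,
and the conjugates `f ∣[k] g⁻¹` indexed by the coset space `SL(2,ℤ) ⧸ Γ`.
-/

set_option autoImplicit false

open UpperHalfPlane ModularForm SlashInvariantForm Filter Matrix.SpecialLinearGroup
open scoped MatrixGroups ModularForm Manifold Topology

namespace Fermat.Agent.S20.Free

variable (Γ : Subgroup SL(2, ℤ))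

/-- `f` is (the underlying function of) a modular form of weight `k` for `Γ`. -/
def IsMF (k : ℤ) (f : ℍ → ℂ) : Prop :=
  ∃ F : ModularForm (Γ : Subgroup (GL (Fin 2) ℝ)) k, ⇑F = f

/-- `f` is (the underlying function of) a cusp form of weight `k` for `Γ`. -/
def IsCF (k : ℤ) (f : ℍ → ℂ) : Prop :=
  ∃ F : CuspForm (Γ : Subgroup (GL (Fin 2) ℝ)) k, ⇑F = f

/-- `f` is a level-one modular form of weight `k` (for Mathlib's `𝒮ℒ`). -/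
def IsMF1 (k : ℤ) (f : ℍ → ℂ) : Prop := ∃ F : ModularForm 𝒮ℒ k, ⇑F = f

/-- `f` is a level-one cusp form of weight `k`. -/
def IsCF1 (k : ℤ) (f : ℍ → ℂ) : Prop := ∃ F : CuspForm 𝒮ℒ k, ⇑F = f

variable {Γ}

lemma mem_coe_iff (γ : SL(2, ℤ)) :
    mapGL ℝ γ ∈ (Γ : Subgroup (GL (Fin 2) ℝ)) ↔ γ ∈ Γ := by
  constructor
  · rintro ⟨δ, hδ, h⟩
    rwa [← mapGL_injective h]
  · intro h
    exact ⟨γ, h, rfl⟩

lemma coe_le_SL : (Γ : Subgroup (GL (Fin 2) ℝ)) ≤ 𝒮ℒ := by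
  rintro _ ⟨γ, -, rfl⟩
  exact ⟨γ, rfl⟩

section characterisation

variable [Γ.FiniteIndex] {k : ℤ} {f : ℍ → ℂ}

lemma isCusp_coe_iff {c : OnePoint ℝ} :
    IsCusp c (Γ : Subgroup (GL (Fin 2) ℝ)) ↔ ∃ g : SL(2, ℤ), c = mapGL ℝ g • OnePoint.infty := by
  rw [Subgroup.IsArithmetic.isCusp_iff_isCusp_SL2Z, isCusp_SL2Z_iff']

/-- Constructor for modular forms on `Γ` from function-level data. -/
noncomputable def mkMF (f : ℍ → ℂ) (k : ℤ) (hol : MDiff f) (hinv : ∀ γ ∈ Γ, f ∣[k] γ = f)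
    (hbd : ∀ γ : SL(2, ℤ), IsBoundedAtImInfty (f ∣[k] γ)) :
    ModularForm (Γ : Subgroup (GL (Fin 2) ℝ)) k where
  toFun := f
  slash_action_eq' := by
    rintro _ ⟨γ, hγ, rfl⟩
    exact hinv γ hγ
  holo' := hol
  bdd_at_cusps' {c} hc := by
    obtain ⟨g, rfl⟩ := isCusp_coe_iff.mp hc
    rw [OnePoint.isBoundedAt_iff (g := mapGL ℝ g) rfl]
    exact hbd g

/-- Constructor for cusp forms on `Γ` from function-level data. -/
noncomputable def mkCF (f : ℍ → ℂ) (k : ℤ) (hol : MDiff f) (hinv : ∀ γ ∈ Γ, f ∣[k] γ = f)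
    (hz : ∀ γ : SL(2, ℤ), IsZeroAtImInfty (f ∣[k] γ)) :
    CuspForm (Γ : Subgroup (GL (Fin 2) ℝ)) k where
  toFun := f
  slash_action_eq' := by
    rintro _ ⟨γ, hγ, rfl⟩
    exact hinv γ hγ
  holo' := hol
  zero_at_cusps' {c} hc := by
    obtain ⟨g, rfl⟩ := isCusp_coe_iff.mp hc
    rw [OnePoint.isZeroAt_iff (g := mapGL ℝ g) rfl]
    exact hz g

theorem isMF_iff : IsMF Γ k f ↔ MDiff f ∧ (∀ γ ∈ Γ, f ∣[k] γ = f) ∧
    ∀ γ : SL(2, ℤ), IsBoundedAtImInfty (f ∣[k] γ) := by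
  constructor
  · rintro ⟨F, rfl⟩
    refine ⟨F.holo', fun γ hγ => ?_, fun γ => ?_⟩
    · exact F.slash_action_eq' _ ((mem_coe_iff γ).mpr hγ)
    · have hc : IsCusp (mapGL ℝ γ • OnePoint.infty) (Γ : Subgroup (GL (Fin 2) ℝ)) :=
        isCusp_coe_iff.mpr ⟨γ, rfl⟩
      exact (OnePoint.isBoundedAt_iff (g := mapGL ℝ γ) rfl).mp (F.bdd_at_cusps' hc)
  · rintro ⟨h1, h2, h3⟩
    exact ⟨mkMF f k h1 h2 h3, rfl⟩

theorem isCF_iff : IsCF Γ k f ↔ MDiff f ∧ (∀ γ ∈ Γ, f ∣[k] γ = f) ∧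
    ∀ γ : SL(2, ℤ), IsZeroAtImInfty (f ∣[k] γ) := by
  constructor
  · rintro ⟨F, rfl⟩
    refine ⟨F.holo', fun γ hγ => ?_, fun γ => ?_⟩
    · exact F.slash_action_eq' _ ((mem_coe_iff γ).mpr hγ)
    · have hc : IsCusp (mapGL ℝ γ • OnePoint.infty) (Γ : Subgroup (GL (Fin 2) ℝ)) :=
        isCusp_coe_iff.mpr ⟨γ, rfl⟩
      exact (OnePoint.isZeroAt_iff (g := mapGL ℝ γ) rfl).mp (F.zero_at_cusps' hc)
  · rintro ⟨h1, h2, h3⟩
    exact ⟨mkCF f k h1 h2 h3, rfl⟩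

end characterisation


section levelOne

variable {k : ℤ} {f : ℍ → ℂ}

theorem isMF1_iff : IsMF1 k f ↔ MDiff f ∧ (∀ γ : SL(2, ℤ), f ∣[k] γ = f) ∧
    IsBoundedAtImInfty f := by
  constructor
  · rintro ⟨F, rfl⟩
    refine ⟨F.holo', fun γ => F.slash_action_eq' _ ⟨γ, rfl⟩, ?_⟩
    have hc : IsCusp (mapGL ℝ (1 : SL(2, ℤ)) • OnePoint.infty) 𝒮ℒ := isCusp_SL2Z_iff'.mpr ⟨1, rfl⟩
    have := (OnePoint.isBoundedAt_iff (g := mapGL ℝ (1 : SL(2, ℤ))) rfl).mp (F.bdd_at_cusps' hc)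
    simpa using this
  · rintro ⟨h1, h2, h3⟩
    refine ⟨{ toFun := f, slash_action_eq' := ?_, holo' := h1, bdd_at_cusps' := ?_ }, rfl⟩
    · rintro _ ⟨γ, rfl⟩
      exact h2 γ
    · intro c hc
      rw [OnePoint.isBoundedAt_iff_exists_SL2Z hc]
      obtain ⟨γ, rfl⟩ := isCusp_SL2Z_iff'.mp hc
      exact ⟨γ, rfl, by rw [h2 γ]; exact h3⟩

theorem isCF1_iff : IsCF1 k f ↔ MDiff f ∧ (∀ γ : SL(2, ℤ), f ∣[k] γ = f) ∧
    IsZeroAtImInfty f := by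
  constructor
  · rintro ⟨F, rfl⟩
    refine ⟨F.holo', fun γ => F.slash_action_eq' _ ⟨γ, rfl⟩, ?_⟩
    have hc : IsCusp (mapGL ℝ (1 : SL(2, ℤ)) • OnePoint.infty) 𝒮ℒ := isCusp_SL2Z_iff'.mpr ⟨1, rfl⟩
    have := (OnePoint.isZeroAt_iff (g := mapGL ℝ (1 : SL(2, ℤ))) rfl).mp (F.zero_at_cusps' hc)
    simpa using this
  · rintro ⟨h1, h2, h3⟩
    refine ⟨{ toFun := f, slash_action_eq' := ?_, holo' := h1, zero_at_cusps' := ?_ }, rfl⟩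
    · rintro _ ⟨γ, rfl⟩
      exact h2 γ
    · intro c hc
      rw [OnePoint.isZeroAt_iff_exists_SL2Z hc]
      obtain ⟨γ, rfl⟩ := isCusp_SL2Z_iff'.mp hc
      exact ⟨γ, rfl, by rw [h2 γ]; exact h3⟩

theorem IsMF1.isMF [Γ.FiniteIndex] (h : IsMF1 k f) : IsMF Γ k f := by
  obtain ⟨h1, h2, h3⟩ := isMF1_iff.mp h
  exact isMF_iff.mpr ⟨h1, fun γ _ => h2 γ, fun γ => by rw [h2 γ]; exact h3⟩

theorem IsCF1.isCF [Γ.FiniteIndex] (h : IsCF1 k f) : IsCF Γ k f := by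
  obtain ⟨h1, h2, h3⟩ := isCF1_iff.mp h
  exact isCF_iff.mpr ⟨h1, fun γ _ => h2 γ, fun γ => by rw [h2 γ]; exact h3⟩

theorem IsCF.isMF [Γ.FiniteIndex] (h : IsCF Γ k f) : IsMF Γ k f := by
  obtain ⟨h1, h2, h3⟩ := isCF_iff.mp h
  exact isMF_iff.mpr ⟨h1, h2, fun γ => (h3 γ).boundedAtFilter⟩

theorem IsCF1.isMF1 (h : IsCF1 k f) : IsMF1 k f := by
  obtain ⟨h1, h2, h3⟩ := isCF1_iff.mp h
  exact isMF1_iff.mpr ⟨h1, h2, h3.boundedAtFilter⟩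

end levelOne

end Fermat.Agent.S20.Free
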