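import Fermat.Agent.S20.Free.TwistedFun

/-!
# P-S20-FREE: matrices of twisted periodic functions

Let `Ψ τ` be a square matrix of holomorphic functions on `ℍ`, bounded at `i∞`, whose `i`-th row is
multiplied by `exp (2 π i s_i)` under `τ ↦ τ + 1`, with `0 ≤ s_i < 1`.  Then the rows have leading
coefficients, forming the leading matrix `Φ0`, and
* `det Ψ τ * exp (-2 π i (∑ s_i) τ) → det Φ0`;
* if `det Φ0 ≠ 0` and `d = O(exp (-2 π Im τ))` then `d τ * (Ψ τ)⁻¹ → 0` entrywise;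
* if `Φ0 c = 0` then the combinations `∑_j c_j m_j Ψ_{ij}` are `O(exp (-2 π Im τ))` for all
  `1`-periodic holomorphic `m_j` tending to `1`.
-/

set_option autoImplicit false

open UpperHalfPlane hiding I
open Filter Function Complex Matrix
open scoped Topology Manifold Real

namespace Fermat.Agent.S20.Free.CuspMatrix

open Twisted

variable {ι : Type} [Fintype ι] [DecidableEq ι]

/-- A matrix valued function on `ℍ` whose rows are twisted periodic. -/
structure IsTwisted (Ψ : ℍ → Matrix ι ι ℂ) (s : ι → ℝ) : Prop where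
  mdiff : ∀ i j, MDiff (fun τ => Ψ τ i j)
  bdd : ∀ i j, IsBoundedAtImInfty (fun τ => Ψ τ i j)
  twist : ∀ i j (τ : ℍ), Ψ ((1 : ℝ) +ᵥ τ) i j = cexp (2 * π * I * s i) * Ψ τ i j
  s_nonneg : ∀ i, 0 ≤ s i
  s_lt_one : ∀ i, s i < 1

/-- `Φ0` is the leading matrix of `Ψ`. -/
def IsLeading (Ψ : ℍ → Matrix ι ι ℂ) (s : ι → ℝ) (Φ0 : Matrix ι ι ℂ) : Prop :=
  ∀ i j, Tendsto (untwist (fun τ => Ψ τ i j) (s i)) atImInfty (𝓝 (Φ0 i j))

variable {Ψ : ℍ → Matrix ι ι ℂ} {s : ι → ℝ} {Φ0 : Matrix ι ι ℂ}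

omit [Fintype ι] [DecidableEq ι] in
theorem IsTwisted.exists_isLeading (h : IsTwisted Ψ s) : ∃ Φ0, IsLeading Ψ s Φ0 := by
  have : ∀ i j, ∃ a : ℂ, Tendsto (untwist (fun τ => Ψ τ i j) (s i)) atImInfty (𝓝 a) :=
    fun i j => exists_tendsto_of_twisted (h.s_lt_one i) (h.mdiff i j) (h.bdd i j) (h.twist i j)
  choose Φ0 hΦ0 using this
  exact ⟨Matrix.of Φ0, hΦ0⟩

/-- The untwisted matrix `diag (exp (-2 π i s_i τ)) * Ψ τ`. -/
noncomputable def untwistMatrix (Ψ : ℍ → Matrix ι ι ℂ) (s : ι → ℝ) (τ : ℍ) : Matrix ι ι ℂ :=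
  Matrix.diagonal (fun i => cexp (-(2 * π * I * s i * (τ : ℂ)))) * Ψ τ

theorem untwistMatrix_apply (Ψ : ℍ → Matrix ι ι ℂ) (s : ι → ℝ) (τ : ℍ) (i j : ι) :
    untwistMatrix Ψ s τ i j = untwist (fun τ => Ψ τ i j) (s i) τ := by
  rw [untwistMatrix, Matrix.diagonal_mul, untwist_apply, mul_comm]

theorem IsLeading.tendsto_untwistMatrix (h : IsLeading Ψ s Φ0) :
    Tendsto (untwistMatrix Ψ s) atImInfty (𝓝 Φ0) := by
  refine tendsto_pi_nhds.mpr fun i => tendsto_pi_nhds.mpr fun j => ?_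
  have := h i j
  refine this.congr fun τ => ?_
  rw [untwistMatrix_apply]

theorem det_untwistMatrix (Ψ : ℍ → Matrix ι ι ℂ) (s : ι → ℝ) (τ : ℍ) :
    (untwistMatrix Ψ s τ).det = (Ψ τ).det * cexp (-(2 * π * I * (∑ i, s i : ℝ) * (τ : ℂ))) := by
  rw [untwistMatrix, Matrix.det_mul, Matrix.det_diagonal, ← Complex.exp_sum, mul_comm]
  congr 2
  push_cast
  rw [Finset.mul_sum, Finset.sum_mul, Finset.sum_neg_distrib]

/-- **Asymptotics of the determinant.** -/
theorem IsLeading.tendsto_det (h : IsLeading Ψ s Φ0) :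
    Tendsto (fun τ : ℍ => (Ψ τ).det * cexp (-(2 * π * I * (∑ i, s i : ℝ) * (τ : ℂ))))
      atImInfty (𝓝 Φ0.det) := by
  have h1 : Tendsto (fun τ => (untwistMatrix Ψ s τ).det) atImInfty (𝓝 Φ0.det) :=
    ((continuous_id.matrix_det).tendsto Φ0).comp h.tendsto_untwistMatrix
  refine h1.congr fun τ => ?_
  rw [det_untwistMatrix]

theorem continuousAt_matrix_inv {A : Matrix ι ι ℂ} (hA : A.det ≠ 0) :
    ContinuousAt (fun B : Matrix ι ι ℂ => B⁻¹) A := by
  have h1 : (fun B : Matrix ι ι ℂ => B⁻¹) = fun B => (B.det)⁻¹ • B.adjugate := by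
    funext B
    rw [Matrix.inv_def, Ring.inverse_eq_inv']
  rw [h1]
  have h2 : ContinuousAt (fun B : Matrix ι ι ℂ => (B.det)⁻¹) A :=
    ContinuousAt.comp (g := fun z : ℂ => z⁻¹) (continuousAt_inv₀ hA)
      (continuous_id.matrix_det).continuousAt
  have h3 : ContinuousAt (fun B : Matrix ι ι ℂ => B.adjugate) A :=
    (continuous_id.matrix_adjugate).continuousAt
  exact h2.smul h3

theorem norm_cexp_neg (c : ℝ) (τ : ℍ) :
    ‖cexp (-(2 * π * I * c * (τ : ℂ)))‖ = Real.exp (2 * π * c * τ.im) := by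
  have : -(2 * π * I * c * (τ : ℂ)) = 2 * π * I * ((-c : ℝ) : ℂ) * (τ : ℂ) := by
    push_cast; ring
  rw [this, norm_cexp_two_pi_I_mul]
  congr 1
  ring

theorem inv_eq_untwistMatrix_inv_mul (Ψ : ℍ → Matrix ι ι ℂ) (s : ι → ℝ) (τ : ℍ) :
    (Ψ τ)⁻¹ = (untwistMatrix Ψ s τ)⁻¹ *
      Matrix.diagonal (fun i => cexp (-(2 * π * I * s i * (τ : ℂ)))) := by
  set E : Matrix ι ι ℂ := Matrix.diagonal (fun i => cexp (-(2 * π * I * s i * (τ : ℂ)))) with hE
  have hEdet : IsUnit E.det := by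
    rw [hE, Matrix.det_diagonal, isUnit_iff_ne_zero]
    exact Finset.prod_ne_zero_iff.mpr fun i _ => Complex.exp_ne_zero _
  rw [untwistMatrix, ← hE, Matrix.mul_inv_rev, Matrix.mul_assoc, Matrix.nonsing_inv_mul _ hEdet,
    Matrix.mul_one]

/-- **Decay of the inverse matrix.** -/
theorem IsLeading.tendsto_mul_inv (h : IsLeading Ψ s Φ0) (hs : ∀ i, s i < 1) (hdet : Φ0.det ≠ 0)
    {d : ℍ → ℂ} (hd : d =O[atImInfty] fun τ : ℍ => Real.exp (-2 * π * τ.im)) (i j : ι) :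
    Tendsto (fun τ : ℍ => d τ * (Ψ τ)⁻¹ j i) atImInfty (𝓝 0) := by
  have h1 : Tendsto (fun τ => (untwistMatrix Ψ s τ)⁻¹) atImInfty (𝓝 Φ0⁻¹) :=
    (continuousAt_matrix_inv hdet).tendsto.comp h.tendsto_untwistMatrix
  have h2 : Tendsto (fun τ => (untwistMatrix Ψ s τ)⁻¹ j i) atImInfty (𝓝 (Φ0⁻¹ j i)) :=
    ((continuous_apply i).tendsto _).comp (((continuous_apply j).tendsto _).comp h1)
  have h3 : Tendsto (fun τ : ℍ => d τ * cexp (-(2 * π * I * s i * (τ : ℂ)))) atImInfty (𝓝 0) := by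
    rw [tendsto_zero_iff_norm_tendsto_zero]
    obtain ⟨C, hC⟩ := hd.bound
    have h4 : Tendsto (fun τ : ℍ => C * Real.exp (-2 * π * (1 - s i) * τ.im)) atImInfty (𝓝 0) := by
      have := (tendsto_exp_neg_mul_im (c := 1 - s i) (by linarith [hs i])).const_mul C
      simpa using this
    refine squeeze_zero' (Eventually.of_forall fun τ => norm_nonneg _) ?_ h4
    filter_upwards [hC] with τ hτ
    rw [norm_mul, norm_cexp_neg]
    rw [Real.norm_eq_abs, abs_of_pos (Real.exp_pos _)] at hτ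
    calc ‖d τ‖ * Real.exp (2 * π * s i * τ.im)
        ≤ C * Real.exp (-2 * π * τ.im) * Real.exp (2 * π * s i * τ.im) :=
          mul_le_mul_of_nonneg_right hτ (Real.exp_pos _).le
      _ = C * Real.exp (-2 * π * (1 - s i) * τ.im) := by
          rw [mul_assoc, ← Real.exp_add]
          congr 2
          ring
  have h5 := h2.mul h3
  rw [mul_zero] at h5
  refine h5.congr fun τ => ?_
  rw [inv_eq_untwistMatrix_inv_mul Ψ s τ, Matrix.mul_diagonal]
  ring

omit [DecidableEq ι] in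
/-- **Combinations killed by the leading matrix decay.** -/
theorem IsLeading.isBigO_of_mulVec_eq_zero (hT : IsTwisted Ψ s) (h : IsLeading Ψ s Φ0)
    {c : ι → ℂ} (hc : Φ0 *ᵥ c = 0) (m : ι → ℍ → ℂ) (hm : ∀ j, MDiff (m j))
    (hmper : ∀ j (τ : ℍ), m j ((1 : ℝ) +ᵥ τ) = m j τ)
    (hmlim : ∀ j, Tendsto (m j) atImInfty (𝓝 1)) (i : ι) :
    (fun τ : ℍ => ∑ j, c j * m j τ * Ψ τ i j) =O[atImInfty]
      fun τ : ℍ => Real.exp (-2 * π * τ.im) := by
  refine isBigO_of_twisted_of_tendsto_zero (s := s i) (hT.s_nonneg i) ?_ ?_ ?_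
  · have : (fun τ : ℍ => ∑ j, c j * m j τ * Ψ τ i j) =
        ∑ j, (fun τ : ℍ => c j * m j τ * Ψ τ i j) := by
      funext τ
      rw [Finset.sum_apply]
    rw [this]
    refine MDifferentiable.sum fun j _ => ?_
    have hcj : MDiff (fun _ : ℍ => c j) := mdifferentiable_const
    exact (hcj.mul (hm j)).mul (hT.mdiff i j)
  · intro τ
    rw [Finset.mul_sum]
    refine Finset.sum_congr rfl fun j _ => ?_
    rw [hmper, hT.twist]
    ring
  · have h1 : ∀ j, Tendsto (fun τ : ℍ => c j * m j τ * untwist (fun τ => Ψ τ i j) (s i) τ)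
        atImInfty (𝓝 (c j * 1 * Φ0 i j)) := fun j =>
      ((hmlim j).const_mul (c j)).mul (h i j)
    have h2 := tendsto_finsetSum Finset.univ fun j _ => h1 j
    have h3 : ∑ j, c j * 1 * Φ0 i j = 0 := by
      have := congrFun hc i
      simp only [Matrix.mulVec, dotProduct, Pi.zero_apply] at this
      rw [← this]
      refine Finset.sum_congr rfl fun j _ => ?_
      ring
    rw [h3] at h2
    refine h2.congr fun τ => ?_
    rw [untwist_apply, Finset.sum_mul]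
    refine Finset.sum_congr rfl fun j _ => ?_
    rw [untwist_apply]
    ring

end Fermat.Agent.S20.Free.CuspMatrix
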