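import Fermat.Agent.S20.Free.Structure
import Fermat.Agent.S20.Free.CuspMatrix

/-!
# P-S20-FREE: expansions of the conjugate matrix at the cusp `i∞`

The coset space `SL(2,ℤ) ⧸ Γ` is decomposed into orbits of `T`; on each orbit the rows of the
conjugate matrix are transformed by the inverse discrete Fourier transform.  The transformed rows
are twisted periodic with exponents `r / h` (`h` the width of the orbit, `0 ≤ r < h`), so that the
results of `CuspMatrix` apply.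
-/

set_option autoImplicit false
set_option linter.unusedSectionVars false

open UpperHalfPlane hiding I
open ModularForm SlashInvariantForm Filter Matrix.SpecialLinearGroup Complex
open scoped MatrixGroups ModularForm Manifold Topology Real

namespace Fermat.Agent.S20.Free

variable (Γ : Subgroup SL(2, ℤ)) [Γ.FiniteIndex]

/-- The orbits of `T` on the coset space: the cusps of `Γ`. -/
abbrev CuspOrbit : Type :=
  MulAction.orbitRel.Quotient (Subgroup.zpowers ModularGroup.T) (SL(2, ℤ) ⧸ Γ)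

/-- The number of cusps of `Γ`. -/
noncomputable def cuspNum : ℕ := Nat.card (CuspOrbit Γ)

/-- The width of a cusp. -/
noncomputable abbrev cuspWidth (ω : CuspOrbit Γ) : ℕ :=
  Function.minimalPeriod (ModularGroup.T • · : SL(2, ℤ) ⧸ Γ → SL(2, ℤ) ⧸ Γ) ω.out

/-- The index set `Σ ω, ZMod (width ω)`. -/
abbrev CuspIdx : Type := Σ ω : CuspOrbit Γ, ZMod (cuspWidth Γ ω)

noncomputable instance instFintypeCuspOrbit : Fintype (CuspOrbit Γ) := Fintype.ofFinite _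

noncomputable instance instDecEqCuspOrbit : DecidableEq (CuspOrbit Γ) := Classical.decEq _

instance instNeZeroCuspWidth (ω : CuspOrbit Γ) : NeZero (cuspWidth Γ ω) :=
  MulAction.minimalPeriod_pos _ _

noncomputable instance instFintypeCuspIdx : Fintype (CuspIdx Γ) := inferInstance

noncomputable instance instDecEqCuspIdx : DecidableEq (CuspIdx Γ) := Classical.decEq _

/-- The decomposition of the coset space into `T`-orbits. -/
noncomputable def cuspEquiv : SL(2, ℤ) ⧸ Γ ≃ CuspIdx Γ :=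
  Subgroup.quotientEquivSigmaZMod Γ ModularGroup.T

omit [Γ.FiniteIndex] in
theorem cuspEquiv_symm_apply (ω : CuspOrbit Γ) (m : ZMod (cuspWidth Γ ω)) :
    (cuspEquiv Γ).symm ⟨ω, m⟩ = ModularGroup.T ^ (ZMod.cast m : ℤ) • ω.out := rfl

open scoped ZMod in
/-- The row transformation: inverse discrete Fourier transform along each `T`-orbit. -/
noncomputable def rowTransform : (CuspIdx Γ → ℂ) ≃ₗ[ℂ] (CuspIdx Γ → ℂ) :=
  (LinearEquiv.piCurry ℂ (fun (_ : CuspOrbit Γ) _ => ℂ)).trans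
    ((LinearEquiv.piCongrRight fun ω => (ZMod.dft (N := cuspWidth Γ ω) (E := ℂ)).symm).trans
      (LinearEquiv.piCurry ℂ (fun (_ : CuspOrbit Γ) _ => ℂ)).symm)

theorem rowTransform_apply (v : CuspIdx Γ → ℂ) (ω : CuspOrbit Γ) (r : ZMod (cuspWidth Γ ω)) :
    rowTransform Γ v ⟨ω, r⟩ = ((cuspWidth Γ ω : ℕ) : ℂ)⁻¹ *
      ∑ m : ZMod (cuspWidth Γ ω), ZMod.stdAddChar (m * r) * v ⟨ω, m⟩ := by
  simp only [rowTransform, LinearEquiv.trans_apply, LinearEquiv.piCurry_symm_apply,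
    LinearEquiv.piCongrRight_apply, LinearEquiv.piCurry_apply, Sigma.uncurry]
  rw [ZMod.invDFT_apply]
  simp only [smul_eq_mul]
  rfl

/-- The matrix of the row transformation. -/
noncomputable def rowMatrix : Matrix (CuspIdx Γ) (CuspIdx Γ) ℂ :=
  LinearMap.toMatrix' (rowTransform Γ : (CuspIdx Γ → ℂ) →ₗ[ℂ] (CuspIdx Γ → ℂ))

theorem rowMatrix_det_ne_zero : (rowMatrix Γ).det ≠ 0 := by
  rw [rowMatrix, LinearMap.det_toMatrix']
  exact (LinearEquiv.isUnit_det' (rowTransform Γ)).ne_zero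

theorem rowMatrix_mulVec (v : CuspIdx Γ → ℂ) : (rowMatrix Γ).mulVec v = rowTransform Γ v := by
  rw [rowMatrix, LinearMap.toMatrix'_mulVec]
  rfl

variable (wt : SL(2, ℤ) ⧸ Γ → ℤ) (F : SL(2, ℤ) ⧸ Γ → ℍ → ℂ)

/-- The conjugate matrix with rows and columns indexed by `CuspIdx Γ`. -/
noncomputable def conjMatrixR (τ : ℍ) : Matrix (CuspIdx Γ) (CuspIdx Γ) ℂ :=
  Matrix.reindex (cuspEquiv Γ) (cuspEquiv Γ) (conjMatrix Γ wt F τ)

theorem conjMatrixR_apply (τ : ℍ) (i j : CuspIdx Γ) :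
    conjMatrixR Γ wt F τ i j =
      conjFun Γ (wt ((cuspEquiv Γ).symm j)) (F ((cuspEquiv Γ).symm j)) ((cuspEquiv Γ).symm i) τ :=
  rfl

theorem det_conjMatrixR (τ : ℍ) : (conjMatrixR Γ wt F τ).det = (conjMatrix Γ wt F τ).det :=
  Matrix.det_reindex_self _ _

/-- The transformed conjugate matrix. -/
noncomputable def cuspMatrix (τ : ℍ) : Matrix (CuspIdx Γ) (CuspIdx Γ) ℂ :=
  rowMatrix Γ * conjMatrixR Γ wt F τ

theorem det_cuspMatrix (τ : ℍ) :
    (cuspMatrix Γ wt F τ).det = (rowMatrix Γ).det * (conjMatrix Γ wt F τ).det := by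
  rw [cuspMatrix, Matrix.det_mul, det_conjMatrixR]

theorem cuspMatrix_apply (τ : ℍ) (ω : CuspOrbit Γ) (r : ZMod (cuspWidth Γ ω)) (j : CuspIdx Γ) :
    cuspMatrix Γ wt F τ ⟨ω, r⟩ j = ((cuspWidth Γ ω : ℕ) : ℂ)⁻¹ *
      ∑ m : ZMod (cuspWidth Γ ω), ZMod.stdAddChar (m * r) * conjMatrixR Γ wt F τ ⟨ω, m⟩ j := by
  have h1 : cuspMatrix Γ wt F τ ⟨ω, r⟩ j =
      (rowMatrix Γ).mulVec (fun i => conjMatrixR Γ wt F τ i j) ⟨ω, r⟩ := by
    rw [cuspMatrix, Matrix.mul_apply]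
    rfl
  rw [h1, rowMatrix_mulVec, rowTransform_apply]

/-! ### Translation by one -/

theorem slash_T_apply (f : ℍ → ℂ) (k : ℤ) (τ : ℍ) :
    (f ∣[k] ModularGroup.T) τ = f ((1 : ℝ) +ᵥ τ) := by
  rw [SL_slash_apply, modular_T_smul]
  have h2 : denom (ModularGroup.T : SL(2, ℤ)) τ = 1 := by
    rw [ModularGroup.denom_apply]
    simp [ModularGroup.T]
  rw [h2]
  simp

variable {Γ} in
theorem conjFun_vadd_one {k : ℤ} {f : ℍ → ℂ} (hinv : ∀ γ ∈ Γ, f ∣[k] γ = f)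
    (x : SL(2, ℤ) ⧸ Γ) (τ : ℍ) :
    conjFun Γ k f x ((1 : ℝ) +ᵥ τ) = conjFun Γ k f (ModularGroup.T⁻¹ • x) τ := by
  rw [← slash_T_apply (conjFun Γ k f x) k τ, conjFun_slash hinv]

theorem zpow_smul_out (ω : CuspOrbit Γ) (k : ℤ) :
    ModularGroup.T ^ k • ω.out = (cuspEquiv Γ).symm ⟨ω, (k : ZMod (cuspWidth Γ ω))⟩ := by
  rw [Equiv.eq_symm_apply]
  exact Subgroup.quotientEquivSigmaZMod_apply Γ ModularGroup.T ω k

theorem T_inv_smul_cuspEquiv_symm (ω : CuspOrbit Γ) (m : ZMod (cuspWidth Γ ω)) :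
    ModularGroup.T⁻¹ • (cuspEquiv Γ).symm ⟨ω, m⟩ = (cuspEquiv Γ).symm ⟨ω, m - 1⟩ := by
  rw [cuspEquiv_symm_apply, ← zpow_neg_one, ← mul_smul, ← zpow_add, zpow_smul_out]
  congr 2
  push_cast
  ring

/-- The exponents of the twisted periodicity. -/
noncomputable def cuspExponent (i : CuspIdx Γ) : ℝ := (i.2.val : ℝ) / (cuspWidth Γ i.1 : ℝ)

theorem cuspExponent_nonneg (i : CuspIdx Γ) : 0 ≤ cuspExponent Γ i := by
  unfold cuspExponent
  positivity

theorem cuspExponent_lt_one (i : CuspIdx Γ) : cuspExponent Γ i < 1 := by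
  unfold cuspExponent
  have h0 : (0 : ℝ) < (cuspWidth Γ i.1 : ℝ) := by
    exact_mod_cast Nat.pos_of_ne_zero (NeZero.ne _)
  rw [div_lt_one h0]
  exact_mod_cast ZMod.val_lt i.2

theorem stdAddChar_eq_cexp (ω : CuspOrbit Γ) (r : ZMod (cuspWidth Γ ω)) :
    ZMod.stdAddChar r = cexp (2 * π * I * (cuspExponent Γ ⟨ω, r⟩ : ℝ)) := by
  have h1 : r = (((r.val : ℕ) : ℤ) : ZMod (cuspWidth Γ ω)) := by
    rw [Int.cast_natCast, ZMod.natCast_zmod_val]
  conv_lhs => rw [h1]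
  rw [ZMod.stdAddChar_coe, cuspExponent]
  congr 1
  push_cast
  ring

variable {Γ wt F}

theorem mdiff_conjMatrixR (hF : ∀ j, IsMF Γ (wt j) (F j)) (i j : CuspIdx Γ) :
    MDiff (fun τ => conjMatrixR Γ wt F τ i j) :=
  (hF _).mdiff_conjFun _

theorem bdd_conjMatrixR (hF : ∀ j, IsMF Γ (wt j) (F j)) (i j : CuspIdx Γ) :
    IsBoundedAtImInfty (fun τ => conjMatrixR Γ wt F τ i j) :=
  (hF _).bdd_conjFun _

theorem conjMatrixR_vadd_one (hF : ∀ j, IsMF Γ (wt j) (F j)) (ω : CuspOrbit Γ)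
    (m : ZMod (cuspWidth Γ ω)) (j : CuspIdx Γ) (τ : ℍ) :
    conjMatrixR Γ wt F ((1 : ℝ) +ᵥ τ) ⟨ω, m⟩ j = conjMatrixR Γ wt F τ ⟨ω, m - 1⟩ j := by
  rw [conjMatrixR_apply, conjMatrixR_apply, conjFun_vadd_one (fun γ hγ => (hF _).slash_eq hγ),
    T_inv_smul_cuspEquiv_symm]

theorem cuspMatrix_eq_sum (τ : ℍ) (i j : CuspIdx Γ) :
    cuspMatrix Γ wt F τ i j = ∑ k, rowMatrix Γ i k * conjMatrixR Γ wt F τ k j := by
  rw [cuspMatrix, Matrix.mul_apply]

theorem isTwisted_cuspMatrix (hF : ∀ j, IsMF Γ (wt j) (F j)) :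
    CuspMatrix.IsTwisted (cuspMatrix Γ wt F) (cuspExponent Γ) where
  mdiff i j := by
    have : (fun τ => cuspMatrix Γ wt F τ i j) =
        ∑ k, fun τ => rowMatrix Γ i k * conjMatrixR Γ wt F τ k j := by
      funext τ
      rw [cuspMatrix_eq_sum, Finset.sum_apply]
    rw [this]
    refine MDifferentiable.sum fun k _ => ?_
    have hc : MDiff (fun _ : ℍ => rowMatrix Γ i k) := mdifferentiable_const
    exact hc.mul (mdiff_conjMatrixR hF k j)
  bdd i j := by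
    have : (fun τ => cuspMatrix Γ wt F τ i j) =
        ∑ k, fun τ => rowMatrix Γ i k * conjMatrixR Γ wt F τ k j := by
      funext τ
      rw [cuspMatrix_eq_sum, Finset.sum_apply]
    rw [this]
    unfold IsBoundedAtImInfty
    refine (Filter.boundedFilterSubalgebra ℂ atImInfty).sum_mem fun k _ => ?_
    exact (Filter.const_boundedAtFilter _ (rowMatrix Γ i k)).mul (bdd_conjMatrixR hF k j)
  twist := by
    rintro ⟨ω, r⟩ j τ
    rw [cuspMatrix_apply, cuspMatrix_apply, ← stdAddChar_eq_cexp]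
    have h1 : ∑ m : ZMod (cuspWidth Γ ω),
        ZMod.stdAddChar (m * r) * conjMatrixR Γ wt F ((1 : ℝ) +ᵥ τ) ⟨ω, m⟩ j =
        ∑ m : ZMod (cuspWidth Γ ω),
        ZMod.stdAddChar r * (ZMod.stdAddChar (m * r) * conjMatrixR Γ wt F τ ⟨ω, m⟩ j) := by
      rw [← Equiv.sum_comp (Equiv.addRight (1 : ZMod (cuspWidth Γ ω)))]
      refine Finset.sum_congr rfl fun m _ => ?_
      rw [Equiv.coe_addRight, conjMatrixR_vadd_one hF, add_sub_cancel_right, add_mul, one_mul,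
        AddChar.map_add_eq_mul]
      ring
    rw [h1, ← Finset.mul_sum]
    ring
  s_nonneg := cuspExponent_nonneg Γ
  s_lt_one := cuspExponent_lt_one Γ

/-! ### The sum of the exponents -/

theorem sum_zmod_val (n : ℕ) [NeZero n] :
    ∑ r : ZMod n, (r.val : ℝ) = (n : ℝ) * ((n : ℝ) - 1) / 2 := by
  obtain ⟨k, rfl⟩ := Nat.exists_eq_succ_of_ne_zero (NeZero.ne n)
  have h1 : ∑ r : ZMod (k + 1), (r.val : ℝ) = ∑ r : Fin (k + 1), ((r : ℕ) : ℝ) := rfl
  rw [h1, Fin.sum_univ_eq_sum_range (fun i => (i : ℝ)) (k + 1)]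
  have h2 := Finset.sum_range_id_mul_two (k + 1)
  have h3 : (∑ i ∈ Finset.range (k + 1), (i : ℝ)) * 2 =
      ((k + 1 : ℕ) : ℝ) * (((k + 1 : ℕ) : ℝ) - 1) := by
    rw [← Nat.cast_sum]
    have : ((∑ i ∈ Finset.range (k + 1), i) * 2 : ℕ) = (k + 1) * (k + 1 - 1) := h2
    have h4 : (((∑ i ∈ Finset.range (k + 1), i) * 2 : ℕ) : ℝ) =
        (((k + 1) * (k + 1 - 1) : ℕ) : ℝ) := by
      rw [this]
    push_cast at h4 ⊢
    rw [h4]
    simp
  linarith

variable (Γ) in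
theorem sum_cuspWidth : ∑ ω : CuspOrbit Γ, cuspWidth Γ ω = Nat.card (SL(2, ℤ) ⧸ Γ) := by
  rw [Nat.card_eq_fintype_card, Fintype.card_congr (cuspEquiv Γ), Fintype.card_sigma]
  refine Finset.sum_congr rfl fun ω _ => ?_
  rw [ZMod.card]

variable (Γ) in
theorem sum_cuspExponent :
    ∑ i, cuspExponent Γ i = ((Nat.card (SL(2, ℤ) ⧸ Γ) : ℝ) - (cuspNum Γ : ℝ)) / 2 := by
  rw [Fintype.sum_sigma]
  have h1 : ∀ ω : CuspOrbit Γ, ∑ r : ZMod (cuspWidth Γ ω), cuspExponent Γ ⟨ω, r⟩ =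
      ((cuspWidth Γ ω : ℝ) - 1) / 2 := by
    intro ω
    have h0 : (cuspWidth Γ ω : ℝ) ≠ 0 := by exact_mod_cast NeZero.ne _
    simp only [cuspExponent]
    rw [← Finset.sum_div, sum_zmod_val]
    field_simp
  rw [Finset.sum_congr rfl fun ω _ => h1 ω, ← Finset.sum_div, Finset.sum_sub_distrib,
    ← Nat.cast_sum, sum_cuspWidth, Finset.sum_const, Finset.card_univ, cuspNum,
    Nat.card_eq_fintype_card (α := CuspOrbit Γ)]
  simp

/-! ### Consequences of the existence of a leading matrix -/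

variable {Φ0 : Matrix (CuspIdx Γ) (CuspIdx Γ) ℂ}

/-- Asymptotics of the determinant of the conjugate matrix, given the leading matrix. -/
theorem tendsto_det_conjMatrix_of_isLeading
    (hlead : CuspMatrix.IsLeading (cuspMatrix Γ wt F) (cuspExponent Γ) Φ0) :
    Tendsto (fun τ : ℍ => (conjMatrix Γ wt F τ).det *
      cexp (-(π * I * ((Nat.card (SL(2, ℤ) ⧸ Γ) : ℂ) - (cuspNum Γ : ℂ)) * (τ : ℂ))))
      atImInfty (𝓝 (Φ0.det / (rowMatrix Γ).det)) := by
  have h1 := (hlead.tendsto_det).div_const (rowMatrix Γ).det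
  refine h1.congr fun τ => ?_
  rw [det_cuspMatrix, sum_cuspExponent]
  have hW := rowMatrix_det_ne_zero Γ
  have h2 : (2 * π * I * (((Nat.card (SL(2, ℤ) ⧸ Γ) : ℝ) - (cuspNum Γ : ℝ)) / 2 : ℝ) * (τ : ℂ)) =
      π * I * ((Nat.card (SL(2, ℤ) ⧸ Γ) : ℂ) - (cuspNum Γ : ℂ)) * (τ : ℂ) := by
    push_cast
    ring
  rw [h2]
  field_simp

theorem inv_conjMatrixR (τ : ℍ) :
    (conjMatrixR Γ wt F τ)⁻¹ = (cuspMatrix Γ wt F τ)⁻¹ * rowMatrix Γ := by
  have hW : IsUnit (rowMatrix Γ).det := isUnit_iff_ne_zero.mpr (rowMatrix_det_ne_zero Γ)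
  rw [cuspMatrix, Matrix.mul_inv_rev, Matrix.mul_assoc, Matrix.nonsing_inv_mul _ hW,
    Matrix.mul_one]

theorem inv_conjMatrix_apply (τ : ℍ) (j q : SL(2, ℤ) ⧸ Γ) :
    (conjMatrix Γ wt F τ)⁻¹ j q =
      (conjMatrixR Γ wt F τ)⁻¹ (cuspEquiv Γ j) (cuspEquiv Γ q) := by
  rw [conjMatrixR, Matrix.inv_reindex, Matrix.reindex_apply, Matrix.submatrix_apply,
    Equiv.symm_apply_apply, Equiv.symm_apply_apply]

/-- Decay of the inverse of the conjugate matrix, given an invertible leading matrix. -/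
theorem tendsto_mul_inv_conjMatrix_of_isLeading
    (hlead : CuspMatrix.IsLeading (cuspMatrix Γ wt F) (cuspExponent Γ) Φ0) (hdet : Φ0.det ≠ 0)
    {d : ℍ → ℂ} (hd : d =O[atImInfty] fun τ : ℍ => Real.exp (-2 * π * τ.im))
    (j q : SL(2, ℤ) ⧸ Γ) :
    Tendsto (fun τ : ℍ => d τ * (conjMatrix Γ wt F τ)⁻¹ j q) atImInfty (𝓝 0) := by
  have h1 : ∀ i, Tendsto (fun τ : ℍ => d τ * (cuspMatrix Γ wt F τ)⁻¹ (cuspEquiv Γ j) i *
      rowMatrix Γ i (cuspEquiv Γ q)) atImInfty (𝓝 (0 * rowMatrix Γ i (cuspEquiv Γ q))) :=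
    fun i => (hlead.tendsto_mul_inv (cuspExponent_lt_one Γ) hdet hd i (cuspEquiv Γ j)).mul_const _
  have h2 := tendsto_finsetSum Finset.univ fun i _ => h1 i
  simp only [zero_mul, Finset.sum_const_zero] at h2
  refine h2.congr fun τ => ?_
  rw [inv_conjMatrix_apply, inv_conjMatrixR, Matrix.mul_apply, Finset.mul_sum]
  refine Finset.sum_congr rfl fun i _ => ?_
  ring

end Fermat.Agent.S20.Free
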