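import Fermat.Agent.S20.Free.Regular
import Fermat.Agent.S20.Free.CuspExp
import Fermat.Agent.S20.Free.DetODE

/-!
# P-S20-FREE: the leading matrix of the conjugate matrix is invertible

For a free basis `(wt, F)` of `M_*(Γ)` over `M_*(SL(2,ℤ))` (all weights even), a vector `c` such
that all combinations `∑_j c_j (F_j)_q` decay like `exp (-2 π Im τ)` must vanish.  Consequently the
leading matrix of the transformed conjugate matrix is invertible, which gives the asymptotics of
`det (conjMatrix Γ wt F τ)` and the decay of `Δ * (conjMatrix Γ wt F τ)⁻¹` at `i∞`.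
-/

set_option autoImplicit false
set_option linter.unusedSectionVars false

open UpperHalfPlane hiding I
open ModularForm SlashInvariantForm Filter Matrix.SpecialLinearGroup Complex
open scoped MatrixGroups ModularForm Manifold Topology Real

namespace Fermat.Agent.S20.Free

variable {Γ : Subgroup SL(2, ℤ)} [Γ.FiniteIndex]
  {wt : SL(2, ℤ) ⧸ Γ → ℤ} {F : SL(2, ℤ) ⧸ Γ → ℍ → ℂ}

/-- A level one form tending to `1` differs from `1` by `O(exp (-2 π Im τ))`. -/
theorem isBigO_sub_one_of_isMF1 {k : ℤ} {m : ℍ → ℂ} (hm : IsMF1 k m)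
    (hlim : Tendsto m atImInfty (𝓝 1)) :
    (fun τ => m τ - 1) =O[atImInfty] fun τ : ℍ => Real.exp (-2 * π * τ.im) := by
  obtain ⟨M, rfl⟩ := hm
  have hper : Function.Periodic ((M : ℍ → ℂ) ∘ ofComplex) ((1 : ℝ) : ℂ) :=
    SlashInvariantFormClass.periodic_comp_ofComplex M one_mem_strictPeriods_SL
  have h1 := UpperHalfPlane.exp_decay_sub_atImInfty (h := 1) one_pos hper M.holo'
    (ModularFormClass.bdd_at_infty M)
  have h2 : valueAtInfty (M : ℍ → ℂ) = 1 := hlim.limUnder_eq
  simpa [h2] using h1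

/-- **Key lemma.** For a free basis with even weights, a vector `c` such that all the combinations
`∑_j c_j (F_j)_q` of the conjugates are `O(exp (-2 π Im τ))` at `i∞` vanishes. -/
theorem eq_zero_of_isBigO_conjMatrix (hB : IsFreeBasis Γ wt F) (hev : ∀ j, Even (wt j))
    (c : SL(2, ℤ) ⧸ Γ → ℂ)
    (hc : ∀ q, (fun τ => ∑ j, conjMatrix Γ wt F τ q j * c j) =O[atImInfty]
      fun τ : ℍ => Real.exp (-2 * π * τ.im)) : c = 0 := by
  classical
  -- a common weight
  set K : ℤ := 2 * (∑ j, |wt j|) + 4 with hK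
  have hK4 : ∀ j, 4 ≤ K - wt j := by
    intro j
    have h1 : |wt j| ≤ ∑ j, |wt j| :=
      Finset.single_le_sum (f := fun j => |wt j|) (fun i _ => abs_nonneg _) (Finset.mem_univ j)
    have h2 : wt j ≤ |wt j| := le_abs_self _
    have h3 : 0 ≤ |wt j| := abs_nonneg _
    rw [hK]
    linarith
  have hKev : ∀ j, Even (K - wt j) := by
    intro j
    refine Even.sub ?_ (hev j)
    rw [hK]
    exact Even.add (even_two_mul _) (by decide)
  -- the equalising monomials
  choose m hm1 hmlim using fun j => exists_monomial (hK4 j) (hKev j)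
  -- the form `f`
  set f : ℍ → ℂ := ∑ j, c j • (m j * F j) with hf
  have hfMF : IsMF Γ K f := by
    refine IsMF.sum _ fun j _ => ?_
    exact (((hm1 j).isMF.mul (hB.isMF j)).congr_weight (by ring)).smul (c j)
  -- its conjugates
  have hconj : ∀ q, conjFun Γ K f q =
      ∑ j, c j • (m j * conjFun Γ (wt j) (F j) q) := by
    intro q
    rw [hf, conjFun_sum]
    refine Finset.sum_congr rfl fun j _ => ?_
    rw [conjFun_smul]
    congr 1
    have h1 : K = (K - wt j) + wt j := by ring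
    rw [h1, conjFun_mul, conjFun_of_isMF1 (hm1 j)]
  -- decay of the conjugates
  have hO : ∀ q, conjFun Γ K f q =O[atImInfty] fun τ : ℍ => Real.exp (-2 * π * τ.im) := by
    intro q
    have h1 : conjFun Γ K f q = (fun τ => ∑ j, conjMatrix Γ wt F τ q j * c j) +
        ∑ j, fun τ => c j * ((m j τ - 1) * conjFun Γ (wt j) (F j) q τ) := by
      rw [hconj]
      funext τ
      simp only [Finset.sum_apply, Pi.add_apply, Pi.smul_apply, Pi.mul_apply, smul_eq_mul,
        conjMatrix]
      rw [← Finset.sum_add_distrib]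
      refine Finset.sum_congr rfl fun j _ => ?_
      ring
    rw [h1]
    refine (hc q).add (Asymptotics.IsBigO.sum fun j _ => ?_)
    refine Asymptotics.IsBigO.const_mul_left ?_ _
    have h2 := isBigO_sub_one_of_isMF1 (hm1 j) (hmlim j)
    have h3 : IsBoundedAtImInfty (conjFun Γ (wt j) (F j) q) := (hB.isMF j).bdd_conjFun q
    have h4 := h2.mul h3
    simpa using h4
  -- division by `Δ`
  obtain ⟨g, hg, hfg⟩ := exists_div_Δ hfMF hO
  obtain ⟨r, hr, hgr⟩ := hB.span (K - 12) g hg
  -- a relation between the generators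
  have hrel : ∑ j, (c j • m j - Δf * r j) * F j = 0 := by
    have h1 : ∑ j, (c j • m j - Δf * r j) * F j = f - Δf * g := by
      rw [hf, hgr, Finset.mul_sum, ← Finset.sum_sub_distrib]
      refine Finset.sum_congr rfl fun j _ => ?_
      funext τ
      simp only [Pi.mul_apply, Pi.sub_apply, Pi.smul_apply, smul_eq_mul]
      ring
    rw [h1, hfg, sub_self]
  have hcoef : ∀ j, IsMF1 (K - wt j) (c j • m j - Δf * r j) := by
    intro j
    refine ((hm1 j).smul (c j)).sub ?_
    exact (isMF1_Δf.mul (hr j)).congr_weight (by ring)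
  have hzero := hB.indep K _ hcoef hrel
  -- take limits at `i∞`
  funext j
  have h1 : Tendsto (fun τ => c j * m j τ) atImInfty (𝓝 (c j * 1)) := (hmlim j).const_mul (c j)
  have h2 : Tendsto (fun τ => Δf τ * r j τ) atImInfty (𝓝 0) := by
    have := Twisted.isZeroAtImInfty_bdd_mul (hr j).bdd tendsto_Δf
    refine Tendsto.congr (fun τ => ?_) this
    ring
  have h3 : (fun τ => c j * m j τ) = fun τ => Δf τ * r j τ := by
    funext τ
    have := congrFun (hzero j) τ
    simp only [Pi.sub_apply, Pi.smul_apply, Pi.mul_apply, smul_eq_mul, Pi.zero_apply] at this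
    exact sub_eq_zero.mp this
  rw [h3] at h1
  have := tendsto_nhds_unique h1 h2
  simpa using this

/-! ### The leading matrix is invertible -/

variable {Φ0 : Matrix (CuspIdx Γ) (CuspIdx Γ) ℂ}

theorem conjMatrixR_eq_inv_mul (τ : ℍ) :
    conjMatrixR Γ wt F τ = (rowMatrix Γ)⁻¹ * cuspMatrix Γ wt F τ := by
  have hW : IsUnit (rowMatrix Γ).det := isUnit_iff_ne_zero.mpr (rowMatrix_det_ne_zero Γ)
  rw [cuspMatrix, ← Matrix.mul_assoc, Matrix.nonsing_inv_mul _ hW, Matrix.one_mul]

/-- The leading matrix of the transformed conjugate matrix of a free basis is invertible. -/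
theorem leading_det_ne_zero (hB : IsFreeBasis Γ wt F) (hev : ∀ j, Even (wt j))
    (hlead : CuspMatrix.IsLeading (cuspMatrix Γ wt F) (cuspExponent Γ) Φ0) : Φ0.det ≠ 0 := by
  intro h0
  obtain ⟨v, hv0, hv⟩ := Matrix.exists_mulVec_eq_zero_iff.mpr h0
  have hT := isTwisted_cuspMatrix (Γ := Γ) (wt := wt) (F := F) hB.isMF
  have hO : ∀ i, (fun τ : ℍ => ∑ j, cuspMatrix Γ wt F τ i j * v j) =O[atImInfty]
      fun τ : ℍ => Real.exp (-2 * π * τ.im) := by
    intro i
    have := hlead.isBigO_of_mulVec_eq_zero hT hv (fun _ _ => (1 : ℂ))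
      (fun _ => mdifferentiable_const) (fun _ _ => rfl) (fun _ => tendsto_const_nhds) i
    refine this.congr_left fun τ => ?_
    refine Finset.sum_congr rfl fun j _ => ?_
    ring
  apply hv0
  have hc := eq_zero_of_isBigO_conjMatrix hB hev (fun j => v (cuspEquiv Γ j)) ?_
  · funext i
    have := congrFun hc ((cuspEquiv Γ).symm i)
    simpa using this
  · intro q
    have h1 : (fun τ => ∑ j, conjMatrix Γ wt F τ q j * v (cuspEquiv Γ j)) =
        ∑ i, fun τ => (rowMatrix Γ)⁻¹ (cuspEquiv Γ q) i *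
          ∑ j, cuspMatrix Γ wt F τ i j * v j := by
      funext τ
      rw [Finset.sum_apply]
      have h2 : ∑ j, conjMatrix Γ wt F τ q j * v (cuspEquiv Γ j) =
          ∑ j', conjMatrixR Γ wt F τ (cuspEquiv Γ q) j' * v j' := by
        rw [← Equiv.sum_comp (cuspEquiv Γ)]
        refine Finset.sum_congr rfl fun j _ => ?_
        rw [conjMatrixR_apply, Equiv.symm_apply_apply, Equiv.symm_apply_apply]
        rfl
      rw [h2]
      simp_rw [conjMatrixR_eq_inv_mul, Matrix.mul_apply, Finset.sum_mul, Finset.mul_sum]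
      rw [Finset.sum_comm]
      refine Finset.sum_congr rfl fun i _ => Finset.sum_congr rfl fun j _ => ?_
      ring
    rw [h1]
    exact Asymptotics.IsBigO.sum fun i _ => (hO i).const_mul_left _

/-! ### The deliverables of WP-CX -/

/-- **(CX1)** asymptotics of the determinant of the conjugate matrix of a free basis. -/
theorem tendsto_det_conjMatrix_of_even (hB : IsFreeBasis Γ wt F) (hev : ∀ j, Even (wt j)) :
    ∃ c : ℂ, c ≠ 0 ∧ Tendsto (fun τ : ℍ => (conjMatrix Γ wt F τ).det *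
      cexp (-(π * I * ((Nat.card (SL(2, ℤ) ⧸ Γ) : ℂ) - (cuspNum Γ : ℂ)) * (τ : ℂ))))
      atImInfty (𝓝 c) := by
  obtain ⟨Φ0, hlead⟩ := (isTwisted_cuspMatrix (Γ := Γ) (wt := wt) (F := F) hB.isMF).exists_isLeading
  refine ⟨Φ0.det / (rowMatrix Γ).det, ?_, tendsto_det_conjMatrix_of_isLeading hlead⟩
  exact div_ne_zero (leading_det_ne_zero hB hev hlead) (rowMatrix_det_ne_zero Γ)

/-- **(CX2)** decay of `Δ` times the inverse of the conjugate matrix of a free basis. -/
theorem isZeroAtImInfty_Δ_mul_inv_of_even (hB : IsFreeBasis Γ wt F) (hev : ∀ j, Even (wt j))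
    (q j : SL(2, ℤ) ⧸ Γ) :
    IsZeroAtImInfty (fun τ => Δf τ * ((conjMatrix Γ wt F τ)⁻¹ j q)) := by
  obtain ⟨Φ0, hlead⟩ := (isTwisted_cuspMatrix (Γ := Γ) (wt := wt) (F := F) hB.isMF).exists_isLeading
  have hd : Δf =O[atImInfty] fun τ : ℍ => Real.exp (-2 * π * τ.im) := by
    have h := CuspFormClass.exp_decay_atImInfty (h := 1) CuspForm.discriminant one_pos
      one_mem_strictPeriods_SL
    simp only [div_one] at h
    exact h
  exact tendsto_mul_inv_conjMatrix_of_isLeading hlead (leading_det_ne_zero hB hev hlead) hd j q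

/-! ### Evenness of the weights when `-1 ∈ Γ` -/

theorem Leading.neg_one_mem_coe (hneg : -1 ∈ Γ) :
    (-1 : GL (Fin 2) ℝ) ∈ (Γ : Subgroup (GL (Fin 2) ℝ)) := by
  have := (mem_coe_iff (Γ := Γ) (-1)).mpr hneg
  convert this using 1
  ext i j
  fin_cases i <;> fin_cases j <;> simp

theorem IsFreeBasis.even_wt (hB : IsFreeBasis Γ wt F) (hneg : -1 ∈ Γ) (j : SL(2, ℤ) ⧸ Γ) :
    Even (wt j) := by
  by_contra hodd
  rw [Int.not_even_iff_odd] at hodd
  obtain ⟨M, hM⟩ := hB.isMF j
  have hM0 : M = 0 := ModularForm.eq_zero_of_neg_one_mem (Leading.neg_one_mem_coe hneg) hodd M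
  refine hB.ne_zero j ?_
  rw [← hM, hM0]
  rfl

/-- **(CX1)** for `Γ ∋ -1`. -/
theorem tendsto_det_conjMatrix (hB : IsFreeBasis Γ wt F) (hneg : -1 ∈ Γ) :
    ∃ c : ℂ, c ≠ 0 ∧ Tendsto (fun τ : ℍ => (conjMatrix Γ wt F τ).det *
      cexp (-(π * I * ((Nat.card (SL(2, ℤ) ⧸ Γ) : ℂ) - (cuspNum Γ : ℂ)) * (τ : ℂ))))
      atImInfty (𝓝 c) :=
  tendsto_det_conjMatrix_of_even hB (hB.even_wt hneg)

/-- **(CX2)** for `Γ ∋ -1`. -/
theorem isZeroAtImInfty_Δ_mul_inv (hB : IsFreeBasis Γ wt F) (hneg : -1 ∈ Γ)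
    (q j : SL(2, ℤ) ⧸ Γ) :
    IsZeroAtImInfty (fun τ => Δf τ * ((conjMatrix Γ wt F τ)⁻¹ j q)) :=
  isZeroAtImInfty_Δ_mul_inv_of_even hB (hB.even_wt hneg) q j

end Fermat.Agent.S20.Free
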