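import Fermat.Agent.S20.Free.Assembly
import Fermat.Agent.S20.Free.Leading

/-!
# P-S20-FREE: S20 from the existence of a free basis

Plugging the work package CX (`Leading.lean`: `tendsto_det_conjMatrix`, `isZeroAtImInfty_Δ_mul_inv`)
into `Assembly.s20_of_wp`: the dimension formula for `S₂(Γ₀(N))` follows from the existence of a free
basis of `M_*(Γ₀(N))` over `M_*(SL(2,ℤ))` indexed by the cosets (work package Rank).
-/

set_option autoImplicit false

open UpperHalfPlane
open scoped MatrixGroups

namespace Fermat.Agent.S20.Free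

/-- **S20 from work package Rank alone.** -/
theorem s20_of_rank (N : ℕ) [NeZero N]
    (hRank : ∃ (wt : SL(2, ℤ) ⧸ CongruenceSubgroup.Gamma0 N → ℤ)
      (F : SL(2, ℤ) ⧸ CongruenceSubgroup.Gamma0 N → ℍ → ℂ),
      IsFreeBasis (CongruenceSubgroup.Gamma0 N) wt F) :
    (Module.finrank ℂ (CuspForm (CongruenceSubgroup.Gamma0 N) 2) : ℚ) =
      ModularCurve.genusFormula N :=
  Assembly.s20_of_wp N hRank
    (fun _ _ hB => tendsto_det_conjMatrix hB (Comb.neg_one_mem_Gamma0 N))
    (fun _ _ hB => isZeroAtImInfty_Δ_mul_inv hB (Comb.neg_one_mem_Gamma0 N))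

end Fermat.Agent.S20.Free
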