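import Fermat.Agent.S20.Free.Defs

/-!
# P-S20-FREE: closure properties of `IsMF`, `IsCF`, and conjugates over `SL(2,ℤ) ⧸ Γ`
-/

set_option autoImplicit false

open UpperHalfPlane ModularForm SlashInvariantForm Filter Matrix.SpecialLinearGroup
open scoped MatrixGroups ModularForm Manifold Topology

namespace Fermat.Agent.S20.Free

variable {Γ : Subgroup SL(2, ℤ)} [Γ.FiniteIndex] {k l : ℤ} {f g : ℍ → ℂ}

/-! ### Closure properties -/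

theorem IsMF.mdiff (h : IsMF Γ k f) : MDiff f := (isMF_iff.mp h).1
theorem IsMF.slash_eq (h : IsMF Γ k f) {γ : SL(2, ℤ)} (hγ : γ ∈ Γ) : f ∣[k] γ = f :=
  (isMF_iff.mp h).2.1 γ hγ
theorem IsMF.bdd (h : IsMF Γ k f) (γ : SL(2, ℤ)) : IsBoundedAtImInfty (f ∣[k] γ) :=
  (isMF_iff.mp h).2.2 γ
theorem IsCF.mdiff (h : IsCF Γ k f) : MDiff f := (isCF_iff.mp h).1
theorem IsCF.slash_eq (h : IsCF Γ k f) {γ : SL(2, ℤ)} (hγ : γ ∈ Γ) : f ∣[k] γ = f :=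
  (isCF_iff.mp h).2.1 γ hγ
theorem IsCF.zero_at (h : IsCF Γ k f) (γ : SL(2, ℤ)) : IsZeroAtImInfty (f ∣[k] γ) :=
  (isCF_iff.mp h).2.2 γ
theorem IsMF1.mdiff (h : IsMF1 k f) : MDiff f := (isMF1_iff.mp h).1
theorem IsMF1.slash_eq (h : IsMF1 k f) (γ : SL(2, ℤ)) : f ∣[k] γ = f := (isMF1_iff.mp h).2.1 γ
theorem IsMF1.bdd (h : IsMF1 k f) : IsBoundedAtImInfty f := (isMF1_iff.mp h).2.2
theorem IsCF1.mdiff (h : IsCF1 k f) : MDiff f := (isCF1_iff.mp h).1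
theorem IsCF1.slash_eq (h : IsCF1 k f) (γ : SL(2, ℤ)) : f ∣[k] γ = f := (isCF1_iff.mp h).2.1 γ
theorem IsCF1.zero_at (h : IsCF1 k f) : IsZeroAtImInfty f := (isCF1_iff.mp h).2.2

omit [Γ.FiniteIndex] in
theorem IsMF.congr_weight (h : IsMF Γ k f) (hkl : k = l) : IsMF Γ l f := hkl ▸ h
omit [Γ.FiniteIndex] in
theorem IsCF.congr_weight (h : IsCF Γ k f) (hkl : k = l) : IsCF Γ l f := hkl ▸ h
theorem IsMF1.congr_weight (h : IsMF1 k f) (hkl : k = l) : IsMF1 l f := hkl ▸ h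
theorem IsCF1.congr_weight (h : IsCF1 k f) (hkl : k = l) : IsCF1 l f := hkl ▸ h

omit [Γ.FiniteIndex] in
theorem isMF_zero : IsMF Γ k (0 : ℍ → ℂ) := ⟨0, rfl⟩
omit [Γ.FiniteIndex] in
theorem isCF_zero : IsCF Γ k (0 : ℍ → ℂ) := ⟨0, rfl⟩
theorem isMF1_zero : IsMF1 k (0 : ℍ → ℂ) := ⟨0, rfl⟩
theorem isCF1_zero : IsCF1 k (0 : ℍ → ℂ) := ⟨0, rfl⟩

omit [Γ.FiniteIndex] in
theorem IsMF.add (hf : IsMF Γ k f) (hg : IsMF Γ k g) : IsMF Γ k (f + g) := by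
  obtain ⟨F, rfl⟩ := hf; obtain ⟨G, rfl⟩ := hg; exact ⟨F + G, rfl⟩
omit [Γ.FiniteIndex] in
theorem IsCF.add (hf : IsCF Γ k f) (hg : IsCF Γ k g) : IsCF Γ k (f + g) := by
  obtain ⟨F, rfl⟩ := hf; obtain ⟨G, rfl⟩ := hg; exact ⟨F + G, rfl⟩
theorem IsMF1.add (hf : IsMF1 k f) (hg : IsMF1 k g) : IsMF1 k (f + g) := by
  obtain ⟨F, rfl⟩ := hf; obtain ⟨G, rfl⟩ := hg; exact ⟨F + G, rfl⟩
theorem IsCF1.add (hf : IsCF1 k f) (hg : IsCF1 k g) : IsCF1 k (f + g) := by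
  obtain ⟨F, rfl⟩ := hf; obtain ⟨G, rfl⟩ := hg; exact ⟨F + G, rfl⟩

omit [Γ.FiniteIndex] in
theorem IsMF.neg (hf : IsMF Γ k f) : IsMF Γ k (-f) := by
  obtain ⟨F, rfl⟩ := hf; exact ⟨-F, rfl⟩
omit [Γ.FiniteIndex] in
theorem IsCF.neg (hf : IsCF Γ k f) : IsCF Γ k (-f) := by
  obtain ⟨F, rfl⟩ := hf; exact ⟨-F, rfl⟩
theorem IsMF1.neg (hf : IsMF1 k f) : IsMF1 k (-f) := by
  obtain ⟨F, rfl⟩ := hf; exact ⟨-F, rfl⟩
theorem IsCF1.neg (hf : IsCF1 k f) : IsCF1 k (-f) := by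
  obtain ⟨F, rfl⟩ := hf; exact ⟨-F, rfl⟩

omit [Γ.FiniteIndex] in
theorem IsMF.sub (hf : IsMF Γ k f) (hg : IsMF Γ k g) : IsMF Γ k (f - g) := by
  obtain ⟨F, rfl⟩ := hf; obtain ⟨G, rfl⟩ := hg; exact ⟨F - G, rfl⟩
omit [Γ.FiniteIndex] in
theorem IsCF.sub (hf : IsCF Γ k f) (hg : IsCF Γ k g) : IsCF Γ k (f - g) := by
  obtain ⟨F, rfl⟩ := hf; obtain ⟨G, rfl⟩ := hg; exact ⟨F - G, rfl⟩
theorem IsMF1.sub (hf : IsMF1 k f) (hg : IsMF1 k g) : IsMF1 k (f - g) := by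
  obtain ⟨F, rfl⟩ := hf; obtain ⟨G, rfl⟩ := hg; exact ⟨F - G, rfl⟩
theorem IsCF1.sub (hf : IsCF1 k f) (hg : IsCF1 k g) : IsCF1 k (f - g) := by
  obtain ⟨F, rfl⟩ := hf; obtain ⟨G, rfl⟩ := hg; exact ⟨F - G, rfl⟩

omit [Γ.FiniteIndex] in
theorem IsMF.smul (c : ℂ) (hf : IsMF Γ k f) : IsMF Γ k (c • f) := by
  obtain ⟨F, rfl⟩ := hf; exact ⟨c • F, rfl⟩
omit [Γ.FiniteIndex] in
theorem IsCF.smul (c : ℂ) (hf : IsCF Γ k f) : IsCF Γ k (c • f) := by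
  obtain ⟨F, rfl⟩ := hf; exact ⟨c • F, rfl⟩
theorem IsMF1.smul (c : ℂ) (hf : IsMF1 k f) : IsMF1 k (c • f) := by
  obtain ⟨F, rfl⟩ := hf; exact ⟨c • F, rfl⟩
theorem IsCF1.smul (c : ℂ) (hf : IsCF1 k f) : IsCF1 k (c • f) := by
  obtain ⟨F, rfl⟩ := hf; exact ⟨c • F, rfl⟩

omit [Γ.FiniteIndex] in
theorem IsMF.mul (hf : IsMF Γ k f) (hg : IsMF Γ l g) : IsMF Γ (k + l) (f * g) := by
  obtain ⟨F, rfl⟩ := hf; obtain ⟨G, rfl⟩ := hg; exact ⟨F.mul G, rfl⟩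
omit [Γ.FiniteIndex] in
theorem IsCF.mul_isMF (hf : IsCF Γ k f) (hg : IsMF Γ l g) : IsCF Γ (k + l) (f * g) := by
  obtain ⟨F, rfl⟩ := hf; obtain ⟨G, rfl⟩ := hg; exact ⟨F.mulModularForm G, rfl⟩
theorem IsMF1.mul (hf : IsMF1 k f) (hg : IsMF1 l g) : IsMF1 (k + l) (f * g) := by
  obtain ⟨F, rfl⟩ := hf; obtain ⟨G, rfl⟩ := hg; exact ⟨F.mul G, rfl⟩
theorem IsCF1.mul_isMF1 (hf : IsCF1 k f) (hg : IsMF1 l g) : IsCF1 (k + l) (f * g) := by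
  obtain ⟨F, rfl⟩ := hf; obtain ⟨G, rfl⟩ := hg; exact ⟨F.mulModularForm G, rfl⟩

omit [Γ.FiniteIndex] in
theorem IsMF.isMF_mul_isCF (hf : IsMF Γ k f) (hg : IsCF Γ l g) : IsCF Γ (k + l) (f * g) := by
  have := (hg.mul_isMF hf).congr_weight (add_comm l k)
  rwa [mul_comm] at this

omit [Γ.FiniteIndex] in
theorem isMF_const (c : ℂ) : IsMF Γ 0 (fun _ => c) := ⟨ModularForm.const c, rfl⟩
theorem isMF1_const (c : ℂ) : IsMF1 0 (fun _ => c) := ⟨ModularForm.const c, rfl⟩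
omit [Γ.FiniteIndex] in
theorem isMF_one : IsMF Γ 0 (1 : ℍ → ℂ) := isMF_const 1
theorem isMF1_one : IsMF1 0 (1 : ℍ → ℂ) := isMF1_const 1

omit [Γ.FiniteIndex] in
theorem IsMF.sum {ι : Type*} (s : Finset ι) {F : ι → ℍ → ℂ} (h : ∀ i ∈ s, IsMF Γ k (F i)) :
    IsMF Γ k (∑ i ∈ s, F i) := by
  classical
  induction s using Finset.induction_on with
  | empty => simpa using isMF_zero
  | insert i t hi ih =>
    rw [Finset.sum_insert hi]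
    exact (h i (Finset.mem_insert_self i t)).add (ih fun j hj => h j (Finset.mem_insert_of_mem hj))

omit [Γ.FiniteIndex] in
theorem IsCF.sum {ι : Type*} (s : Finset ι) {F : ι → ℍ → ℂ} (h : ∀ i ∈ s, IsCF Γ k (F i)) :
    IsCF Γ k (∑ i ∈ s, F i) := by
  classical
  induction s using Finset.induction_on with
  | empty => simpa using isCF_zero
  | insert i t hi ih =>
    rw [Finset.sum_insert hi]
    exact (h i (Finset.mem_insert_self i t)).add (ih fun j hj => h j (Finset.mem_insert_of_mem hj))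

theorem IsMF1.sum {ι : Type*} (s : Finset ι) {F : ι → ℍ → ℂ} (h : ∀ i ∈ s, IsMF1 k (F i)) :
    IsMF1 k (∑ i ∈ s, F i) := by
  classical
  induction s using Finset.induction_on with
  | empty => simpa using isMF1_zero
  | insert i t hi ih =>
    rw [Finset.sum_insert hi]
    exact (h i (Finset.mem_insert_self i t)).add (ih fun j hj => h j (Finset.mem_insert_of_mem hj))

theorem IsMF1.pow (hf : IsMF1 k f) (n : ℕ) : IsMF1 (n * k) (f ^ n) := by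
  induction n with
  | zero => simpa using isMF1_one
  | succ n ih =>
    rw [pow_succ]
    exact (ih.mul hf).congr_weight (by push_cast; ring)

/-! ### Conjugates -/

variable (Γ) in
/-- The conjugate `f ∣[k] g⁻¹` of `f` attached to the coset `q = g Γ`. -/
noncomputable def conjFun (k : ℤ) (f : ℍ → ℂ) (q : SL(2, ℤ) ⧸ Γ) : ℍ → ℂ :=
  f ∣[k] (Quotient.out q)⁻¹

omit [Γ.FiniteIndex] in
theorem conjFun_mk (hinv : ∀ γ ∈ Γ, f ∣[k] γ = f) (g : SL(2, ℤ)) :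
    conjFun Γ k f (g : SL(2, ℤ) ⧸ Γ) = f ∣[k] g⁻¹ := by
  obtain ⟨h, hh⟩ := QuotientGroup.mk_out_eq_mul Γ g
  unfold conjFun
  rw [show Quotient.out (g : SL(2, ℤ) ⧸ Γ) = g * h from hh, mul_inv_rev, SlashAction.slash_mul,
    hinv _ (inv_mem h.2)]

omit [Γ.FiniteIndex] in
theorem conjFun_one_coset (hinv : ∀ γ ∈ Γ, f ∣[k] γ = f) :
    conjFun Γ k f ((1 : SL(2, ℤ)) : SL(2, ℤ) ⧸ Γ) = f := by
  rw [conjFun_mk hinv, inv_one, SlashAction.slash_one]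

omit [Γ.FiniteIndex] in
theorem conjFun_slash (hinv : ∀ γ ∈ Γ, f ∣[k] γ = f) (σ : SL(2, ℤ)) (q : SL(2, ℤ) ⧸ Γ) :
    conjFun Γ k f q ∣[k] σ = conjFun Γ k f (σ⁻¹ • q) := by
  induction q using QuotientGroup.induction_on with
  | H g =>
    have : σ⁻¹ • (g : SL(2, ℤ) ⧸ Γ) = ((σ⁻¹ * g : SL(2, ℤ)) : SL(2, ℤ) ⧸ Γ) := rfl
    rw [this, conjFun_mk hinv, conjFun_mk hinv, ← SlashAction.slash_mul, mul_inv_rev, inv_inv]

omit [Γ.FiniteIndex] in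
theorem conjFun_slash' (hinv : ∀ γ ∈ Γ, f ∣[k] γ = f) (σ : SL(2, ℤ)) (q : SL(2, ℤ) ⧸ Γ) :
    conjFun Γ k f (σ • q) = conjFun Γ k f q ∣[k] σ⁻¹ := by
  rw [conjFun_slash hinv, inv_inv]

omit [Γ.FiniteIndex] in
theorem conjFun_add (q : SL(2, ℤ) ⧸ Γ) :
    conjFun Γ k (f + g) q = conjFun Γ k f q + conjFun Γ k g q := by
  simp [conjFun]

omit [Γ.FiniteIndex] in
theorem conjFun_zero (q : SL(2, ℤ) ⧸ Γ) : conjFun Γ k (0 : ℍ → ℂ) q = 0 := by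
  simp [conjFun]

omit [Γ.FiniteIndex] in
theorem conjFun_neg (q : SL(2, ℤ) ⧸ Γ) : conjFun Γ k (-f) q = -conjFun Γ k f q := by
  simp [conjFun, SlashAction.neg_slash]

omit [Γ.FiniteIndex] in
theorem conjFun_sub (q : SL(2, ℤ) ⧸ Γ) :
    conjFun Γ k (f - g) q = conjFun Γ k f q - conjFun Γ k g q := by
  simp [conjFun, sub_eq_add_neg, SlashAction.neg_slash]

omit [Γ.FiniteIndex] in
theorem conjFun_smul (c : ℂ) (q : SL(2, ℤ) ⧸ Γ) :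
    conjFun Γ k (c • f) q = c • conjFun Γ k f q := by
  simp [conjFun]

omit [Γ.FiniteIndex] in
theorem conjFun_mul (q : SL(2, ℤ) ⧸ Γ) :
    conjFun Γ (k + l) (f * g) q = conjFun Γ k f q * conjFun Γ l g q := by
  simp [conjFun, mul_slash_SL2]

omit [Γ.FiniteIndex] in
theorem conjFun_sum {ι : Type*} (s : Finset ι) (F : ι → ℍ → ℂ) (q : SL(2, ℤ) ⧸ Γ) :
    conjFun Γ k (∑ i ∈ s, F i) q = ∑ i ∈ s, conjFun Γ k (F i) q := by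
  simp [conjFun]

omit [Γ.FiniteIndex] in
theorem conjFun_of_isMF1 (h : IsMF1 k f) (q : SL(2, ℤ) ⧸ Γ) : conjFun Γ k f q = f :=
  h.slash_eq _

theorem IsMF.mdiff_conjFun (h : IsMF Γ k f) (q : SL(2, ℤ) ⧸ Γ) : MDiff (conjFun Γ k f q) :=
  h.mdiff.slash k _

theorem IsMF.bdd_conjFun (h : IsMF Γ k f) (q : SL(2, ℤ) ⧸ Γ) :
    IsBoundedAtImInfty (conjFun Γ k f q) := h.bdd _

theorem IsCF.zero_at_conjFun (h : IsCF Γ k f) (q : SL(2, ℤ) ⧸ Γ) :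
    IsZeroAtImInfty (conjFun Γ k f q) := h.zero_at _

/-- Modular forms on `Γ` from boundedness of all conjugates. -/
theorem isMF_of_conjFun (hol : MDiff f) (hinv : ∀ γ ∈ Γ, f ∣[k] γ = f)
    (hbd : ∀ q : SL(2, ℤ) ⧸ Γ, IsBoundedAtImInfty (conjFun Γ k f q)) : IsMF Γ k f := by
  refine isMF_iff.mpr ⟨hol, hinv, fun γ => ?_⟩
  have := hbd ((γ⁻¹ : SL(2, ℤ)) : SL(2, ℤ) ⧸ Γ)
  rwa [conjFun_mk hinv, inv_inv] at this

/-- Cusp forms on `Γ` from vanishing of all conjugates at `i∞`. -/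
theorem isCF_of_conjFun (hol : MDiff f) (hinv : ∀ γ ∈ Γ, f ∣[k] γ = f)
    (hz : ∀ q : SL(2, ℤ) ⧸ Γ, IsZeroAtImInfty (conjFun Γ k f q)) : IsCF Γ k f := by
  refine isCF_iff.mpr ⟨hol, hinv, fun γ => ?_⟩
  have := hz ((γ⁻¹ : SL(2, ℤ)) : SL(2, ℤ) ⧸ Γ)
  rwa [conjFun_mk hinv, inv_inv] at this

end Fermat.Agent.S20.Free
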