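import Fermat.Agent.S20.Free.Structure

/-!
# P-S20-FREE: transformation law of the matrix of conjugates

For a family `F j` of modular forms on `Γ` of weights `wt j` (any index type `J`), the rectangular
matrix `conjMat Γ wt F τ q j = conjFun Γ (wt j) (F j) q τ` satisfies
`conjMat (σ • τ) q j = denom σ τ ^ wt j * conjMat τ (σ⁻¹ • q) j`.  For a choice `s : Q → J` of
columns the minor `minorDet Γ wt F s τ` transforms by the sign character `permSign Γ σ` and the
automorphy factor of weight `∑ q, wt (s q)`.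
-/

set_option autoImplicit false

open UpperHalfPlane ModularForm SlashInvariantForm Filter Matrix.SpecialLinearGroup
open scoped MatrixGroups ModularForm Manifold Topology

namespace Fermat.Agent.S20.Free

variable {Γ : Subgroup SL(2, ℤ)} [Γ.FiniteIndex]

omit [Γ.FiniteIndex] in
/-- Value of a conjugate at `σ • τ`. -/
theorem conjFun_smul_apply {k : ℤ} {f : ℍ → ℂ} (hinv : ∀ γ ∈ Γ, f ∣[k] γ = f) (σ : SL(2, ℤ))
    (q : SL(2, ℤ) ⧸ Γ) (τ : ℍ) :
    conjFun Γ k f q (σ • τ) = denom σ τ ^ k * conjFun Γ k f (σ⁻¹ • q) τ := by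
  have h := congrFun (conjFun_slash hinv σ q) τ
  rw [SL_slash_apply] at h
  rw [← h, mul_comm, mul_assoc, ← zpow_add₀ (denom_ne_zero σ τ), neg_add_cancel, zpow_zero,
    mul_one]

variable (Γ) in
/-- The rectangular matrix of conjugates of a family indexed by an arbitrary type. -/
noncomputable def conjMat {J : Type*} (wt : J → ℤ) (F : J → ℍ → ℂ) (τ : ℍ) :
    Matrix (SL(2, ℤ) ⧸ Γ) J ℂ :=
  fun q j => conjFun Γ (wt j) (F j) q τ

omit [Γ.FiniteIndex] in
theorem conjMat_apply {J : Type*} (wt : J → ℤ) (F : J → ℍ → ℂ) (τ : ℍ) (q : SL(2, ℤ) ⧸ Γ)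
    (j : J) : conjMat Γ wt F τ q j = conjFun Γ (wt j) (F j) q τ := rfl

omit [Γ.FiniteIndex] in
theorem conjMatrix_eq_conjMat (wt : SL(2, ℤ) ⧸ Γ → ℤ) (F : SL(2, ℤ) ⧸ Γ → ℍ → ℂ) (τ : ℍ) :
    conjMatrix Γ wt F τ = conjMat Γ wt F τ := rfl

omit [Γ.FiniteIndex] in
theorem conjMat_smul {J : Type*} {wt : J → ℤ} {F : J → ℍ → ℂ}
    (hF : ∀ j, ∀ γ ∈ Γ, F j ∣[wt j] γ = F j) (σ : SL(2, ℤ)) (τ : ℍ) (q : SL(2, ℤ) ⧸ Γ) (j : J) :
    conjMat Γ wt F (σ • τ) q j = denom σ τ ^ wt j * conjMat Γ wt F τ (σ⁻¹ • q) j :=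
  conjFun_smul_apply (hF j) σ q τ

variable (Γ) in
/-- The sign of the permutation of the coset space induced by `σ⁻¹`, as a complex number. -/
noncomputable def permSign (σ : SL(2, ℤ)) : ℂ :=
  ((Equiv.Perm.sign (MulAction.toPerm σ⁻¹ : Equiv.Perm (SL(2, ℤ) ⧸ Γ)) : ℤˣ) : ℤ)

theorem permSign_mul_self (σ : SL(2, ℤ)) : permSign Γ σ * permSign Γ σ = 1 := by
  unfold permSign
  rcases Int.units_eq_one_or (Equiv.Perm.sign (MulAction.toPerm σ⁻¹ :
    Equiv.Perm (SL(2, ℤ) ⧸ Γ))) with h | h <;> rw [h] <;> simp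

variable (Γ) in
/-- The minor of the matrix of conjugates on the columns `s q`, `q : Q`. -/
noncomputable def minorDet {J : Type*} (wt : J → ℤ) (F : J → ℍ → ℂ) (s : SL(2, ℤ) ⧸ Γ → J)
    (τ : ℍ) : ℂ :=
  ((conjMat Γ wt F τ).submatrix id s).det

theorem zpow_sum_eq_prod {ι : Type*} (t : Finset ι) (a : ℂ) (ha : a ≠ 0) (n : ι → ℤ) :
    ∏ i ∈ t, a ^ n i = a ^ ∑ i ∈ t, n i := by
  classical
  induction t using Finset.induction_on with
  | empty => simp
  | insert i t hi ih => rw [Finset.prod_insert hi, Finset.sum_insert hi, zpow_add₀ ha, ih]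

/-- Transformation law of the minors. -/
theorem minorDet_smul {J : Type*} {wt : J → ℤ} {F : J → ℍ → ℂ}
    (hF : ∀ j, ∀ γ ∈ Γ, F j ∣[wt j] γ = F j) (s : SL(2, ℤ) ⧸ Γ → J) (σ : SL(2, ℤ)) (τ : ℍ) :
    minorDet Γ wt F s (σ • τ)
      = permSign Γ σ * denom σ τ ^ (∑ q, wt (s q)) * minorDet Γ wt F s τ := by
  unfold minorDet
  have h : (conjMat Γ wt F (σ • τ)).submatrix id s
      = (((conjMat Γ wt F τ).submatrix id s) * Matrix.diagonal fun q => denom σ τ ^ wt (s q)).submatrix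
          (MulAction.toPerm σ⁻¹ : Equiv.Perm (SL(2, ℤ) ⧸ Γ)) id := by
    ext q j
    rw [Matrix.submatrix_apply, Matrix.submatrix_apply, Matrix.mul_diagonal, id, id,
      conjMat_smul hF, Matrix.submatrix_apply, MulAction.toPerm_apply, id, mul_comm]
  rw [h, Matrix.det_permute, Matrix.det_mul, Matrix.det_diagonal,
    zpow_sum_eq_prod _ _ (denom_ne_zero σ τ)]
  unfold permSign
  ring

end Fermat.Agent.S20.Free
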