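import Fermat.Agent.S20.Free.SpectralTrace
import Fermat.Agent.S20.Free.DetODE

/-!
# P-S20-FREE block D, part 4: the determinant of the one-parameter group `vMat`

`det (vMat t (orderOf t) z) = exp (π i (n - #orbits) z)`.
-/

set_option autoImplicit false

open Matrix Complex Finset

namespace Fermat.Agent.S20.Free.Cusp

variable {Q : Type*} [Fintype Q] [DecidableEq Q]

/-- infinitesimal generator of `vMat`. -/
noncomputable def genMat (t : Equiv.Perm Q) (M : ℕ) : Matrix Q Q ℂ :=
  ∑ r ∈ range M, (2 * Real.pi * I * r / M : ℂ) • specProj t M r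

theorem hasDerivAt_eexp (M r : ℕ) (z : ℂ) :
    HasDerivAt (eexp M r) ((2 * Real.pi * I * r / M) * eexp M r z) z := by
  have e : eexp M r = fun w : ℂ => cexp ((2 * Real.pi * I * r / M) * w) := by
    funext w
    unfold eexp
    congr 1
    ring
  have h1 : HasDerivAt (fun w : ℂ => (2 * Real.pi * I * r / M : ℂ) * w)
      (2 * Real.pi * I * r / M) z := by
    have := (hasDerivAt_id' z).const_mul (2 * Real.pi * I * r / M : ℂ)
    rwa [mul_one] at this
  have h2 := h1.cexp
  rw [e]
  exact h2.congr_deriv (mul_comm _ _)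

/-- ODE uniqueness for `f' = κ f`, `f 0 = 1`. -/
theorem eq_cexp_of_hasDerivAt {f : ℂ → ℂ} {κ : ℂ} (hf : ∀ w, HasDerivAt f (κ * f w) w)
    (h0 : f 0 = 1) (z : ℂ) : f z = cexp (κ * z) := by
  have hg : ∀ w, HasDerivAt (fun w => f w * cexp ((-κ) * w)) 0 w := by
    intro w
    have h2 : HasDerivAt (fun w : ℂ => cexp ((-κ) * w)) (cexp ((-κ) * w) * (-κ)) w := by
      have h3 : HasDerivAt (fun w : ℂ => (-κ) * w) (-κ) w := by
        have := (hasDerivAt_id' w).const_mul (-κ)
        rwa [mul_one] at this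
      exact h3.cexp
    have h4 : HasDerivAt (fun w => f w * cexp ((-κ) * w))
        (κ * f w * cexp ((-κ) * w) + f w * (cexp ((-κ) * w) * (-κ))) w := (hf w).mul h2
    have e : κ * f w * cexp ((-κ) * w) + f w * (cexp ((-κ) * w) * (-κ)) = 0 := by ring
    rwa [e] at h4
  have hconst : f z * cexp ((-κ) * z) = f 0 * cexp ((-κ) * 0) :=
    is_const_of_deriv_eq_zero (f := fun w => f w * cexp ((-κ) * w))
      (fun w => (hg w).differentiableAt) (fun w => (hg w).deriv) z 0
  rw [h0, mul_zero, Complex.exp_zero, mul_one, neg_mul, Complex.exp_neg] at hconst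
  have hne : cexp (κ * z) ≠ 0 := Complex.exp_ne_zero _
  field_simp at hconst
  exact hconst

theorem genMat_mul_vMat {t : Equiv.Perm Q} {M : ℕ} (hM : 0 < M) (htM : t ^ M = 1) (z : ℂ) :
    genMat t M * vMat t M z
      = ∑ r ∈ range M, ((2 * Real.pi * I * r / M) * eexp M r z) • specProj t M r := by
  unfold genMat vMat
  rw [Matrix.sum_mul]
  refine Finset.sum_congr rfl fun r hr => ?_
  rw [Matrix.mul_sum, Finset.sum_eq_single r]
  · rw [Matrix.smul_mul, Matrix.mul_smul, specProj_mul_specProj_self hM htM, smul_smul]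
  · intro s hs hsr
    rw [Matrix.smul_mul, Matrix.mul_smul,
      specProj_mul_specProj_of_ne hM htM (Finset.mem_range.mp hr) (Finset.mem_range.mp hs)
        (Ne.symm hsr), smul_zero, smul_zero]
  · intro h; exact absurd hr h

theorem vMat_apply (t : Equiv.Perm Q) (M : ℕ) (z : ℂ) (i j : Q) :
    vMat t M z i j = ∑ r ∈ range M, eexp M r z * specProj t M r i j := by
  unfold vMat
  rw [Matrix.sum_apply]
  rfl

theorem hasDerivAt_vMat_apply {t : Equiv.Perm Q} {M : ℕ} (hM : 0 < M) (htM : t ^ M = 1) (z : ℂ)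
    (i j : Q) :
    HasDerivAt (fun w => vMat t M w i j) ((genMat t M * vMat t M z) i j) z := by
  rw [genMat_mul_vMat hM htM, Matrix.sum_apply]
  have e : (fun w => vMat t M w i j) = fun w => ∑ r ∈ range M, eexp M r w * specProj t M r i j := by
    funext w; exact vMat_apply t M w i j
  rw [e]
  refine HasDerivAt.fun_sum fun r _ => ?_
  exact (hasDerivAt_eexp M r z).mul_const _

theorem hasDerivAt_det_vMat {t : Equiv.Perm Q} {M : ℕ} (hM : 0 < M) (htM : t ^ M = 1) (z : ℂ) :
    HasDerivAt (fun w => (vMat t M w).det) ((genMat t M).trace * (vMat t M z).det) z :=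
  DetODE.hasDerivAt_det_of_eq_mul' (Φ' := genMat t M * vMat t M z)
    (fun i j => hasDerivAt_vMat_apply hM htM z i j) rfl

theorem det_vMat {t : Equiv.Perm Q} {M : ℕ} (hM : 0 < M) (htM : t ^ M = 1) (z : ℂ) :
    (vMat t M z).det = cexp ((genMat t M).trace * z) :=
  eq_cexp_of_hasDerivAt (f := fun w => (vMat t M w).det)
    (fun w => hasDerivAt_det_vMat hM htM w) (by simp only [vMat_zero hM, Matrix.det_one]) z

theorem trace_genMat (t : Equiv.Perm Q) :
    (genMat t (orderOf t)).trace = Real.pi * I * ((Fintype.card Q : ℂ)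
      - (Nat.card (MulAction.orbitRel.Quotient (Subgroup.zpowers t) Q) : ℂ)) := by
  have hfin : IsOfFinOrder t := isOfFinOrder_of_finite t
  have hM : (orderOf t : ℂ) ≠ 0 := Nat.cast_ne_zero.mpr hfin.orderOf_pos.ne'
  have h := sum_mul_trace_specProj_orderOf t
  unfold genMat
  rw [Matrix.trace_sum]
  have h1 : ∀ r ∈ range (orderOf t),
      ((2 * Real.pi * I * r / (orderOf t : ℂ) : ℂ) • specProj t (orderOf t) r).trace
        = (Real.pi * I / (orderOf t : ℂ)) * (2 * ((r : ℂ) * (specProj t (orderOf t) r).trace)) := by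
    intro r _
    rw [Matrix.trace_smul, smul_eq_mul]
    ring
  rw [Finset.sum_congr rfl h1, ← Finset.mul_sum, ← Finset.mul_sum, h]
  field_simp

/-- **Determinant of the one-parameter group of a permutation matrix.** -/
theorem det_vMat_orderOf (t : Equiv.Perm Q) (z : ℂ) :
    (vMat t (orderOf t) z).det = cexp (Real.pi * I * ((Fintype.card Q : ℂ)
      - (Nat.card (MulAction.orbitRel.Quotient (Subgroup.zpowers t) Q) : ℂ)) * z) := by
  have hfin : IsOfFinOrder t := isOfFinOrder_of_finite t
  rw [det_vMat hfin.orderOf_pos (pow_orderOf_eq_one t), trace_genMat]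

end Fermat.Agent.S20.Free.Cusp
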