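import Fermat.Agent.S20.Free.CuspLimit
import Fermat.Agent.S20.Free.CuspDet

/-!
# P-S20-FREE block D, part 5: the abstract cusp theorem

Let `t` be a permutation of a finite set `Q`, and `Φ : ℍ → Matrix Q Q ℂ` with holomorphic entries
bounded at `i∞` such that `Φ (τ + 1) q j = Φ τ (t q) j`.  Assume that no nonzero combination of
the columns of `Φ` is `O(exp (-2π Im τ))`.  Then
* `det Φ τ * exp (-π i (n - #orbits) τ)` tends to a nonzero limit at `i∞`;
* for every `D = O(exp (-2π Im τ))` the entries of `D τ • (Φ τ)⁻¹` tend to `0` at `i∞`.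
-/

set_option autoImplicit false

open Complex Filter Function Topology Matrix Asymptotics
open UpperHalfPlane hiding I
open scoped Manifold

namespace Fermat.Agent.S20.Free.Cusp

/-! ### Generalities on functions on the upper half plane -/

theorem periodic_comp_ofComplex_of_vadd {f : ℍ → ℂ} (hper : ∀ τ : ℍ, f ((1 : ℝ) +ᵥ τ) = f τ) :
    Periodic (f ∘ ofComplex) (1 : ℝ) := by
  intro w
  by_cases hw : 0 < Complex.im w
  · have hw' : 0 < Complex.im (w + (1 : ℝ)) := by simpa using hw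
    simp only [Function.comp_apply, ofComplex_apply_of_im_pos hw', ofComplex_apply_of_im_pos hw]
    have e1 : (⟨w + (1 : ℝ), hw'⟩ : ℍ) = (1 : ℝ) +ᵥ (⟨w, hw⟩ : ℍ) := by
      ext; simp [add_comm]
    rw [e1, hper]
  · have hw1 : Complex.im w ≤ 0 := not_lt.mp hw
    have hw' : Complex.im (w + (1 : ℝ)) ≤ 0 := by simpa using hw1
    rw [Function.comp_apply, Function.comp_apply, ofComplex_apply_of_im_nonpos hw',
      ofComplex_apply_of_im_nonpos hw1]

theorem mdiff_comp_coe {g : ℂ → ℂ} (hg : Differentiable ℂ g) :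
    MDiff (fun τ : ℍ => g (τ : ℂ)) := by
  intro τ
  rw [UpperHalfPlane.mdifferentiableAt_iff]
  have h1 : DifferentiableAt ℂ g (τ : ℂ) := hg _
  refine h1.congr_of_eventuallyEq ?_
  have hopen : IsOpen {z : ℂ | 0 < z.im} := isOpen_lt continuous_const Complex.continuous_im
  filter_upwards [hopen.mem_nhds τ.im_pos] with z hz
  simp [Function.comp, ofComplex_apply_of_im_pos hz]

theorem tendsto_im_atImInfty' : Tendsto (fun τ : ℍ => τ.im) atImInfty atTop :=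
  tendsto_comap

variable {Q : Type*} [Fintype Q] [DecidableEq Q]

/-! ### Analytic properties of `vMat` -/

theorem differentiable_eexp (M r : ℕ) : Differentiable ℂ (eexp M r) :=
  fun z => (hasDerivAt_eexp M r z).differentiableAt

theorem differentiable_vMat_apply (t : Equiv.Perm Q) (M : ℕ) (i j : Q) :
    Differentiable ℂ (fun z => vMat t M z i j) := by
  have e : (fun z => vMat t M z i j)
      = fun z => ∑ r ∈ Finset.range M, eexp M r z * specProj t M r i j := by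
    funext z; exact vMat_apply t M z i j
  rw [e]
  exact Differentiable.fun_sum fun r _ => (differentiable_eexp M r).mul_const _

theorem mdiff_vMat_neg_apply (t : Equiv.Perm Q) (M : ℕ) (i j : Q) :
    MDiff (fun τ : ℍ => vMat t M (-(τ : ℂ)) i j) :=
  mdiff_comp_coe (g := fun z => vMat t M (-z) i j)
    ((differentiable_vMat_apply t M i j).comp differentiable_neg)

theorem norm_eexp_le_one (M r : ℕ) (τ : ℍ) : ‖eexp M r (τ : ℂ)‖ ≤ 1 := by
  rw [norm_eexp, Real.exp_le_one_iff, neg_nonpos]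
  have := τ.im_pos.le
  have : (0 : ℝ) ≤ τ.im := this
  positivity

theorem isBoundedAtImInfty_vMat_apply (t : Equiv.Perm Q) (M : ℕ) (i j : Q) :
    IsBoundedAtImInfty (fun τ : ℍ => vMat t M (τ : ℂ) i j) := by
  rw [isBoundedAtImInfty_iff]
  refine ⟨∑ r ∈ Finset.range M, ‖specProj t M r i j‖, 0, fun τ _ => ?_⟩
  rw [vMat_apply]
  refine (norm_sum_le _ _).trans (Finset.sum_le_sum fun r _ => ?_)
  rw [norm_mul]
  exact mul_le_of_le_one_left (norm_nonneg _) (norm_eexp_le_one M r τ)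

theorem tendsto_mul_eexp_neg {M r : ℕ} (hr : r < M) {D : ℍ → ℂ}
    (hD : D =O[atImInfty] fun τ : ℍ => Real.exp (-2 * Real.pi * τ.im)) :
    Tendsto (fun τ : ℍ => D τ * eexp M r (-(τ : ℂ))) atImInfty (𝓝 0) := by
  have hM : (0 : ℝ) < M := Nat.cast_pos.mpr (lt_of_le_of_lt (Nat.zero_le _) hr)
  have h1 : (fun τ : ℍ => D τ * eexp M r (-(τ : ℂ))) =O[atImInfty]
      fun τ : ℍ => Real.exp (-2 * Real.pi * τ.im) * Real.exp (2 * Real.pi * r * τ.im / M) := by
    refine hD.mul (isBigO_of_le _ fun τ => ?_)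
    rw [norm_eexp, Real.norm_eq_abs, abs_of_pos (Real.exp_pos _)]
    apply le_of_eq
    congr 1
    simp only [Complex.neg_im, UpperHalfPlane.coe_im]
    ring
  refine h1.trans_tendsto ?_
  set c : ℝ := 2 * Real.pi * (1 - r / M) with hc
  have hcpos : 0 < c := by
    have : (r : ℝ) / M < 1 := by
      rw [div_lt_one hM]; exact_mod_cast hr
    have := Real.pi_pos
    rw [hc]
    nlinarith
  have h2 : Tendsto (fun τ : ℍ => Real.exp (-(c * τ.im))) atImInfty (𝓝 0) :=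
    Real.tendsto_exp_neg_atTop_nhds_zero.comp (tendsto_im_atImInfty'.const_mul_atTop hcpos)
  refine h2.congr fun τ => ?_
  rw [← Real.exp_add]
  congr 1
  rw [hc]
  field_simp
  ring

theorem tendsto_mul_vMat_neg_apply (t : Equiv.Perm Q) {M : ℕ} {D : ℍ → ℂ}
    (hD : D =O[atImInfty] fun τ : ℍ => Real.exp (-2 * Real.pi * τ.im)) (i j : Q) :
    Tendsto (fun τ : ℍ => D τ * vMat t M (-(τ : ℂ)) i j) atImInfty (𝓝 0) := by
  have e : (fun τ : ℍ => D τ * vMat t M (-(τ : ℂ)) i j)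
      = fun τ : ℍ => ∑ r ∈ Finset.range M, (D τ * eexp M r (-(τ : ℂ))) * specProj t M r i j := by
    funext τ
    rw [vMat_apply, Finset.mul_sum]
    refine Finset.sum_congr rfl fun r _ => ?_
    ring
  rw [e]
  have : (0 : ℂ) = ∑ r ∈ Finset.range M, (0 : ℂ) * specProj t M r i j := by simp
  rw [this]
  refine tendsto_finsetSum _ fun r hr => ?_
  exact (tendsto_mul_eexp_neg (Finset.mem_range.mp hr) hD).mul_const _


/-! ### The renormalised matrix `B τ = V(-τ) Φ τ` -/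

theorem mdiff_finset_sum {ι : Type*} (s : Finset ι) (F : ι → ℍ → ℂ)
    (h : ∀ i ∈ s, MDiff (F i)) : MDiff (fun τ => ∑ i ∈ s, F i τ) := by
  classical
  induction s using Finset.induction_on with
  | empty =>
    simp only [Finset.sum_empty]
    exact (mdifferentiable_const : MDiff (fun _ : ℍ => (0 : ℂ)))
  | insert a s ha ih =>
    simp only [Finset.sum_insert ha]
    exact (h a (Finset.mem_insert_self a s)).add
      (ih fun i hi => h i (Finset.mem_insert_of_mem hi))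

omit [DecidableEq Q] in
theorem orderOf_pos' (t : Equiv.Perm Q) : 0 < orderOf t :=
  (isOfFinOrder_of_finite t).orderOf_pos

/-- the renormalised matrix `B τ = V(-τ) Φ τ`. -/
noncomputable def bMat (t : Equiv.Perm Q) (Φ : ℍ → Matrix Q Q ℂ) (τ : ℍ) : Matrix Q Q ℂ :=
  vMat t (orderOf t) (-(τ : ℂ)) * Φ τ

theorem vMat_mul_bMat (t : Equiv.Perm Q) (Φ : ℍ → Matrix Q Q ℂ) (τ : ℍ) :
    vMat t (orderOf t) (τ : ℂ) * bMat t Φ τ = Φ τ := by
  unfold bMat
  rw [← Matrix.mul_assoc, vMat_mul_neg (orderOf_pos' t) (pow_orderOf_eq_one t), Matrix.one_mul]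

theorem bMat_apply (t : Equiv.Perm Q) (Φ : ℍ → Matrix Q Q ℂ) (τ : ℍ) (q j : Q) :
    bMat t Φ τ q j = ∑ q', vMat t (orderOf t) (-(τ : ℂ)) q q' * Φ τ q' j := by
  unfold bMat
  rw [Matrix.mul_apply]

theorem bMat_vadd {t : Equiv.Perm Q} {Φ : ℍ → Matrix Q Q ℂ}
    (hT : ∀ τ q j, Φ ((1 : ℝ) +ᵥ τ) q j = Φ τ (t q) j) (τ : ℍ) :
    bMat t Φ ((1 : ℝ) +ᵥ τ) = bMat t Φ τ := by
  have hΦ : Φ ((1 : ℝ) +ᵥ τ) = pMat t * Φ τ := by
    ext q j
    rw [pMat_mul_apply, hT]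
  unfold bMat
  rw [hΦ, ← Matrix.mul_assoc]
  congr 1
  have hc : ((((1 : ℝ) +ᵥ τ : ℍ)) : ℂ) = 1 + (τ : ℂ) := by
    simp [UpperHalfPlane.coe_vadd]
  rw [hc, ← vMat_one (orderOf_pos' t) (pow_orderOf_eq_one t),
    ← vMat_add (orderOf_pos' t) (pow_orderOf_eq_one t)]
  congr 1
  ring

theorem mdiff_bMat_apply {t : Equiv.Perm Q} {Φ : ℍ → Matrix Q Q ℂ}
    (hmd : ∀ q j, MDiff (fun τ => Φ τ q j)) (q j : Q) : MDiff (fun τ => bMat t Φ τ q j) := by
  have e : (fun τ => bMat t Φ τ q j)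
      = fun τ : ℍ => ∑ q', vMat t (orderOf t) (-(τ : ℂ)) q q' * Φ τ q' j := by
    funext τ; exact bMat_apply t Φ τ q j
  rw [e]
  exact mdiff_finset_sum _ _ fun q' _ => (mdiff_vMat_neg_apply t (orderOf t) q q').mul (hmd q' j)

theorem isBigO_qParam_one :
    (fun τ : ℍ => Periodic.qParam 1 (τ : ℂ)) =O[atImInfty]
      fun τ : ℍ => Real.exp (-2 * Real.pi * τ.im) := by
  refine isBigO_of_le _ fun τ => ?_
  rw [Periodic.norm_qParam, Real.norm_eq_abs, abs_of_pos (Real.exp_pos _)]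
  simp

theorem isZeroAtImInfty_bMat_mul_qParam {t : Equiv.Perm Q} {Φ : ℍ → Matrix Q Q ℂ}
    (hbd : ∀ q j, IsBoundedAtImInfty (fun τ => Φ τ q j)) (q j : Q) :
    IsZeroAtImInfty (fun τ : ℍ => bMat t Φ τ q j * Periodic.qParam 1 (τ : ℂ)) := by
  have e : (fun τ : ℍ => bMat t Φ τ q j * Periodic.qParam 1 (τ : ℂ))
      = fun τ : ℍ => ∑ q', (Periodic.qParam 1 (τ : ℂ) * vMat t (orderOf t) (-(τ : ℂ)) q q')
          * Φ τ q' j := by
    funext τ
    rw [bMat_apply, Finset.sum_mul]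
    refine Finset.sum_congr rfl fun q' _ => ?_
    ring
  rw [e]
  have h0 : (0 : ℂ) = ∑ _q' : Q, (0 : ℂ) := by simp
  unfold IsZeroAtImInfty ZeroAtFilter
  rw [h0]
  refine tendsto_finsetSum _ fun q' _ => ?_
  have h1 := tendsto_mul_vMat_neg_apply t (M := orderOf t) isBigO_qParam_one q q'
  have h2 : (fun τ => Φ τ q' j) =O[atImInfty] (fun _ => (1 : ℝ)) := hbd q' j
  have h3 : (fun τ : ℍ => Periodic.qParam 1 (τ : ℂ) * vMat t (orderOf t) (-(τ : ℂ)) q q')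
      =o[atImInfty] (fun _ => (1 : ℝ)) := (isLittleO_one_iff ℝ).mpr h1
  have h4 := h3.mul_isBigO h2
  simp only [mul_one] at h4
  exact (isLittleO_one_iff ℝ).mp h4

/-- The limit matrix `B₀` of `B τ` at `i∞`. -/
theorem exists_tendsto_bMat {t : Equiv.Perm Q} {Φ : ℍ → Matrix Q Q ℂ}
    (hmd : ∀ q j, MDiff (fun τ => Φ τ q j))
    (hbd : ∀ q j, IsBoundedAtImInfty (fun τ => Φ τ q j))
    (hT : ∀ τ q j, Φ ((1 : ℝ) +ᵥ τ) q j = Φ τ (t q) j) :
    ∃ B0 : Matrix Q Q ℂ, Tendsto (bMat t Φ) atImInfty (𝓝 B0) := by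
  have h : ∀ q j, ∃ l : ℂ, Tendsto (fun τ => bMat t Φ τ q j) atImInfty (𝓝 l) := fun q j =>
    exists_tendsto_of_mul_qParam_isZeroAtImInfty (mdiff_bMat_apply hmd q j)
      (fun τ => by rw [bMat_vadd hT]) (isZeroAtImInfty_bMat_mul_qParam hbd q j)
  choose B0 hB0 using h
  exact ⟨Matrix.of B0, tendsto_pi_nhds.mpr fun q => tendsto_pi_nhds.mpr fun j => hB0 q j⟩


/-! ### Invertibility of the limit matrix -/

/-- If no nonzero combination of the columns of `Φ` is `O(exp (-2π Im τ))`, the limit matrix is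
invertible. -/
theorem det_ne_zero_of_tendsto_bMat {t : Equiv.Perm Q} {Φ : ℍ → Matrix Q Q ℂ}
    (hmd : ∀ q j, MDiff (fun τ => Φ τ q j))
    (hT : ∀ τ q j, Φ ((1 : ℝ) +ᵥ τ) q j = Φ τ (t q) j)
    (hH : ∀ c : Q → ℂ, (∀ q, (fun τ : ℍ => ∑ j, Φ τ q j * c j) =O[atImInfty]
      fun τ : ℍ => Real.exp (-2 * Real.pi * τ.im)) → c = 0)
    {B0 : Matrix Q Q ℂ} (hB0 : Tendsto (bMat t Φ) atImInfty (𝓝 B0)) : B0.det ≠ 0 := by
  intro hdet
  obtain ⟨c, hc0, hc⟩ := Matrix.exists_mulVec_eq_zero_iff.mpr hdet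
  apply hc0
  apply hH
  intro q
  have hg : ∀ q', (fun τ : ℍ => ∑ j, bMat t Φ τ q' j * c j) =O[atImInfty]
      fun τ : ℍ => Real.exp (-2 * Real.pi * τ.im) := by
    intro q'
    have hz : IsZeroAtImInfty (fun τ : ℍ => ∑ j, bMat t Φ τ q' j * c j) := by
      have h1 : Tendsto (fun τ : ℍ => ∑ j, bMat t Φ τ q' j * c j) atImInfty
          (𝓝 (∑ j, B0 q' j * c j)) :=
        tendsto_finsetSum _ fun j _ =>
          ((tendsto_pi_nhds.mp (tendsto_pi_nhds.mp hB0 q') j)).mul_const _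
      have h0 : ∑ j, B0 q' j * c j = 0 := by
        have := congrFun hc q'
        simpa [Matrix.mulVec, dotProduct] using this
      rw [h0] at h1
      exact h1
    have hper : Periodic ((fun τ : ℍ => ∑ j, bMat t Φ τ q' j * c j) ∘ ofComplex) (1 : ℝ) :=
      periodic_comp_ofComplex_of_vadd fun τ => by simp only [bMat_vadd hT]
    have hmdg : MDiff (fun τ : ℍ => ∑ j, bMat t Φ τ q' j * c j) :=
      mdiff_finset_sum _ _ fun j _ => (mdiff_bMat_apply hmd q' j).mul mdifferentiable_const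
    have := hz.exp_decay_atImInfty one_pos hper hmdg hz.isBoundedAtImInfty
    simpa using this
  have e : (fun τ : ℍ => ∑ j, Φ τ q j * c j) = fun τ : ℍ =>
      ∑ q', vMat t (orderOf t) (τ : ℂ) q q' * (∑ j, bMat t Φ τ q' j * c j) := by
    funext τ
    conv_lhs => rw [← vMat_mul_bMat t Φ τ]
    simp only [Matrix.mul_apply, Finset.sum_mul, Finset.mul_sum]
    rw [Finset.sum_comm]
    refine Finset.sum_congr rfl fun q' _ => Finset.sum_congr rfl fun j _ => by ring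
  rw [e]
  refine IsBigO.fun_sum fun q' _ => ?_
  have h1 : (fun τ : ℍ => vMat t (orderOf t) (τ : ℂ) q q') =O[atImInfty] (fun _ => (1 : ℝ)) :=
    isBoundedAtImInfty_vMat_apply t _ q q'
  have := h1.mul (hg q')
  simpa using this

/-! ### The two conclusions -/

theorem tendsto_det_mul_cexp {t : Equiv.Perm Q} {Φ : ℍ → Matrix Q Q ℂ} {B0 : Matrix Q Q ℂ}
    (hB0 : Tendsto (bMat t Φ) atImInfty (𝓝 B0)) :
    Tendsto (fun τ : ℍ => (Φ τ).det * cexp (-(Real.pi * I * ((Fintype.card Q : ℂ)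
      - (Nat.card (MulAction.orbitRel.Quotient (Subgroup.zpowers t) Q) : ℂ)) * (τ : ℂ))))
      atImInfty (𝓝 B0.det) := by
  have h1 : Tendsto (fun τ => (bMat t Φ τ).det) atImInfty (𝓝 B0.det) :=
    ((continuous_id.matrix_det).tendsto B0).comp hB0
  refine h1.congr fun τ => ?_
  conv_rhs => rw [← vMat_mul_bMat t Φ τ]
  rw [Matrix.det_mul, det_vMat_orderOf, Complex.exp_neg]
  have hne : cexp (Real.pi * I * ((Fintype.card Q : ℂ)
      - (Nat.card (MulAction.orbitRel.Quotient (Subgroup.zpowers t) Q) : ℂ)) * (τ : ℂ)) ≠ 0 :=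
    Complex.exp_ne_zero _
  field_simp

theorem inv_eq_bMat_inv_mul (t : Equiv.Perm Q) (Φ : ℍ → Matrix Q Q ℂ) (τ : ℍ) :
    (Φ τ)⁻¹ = (bMat t Φ τ)⁻¹ * vMat t (orderOf t) (-(τ : ℂ)) := by
  conv_lhs => rw [← vMat_mul_bMat t Φ τ]
  rw [Matrix.mul_inv_rev,
    Matrix.inv_eq_right_inv (vMat_mul_neg (orderOf_pos' t) (pow_orderOf_eq_one t) (τ : ℂ))]

theorem tendsto_matrix_inv {α : Type*} {l : Filter α} {B : α → Matrix Q Q ℂ}
    {B0 : Matrix Q Q ℂ} (hB : Tendsto B l (𝓝 B0)) (h0 : B0.det ≠ 0) :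
    Tendsto (fun a => (B a)⁻¹) l (𝓝 B0⁻¹) := by
  have h1 : Tendsto (fun a => (B a).det) l (𝓝 B0.det) :=
    ((continuous_id.matrix_det).tendsto B0).comp hB
  have h2 : Tendsto (fun a => (B a).adjugate) l (𝓝 B0.adjugate) :=
    ((continuous_id.matrix_adjugate).tendsto B0).comp hB
  have h3 := (h1.inv₀ h0).smul h2
  simp only [Matrix.inv_def, Ring.inverse_eq_inv']
  exact h3

theorem tendsto_mul_inv_apply {t : Equiv.Perm Q} {Φ : ℍ → Matrix Q Q ℂ} {B0 : Matrix Q Q ℂ}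
    (hB0 : Tendsto (bMat t Φ) atImInfty (𝓝 B0)) (hdet : B0.det ≠ 0) {D : ℍ → ℂ}
    (hD : D =O[atImInfty] fun τ : ℍ => Real.exp (-2 * Real.pi * τ.im)) (q j : Q) :
    Tendsto (fun τ : ℍ => D τ * (Φ τ)⁻¹ j q) atImInfty (𝓝 0) := by
  have hinv := tendsto_matrix_inv hB0 hdet
  have e : (fun τ : ℍ => D τ * (Φ τ)⁻¹ j q) = fun τ : ℍ =>
      ∑ q', (bMat t Φ τ)⁻¹ j q' * (D τ * vMat t (orderOf t) (-(τ : ℂ)) q' q) := by
    funext τ
    rw [inv_eq_bMat_inv_mul t Φ τ, Matrix.mul_apply, Finset.mul_sum]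
    refine Finset.sum_congr rfl fun q' _ => by ring
  rw [e]
  have h0 : (0 : ℂ) = ∑ q', B0⁻¹ j q' * 0 := by simp
  rw [h0]
  refine tendsto_finsetSum _ fun q' _ => ?_
  exact ((tendsto_pi_nhds.mp (tendsto_pi_nhds.mp hinv j) q')).mul
    (tendsto_mul_vMat_neg_apply t hD q' q)

/-- **The abstract cusp theorem.** -/
theorem cusp_abstract (t : Equiv.Perm Q) (Φ : ℍ → Matrix Q Q ℂ)
    (hmd : ∀ q j, MDiff (fun τ => Φ τ q j))
    (hbd : ∀ q j, IsBoundedAtImInfty (fun τ => Φ τ q j))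
    (hT : ∀ τ q j, Φ ((1 : ℝ) +ᵥ τ) q j = Φ τ (t q) j)
    (hH : ∀ c : Q → ℂ, (∀ q, (fun τ : ℍ => ∑ j, Φ τ q j * c j) =O[atImInfty]
      fun τ : ℍ => Real.exp (-2 * Real.pi * τ.im)) → c = 0) :
    (∃ c0 : ℂ, c0 ≠ 0 ∧ Tendsto (fun τ : ℍ => (Φ τ).det * cexp (-(Real.pi * I *
      ((Fintype.card Q : ℂ)
        - (Nat.card (MulAction.orbitRel.Quotient (Subgroup.zpowers t) Q) : ℂ)) * (τ : ℂ))))
      atImInfty (𝓝 c0)) ∧
    (∀ D : ℍ → ℂ, (D =O[atImInfty] fun τ : ℍ => Real.exp (-2 * Real.pi * τ.im)) →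
      ∀ q j, IsZeroAtImInfty (fun τ : ℍ => D τ * (Φ τ)⁻¹ j q)) := by
  obtain ⟨B0, hB0⟩ := exists_tendsto_bMat hmd hbd hT
  have hdet := det_ne_zero_of_tendsto_bMat hmd hT hH hB0
  exact ⟨⟨B0.det, hdet, tendsto_det_mul_cexp hB0⟩,
    fun D hD q j => tendsto_mul_inv_apply hB0 hdet hD q j⟩

end Fermat.Agent.S20.Free.Cusp
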