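import Mathlib

/-!
# P-S20-FREE block D, part 1: a limit lemma at the cusp

If `f` is a holomorphic `1`-periodic function on the upper half plane such that `f τ * q(τ)` tends
to zero at `i∞` (where `q(τ) = exp (2 π i τ)`), then `f` has a limit at `i∞`.
-/

set_option autoImplicit false

open Complex Filter Function UpperHalfPlane Topology
open scoped Manifold

namespace Fermat.Agent.S20.Free.Cusp

/-- the function `τ ↦ exp (2 π i τ)` on the upper half plane tends to `0` within `{0}ᶜ`. -/
theorem tendsto_qParam_one_nhdsNE :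
    Tendsto (fun τ : ℍ => Periodic.qParam 1 (τ : ℂ)) atImInfty (𝓝[≠] 0) :=
  (Periodic.qParam_tendsto one_pos).comp tendsto_coe_atImInfty

theorem mdiff_qParam_one : MDiff (fun τ : ℍ => Periodic.qParam 1 (τ : ℂ)) := by
  intro τ
  rw [UpperHalfPlane.mdifferentiableAt_iff]
  have h1 : DifferentiableAt ℂ (Periodic.qParam 1) (τ : ℂ) :=
    (Periodic.differentiable_qParam (h := 1)) _
  refine h1.congr_of_eventuallyEq ?_
  have hopen : IsOpen {z : ℂ | 0 < z.im} := isOpen_lt continuous_const Complex.continuous_im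
  filter_upwards [hopen.mem_nhds τ.im_pos] with z hz
  simp [Function.comp, ofComplex_apply_of_im_pos hz]

/-- **Limit lemma.** A holomorphic `1`-periodic function on `ℍ` with `f τ * q(τ) → 0`
has a limit at `i∞`. -/
theorem exists_tendsto_of_mul_qParam_isZeroAtImInfty {f : ℍ → ℂ} (hf : MDiff f)
    (hper : ∀ τ : ℍ, f ((1 : ℝ) +ᵥ τ) = f τ)
    (hz : IsZeroAtImInfty (fun τ : ℍ => f τ * Periodic.qParam 1 (τ : ℂ))) :
    ∃ l : ℂ, Tendsto f atImInfty (𝓝 l) := by
  set g : ℍ → ℂ := fun τ => f τ * Periodic.qParam 1 (τ : ℂ) with hg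
  have hgdiff : MDiff g := hf.mul mdiff_qParam_one
  have hgper : Periodic (g ∘ ofComplex) (1 : ℝ) := by
    intro w
    by_cases hw : 0 < im w
    · have hw' : 0 < im (w + (1 : ℝ)) := by simpa using hw
      simp only [comp_apply, ofComplex_apply_of_im_pos hw', ofComplex_apply_of_im_pos hw, hg]
      have e1 : (⟨w + (1 : ℝ), hw'⟩ : ℍ) = (1 : ℝ) +ᵥ (⟨w, hw⟩ : ℍ) := by
        ext; simp [add_comm]
      rw [e1, hper]
      congr 1
      simp only [Periodic.qParam]
      rw [show 2 * (Real.pi : ℂ) * Complex.I * ((w : ℂ) + ((1 : ℝ) : ℂ)) / ((1 : ℝ) : ℂ)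
          = 2 * (Real.pi : ℂ) * Complex.I * w / ((1 : ℝ) : ℂ) + 2 * Real.pi * Complex.I by
        push_cast; ring]
      rw [Complex.exp_add, Complex.exp_two_pi_mul_I, mul_one]
    · have hw1 : im w ≤ 0 := not_lt.mp hw
      have hw' : im (w + (1 : ℝ)) ≤ 0 := by simpa using hw1
      rw [comp_apply, comp_apply, ofComplex_apply_of_im_nonpos hw',
        ofComplex_apply_of_im_nonpos hw1]
  have hgbdd : IsBoundedAtImInfty g := hz.isBoundedAtImInfty
  have hdiff : DifferentiableAt ℂ (cuspFunction 1 g) 0 :=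
    differentiableAt_cuspFunction one_pos hgper hgdiff hgbdd (by simp)
  have hzero : cuspFunction 1 g 0 = 0 := by
    have han : AnalyticAt ℂ (cuspFunction 1 g) 0 :=
      analyticAt_cuspFunction_zero one_pos hgper hgdiff hgbdd
    rw [cuspFunction_apply_zero one_pos han hgper]
    exact hz.valueAtInfty_eq_zero
  refine ⟨deriv (cuspFunction 1 g) 0, ?_⟩
  have hslope := hdiff.hasDerivAt.tendsto_slope
  have hcomp := hslope.comp tendsto_qParam_one_nhdsNE
  refine hcomp.congr ?_
  intro τ
  simp only [comp_apply, slope, vsub_eq_sub, sub_zero, hzero, smul_eq_mul]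
  rw [eq_cuspFunction τ one_ne_zero hgper, hg]
  have hq : Periodic.qParam 1 (τ : ℂ) ≠ 0 := Periodic.qParam_ne_zero _
  field_simp

end Fermat.Agent.S20.Free.Cusp
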