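import Mathlib

set_option autoImplicit false

/-!
# Abstract free basis theorem for graded modules (module `FreeBasis` of the S20 free-module route)

Setting: a field `k`, a commutative `k`-algebra `V` (think of functions on the upper half plane),
two families of subspaces `R e`, `M d` (`e d : ℤ`) of `V` (think of level one forms of weight `e`
and forms of weight `d` on a subgroup), two elements `x ∈ R p`, `y ∈ R q` (think of `E₄`, `E₆`).
If `R` is generated by `x, y` over `R 0 = k` and `x, y` is a regular sequence on `M`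
(`IsRegularGraded`), then `M` is free over `R` on homogeneous generators
(`exists_free_generators`).
-/

namespace Fermat.Agent.S20.Free

universe u v

variable {k : Type u} {V : Type v} [Field k] [CommRing V] [Algebra k V]

/-- For subspaces `N`, `D` of a vector space there is a family of vectors of `N` which is a basis
of `N` modulo `D`. -/
theorem exists_basis_mod (N D : Submodule k V) :
    ∃ (ι : Type v) (b : ι → V), (∀ i, b i ∈ N) ∧
      (∀ c : ι →₀ k, Finsupp.linearCombination k b c ∈ D → c = 0) ∧
      (∀ f ∈ N, ∃ c : ι →₀ k, f - Finsupp.linearCombination k b c ∈ D) ∧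
      (FiniteDimensional k N → Finite ι) := by
  classical
  obtain ⟨C, hC⟩ := Submodule.exists_isCompl (D.comap N.subtype)
  let bas := Module.Basis.ofVectorSpace k C
  let φ : C →ₗ[k] V := N.subtype ∘ₗ C.subtype
  have hφ : ∀ c : (Module.Basis.ofVectorSpaceIndex k C) →₀ k,
      Finsupp.linearCombination k (fun i => φ (bas i)) c =
        φ (Finsupp.linearCombination k bas c) := by
    intro c
    rw [Finsupp.apply_linearCombination]
    rfl
  refine ⟨Module.Basis.ofVectorSpaceIndex k C, fun i => φ (bas i), fun i => ((bas i : C) : N).2,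
    ?_, ?_, fun hfin => Module.Finite.finite_basis bas⟩
  · intro c hc
    rw [hφ] at hc
    set e : C := Finsupp.linearCombination k bas c with he
    have h1 : (e : N) ∈ D.comap N.subtype := hc
    have h2 : (e : N) ∈ C := e.2
    have h3 : (e : N) = 0 := by
      have := hC.disjoint.le_bot (show (e : N) ∈ D.comap N.subtype ⊓ C from ⟨h1, h2⟩)
      simpa using this
    have h4 : e = 0 := Subtype.ext h3
    exact (linearIndependent_iff.mp bas.linearIndependent) c h4
  · intro f hf
    have hmem : (⟨f, hf⟩ : N) ∈ D.comap N.subtype ⊔ C := by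
      rw [hC.sup_eq_top]; exact Submodule.mem_top
    obtain ⟨u, hu, w, hw, huw⟩ := Submodule.mem_sup.mp hmem
    refine ⟨bas.repr ⟨w, hw⟩, ?_⟩
    rw [hφ, bas.linearCombination_repr]
    have : f = (u : V) + (w : V) := by
      have := congrArg (fun z : N => (z : V)) huw
      simpa using this.symm
    have h5 : f - φ ⟨w, hw⟩ = (u : V) := by
      rw [this]; simp [φ]
    rw [h5]
    exact hu

/-- Hypotheses of the abstract free basis theorem: `M` is a graded module over the graded ring `R`
(both realised inside one commutative `k`-algebra `V`), `R` is generated by `x` (degree `p`) and `y`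
(degree `q`) over `R 0 = k`, and `x, y` is a regular sequence on `M`. -/
structure IsRegularGraded (x y : V) (p q : ℤ) (M R : ℤ → Submodule k V) : Prop where
  p_pos : 0 < p
  q_pos : 0 < q
  M_neg : ∀ d : ℤ, d < 0 → ∀ f ∈ M d, f = 0
  R_neg : ∀ e : ℤ, e < 0 → ∀ r ∈ R e, r = 0
  R_zero : ∀ r ∈ R 0, ∃ c : k, r = algebraMap k V c
  one_mem : (1 : V) ∈ R 0
  x_mul_R : ∀ e : ℤ, ∀ r ∈ R e, x * r ∈ R (e + p)
  y_mul_R : ∀ e : ℤ, ∀ r ∈ R e, y * r ∈ R (e + q)
  R_pos : ∀ e : ℤ, e ≠ 0 → ∀ r ∈ R e, ∃ s ∈ R (e - p), ∃ t ∈ R (e - q), r = x * s + y * t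
  R_mul_M : ∀ e d : ℤ, ∀ r ∈ R e, ∀ f ∈ M d, r * f ∈ M (e + d)
  x_inj : ∀ d : ℤ, ∀ f ∈ M d, x * f = 0 → f = 0
  reg : ∀ d : ℤ, ∀ f ∈ M d, ∀ g ∈ M (d + q - p), y * f = x * g → ∃ h ∈ M (d - p), f = x * h

/-- the decomposable elements of degree `d`: `x M_{d-p} + y M_{d-q}` -/
def decomp (x y : V) (p q : ℤ) (M : ℤ → Submodule k V) (d : ℤ) : Submodule k V :=
  (M (d - p)).map (LinearMap.mulLeft k x) ⊔ (M (d - q)).map (LinearMap.mulLeft k y)

theorem mem_decomp {x y : V} {p q : ℤ} {M : ℤ → Submodule k V} {d : ℤ} {f : V} :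
    f ∈ decomp x y p q M d ↔ ∃ g ∈ M (d - p), ∃ h ∈ M (d - q), f = x * g + y * h := by
  simp only [decomp, Submodule.mem_sup, Submodule.mem_map, LinearMap.mulLeft_apply]
  constructor
  · rintro ⟨_, ⟨g, hg, rfl⟩, _, ⟨h, hh, rfl⟩, rfl⟩
    exact ⟨g, hg, h, hh, rfl⟩
  · rintro ⟨g, hg, h, hh, rfl⟩
    exact ⟨_, ⟨g, hg, rfl⟩, _, ⟨h, hh, rfl⟩, rfl⟩

namespace IsRegularGraded

variable {x y : V} {p q : ℤ} {M R : ℤ → Submodule k V}

theorem algebraMap_mem (H : IsRegularGraded x y p q M R) (c : k) : algebraMap k V c ∈ R 0 := by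
  rw [Algebra.algebraMap_eq_smul_one]
  exact (R 0).smul_mem c H.one_mem

theorem x_mem (H : IsRegularGraded x y p q M R) : x ∈ R p := by
  have := H.x_mul_R 0 1 H.one_mem
  rwa [mul_one, zero_add] at this

theorem y_mem (H : IsRegularGraded x y p q M R) : y ∈ R q := by
  have := H.y_mul_R 0 1 H.one_mem
  rwa [mul_one, zero_add] at this

theorem mem_of_eq {N : ℤ → Submodule k V} {d e : ℤ} (h : d = e) {f : V} (hf : f ∈ N d) :
    f ∈ N e := h ▸ hf

theorem x_mul_M (H : IsRegularGraded x y p q M R) {d e : ℤ} (h : d + p = e) {f : V}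
    (hf : f ∈ M d) : x * f ∈ M e :=
  mem_of_eq (by omega) (H.R_mul_M p d x H.x_mem f hf)

theorem y_mul_M (H : IsRegularGraded x y p q M R) {d e : ℤ} (h : d + q = e) {f : V}
    (hf : f ∈ M d) : y * f ∈ M e :=
  mem_of_eq (by omega) (H.R_mul_M q d y H.y_mem f hf)

theorem decomp_le (H : IsRegularGraded x y p q M R) (d : ℤ) : decomp x y p q M d ≤ M d := by
  intro f hf
  obtain ⟨g, hg, h, hh, rfl⟩ := mem_decomp.mp hf
  exact (M d).add_mem (H.x_mul_M (by omega) hg) (H.y_mul_M (by omega) hh)

/-- elements of `R` of nonzero degree multiply `M` into the decomposable elements -/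
theorem mul_mem_decomp (H : IsRegularGraded x y p q M R) {e d' d : ℤ} (he : e ≠ 0)
    (hd : e + d' = d) {r f : V} (hr : r ∈ R e) (hf : f ∈ M d') : r * f ∈ decomp x y p q M d := by
  obtain ⟨s, hs, t, ht, rfl⟩ := H.R_pos e he r hr
  refine mem_decomp.mpr ⟨s * f, mem_of_eq (by omega) (H.R_mul_M _ _ s hs f hf), t * f,
    mem_of_eq (by omega) (H.R_mul_M _ _ t ht f hf), by ring⟩

end IsRegularGraded


section Core

variable {x y : V} {p q : ℤ} {M R : ℤ → Submodule k V}

/-- a combination of the generators with coefficients of complementary degrees lies in `M e` -/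
theorem IsRegularGraded.lc_mem (H : IsRegularGraded x y p q M R) {J : Type v} {a : J → ℤ} {F : J → V}
    (hF : ∀ j, F j ∈ M (a j)) {e : ℤ} (r : J →₀ V) (hr : ∀ j, r j ∈ R (e - a j)) :
    Finsupp.linearCombination V F r ∈ M e := by
  rw [Finsupp.linearCombination_apply]
  refine Submodule.sum_mem _ fun j _ => ?_
  show r j • F j ∈ M e
  rw [smul_eq_mul]
  exact IsRegularGraded.mem_of_eq (by ring) (H.R_mul_M _ _ (r j) (hr j) (F j) (hF j))

theorem IsRegularGraded.gen_aux (H : IsRegularGraded x y p q M R) {J : Type v} {a : J → ℤ} {F : J → V}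
    (hspan : ∀ d : ℤ, ∀ f ∈ M d, ∃ c : J →₀ V, (∀ j ∈ c.support, a j = d) ∧ (∀ j, c j ∈ R 0) ∧
      f - Finsupp.linearCombination V F c ∈ decomp x y p q M d) :
    ∀ n : ℕ, ∀ d : ℤ, d < n → ∀ f ∈ M d, ∃ r : J →₀ V, (∀ j, r j ∈ R (d - a j)) ∧
      f = Finsupp.linearCombination V F r := by
  have hp := H.p_pos
  have hq := H.q_pos
  intro n
  induction n with
  | zero =>
    intro d hd f hf
    refine ⟨0, fun j => by simp, ?_⟩
    rw [map_zero]
    exact H.M_neg d (by simpa using hd) f hf
  | succ n ih =>
    intro d hd f hf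
    obtain ⟨c, hcs, hc0, hc⟩ := hspan d f hf
    obtain ⟨g, hg, h, hh, e⟩ := mem_decomp.mp hc
    obtain ⟨rg, hrg, rfl⟩ := ih (d - p) (by push_cast at hd; omega) g hg
    obtain ⟨rh, hrh, rfl⟩ := ih (d - q) (by push_cast at hd; omega) h hh
    refine ⟨c + x • rg + y • rh, fun j => ?_, ?_⟩
    · simp only [Finsupp.add_apply, Finsupp.smul_apply, smul_eq_mul]
      refine add_mem (add_mem ?_ ?_) ?_
      · by_cases hj : j ∈ c.support
        · exact IsRegularGraded.mem_of_eq (by rw [hcs j hj]; ring) (hc0 j)
        · rw [Finsupp.notMem_support_iff.mp hj]; exact zero_mem _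
      · exact IsRegularGraded.mem_of_eq (by ring) (H.x_mul_R _ _ (hrg j))
      · exact IsRegularGraded.mem_of_eq (by ring) (H.y_mul_R _ _ (hrh j))
    · rw [map_add, map_add, map_smul, map_smul, smul_eq_mul, smul_eq_mul]
      linear_combination e

theorem IsRegularGraded.eq_zero_of_neg (H : IsRegularGraded x y p q M R) {J : Type v} {a : J → ℤ}
    (ha : ∀ j, 0 ≤ a j) {d : ℤ} (hd : d < 0) (r : J →₀ V) (hr : ∀ j, r j ∈ R (d - a j)) :
    r = 0 := by
  ext j
  exact H.R_neg _ (by have := ha j; omega) _ (hr j)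

theorem IsRegularGraded.div_aux (H : IsRegularGraded x y p q M R) {J : Type v} {a : J → ℤ} {F : J → V}
    (ha : ∀ j, 0 ≤ a j) (hF : ∀ j, F j ∈ M (a j))
    (hind : ∀ d : ℤ, ∀ c : J →₀ V, (∀ j ∈ c.support, a j = d) → (∀ j, c j ∈ R 0) →
      Finsupp.linearCombination V F c ∈ decomp x y p q M d → c = 0) :
    ∀ n : ℕ, ∀ d : ℤ, d < n → ∀ r : J →₀ V, (∀ j, r j ∈ R (d - a j)) → ∀ g ∈ M (d - p),
      Finsupp.linearCombination V F r = x * g →
      ∃ s : J →₀ V, (∀ j, s j ∈ R (d - p - a j)) ∧ r = x • s := by
  classical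
  have hp := H.p_pos
  have hq := H.q_pos
  intro n
  induction n with
  | zero =>
    intro d hd r hr g _ _
    refine ⟨0, fun j => by simp, ?_⟩
    rw [smul_zero]
    exact IsRegularGraded.eq_zero_of_neg H ha (by simpa using hd) r hr
  | succ n ih =>
    intro d hd r hr g hg hrg
    -- Step 1: the components of degree exactly `d` vanish
    have hsplit : r.filter (fun j => a j = d) + r.filter (fun j => ¬ a j = d) = r :=
      Finsupp.filter_add_filter_not r _
    have h1 : Finsupp.linearCombination V F (r.filter (fun j => ¬ a j = d)) ∈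
        decomp x y p q M d := by
      rw [Finsupp.linearCombination_apply]
      refine Submodule.sum_mem _ fun j hj => ?_
      have haj : ¬ a j = d := by
        by_contra h
        exact (Finsupp.mem_support_iff.mp hj)
          (Finsupp.filter_apply_neg (fun j => ¬ a j = d) r (not_not.mpr h))
      show (r.filter (fun j => ¬ a j = d)) j • F j ∈ decomp x y p q M d
      rw [Finsupp.filter_apply_pos (fun j => ¬ a j = d) r haj, smul_eq_mul]
      exact H.mul_mem_decomp (e := d - a j) (by omega) (by ring) (hr j) (hF j)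
    have h2 : Finsupp.linearCombination V F r ∈ decomp x y p q M d := by
      rw [hrg]
      exact mem_decomp.mpr ⟨g, hg, 0, zero_mem _, by ring⟩
    have h3 : Finsupp.linearCombination V F (r.filter (fun j => a j = d)) ∈
        decomp x y p q M d := by
      have : Finsupp.linearCombination V F (r.filter (fun j => a j = d)) =
          Finsupp.linearCombination V F r -
            Finsupp.linearCombination V F (r.filter (fun j => ¬ a j = d)) := by
        have h := congrArg (Finsupp.linearCombination V F) hsplit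
        rw [map_add] at h
        exact eq_sub_of_add_eq h
      rw [this]
      exact sub_mem h2 h1
    have h4 : r.filter (fun j => a j = d) = 0 := by
      refine hind d _ (fun j hj => ?_) (fun j => ?_) h3
      · rw [Finsupp.support_filter, Finset.mem_filter] at hj
        exact hj.2
      · by_cases hj : a j = d
        · rw [Finsupp.filter_apply_pos (fun j => a j = d) r hj]
          exact IsRegularGraded.mem_of_eq (by omega) (hr j)
        · rw [Finsupp.filter_apply_neg (fun j => a j = d) r hj]
          exact zero_mem _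
    have h5 : ∀ j, a j = d → r j = 0 := fun j hj => by
      have := DFunLike.congr_fun h4 j
      rwa [Finsupp.filter_apply_pos (fun j => a j = d) r hj] at this
    -- Step 2: write every coefficient as `x s + y t`
    have h6 : ∀ j, ∃ s t, s ∈ R (d - p - a j) ∧ t ∈ R (d - q - a j) ∧ r j = x * s + y * t ∧
        (r j = 0 → s = 0 ∧ t = 0) := by
      intro j
      by_cases hj0 : r j = 0
      · exact ⟨0, 0, zero_mem _, zero_mem _, by rw [hj0]; ring, fun _ => ⟨rfl, rfl⟩⟩
      · have haj : d - a j ≠ 0 := fun h => hj0 (h5 j (by omega))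
        obtain ⟨s, hs, t, ht, e⟩ := H.R_pos _ haj (r j) (hr j)
        exact ⟨s, t, IsRegularGraded.mem_of_eq (by omega) hs,
          IsRegularGraded.mem_of_eq (by omega) ht, e, fun h => absurd h hj0⟩
    choose σ τ hσ hτ hστ h0 using h6
    let s : J →₀ V := Finsupp.onFinset r.support σ
      (fun j hj => Finsupp.mem_support_iff.mpr fun h => hj (h0 j h).1)
    let t : J →₀ V := Finsupp.onFinset r.support τ
      (fun j hj => Finsupp.mem_support_iff.mpr fun h => hj (h0 j h).2)
    have hs : ∀ j, s j = σ j := fun j => rfl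
    have ht : ∀ j, t j = τ j := fun j => rfl
    have hrst : r = x • s + y • t := by
      ext j
      simp only [Finsupp.add_apply, Finsupp.smul_apply, smul_eq_mul, hs, ht]
      exact hστ j
    -- Step 3: divide the `t`-part by `x` using regularity and the induction hypothesis
    have hLt : Finsupp.linearCombination V F t ∈ M (d - q) :=
      IsRegularGraded.lc_mem H hF t (fun j => by rw [ht]; exact hτ j)
    have hLs : Finsupp.linearCombination V F s ∈ M (d - p) :=
      IsRegularGraded.lc_mem H hF s (fun j => by rw [hs]; exact hσ j)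
    have hyt : y * Finsupp.linearCombination V F t =
        x * (g - Finsupp.linearCombination V F s) := by
      have : Finsupp.linearCombination V F r = x * Finsupp.linearCombination V F s +
          y * Finsupp.linearCombination V F t := by
        conv_lhs => rw [hrst, map_add, map_smul, map_smul, smul_eq_mul, smul_eq_mul]
      rw [hrg] at this
      linear_combination -this
    obtain ⟨h, hh, hth⟩ := H.reg (d - q) _ hLt (g - Finsupp.linearCombination V F s)
      (IsRegularGraded.mem_of_eq (by omega) (sub_mem hg hLs)) hyt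
    obtain ⟨t', ht', htt'⟩ := ih (d - q) (by push_cast at hd; omega) t
      (fun j => by rw [ht]; exact hτ j) h hh hth
    refine ⟨s + y • t', fun j => ?_, ?_⟩
    · simp only [Finsupp.add_apply, Finsupp.smul_apply, smul_eq_mul, hs]
      exact add_mem (hσ j) (IsRegularGraded.mem_of_eq (by omega) (H.y_mul_R _ _ (ht' j)))
    · conv_lhs => rw [hrst, htt']
      ext j
      simp only [Finsupp.add_apply, Finsupp.smul_apply, smul_eq_mul]
      ring

theorem IsRegularGraded.uniq_aux (H : IsRegularGraded x y p q M R) {J : Type v} {a : J → ℤ} {F : J → V}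
    (ha : ∀ j, 0 ≤ a j) (hF : ∀ j, F j ∈ M (a j))
    (hind : ∀ d : ℤ, ∀ c : J →₀ V, (∀ j ∈ c.support, a j = d) → (∀ j, c j ∈ R 0) →
      Finsupp.linearCombination V F c ∈ decomp x y p q M d → c = 0) :
    ∀ n : ℕ, ∀ d : ℤ, d < n → ∀ r : J →₀ V, (∀ j, r j ∈ R (d - a j)) →
      Finsupp.linearCombination V F r = 0 → r = 0 := by
  have hp := H.p_pos
  intro n
  induction n with
  | zero =>
    intro d hd r hr _
    exact IsRegularGraded.eq_zero_of_neg H ha (by simpa using hd) r hr
  | succ n ih =>
    intro d hd r hr hr0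
    obtain ⟨s, hs, rfl⟩ := IsRegularGraded.div_aux H ha hF hind (n + 1) d hd r hr 0 (zero_mem _)
      (by rw [hr0, mul_zero])
    rw [map_smul, smul_eq_mul] at hr0
    have hLs := IsRegularGraded.lc_mem H hF s hs
    have := H.x_inj _ _ hLs hr0
    rw [ih (d - p) (by push_cast at hd; omega) s hs this, smul_zero]

end Core


section Main

variable {x y : V} {p q : ℤ} {M R : ℤ → Submodule k V}

/-- **Abstract free basis theorem** (graded Nakayama plus a regular sequence of length two):
there are homogeneous elements `F j ∈ M (a j)` such that every element of `M d` is uniquely a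
combination `∑ r j * F j` with `r j ∈ R (d - a j)`. -/
theorem exists_free_generators (H : IsRegularGraded x y p q M R) :
    ∃ (J : Type v) (a : J → ℤ) (F : J → V),
      (∀ j, 0 ≤ a j) ∧ (∀ j, F j ∈ M (a j)) ∧
      (∀ d : ℤ, ∀ f ∈ M d, ∃ r : J →₀ V, (∀ j, r j ∈ R (d - a j)) ∧
        f = Finsupp.linearCombination V F r) ∧
      (∀ d : ℤ, ∀ r : J →₀ V, (∀ j, r j ∈ R (d - a j)) →
        Finsupp.linearCombination V F r = 0 → r = 0) ∧
      ((∀ d, FiniteDimensional k (M d)) → ∀ d : ℤ, Finite {j : J // a j = d}) := by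
  classical
  choose ι b hbN hbind hbspan hbfin using
    fun d : ℤ => exists_basis_mod (M d) (decomp x y p q M d)
  -- a section of `algebraMap k V` on `R 0`
  have hsec : ∃ sec : V → k, sec 0 = 0 ∧ ∀ v ∈ R 0, algebraMap k V (sec v) = v := by
    refine ⟨fun v => if h : v ≠ 0 ∧ ∃ c : k, v = algebraMap k V c then h.2.choose else 0,
      by simp, fun v hv => ?_⟩
    by_cases hv0 : v = 0
    · simp [hv0]
    · have h : v ≠ 0 ∧ ∃ c : k, v = algebraMap k V c := ⟨hv0, H.R_zero v hv⟩
      simp only [dif_pos h]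
      exact h.2.choose_spec.symm
  obtain ⟨sec, hsec0, hsec⟩ := hsec
  let J : Type v := Σ d : ℤ, ι d
  let a : J → ℤ := Sigma.fst
  let F : J → V := fun j => b j.1 j.2
  have ha : ∀ j : J, 0 ≤ a j := by
    rintro ⟨d, i⟩
    by_contra hd
    have h0 : b d i = 0 := H.M_neg d (not_le.mp hd) _ (hbN d i)
    have h1 := hbind d (Finsupp.single i 1) (by
      rw [Finsupp.linearCombination_single, h0, smul_zero]
      exact zero_mem _)
    exact one_ne_zero (Finsupp.single_eq_zero.mp h1)
  have hF : ∀ j : J, F j ∈ M (a j) := fun j => hbN j.1 j.2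
  have hind : ∀ d : ℤ, ∀ c : J →₀ V, (∀ j ∈ c.support, a j = d) → (∀ j, c j ∈ R 0) →
      Finsupp.linearCombination V F c ∈ decomp x y p q M d → c = 0 := by
    intro d c hcs hc0 hc
    have hbij : Set.BijOn (Sigma.mk d : ι d → J) (Sigma.mk d ⁻¹' ↑c.support) ↑c.support := by
      refine ⟨fun i hi => hi, fun i _ i' _ h => sigma_mk_injective h, fun j hj => ?_⟩
      have hj' : a j = d := hcs j hj
      obtain ⟨d', i⟩ := j
      obtain rfl : d' = d := hj'
      exact ⟨i, hj, rfl⟩
    let κ : ι d →₀ k := (c.comapDomain (Sigma.mk d) hbij.injOn).mapRange sec hsec0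
    have hκ : Finsupp.linearCombination k (b d) κ = Finsupp.linearCombination V F c := by
      rw [Finsupp.linearCombination_apply, Finsupp.linearCombination_apply,
        Finsupp.sum_mapRange_index (fun i => zero_smul k (b d i))]
      rw [← Finsupp.sum_comapDomain (Sigma.mk d) c (fun j v => v • F j) hbij]
      refine Finsupp.sum_congr fun i _ => ?_
      show sec (c ⟨d, i⟩) • b d i = c ⟨d, i⟩ • b d i
      rw [Algebra.smul_def, hsec _ (hc0 _), smul_eq_mul]
    have hκ0 : κ = 0 := hbind d κ (by rw [hκ]; exact hc)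
    ext j
    by_cases hj : j ∈ c.support
    · obtain ⟨i, _, rfl⟩ := hbij.surjOn hj
      have h1 : κ i = 0 := by rw [hκ0]; rfl
      have h2 : κ i = sec (c ⟨d, i⟩) := rfl
      rw [← hsec _ (hc0 ⟨d, i⟩), ← h2, h1, map_zero]
      rfl
    · exact Finsupp.notMem_support_iff.mp hj
  have hspan : ∀ d : ℤ, ∀ f ∈ M d, ∃ c : J →₀ V, (∀ j ∈ c.support, a j = d) ∧
      (∀ j, c j ∈ R 0) ∧ f - Finsupp.linearCombination V F c ∈ decomp x y p q M d := by
    intro d f hf
    obtain ⟨κ, hκ⟩ := hbspan d f hf
    refine ⟨(κ.mapRange (algebraMap k V) (map_zero _)).mapDomain (Sigma.mk d), ?_, ?_, ?_⟩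
    · intro j hj
      have := Finsupp.mapDomain_support hj
      obtain ⟨i, _, rfl⟩ := Finset.mem_image.mp this
      rfl
    · intro j
      by_cases hj : j ∈ Set.range (Sigma.mk d : ι d → J)
      · obtain ⟨i, rfl⟩ := hj
        rw [Finsupp.mapDomain_apply sigma_mk_injective, Finsupp.mapRange_apply]
        exact H.algebraMap_mem _
      · rw [Finsupp.mapDomain_of_notMem_range _ _ hj]
        exact zero_mem _
    · rw [Finsupp.linearCombination_mapDomain, Finsupp.linearCombination_apply,
        Finsupp.sum_mapRange_index (fun i => zero_smul V ((F ∘ Sigma.mk d) i))]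
      have : (κ.sum fun i c => (algebraMap k V c) • (F ∘ Sigma.mk d) i) =
          Finsupp.linearCombination k (b d) κ := by
        rw [Finsupp.linearCombination_apply]
        refine Finsupp.sum_congr fun i _ => ?_
        show algebraMap k V (κ i) • b d i = κ i • b d i
        rw [algebraMap_smul]
      rw [this]
      exact hκ
  refine ⟨J, a, F, ha, hF, ?_, ?_, ?_⟩
  · intro d f hf
    exact IsRegularGraded.gen_aux H hspan (d.toNat + 1) d (by push_cast; omega) f hf
  · intro d r hr hr0
    exact IsRegularGraded.uniq_aux H ha hF hind (d.toNat + 1) d (by push_cast; omega) r hr hr0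
  · intro hfin d
    have := hbfin d (hfin d)
    have e : {j : J // a j = d} ≃ ι d :=
      { toFun := fun j => (congrArg ι j.2).mp j.1.2
        invFun := fun i => ⟨⟨d, i⟩, rfl⟩
        left_inv := by
          rintro ⟨⟨d', i⟩, h⟩
          obtain rfl : d' = d := h
          rfl
        right_inv := fun i => rfl }
    exact Finite.of_equiv _ e.symm

end Main

end Fermat.Agent.S20.Free
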