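import Fermat.Agent.S20.Free.FreeBasis
import Fermat.Agent.S20.Free.LevelOne

/-!
# P-S20-FREE: homogeneous free generators of `M_*(Γ)` over the level-one ring

Instantiation of the abstract theorem `exists_free_generators` (file `FreeBasis.lean`) with
`V = ℍ → ℂ`, `M d = {f | IsMF Γ d f}`, `R e = {f | IsMF1 e f}`, `x = E4f`, `y = E6f`.
The only input which is not in this file is the division lemma of work package `Regular`
(`E6f * f = E4f * g` implies `E4f ∣ f` inside the forms on `Γ`), taken here as a hypothesis.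
-/

set_option autoImplicit false

open UpperHalfPlane ModularForm SlashInvariantForm Filter Matrix.SpecialLinearGroup
open scoped MatrixGroups ModularForm Manifold Topology

namespace Fermat.Agent.S20.Free

variable (Γ : Subgroup SL(2, ℤ)) [Γ.FiniteIndex]

/-- the modular forms of weight `d` on `Γ`, as a subspace of the functions on `ℍ` -/
def mfSubmodule (d : ℤ) : Submodule ℂ (ℍ → ℂ) where
  carrier := {f | IsMF Γ d f}
  zero_mem' := isMF_zero
  add_mem' := fun hf hg => IsMF.add hf hg
  smul_mem' := fun c _ hf => IsMF.smul c hf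

/-- the level-one modular forms of weight `e`, as a subspace of the functions on `ℍ` -/
def mf1Submodule (e : ℤ) : Submodule ℂ (ℍ → ℂ) where
  carrier := {f | IsMF1 e f}
  zero_mem' := isMF1_zero
  add_mem' := fun hf hg => IsMF1.add hf hg
  smul_mem' := fun c _ hf => IsMF1.smul c hf

variable {Γ}

omit [Γ.FiniteIndex] in
theorem mem_mfSubmodule {d : ℤ} {f : ℍ → ℂ} : f ∈ mfSubmodule Γ d ↔ IsMF Γ d f := Iff.rfl

theorem mem_mf1Submodule {e : ℤ} {f : ℍ → ℂ} : f ∈ mf1Submodule e ↔ IsMF1 e f := Iff.rfl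

theorem E4f_ne_zero : E4f ≠ 0 := by
  intro h
  have h1 : Tendsto E4f atImInfty (𝓝 0) := by rw [h]; exact tendsto_const_nhds
  exact one_ne_zero (tendsto_nhds_unique tendsto_E4f h1)

/-- forms of negative weight vanish -/
theorem IsMF.eq_zero_of_neg {d : ℤ} {f : ℍ → ℂ} (hd : d < 0) (h : IsMF Γ d f) : f = 0 := by
  obtain ⟨F, rfl⟩ := h
  rw [ModularForm.isZero_of_neg_weight hd F]
  rfl

variable (Γ) in
/-- The graded module of modular forms on `Γ` over the graded ring of level-one forms satisfies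
the hypotheses of the abstract free basis theorem, given the division lemma. -/
theorem isRegularGraded_mf
    (hreg : ∀ (k : ℤ) (f g : ℍ → ℂ), IsMF Γ k f → IsMF Γ (k + 2) g → E6f * f = E4f * g →
      ∃ h', IsMF Γ (k - 4) h' ∧ f = E4f * h') :
    IsRegularGraded (k := ℂ) E4f E6f 4 6 (mfSubmodule Γ) mf1Submodule where
  p_pos := by norm_num
  q_pos := by norm_num
  M_neg := fun d hd f hf => IsMF.eq_zero_of_neg hd hf
  R_neg := fun e he r hr => isMF1_eq_zero_of_neg he hr
  R_zero := fun r hr => by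
    obtain ⟨c, rfl⟩ := isMF1_zero_weight hr
    exact ⟨c, rfl⟩
  one_mem := isMF1_one
  x_mul_R := fun e r hr => (IsMF1.mul isMF1_E4f hr).congr_weight (by ring)
  y_mul_R := fun e r hr => (IsMF1.mul isMF1_E6f hr).congr_weight (by ring)
  R_pos := fun e he r hr => by
    obtain ⟨g, h, hg, hh, e'⟩ := exists_E4_E6_decomp he hr
    exact ⟨g, hg, h, hh, e'⟩
  R_mul_M := fun e d r hr f hf => IsMF.mul (IsMF1.isMF hr) hf
  x_inj := fun d f hf h => by
    rcases (UpperHalfPlane.mul_eq_zero_iff mdiff_E4f hf.mdiff).mp h with h0 | h0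
    · exact absurd h0 E4f_ne_zero
    · exact h0
  reg := fun d f hf g hg h => by
    obtain ⟨h', hh', e⟩ := hreg d f g hf (hg.congr_weight (by ring)) h
    exact ⟨h', hh', e⟩

/-- **Homogeneous free generators** of the modular forms on `Γ` over the level-one ring
(with an abstract index type; the rank computation identifies it with `SL(2,ℤ) ⧸ Γ`). -/
theorem exists_free_generators_mf
    (hreg : ∀ (k : ℤ) (f g : ℍ → ℂ), IsMF Γ k f → IsMF Γ (k + 2) g → E6f * f = E4f * g →
      ∃ h', IsMF Γ (k - 4) h' ∧ f = E4f * h') :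
    ∃ (J : Type) (a : J → ℤ) (F : J → ℍ → ℂ),
      (∀ j, 0 ≤ a j) ∧ (∀ j, IsMF Γ (a j) (F j)) ∧
      (∀ (k : ℤ) (f : ℍ → ℂ), IsMF Γ k f → ∃ (S : Finset J) (r : J → ℍ → ℂ),
        (∀ j, IsMF1 (k - a j) (r j)) ∧ f = ∑ j ∈ S, r j * F j) ∧
      (∀ (k : ℤ) (S : Finset J) (r : J → ℍ → ℂ), (∀ j ∈ S, IsMF1 (k - a j) (r j)) →
        ∑ j ∈ S, r j * F j = 0 → ∀ j ∈ S, r j = 0) := by
  classical
  obtain ⟨J, a, F, ha, hF, hgen, huniq, -⟩ := exists_free_generators (isRegularGraded_mf Γ hreg)
  refine ⟨J, a, F, ha, hF, ?_, ?_⟩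
  · intro k f hf
    obtain ⟨r, hr, rfl⟩ := hgen k f hf
    refine ⟨r.support, ⇑r, hr, ?_⟩
    rw [Finsupp.linearCombination_apply]
    rfl
  · intro k S r hr hsum j hj
    have hmem : ∀ j, (if j ∈ S then r j else 0) ≠ 0 → j ∈ S := by
      intro j hj
      by_contra h
      exact hj (if_neg h)
    have h0 := huniq k (Finsupp.onFinset S (fun j => if j ∈ S then r j else 0) hmem)
      (fun j => by
        rw [Finsupp.onFinset_apply]
        split_ifs with h
        · exact hr j h
        · exact isMF1_zero)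
      (by
        rw [Finsupp.linearCombination_onFinset, ← hsum]
        refine Finset.sum_congr rfl fun j hj => ?_
        rw [if_pos hj, smul_eq_mul])
    have := DFunLike.congr_fun h0 j
    rwa [Finsupp.onFinset_apply, if_pos hj] at this

end Fermat.Agent.S20.Free
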