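import Mathlib

/-!
# P-S20-FREE: abstract graded freeness

Graded Nakayama plus a regular sequence `(e4, e6)` of "degrees" `4, 6` give a homogeneous free
basis.  Everything lives inside a commutative `K`-algebra `A` (later: functions on the upper
half-plane); the graded pieces are `K`-subspaces `R k`, `M k` of `A` indexed by `k : ℤ`.
-/

set_option autoImplicit false

namespace Fermat.Agent.S20.Free

open Finsupp

/-- The hypotheses of the abstract graded freeness theorem. -/
structure GradedData (K : Type*) [Field K] (A : Type*) [CommRing A] [Algebra K A]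
    (R M : ℤ → Submodule K A) (e4 e6 : A) : Prop where
  one_mem : (1 : A) ∈ R 0
  R_mul_R : ∀ {k l : ℤ} {r s : A}, r ∈ R k → s ∈ R l → r * s ∈ R (k + l)
  R_mul_M : ∀ {k l : ℤ} {r m : A}, r ∈ R k → m ∈ M l → r * m ∈ M (k + l)
  R_zero : ∀ r ∈ R 0, ∃ c : K, r = algebraMap K A c
  R_neg : ∀ k : ℤ, k < 0 → ∀ r ∈ R k, r = 0
  M_neg : ∀ k : ℤ, k < 0 → ∀ m ∈ M k, m = 0
  e4_mem : e4 ∈ R 4
  e6_mem : e6 ∈ R 6
  decomp : ∀ k : ℤ, k ≠ 0 → ∀ r ∈ R k, ∃ g ∈ R (k - 4), ∃ h ∈ R (k - 6), r = e4 * g + e6 * h
  regular : ∀ (k : ℤ) (f g : A), f ∈ M k → g ∈ M (k + 2) → e6 * f = e4 * g →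
    ∃ h ∈ M (k - 4), f = e4 * h ∧ g = e6 * h
  e4_regular : ∀ (k : ℤ) (m : A), m ∈ M k → e4 * m = 0 → m = 0

section

universe u v

variable {K : Type u} [Field K] {A : Type v} [CommRing A] [Algebra K A]
  {R M : ℤ → Submodule K A} {e4 e6 : A}

/-- A finitely supported family of coefficients is homogeneous of total weight `k`. -/
def IsHomCoeff (R : ℤ → Submodule K A) {ι : Type*} (wt : ι → ℤ) (k : ℤ) (r : ι →₀ A) : Prop :=
  ∀ j, r j ∈ R (k - wt j)

namespace IsHomCoeff

variable {ι : Type*} {wt : ι → ℤ} {k l : ℤ} {r s : ι →₀ A}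

theorem zero : IsHomCoeff R wt k (0 : ι →₀ A) := fun _ => by simp

theorem add (hr : IsHomCoeff R wt k r) (hs : IsHomCoeff R wt k s) : IsHomCoeff R wt k (r + s) :=
  fun j => by simpa using (R _).add_mem (hr j) (hs j)

theorem sub (hr : IsHomCoeff R wt k r) (hs : IsHomCoeff R wt k s) : IsHomCoeff R wt k (r - s) :=
  fun j => by simpa using (R _).sub_mem (hr j) (hs j)

theorem smul (hd : GradedData K A R M e4 e6) {a : A} (ha : a ∈ R l) (hr : IsHomCoeff R wt k r) :
    IsHomCoeff R wt (l + k) (a • r) := fun j => by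
  have := hd.R_mul_R ha (hr j)
  rw [show l + (k - wt j) = l + k - wt j by ring] at this
  simpa using this

theorem congr (hr : IsHomCoeff R wt k r) (h : k = l) : IsHomCoeff R wt l r := h ▸ hr

end IsHomCoeff


/-- The decomposable part `e4 * M (k-4) + e6 * M (k-6)` in weight `k`. -/
def decompPart (M : ℤ → Submodule K A) (e4 e6 : A) (k : ℤ) : Submodule K A :=
  (M (k - 4)).map (LinearMap.mulLeft K e4) ⊔ (M (k - 6)).map (LinearMap.mulLeft K e6)

theorem mem_decompPart {k : ℤ} {x : A} :
    x ∈ decompPart M e4 e6 k ↔ ∃ g ∈ M (k - 4), ∃ h ∈ M (k - 6), x = e4 * g + e6 * h := by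
  unfold decompPart
  rw [Submodule.mem_sup]
  constructor
  · rintro ⟨y, ⟨g, hg, rfl⟩, z, ⟨h, hh, rfl⟩, rfl⟩
    exact ⟨g, hg, h, hh, rfl⟩
  · rintro ⟨g, hg, h, hh, rfl⟩
    exact ⟨e4 * g, ⟨g, hg, rfl⟩, e6 * h, ⟨h, hh, rfl⟩, rfl⟩

theorem decompPart_le (hd : GradedData K A R M e4 e6) (k : ℤ) : decompPart M e4 e6 k ≤ M k := by
  intro x hx
  obtain ⟨g, hg, h, hh, rfl⟩ := mem_decompPart.mp hx
  refine (M k).add_mem ?_ ?_
  · have := hd.R_mul_M hd.e4_mem hg
    rwa [show (4 : ℤ) + (k - 4) = k by ring] at this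
  · have := hd.R_mul_M hd.e6_mem hh
    rwa [show (6 : ℤ) + (k - 6) = k by ring] at this

/-- A complement of the decomposable part inside `M k`. -/
theorem exists_compl (M : ℤ → Submodule K A) (e4 e6 : A) (k : ℤ) :
    ∃ C : Submodule K A, C ≤ M k ∧ Disjoint C (decompPart M e4 e6 k) ∧
      M k ≤ C ⊔ decompPart M e4 e6 k := by
  obtain ⟨q, hq⟩ := Submodule.exists_isCompl ((decompPart M e4 e6 k).comap (M k).subtype)
  refine ⟨q.map (M k).subtype, Submodule.map_subtype_le _ _, ?_, ?_⟩
  · rw [Submodule.disjoint_def]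
    rintro x ⟨y, hy, rfl⟩ hx
    have h1 : y ∈ (decompPart M e4 e6 k).comap (M k).subtype := hx
    have := (Submodule.disjoint_def.mp hq.disjoint) y h1 hy
    simp [this]
  · intro m hm
    have h1 : (⟨m, hm⟩ : M k) ∈ (decompPart M e4 e6 k).comap (M k).subtype ⊔ q := by
      rw [hq.sup_eq_top]; trivial
    obtain ⟨a, ha, b, hb, hab⟩ := Submodule.mem_sup.mp h1
    rw [Submodule.mem_sup]
    refine ⟨b, ⟨b, hb, rfl⟩, a, ha, ?_⟩
    have := congrArg Subtype.val hab
    simp only [Submodule.coe_add] at this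
    rw [add_comm]; exact this


/-- Chosen complement of the decomposable part. -/
noncomputable def complPart (M : ℤ → Submodule K A) (e4 e6 : A) (k : ℤ) : Submodule K A :=
  (exists_compl M e4 e6 k).choose

theorem complPart_le (k : ℤ) : complPart M e4 e6 k ≤ M k :=
  (exists_compl M e4 e6 k).choose_spec.1

theorem complPart_disjoint (k : ℤ) : Disjoint (complPart M e4 e6 k) (decompPart M e4 e6 k) :=
  (exists_compl M e4 e6 k).choose_spec.2.1

theorem le_complPart_sup (k : ℤ) : M k ≤ complPart M e4 e6 k ⊔ decompPart M e4 e6 k :=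
  (exists_compl M e4 e6 k).choose_spec.2.2

/-- Index type of the homogeneous generators: pairs (weight, basis index). -/
abbrev GenIdx (M : ℤ → Submodule K A) (e4 e6 : A) : Type _ :=
  Σ k : ℤ, Module.Basis.ofVectorSpaceIndex K (complPart M e4 e6 k)

/-- Weight of a generator. -/
def genWt (M : ℤ → Submodule K A) (e4 e6 : A) (j : GenIdx M e4 e6) : ℤ := j.1

/-- The generators. -/
noncomputable def genFun (M : ℤ → Submodule K A) (e4 e6 : A) (j : GenIdx M e4 e6) : A :=
  (Module.Basis.ofVectorSpace K (complPart M e4 e6 j.1) j.2 : A)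

theorem genFun_mem_complPart (j : GenIdx M e4 e6) : genFun M e4 e6 j ∈ complPart M e4 e6 j.1 :=
  (Module.Basis.ofVectorSpace K (complPart M e4 e6 j.1) j.2).2

theorem genFun_mem (j : GenIdx M e4 e6) : genFun M e4 e6 j ∈ M (genWt M e4 e6 j) :=
  complPart_le j.1 (genFun_mem_complPart j)


/-- Evaluation of a finitely supported coefficient family on the generators. -/
noncomputable def genLC (M : ℤ → Submodule K A) (e4 e6 : A) : (GenIdx M e4 e6 →₀ A) →ₗ[A] A :=
  Finsupp.linearCombination A (genFun M e4 e6)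

theorem genLC_apply (r : GenIdx M e4 e6 →₀ A) :
    genLC M e4 e6 r = r.sum fun j a => a * genFun M e4 e6 j := by
  simp [genLC, Finsupp.linearCombination_apply]

theorem genLC_mem (hd : GradedData K A R M e4 e6) {k : ℤ} {r : GenIdx M e4 e6 →₀ A}
    (hr : IsHomCoeff R (genWt M e4 e6) k r) : genLC M e4 e6 r ∈ M k := by
  rw [genLC_apply]
  refine Submodule.sum_mem _ fun j _ => ?_
  have := hd.R_mul_M (hr j) (genFun_mem j)
  rwa [show k - genWt M e4 e6 j + genWt M e4 e6 j = k by ring] at this

/-- `f` is a homogeneous combination of the generators, of total weight `k`. -/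
def IsGenComb (R M : ℤ → Submodule K A) (e4 e6 : A) (k : ℤ) (f : A) : Prop :=
  ∃ r : GenIdx M e4 e6 →₀ A, IsHomCoeff R (genWt M e4 e6) k r ∧ f = genLC M e4 e6 r

namespace IsGenComb

variable {k l : ℤ} {f g : A}

theorem zero : IsGenComb R M e4 e6 k 0 := ⟨0, IsHomCoeff.zero, by simp⟩

theorem add (hf : IsGenComb R M e4 e6 k f) (hg : IsGenComb R M e4 e6 k g) :
    IsGenComb R M e4 e6 k (f + g) := by
  obtain ⟨r, hr, rfl⟩ := hf
  obtain ⟨s, hs, rfl⟩ := hg
  exact ⟨r + s, hr.add hs, by simp⟩

theorem mul (hd : GradedData K A R M e4 e6) {a : A} (ha : a ∈ R l)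
    (hf : IsGenComb R M e4 e6 k f) : IsGenComb R M e4 e6 (l + k) (a * f) := by
  obtain ⟨r, hr, rfl⟩ := hf
  exact ⟨a • r, hr.smul hd ha, by simp⟩

theorem ksmul (hd : GradedData K A R M e4 e6) (c : K) (hf : IsGenComb R M e4 e6 k f) :
    IsGenComb R M e4 e6 k (c • f) := by
  have h1 : algebraMap K A c ∈ R 0 := by
    rw [Algebra.algebraMap_eq_smul_one]
    exact (R 0).smul_mem c hd.one_mem
  have := hf.mul hd h1
  rw [zero_add] at this
  rwa [Algebra.smul_def]

theorem sum {α : Type*} (s : Finset α) (F : α → A)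
    (h : ∀ i ∈ s, IsGenComb R M e4 e6 k (F i)) : IsGenComb R M e4 e6 k (∑ i ∈ s, F i) := by
  classical
  induction s using Finset.induction_on with
  | empty => simpa using zero
  | insert i t hi ih =>
    rw [Finset.sum_insert hi]
    exact (h i (Finset.mem_insert_self i t)).add (ih fun j hj => h j (Finset.mem_insert_of_mem hj))

theorem gen (hd : GradedData K A R M e4 e6) (j : GenIdx M e4 e6) :
    IsGenComb R M e4 e6 (genWt M e4 e6 j) (genFun M e4 e6 j) := by
  classical
  refine ⟨Finsupp.single j 1, fun i => ?_, by simp [genLC]⟩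
  by_cases hij : j = i
  · subst hij
    simpa using hd.one_mem
  · simp [hij]

theorem of_mem_complPart (hd : GradedData K A R M e4 e6) (hf : f ∈ complPart M e4 e6 k) :
    IsGenComb R M e4 e6 k f := by
  set B := Module.Basis.ofVectorSpace K (complPart M e4 e6 k) with hB
  have h1 := B.linearCombination_repr ⟨f, hf⟩
  have h2 : f = ∑ b ∈ (B.repr ⟨f, hf⟩).support, (B.repr ⟨f, hf⟩ b) • (B b : A) := by
    have := congrArg Subtype.val h1
    rw [Finsupp.linearCombination_apply, Finsupp.sum] at this
    simpa using this.symm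
  rw [h2]
  refine sum _ _ fun b _ => ksmul hd _ ?_
  exact gen hd (⟨k, b⟩ : GenIdx M e4 e6)

end IsGenComb

/-- **Generation** (graded Nakayama). -/
theorem isGenComb_of_mem (hd : GradedData K A R M e4 e6) :
    ∀ (k : ℤ) (f : A), f ∈ M k → IsGenComb R M e4 e6 k f := by
  have key : ∀ n : ℕ, ∀ k : ℤ, k < n → ∀ f ∈ M k, IsGenComb R M e4 e6 k f := by
    intro n
    induction n with
    | zero =>
      intro k hk f hf
      rw [hd.M_neg k (by simpa using hk) f hf]
      exact IsGenComb.zero
    | succ n ih =>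
      intro k hk f hf
      obtain ⟨c, hc, m, hm, rfl⟩ :=
        Submodule.mem_sup.mp (le_complPart_sup (M := M) (e4 := e4) (e6 := e6) k hf)
      obtain ⟨g, hg, h, hh, rfl⟩ := mem_decompPart.mp hm
      have hk' : k ≤ n := by push_cast at hk; omega
      have h4 := (ih (k - 4) (by omega) g hg).mul hd hd.e4_mem
      have h6 := (ih (k - 6) (by omega) h hh).mul hd hd.e6_mem
      rw [show (4 : ℤ) + (k - 4) = k by ring] at h4
      rw [show (6 : ℤ) + (k - 6) = k by ring] at h6
      exact (IsGenComb.of_mem_complPart hd hc).add (h4.add h6)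
  intro k f hf
  exact key (k.toNat + 1) k (by push_cast; omega) f hf


theorem genWt_nonneg (hd : GradedData K A R M e4 e6) (j : GenIdx M e4 e6) :
    0 ≤ genWt M e4 e6 j := by
  by_contra hneg
  rw [not_le] at hneg
  have h0 : genFun M e4 e6 j = 0 := hd.M_neg _ hneg _ (genFun_mem j)
  have h1 := (Module.Basis.ofVectorSpace K (complPart M e4 e6 j.1)).ne_zero j.2
  exact h1 (Subtype.ext h0)

/-- The generator index attached to a basis index in weight `k`. -/
def mkIdx (M : ℤ → Submodule K A) (e4 e6 : A) (k : ℤ)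
    (b : Module.Basis.ofVectorSpaceIndex K (complPart M e4 e6 k)) : GenIdx M e4 e6 := ⟨k, b⟩

theorem mkIdx_injective (k : ℤ) : Function.Injective (mkIdx M e4 e6 k) := by
  intro b b' h
  simpa [mkIdx] using h

/-- Linear independence over `K` of the generators of a fixed weight. -/
theorem fiber_indep (k : ℤ) (S : Finset (GenIdx M e4 e6)) (c : GenIdx M e4 e6 → K)
    (hc : ∀ j ∈ S, c j ≠ 0 → genWt M e4 e6 j = k)
    (hsum : ∑ j ∈ S, c j • genFun M e4 e6 j = 0) : ∀ j ∈ S, c j = 0 := by
  classical
  have hinj : Set.InjOn (mkIdx M e4 e6 k) (mkIdx M e4 e6 k ⁻¹' (S : Set (GenIdx M e4 e6))) :=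
    (mkIdx_injective k).injOn
  have h1 := Finset.sum_preimage (mkIdx M e4 e6 k) S hinj
    (fun j => c j • genFun M e4 e6 j) (by
      intro x hx hxr
      have : c x = 0 := by
        by_contra hne
        apply hxr
        have hk := hc x hx hne
        obtain ⟨i, b⟩ := x
        simp only [genWt] at hk
        subst hk
        exact ⟨b, rfl⟩
      simp [this])
  rw [hsum] at h1
  set B := Module.Basis.ofVectorSpace K (complPart M e4 e6 k) with hB
  have h2 : ∑ b ∈ S.preimage (mkIdx M e4 e6 k) hinj, c (mkIdx M e4 e6 k b) • B b = 0 := by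
    apply Subtype.ext
    rw [Submodule.coe_sum]
    simp only [Submodule.coe_smul]
    exact h1
  have h3 := linearIndependent_iff'.mp B.linearIndependent _ _ h2
  intro j hj
  by_contra hne
  have hk := hc j hj hne
  obtain ⟨i, b⟩ := j
  simp only [genWt] at hk
  subst hk
  exact hne (h3 b (by simpa [mkIdx] using hj))

/-- Pointwise decomposition of homogeneous coefficients into a constant part (only in weight
`k`) and parts divisible by `e4`, `e6`. -/
theorem exists_decomp_coeff (hd : GradedData K A R M e4 e6) (k : ℤ) (r : GenIdx M e4 e6 →₀ A)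
    (hr : IsHomCoeff R (genWt M e4 e6) k r) :
    ∃ (c : GenIdx M e4 e6 →₀ K) (s t : GenIdx M e4 e6 →₀ A),
      (∀ j, c j ≠ 0 → genWt M e4 e6 j = k) ∧ IsHomCoeff R (genWt M e4 e6) (k - 4) s ∧
      IsHomCoeff R (genWt M e4 e6) (k - 6) t ∧
      ∀ j, r j = algebraMap K A (c j) + e4 * s j + e6 * t j := by
  classical
  have hpt : ∀ j, ∃ (cj : K) (gj hj : A), gj ∈ R (k - 4 - genWt M e4 e6 j) ∧
      hj ∈ R (k - 6 - genWt M e4 e6 j) ∧ r j = algebraMap K A cj + e4 * gj + e6 * hj ∧
      (cj ≠ 0 → genWt M e4 e6 j = k) ∧ (r j = 0 → cj = 0 ∧ gj = 0 ∧ hj = 0) := by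
    intro j
    by_cases h0 : r j = 0
    · exact ⟨0, 0, 0, Submodule.zero_mem _, Submodule.zero_mem _, by simp [h0],
        fun h => absurd rfl h, fun _ => ⟨rfl, rfl, rfl⟩⟩
    · by_cases hk : genWt M e4 e6 j = k
      · have h1 := hr j
        rw [hk, sub_self] at h1
        obtain ⟨c, hc⟩ := hd.R_zero _ h1
        exact ⟨c, 0, 0, Submodule.zero_mem _, Submodule.zero_mem _, by simp [hc],
          fun _ => hk, fun h => absurd h h0⟩
      · have hne : k - genWt M e4 e6 j ≠ 0 := sub_ne_zero.mpr (Ne.symm hk)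
        obtain ⟨g, hg, h, hh, hgh⟩ := hd.decomp _ hne _ (hr j)
        refine ⟨0, g, h, ?_, ?_, by simp [hgh], fun h => absurd rfl h, fun h => absurd h h0⟩
        · rwa [show k - 4 - genWt M e4 e6 j = k - genWt M e4 e6 j - 4 by ring]
        · rwa [show k - 6 - genWt M e4 e6 j = k - genWt M e4 e6 j - 6 by ring]
  choose cf gf hf hg hh hrj hcj hz using hpt
  refine ⟨Finsupp.onFinset r.support cf (fun j hj => ?_),
    Finsupp.onFinset r.support gf (fun j hj => ?_),
    Finsupp.onFinset r.support hf (fun j hj => ?_), ?_, ?_, ?_, ?_⟩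
  · rw [Finsupp.mem_support_iff]; intro h; exact hj (hz j h).1
  · rw [Finsupp.mem_support_iff]; intro h; exact hj (hz j h).2.1
  · rw [Finsupp.mem_support_iff]; intro h; exact hj (hz j h).2.2
  · intro j hj
    simp only [Finsupp.onFinset_apply] at hj
    exact hcj j hj
  · intro j
    simp only [Finsupp.onFinset_apply]
    exact hg j
  · intro j
    simp only [Finsupp.onFinset_apply]
    exact hh j
  · intro j
    simp only [Finsupp.onFinset_apply]
    exact hrj j


/-- **Freeness**: a homogeneous relation among the generators is trivial. -/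
theorem eq_zero_of_genLC_eq_zero (hd : GradedData K A R M e4 e6) :
    ∀ (k : ℤ) (r : GenIdx M e4 e6 →₀ A), IsHomCoeff R (genWt M e4 e6) k r →
      genLC M e4 e6 r = 0 → r = 0 := by
  classical
  have key : ∀ n : ℕ, ∀ k : ℤ, k < n → ∀ r : GenIdx M e4 e6 →₀ A,
      IsHomCoeff R (genWt M e4 e6) k r → genLC M e4 e6 r = 0 → r = 0 := by
    intro n
    induction n with
    | zero =>
      intro k hk r hr _
      ext j
      have h0 := genWt_nonneg hd j
      exact hd.R_neg _ (by have : k < 0 := by simpa using hk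
                           omega) _ (hr j)
    | succ n ih =>
      intro k hk r hr hlc
      have hk' : k ≤ n := by push_cast at hk; omega
      obtain ⟨c, s, t, hc, hs, ht, hrj⟩ := exists_decomp_coeff hd k r hr
      -- the three pieces of `genLC r`
      have hsplit : genLC M e4 e6 r = (∑ j ∈ c.support, c j • genFun M e4 e6 j) +
          e4 * genLC M e4 e6 s + e6 * genLC M e4 e6 t := by
        have hr' : r = c.mapRange (algebraMap K A) (map_zero _) + e4 • s + e6 • t := by
          ext j
          simp [hrj j]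
        have h1 : genLC M e4 e6 (c.mapRange (algebraMap K A) (map_zero _)) =
            ∑ j ∈ c.support, c j • genFun M e4 e6 j := by
          rw [genLC_apply, Finsupp.sum_mapRange_index (by simp), Finsupp.sum]
          exact Finset.sum_congr rfl fun j _ => by rw [Algebra.smul_def]
        rw [hr', map_add, map_add, map_smul, map_smul, h1, smul_eq_mul, smul_eq_mul]
      have hs_mem := genLC_mem hd hs
      have ht_mem := genLC_mem hd ht
      -- the constant part lies in the complement and in the decomposable part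
      have hconst_mem : (∑ j ∈ c.support, c j • genFun M e4 e6 j) ∈ complPart M e4 e6 k := by
        refine Submodule.sum_mem _ fun j hj => Submodule.smul_mem _ _ ?_
        have hk1 := hc j (Finsupp.mem_support_iff.mp hj)
        have := genFun_mem_complPart j
        simp only [genWt] at hk1
        rwa [hk1] at this
      have hdec_mem : e4 * genLC M e4 e6 s + e6 * genLC M e4 e6 t ∈ decompPart M e4 e6 k :=
        mem_decompPart.mpr ⟨_, hs_mem, _, ht_mem, rfl⟩
      have hconst_zero : (∑ j ∈ c.support, c j • genFun M e4 e6 j) = 0 := by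
        have h1 : (∑ j ∈ c.support, c j • genFun M e4 e6 j) =
            -(e4 * genLC M e4 e6 s + e6 * genLC M e4 e6 t) := by
          rw [hsplit] at hlc
          linear_combination hlc
        have h2 : (∑ j ∈ c.support, c j • genFun M e4 e6 j) ∈ decompPart M e4 e6 k := by
          rw [h1]; exact Submodule.neg_mem _ hdec_mem
        exact (Submodule.disjoint_def.mp (complPart_disjoint k)) _ hconst_mem h2
      have hc0 : c = 0 := by
        have := fiber_indep k c.support c (fun j _ h => hc j h) hconst_zero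
        ext j
        by_contra hne
        exact hne (this j (Finsupp.mem_support_iff.mpr hne))
      -- regular sequence
      have hrel : e6 * genLC M e4 e6 t = e4 * (-genLC M e4 e6 s) := by
        rw [hsplit, hconst_zero] at hlc
        linear_combination hlc
      have hs_mem' : -genLC M e4 e6 s ∈ M (k - 6 + 2) := by
        rw [show k - 6 + 2 = k - 4 by ring]; exact Submodule.neg_mem _ hs_mem
      obtain ⟨h, hh, hth, hsh⟩ := hd.regular (k - 6) _ _ ht_mem hs_mem' hrel
      obtain ⟨p, hp, rfl⟩ := isGenComb_of_mem hd _ _ hh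
      have hp4 : IsHomCoeff R (genWt M e4 e6) (k - 6) (e4 • p) :=
        (hp.smul hd hd.e4_mem).congr (by ring)
      have hp6 : IsHomCoeff R (genWt M e4 e6) (k - 4) (e6 • p) :=
        (hp.smul hd hd.e6_mem).congr (by ring)
      have ht_eq : t - e4 • p = 0 :=
        ih (k - 6) (by omega) _ (ht.sub hp4) (by rw [map_sub, map_smul, smul_eq_mul, hth, sub_self])
      have hs_eq : s + e6 • p = 0 := by
        have : s - (-(e6 • p)) = 0 := by
          refine ih (k - 4) (by omega) _ (hs.sub ?_) ?_
          · intro j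
            simpa using Submodule.neg_mem _ (hp6 j)
          · rw [map_sub, map_neg, map_smul, smul_eq_mul, ← hsh]; ring
        simpa using this
      ext j
      have h1 : t j = e4 * p j := by
        have := congrArg (fun f => f j) ht_eq
        simp only [Finsupp.coe_sub, Finsupp.coe_smul, Pi.sub_apply, Pi.smul_apply,
          smul_eq_mul, Finsupp.coe_zero, Pi.zero_apply] at this
        linear_combination this
      have h2 : s j = -(e6 * p j) := by
        have := congrArg (fun f => f j) hs_eq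
        simp only [Finsupp.coe_add, Finsupp.coe_smul, Pi.add_apply, Pi.smul_apply,
          smul_eq_mul, Finsupp.coe_zero, Pi.zero_apply] at this
        linear_combination this
      rw [hrj j, hc0, h1, h2]
      simp only [Finsupp.coe_zero, Pi.zero_apply, map_zero]
      ring
  intro k r hr hlc
  exact key (k.toNat + 1) k (by push_cast; omega) r hr hlc

/-- **Abstract free basis theorem.** -/
theorem exists_graded_free_basis (hd : GradedData K A R M e4 e6) :
    ∃ (ι : Type v) (wt : ι → ℤ) (F : ι → A),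
      (∀ j, 0 ≤ wt j) ∧ (∀ j, F j ∈ M (wt j)) ∧
      (∀ (k : ℤ) (f : A), f ∈ M k → ∃ r : ι →₀ A, IsHomCoeff R wt k r ∧
        f = Finsupp.linearCombination A F r) ∧
      (∀ (k : ℤ) (r : ι →₀ A), IsHomCoeff R wt k r → Finsupp.linearCombination A F r = 0 →
        r = 0) := by
  refine ⟨GenIdx M e4 e6, genWt M e4 e6, genFun M e4 e6, genWt_nonneg hd, genFun_mem, ?_, ?_⟩
  · intro k f hf
    exact isGenComb_of_mem hd k f hf
  · intro k r hr h
    exact eq_zero_of_genLC_eq_zero hd k r hr h

end

end Fermat.Agent.S20.Free
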