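import Fermat.Agent.S20.Free.ConjMatrix

/-!
# P-S20-FREE: the rank of a homogeneous free family is the index of `Γ`

`rank_exists_equiv`: if `(wt, F)` indexed by an arbitrary type `J` spans the modular forms on `Γ`
over the level-one forms and is independent over them, and some form separates the cosets, then
`J ≃ SL(2,ℤ) ⧸ Γ`, the reindexed family is an `IsFreeBasis`, and the determinant of its matrix of
conjugates does not vanish identically.

Ingredients: a point where the conjugates of the separating form are pairwise distinct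
(identity theorem) + Vandermonde give that the conjugate vectors span `ℂ^Q`; `n × n` minors
transform under `SL(2,ℤ)` by the sign character, so products of two minors are level-one forms,
and Cramer's rule gives a relation between any `n + 1` members.
-/
set_option autoImplicit false

open UpperHalfPlane ModularForm SlashInvariantForm Filter Matrix.SpecialLinearGroup
open scoped MatrixGroups ModularForm Manifold Topology

namespace Fermat.Agent.S20.Free

variable {Γ : Subgroup SL(2, ℤ)} [Γ.FiniteIndex]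

/-- A separating form has a point where all its conjugates take pairwise distinct values. -/
theorem rank_exists_separating_point {w : ℤ} {u : ℍ → ℂ} (hu : Separates Γ w u) :
    ∃ τ₀ : ℍ, ∀ q q' : SL(2, ℤ) ⧸ Γ, q ≠ q' → conjFun Γ w u q τ₀ ≠ conjFun Γ w u q' τ₀ := by
  classical
  set P : Finset ((SL(2, ℤ) ⧸ Γ) × (SL(2, ℤ) ⧸ Γ)) := Finset.univ.filter fun p => p.1 ≠ p.2
  set g : (SL(2, ℤ) ⧸ Γ) × (SL(2, ℤ) ⧸ Γ) → ℍ → ℂ :=
    fun p => conjFun Γ w u p.1 - conjFun Γ w u p.2
  have hg : ∀ p ∈ P, MDiff (g p) := fun p _ =>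
    (hu.1.mdiff_conjFun p.1).sub (hu.1.mdiff_conjFun p.2)
  have hne : ∏ p ∈ P, g p ≠ 0 := by
    intro h0
    obtain ⟨p, hp, hp0⟩ := (UpperHalfPlane.prod_eq_zero_iff hg).mp h0
    have hpne : p.1 ≠ p.2 := (Finset.mem_filter.mp hp).2
    exact hu.2 p.1 p.2 hpne (sub_eq_zero.mp hp0)
  obtain ⟨τ₀, hτ₀⟩ : ∃ τ₀, (∏ p ∈ P, g p) τ₀ ≠ 0 := by
    by_contra hcon
    exact hne (funext fun τ => not_not.mp fun h => hcon ⟨τ, h⟩)
  refine ⟨τ₀, fun q q' hqq' heq => hτ₀ ?_⟩
  rw [Finset.prod_apply]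
  refine Finset.prod_eq_zero (i := (q, q')) (Finset.mem_filter.mpr ⟨Finset.mem_univ _, hqq'⟩) ?_
  simp [g, heq]

omit [Γ.FiniteIndex] in
theorem rank_conjFun_mul' {k a b : ℤ} (h : k = a + b) (f g : ℍ → ℂ) (q : SL(2, ℤ) ⧸ Γ) :
    conjFun Γ k (f * g) q = conjFun Γ a f q * conjFun Γ b g q := by
  subst h; exact conjFun_mul q

omit [Γ.FiniteIndex] in
theorem rank_isMF_pow {w : ℤ} {u : ℍ → ℂ} (hu : IsMF Γ w u) (i : ℕ) : IsMF Γ (i * w) (u ^ i) := by
  induction i with
  | zero => simpa using (isMF_one : IsMF Γ 0 1)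
  | succ i ih =>
    rw [pow_succ]
    exact (ih.mul hu).congr_weight (by push_cast; ring)

omit [Γ.FiniteIndex] in
theorem rank_conjFun_pow {w : ℤ} (u : ℍ → ℂ) (i : ℕ) (q : SL(2, ℤ) ⧸ Γ) :
    conjFun Γ (i * w) (u ^ i) q = conjFun Γ w u q ^ i := by
  induction i with
  | zero =>
    simp only [Nat.cast_zero, zero_mul, pow_zero]
    exact conjFun_of_isMF1 isMF1_one q
  | succ i ih =>
    rw [pow_succ, pow_succ, rank_conjFun_mul' (a := i * w) (b := w) (by push_cast; ring), ih]

/-- The conjugate vectors of a spanning family span `ℂ^Q` at a separating point. -/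
theorem rank_span_eq_top {J : Type*} {wt : J → ℤ} {F : J → ℍ → ℂ}
    (hspan : ∀ (k : ℤ) (f : ℍ → ℂ), IsMF Γ k f → ∃ (s : Finset J) (r : J → ℍ → ℂ),
      (∀ j ∈ s, IsMF1 (k - wt j) (r j)) ∧ f = ∑ j ∈ s, r j * F j)
    {w : ℤ} {u : ℍ → ℂ} (hu : IsMF Γ w u) {τ₀ : ℍ}
    (hτ₀ : ∀ q q' : SL(2, ℤ) ⧸ Γ, q ≠ q' → conjFun Γ w u q τ₀ ≠ conjFun Γ w u q' τ₀) :
    Submodule.span ℂ (Set.range fun j q => conjMat Γ wt F τ₀ q j) = ⊤ := by
  classical
  by_contra hlt
  obtain ⟨φ, hφ0, hφ⟩ := Submodule.exists_le_ker_of_lt_top _ (lt_top_iff_ne_top.mpr hlt)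
  -- the coefficient vector of `φ`
  set c : SL(2, ℤ) ⧸ Γ → ℂ := fun q => φ (fun j => if q = j then 1 else 0) with hc
  have hφv : ∀ v : SL(2, ℤ) ⧸ Γ → ℂ, φ v = ∑ q, v q * c q := fun v => by
    rw [LinearMap.pi_apply_eq_sum_univ φ v]
    simp [hc, smul_eq_mul]
  -- `φ` kills every conjugate vector of every modular form on `Γ`
  have hkill : ∀ (k : ℤ) (f : ℍ → ℂ), IsMF Γ k f → ∑ q, conjFun Γ k f q τ₀ * c q = 0 := by
    intro k f hf
    obtain ⟨s, r, hr, rfl⟩ := hspan k f hf
    have h1 : ∀ q, conjFun Γ k (∑ j ∈ s, r j * F j) q τ₀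
        = ∑ j ∈ s, r j τ₀ * conjMat Γ wt F τ₀ q j := by
      intro q
      rw [conjFun_sum, Finset.sum_apply]
      refine Finset.sum_congr rfl fun j hj => ?_
      rw [rank_conjFun_mul' (a := k - wt j) (b := wt j) (by ring), conjFun_of_isMF1 (hr j hj)]
      rfl
    have h2 : ∀ j, ∑ q, conjMat Γ wt F τ₀ q j * c q = 0 := by
      intro j
      rw [← hφv]
      exact hφ (Submodule.subset_span ⟨j, rfl⟩)
    calc ∑ q, conjFun Γ k (∑ j ∈ s, r j * F j) q τ₀ * c q
        = ∑ q, ∑ j ∈ s, r j τ₀ * (conjMat Γ wt F τ₀ q j * c q) := by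
          refine Finset.sum_congr rfl fun q _ => ?_
          rw [h1, Finset.sum_mul]
          exact Finset.sum_congr rfl fun j _ => by ring
      _ = ∑ j ∈ s, r j τ₀ * ∑ q, conjMat Γ wt F τ₀ q j * c q := by
          rw [Finset.sum_comm]
          exact Finset.sum_congr rfl fun j _ => by rw [Finset.mul_sum]
      _ = 0 := by simp [h2]
  -- apply to the powers of `u`: Vandermonde
  set e := Fintype.equivFin (SL(2, ℤ) ⧸ Γ) with he
  set v : Fin (Fintype.card (SL(2, ℤ) ⧸ Γ)) → ℂ := fun i => conjFun Γ w u (e.symm i) τ₀ with hv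
  have hvinj : Function.Injective v := by
    intro i i' hii'
    by_contra hne
    exact hτ₀ _ _ (fun h => hne (e.symm.injective h)) hii'
  have hdet : (Matrix.vandermonde v).det ≠ 0 := Matrix.det_vandermonde_ne_zero_iff.mpr hvinj
  have hvec : Matrix.vecMul (fun i => c (e.symm i)) (Matrix.vandermonde v) = 0 := by
    funext i
    have := hkill _ _ (rank_isMF_pow hu (i : ℕ))
    simp only [rank_conjFun_pow, Pi.pow_apply] at this
    rw [Matrix.vecMul, dotProduct, Pi.zero_apply, ← this]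
    rw [← Equiv.sum_comp e.symm]
    refine Finset.sum_congr rfl fun l _ => ?_
    simp [Matrix.vandermonde_apply, hv, mul_comm]
  have hc0 := Matrix.eq_zero_of_vecMul_eq_zero hdet hvec
  apply hφ0
  apply LinearMap.ext
  intro x
  rw [hφv]
  have : ∀ q, c q = 0 := fun q => by
    have := congrFun hc0 (e q)
    simpa using this
  simp [this]

/-- Leibniz expansion of a minor as a function on `ℍ`. -/
theorem rank_minorDet_eq_sum {J : Type*} (wt : J → ℤ) (F : J → ℍ → ℂ)
    (s : SL(2, ℤ) ⧸ Γ → J) :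
    minorDet Γ wt F s = ∑ π : Equiv.Perm (SL(2, ℤ) ⧸ Γ),
      (((Equiv.Perm.sign π : ℤˣ) : ℤ) : ℂ) • ∏ q, conjFun Γ (wt (s q)) (F (s q)) (π q) := by
  funext τ
  unfold minorDet
  rw [Matrix.det_apply']
  simp only [Finset.sum_apply, Pi.smul_apply, Finset.prod_apply, smul_eq_mul,
    Matrix.submatrix_apply, id, conjMat_apply]

theorem rank_mdiff_minorDet {J : Type*} {wt : J → ℤ} {F : J → ℍ → ℂ}
    (hMF : ∀ j, IsMF Γ (wt j) (F j)) (s : SL(2, ℤ) ⧸ Γ → J) : MDiff (minorDet Γ wt F s) := by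
  rw [rank_minorDet_eq_sum]
  refine MDifferentiable.sum fun π _ => MDifferentiable.const_smul _ ?_
  exact MDifferentiable.prod fun q _ => (hMF (s q)).mdiff_conjFun (π q)

theorem rank_bdd_minorDet {J : Type*} {wt : J → ℤ} {F : J → ℍ → ℂ}
    (hMF : ∀ j, IsMF Γ (wt j) (F j)) (s : SL(2, ℤ) ⧸ Γ → J) :
    IsBoundedAtImInfty (minorDet Γ wt F s) := by
  rw [rank_minorDet_eq_sum]
  refine (boundedFilterSubmodule ℂ atImInfty).sum_mem fun π _ => ?_
  refine BoundedAtFilter.smul _ ?_
  exact BoundedAtFilter.prod _ fun q _ => (hMF (s q)).bdd_conjFun (π q)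

/-- A product of two minors is a level-one modular form. -/
theorem rank_isMF1_minorDet_mul {J : Type*} {wt : J → ℤ} {F : J → ℍ → ℂ}
    (hMF : ∀ j, IsMF Γ (wt j) (F j)) (s s' : SL(2, ℤ) ⧸ Γ → J) :
    IsMF1 ((∑ q, wt (s q)) + ∑ q, wt (s' q)) (minorDet Γ wt F s * minorDet Γ wt F s') := by
  refine isMF1_iff.mpr ⟨(rank_mdiff_minorDet hMF s).mul (rank_mdiff_minorDet hMF s'), fun σ => ?_,
    (rank_bdd_minorDet hMF s).mul (rank_bdd_minorDet hMF s')⟩
  have hF : ∀ j, ∀ γ ∈ Γ, F j ∣[wt j] γ = F j := fun j γ hγ => (hMF j).slash_eq hγ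
  funext τ
  rw [SL_slash_apply, Pi.mul_apply, Pi.mul_apply, minorDet_smul hF, minorDet_smul hF, zpow_neg,
    zpow_add₀ (denom_ne_zero σ τ)]
  have h1 := permSign_mul_self (Γ := Γ) σ
  have h2 : denom σ τ ^ (∑ q, wt (s q)) ≠ 0 := zpow_ne_zero _ (denom_ne_zero σ τ)
  have h3 : denom σ τ ^ (∑ q, wt (s' q)) ≠ 0 := zpow_ne_zero _ (denom_ne_zero σ τ)
  field_simp
  linear_combination (minorDet Γ wt F s τ * minorDet Γ wt F s' τ) * h1


/-- Choice of `n` columns with nonvanishing minor at a point where the conjugate vectors span. -/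
theorem rank_exists_minor_ne_zero {J : Type*} (wt : J → ℤ) (F : J → ℍ → ℂ) (τ₀ : ℍ)
    (hspan : Submodule.span ℂ (Set.range fun j q => conjMat Γ wt F τ₀ q j) = ⊤) :
    ∃ s : SL(2, ℤ) ⧸ Γ → J, minorDet Γ wt F s τ₀ ≠ 0 := by
  classical
  obtain ⟨b, hb, hbspan, hli⟩ :=
    exists_linearIndependent ℂ (Set.range fun j q => conjMat Γ wt F τ₀ q j)
  have hbtop : ⊤ ≤ Submodule.span ℂ (Set.range fun x : b => (x : SL(2, ℤ) ⧸ Γ → ℂ)) := by
    rw [Subtype.range_coe, hbspan, hspan]
  let B : Module.Basis b ℂ (SL(2, ℤ) ⧸ Γ → ℂ) := Module.Basis.mk hli hbtop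
  let eQ : b ≃ SL(2, ℤ) ⧸ Γ := B.indexEquiv (Pi.basisFun ℂ (SL(2, ℤ) ⧸ Γ))
  have hch : ∀ q : SL(2, ℤ) ⧸ Γ, ∃ j : J,
      (fun q' => conjMat Γ wt F τ₀ q' j) = ((eQ.symm q : b) : SL(2, ℤ) ⧸ Γ → ℂ) :=
    fun q => hb (eQ.symm q).2
  choose s hs using hch
  refine ⟨s, ?_⟩
  unfold minorDet
  rw [← isUnit_iff_ne_zero, ← Matrix.isUnit_iff_isUnit_det,
    ← Matrix.linearIndependent_cols_iff_isUnit]
  have hcol : ((conjMat Γ wt F τ₀).submatrix id s).col
      = (fun x : b => (x : SL(2, ℤ) ⧸ Γ → ℂ)) ∘ eQ.symm := by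
    funext q
    rw [Function.comp_apply, ← hs q]
    rfl
  rw [hcol]
  exact hli.comp _ eQ.symm.injective

/-- Cramer's relation between `n + 1` members of the family, evaluated on the identity coset. -/
theorem rank_cramer {J : Type*} {wt : J → ℤ} {F : J → ℍ → ℂ}
    (hMF : ∀ j, IsMF Γ (wt j) (F j)) (s : SL(2, ℤ) ⧸ Γ → J) (j₀ : J) :
    ∑ k, (minorDet Γ wt F s * minorDet Γ wt F (Function.update s k j₀)) * F (s k)
      - (minorDet Γ wt F s * minorDet Γ wt F s) * F j₀ = 0 := by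
  classical
  funext τ
  have hF : ∀ j, conjFun Γ (wt j) (F j) ((1 : SL(2, ℤ)) : SL(2, ℤ) ⧸ Γ) = F j := fun j =>
    conjFun_one_coset fun γ hγ => (hMF j).slash_eq hγ
  set A : Matrix (SL(2, ℤ) ⧸ Γ) (SL(2, ℤ) ⧸ Γ) ℂ := (conjMat Γ wt F τ).submatrix id s with hA
  set b : SL(2, ℤ) ⧸ Γ → ℂ := fun q => conjMat Γ wt F τ q j₀ with hb
  have h := congrFun (Matrix.mulVec_cramer A b) ((1 : SL(2, ℤ)) : SL(2, ℤ) ⧸ Γ)
  have hcr : ∀ k, Matrix.cramer A b k = minorDet Γ wt F (Function.update s k j₀) τ := by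
    intro k
    rw [Matrix.cramer_apply]
    unfold minorDet
    congr 1
    ext q q'
    rw [Matrix.updateCol_apply, Matrix.submatrix_apply, id]
    by_cases hq : q' = k
    · rw [if_pos hq, hq, Function.update_self]
    · rw [if_neg hq, Function.update_of_ne hq, hA, Matrix.submatrix_apply, id]
  rw [Matrix.mulVec, dotProduct, Pi.smul_apply, smul_eq_mul] at h
  have hA1 : ∀ k, A ((1 : SL(2, ℤ)) : SL(2, ℤ) ⧸ Γ) k = F (s k) τ := fun k => by
    rw [hA, Matrix.submatrix_apply, id, conjMat_apply, hF]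
  have hb1 : b ((1 : SL(2, ℤ)) : SL(2, ℤ) ⧸ Γ) = F j₀ τ := by
    rw [hb]; show conjMat Γ wt F τ _ j₀ = _; rw [conjMat_apply, hF]
  simp only [hcr, hA1, hb1] at h
  have hdet : A.det = minorDet Γ wt F s τ := rfl
  rw [hdet] at h
  simp only [Pi.sub_apply, Finset.sum_apply, Pi.mul_apply, Pi.zero_apply]
  have : ∑ k, minorDet Γ wt F s τ * minorDet Γ wt F (Function.update s k j₀) τ * F (s k) τ
      = minorDet Γ wt F s τ * ∑ k, F (s k) τ * minorDet Γ wt F (Function.update s k j₀) τ := by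
    rw [Finset.mul_sum]
    exact Finset.sum_congr rfl fun k _ => by ring
  rw [this, h]
  ring


omit [Γ.FiniteIndex] in
theorem rank_sum_wt_update {J : Type*} [Fintype (SL(2, ℤ) ⧸ Γ)] [DecidableEq (SL(2, ℤ) ⧸ Γ)]
    (wt : J → ℤ) (s : SL(2, ℤ) ⧸ Γ → J) (k : SL(2, ℤ) ⧸ Γ) (j₀ : J) :
    ∑ q, wt (Function.update s k j₀ q) = (∑ q, wt (s q)) - wt (s k) + wt j₀ := by
  have h1 : (fun q => wt (Function.update s k j₀ q))
      = Function.update (fun q => wt (s q)) k (wt j₀) := by
    funext q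
    by_cases hq : q = k
    · rw [hq, Function.update_self, Function.update_self]
    · rw [Function.update_of_ne hq, Function.update_of_ne hq]
  rw [h1, Finset.sum_update_of_mem (Finset.mem_univ k),
    ← Finset.add_sum_erase Finset.univ (fun q => wt (s q)) (Finset.mem_univ k),
    Finset.sdiff_singleton_eq_erase]
  ring

/-- **Rank.** A homogeneous free family of modular forms on `Γ` over the level-one ring has
exactly `[SL(2,ℤ) : Γ]` members, and its square matrix of conjugates has a nonvanishing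
determinant somewhere. -/
theorem rank_exists_equiv {J : Type*} {wt : J → ℤ} {F : J → ℍ → ℂ}
    (hMF : ∀ j, IsMF Γ (wt j) (F j))
    (hspan : ∀ (k : ℤ) (f : ℍ → ℂ), IsMF Γ k f → ∃ (s : Finset J) (r : J → ℍ → ℂ),
      (∀ j ∈ s, IsMF1 (k - wt j) (r j)) ∧ f = ∑ j ∈ s, r j * F j)
    (hindep : ∀ (k : ℤ) (s : Finset J) (r : J → ℍ → ℂ), (∀ j ∈ s, IsMF1 (k - wt j) (r j)) →
      ∑ j ∈ s, r j * F j = 0 → ∀ j ∈ s, r j = 0)
    {w : ℤ} {u : ℍ → ℂ} (hu : Separates Γ w u) :
    ∃ e : (SL(2, ℤ) ⧸ Γ) ≃ J, IsFreeBasis Γ (wt ∘ e) (F ∘ e) ∧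
      ∃ τ, (conjMatrix Γ (wt ∘ e) (F ∘ e) τ).det ≠ 0 := by
  classical
  obtain ⟨τ₀, hτ₀⟩ := rank_exists_separating_point hu
  obtain ⟨s, hs⟩ := rank_exists_minor_ne_zero wt F τ₀ (rank_span_eq_top hspan hu.1 hτ₀)
  -- `s` is injective
  have hsinj : Function.Injective s := by
    intro k k' hkk'
    by_contra hne
    apply hs
    unfold minorDet
    refine Matrix.det_zero_of_column_eq hne fun q => ?_
    rw [Matrix.submatrix_apply, Matrix.submatrix_apply, hkk']
  -- `s` is surjective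
  have hssurj : Function.Surjective s := by
    intro j₀
    by_contra hj₀
    have hj₀' : ∀ k, s k ≠ j₀ := fun k hk => hj₀ ⟨k, hk⟩
    -- the embedding `Option Q → J`
    let emb : Option (SL(2, ℤ) ⧸ Γ) → J := fun o => o.elim j₀ s
    have hemb : Function.Injective emb := by
      intro o o' h
      cases o with
      | none =>
        cases o' with
        | none => rfl
        | some k' => exact absurd h.symm (hj₀' k')
      | some k =>
        cases o' with
        | none => exact absurd h (hj₀' k)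
        | some k' => exact congrArg some (hsinj h)
    let rO : Option (SL(2, ℤ) ⧸ Γ) → ℍ → ℂ := fun o =>
      o.elim (-(minorDet Γ wt F s * minorDet Γ wt F s))
        (fun k => minorDet Γ wt F s * minorDet Γ wt F (Function.update s k j₀))
    let K : ℤ := (∑ q, wt (s q)) + (∑ q, wt (s q)) + wt j₀
    have hrO : ∀ o, IsMF1 (K - wt (emb o)) (rO o) := by
      intro o
      cases o with
      | none =>
        exact ((rank_isMF1_minorDet_mul hMF s s).neg).congr_weight (by simp [K, emb])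
      | some k =>
        refine (rank_isMF1_minorDet_mul hMF s (Function.update s k j₀)).congr_weight ?_
        rw [rank_sum_wt_update]
        simp only [K, emb, Option.elim_some]
        ring
    have hsum : ∑ j ∈ Finset.univ.map ⟨emb, hemb⟩, Function.extend emb rO 0 j * F j = 0 := by
      rw [Finset.sum_map]
      simp only [Function.Embedding.coeFn_mk, hemb.extend_apply]
      rw [Fintype.sum_option]
      have := rank_cramer hMF s j₀
      simp only [rO, emb, Option.elim_none, Option.elim_some]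
      rw [← this]
      ring
    have hzero := hindep K (Finset.univ.map ⟨emb, hemb⟩) (Function.extend emb rO 0)
      (fun j hj => by
        obtain ⟨o, -, rfl⟩ := Finset.mem_map.mp hj
        simp only [Function.Embedding.coeFn_mk, hemb.extend_apply]
        exact hrO o)
      hsum j₀ (Finset.mem_map.mpr ⟨none, Finset.mem_univ _, rfl⟩)
    have h0 : Function.extend emb rO 0 (emb none) = 0 := hzero
    rw [hemb.extend_apply] at h0
    have h1 : minorDet Γ wt F s τ₀ * minorDet Γ wt F s τ₀ = 0 := by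
      have := congrFun h0 τ₀
      simpa [rO] using this
    exact hs (mul_self_eq_zero.mp h1)
  let e : (SL(2, ℤ) ⧸ Γ) ≃ J := Equiv.ofBijective s ⟨hsinj, hssurj⟩
  have he : ∀ q, e q = s q := fun q => rfl
  refine ⟨e, ⟨fun q => hMF (e q), ?_, ?_⟩, τ₀, hs⟩
  · -- span
    intro k f hf
    obtain ⟨t, r, hr, rfl⟩ := hspan k f hf
    refine ⟨fun q => if e q ∈ t then r (e q) else 0, fun q => ?_, ?_⟩
    · by_cases hq : e q ∈ t
      · simp only [if_pos hq]; exact hr _ hq
      · simp only [if_neg hq]; exact isMF1_zero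
    · have h1 : ∑ j ∈ t, r j * F j = ∑ q ∈ t.map e.symm.toEmbedding, r (e q) * F (e q) := by
        rw [Finset.sum_map]
        exact Finset.sum_congr rfl fun j _ => by simp
      rw [h1]
      have h2 : ∀ q, (if e q ∈ t then r (e q) else 0) * (F ∘ e) q
          = if q ∈ t.map e.symm.toEmbedding then r (e q) * F (e q) else 0 := by
        intro q
        have : q ∈ t.map e.symm.toEmbedding ↔ e q ∈ t := by
          simp [Finset.mem_map_equiv]
        by_cases hq : e q ∈ t
        · rw [if_pos hq, if_pos (this.mpr hq)]; rfl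
        · rw [if_neg hq, if_neg (fun h => hq (this.mp h)), zero_mul]
      rw [Finset.sum_congr rfl fun q _ => h2 q, Finset.sum_ite_mem, Finset.univ_inter]
  · -- independence
    intro k r hr hsum q
    have := hindep k (Finset.univ.map e.toEmbedding) (fun j => r (e.symm j))
      (fun j hj => by
        obtain ⟨q', -, rfl⟩ := Finset.mem_map.mp hj
        simpa using hr q')
      (by
        rw [Finset.sum_map]
        simpa using hsum)
      (e q) (Finset.mem_map.mpr ⟨q, Finset.mem_univ _, rfl⟩)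
    simpa using this

end Fermat.Agent.S20.Free
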