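import Fermat.Agent.S20.Free.Structure
import Fermat.Agent.S23.UForm

/-!
# P-S20-FREE: a separating form on `Γ₀(N)`

The form `u(z) = Δ(z)^N / Δ(N z)` of weight `12 (N - 1)` (project S23: `UFunction`, `UConj`,
`UForm`) separates the cosets of `Γ₀(N)` in `SL(2, ℤ)`: `u → 1` at `i∞` whereas `u ∣ γ → 0` for
every `γ ∉ Γ₀(N)`.
-/

set_option autoImplicit false

open UpperHalfPlane ModularForm SlashInvariantForm Filter Matrix.SpecialLinearGroup
open CongruenceSubgroup
open scoped MatrixGroups ModularForm Manifold Topology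

namespace Fermat.Agent.S20.Free.SeparationU

open Fermat.Agent.S23

theorem isMF_uFun (N : ℕ) [NeZero N] :
    IsMF (Gamma0 N) (12 * ((N : ℤ) - 1)) (UFunction.uFun N) :=
  ⟨uForm N, rfl⟩

/-- `u` is not fixed by any `γ ∉ Γ₀(N)`. -/
theorem uFun_slash_ne (N : ℕ) [NeZero N] (γ : SL(2, ℤ)) (hγ : γ ∉ Gamma0 N) :
    UFunction.uFun N ∣[12 * ((N : ℤ) - 1)] γ ≠ UFunction.uFun N := by
  intro h
  have h0 := uForm_slash_tendsto_zero (N := N) γ hγ
  rw [coe_uForm, h] at h0
  exact zero_ne_one (tendsto_nhds_unique h0 (UFunction.tendsto_uFun N))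

/-- The form `u = Δ^N / Δ(N ·)` separates the cosets of `Γ₀(N)`. -/
theorem separates_uFun (N : ℕ) [NeZero N] :
    Separates (Gamma0 N) (12 * ((N : ℤ) - 1)) (UFunction.uFun N) := by
  refine ⟨isMF_uFun N, ?_⟩
  have hinv : ∀ γ ∈ Gamma0 N, UFunction.uFun N ∣[12 * ((N : ℤ) - 1)] γ = UFunction.uFun N :=
    fun γ hγ => UFunction.uFun_slash N γ hγ
  intro q q' hqq' heq
  induction q using QuotientGroup.induction_on with
  | H g =>
    induction q' using QuotientGroup.induction_on with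
    | H g' =>
      rw [conjFun_mk hinv, conjFun_mk hinv] at heq
      have hmem : g⁻¹ * g' ∉ Gamma0 N := fun hm => hqq' (QuotientGroup.eq.mpr hm)
      apply uFun_slash_ne N (g⁻¹ * g') hmem
      rw [SlashAction.slash_mul, heq, ← SlashAction.slash_mul, inv_mul_cancel,
        SlashAction.slash_one]

theorem exists_separates (N : ℕ) [NeZero N] : ∃ (w : ℤ) (u : ℍ → ℂ), Separates (Gamma0 N) w u :=
  ⟨_, _, separates_uFun N⟩

end Fermat.Agent.S20.Free.SeparationU
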