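import Mathlib

/-!
# P-S20-FREE block D, part 2: spectral decomposition of a permutation matrix

For a permutation `t` of a finite type `Q` with `t ^ M = 1`, we define the spectral projections
`specProj t M r = M⁻¹ ∑_{k<M} ξ^(k r) P^k` (`P` the permutation matrix of `t`, `ξ = exp(-2πi/M)`),
the matrix-valued function `vMat t M z = ∑_{r<M} exp(2πi r z / M) E_r`, and prove
`vMat (z+1) = P * vMat z`, `vMat z * vMatInv z = 1`.
-/

set_option autoImplicit false

open Matrix Complex Finset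

namespace Fermat.Agent.S20.Free.Cusp

variable {Q : Type*} [Fintype Q] [DecidableEq Q]

/-- permutation matrix of `t`: `(pMat t * A) q j = A (t q) j`. -/
noncomputable def pMat (t : Equiv.Perm Q) : Matrix Q Q ℂ := t.permMatrix ℂ

theorem pMat_mul_apply {J : Type*} (t : Equiv.Perm Q) (A : Matrix Q J ℂ) (q : Q) (j : J) :
    (pMat t * A) q j = A (t q) j := by
  unfold pMat Equiv.Perm.permMatrix
  rw [PEquiv.toMatrix_toPEquiv_mul]
  rfl

theorem pMat_pow (t : Equiv.Perm Q) (k : ℕ) : pMat t ^ k = (t ^ k).permMatrix ℂ := by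
  induction k with
  | zero => simp
  | succ k ih =>
    rw [pow_succ, ih, pow_succ' t, Matrix.permMatrix_mul]
    rfl

theorem pMat_pow_eq_one {t : Equiv.Perm Q} {M : ℕ} (htM : t ^ M = 1) : pMat t ^ M = 1 := by
  rw [pMat_pow, htM, Matrix.permMatrix_one]

/-- `ξ = exp (-2πi/M)`. -/
noncomputable def xi (M : ℕ) : ℂ := cexp (-(2 * Real.pi * I / M))

/-- `ζ = exp (2πi/M)`. -/
noncomputable def zeta (M : ℕ) : ℂ := cexp (2 * Real.pi * I / M)

theorem xi_mul_zeta (M : ℕ) : xi M * zeta M = 1 := by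
  unfold xi zeta
  rw [← Complex.exp_add]
  simp

theorem zeta_mul_xi (M : ℕ) : zeta M * xi M = 1 := by
  rw [mul_comm, xi_mul_zeta]

theorem zeta_isPrimitiveRoot {M : ℕ} (hM : 0 < M) : IsPrimitiveRoot (zeta M) M :=
  Complex.isPrimitiveRoot_exp M hM.ne'

theorem zeta_pow_self {M : ℕ} (hM : 0 < M) : zeta M ^ M = 1 :=
  (zeta_isPrimitiveRoot hM).pow_eq_one

theorem xi_eq_inv (M : ℕ) : xi M = (zeta M)⁻¹ :=
  eq_inv_of_mul_eq_one_left (xi_mul_zeta M)

theorem xi_pow_self {M : ℕ} (hM : 0 < M) : xi M ^ M = 1 := by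
  rw [xi_eq_inv, inv_pow, zeta_pow_self hM, inv_one]

theorem zeta_ne_zero (M : ℕ) : zeta M ≠ 0 := Complex.exp_ne_zero _

theorem xi_ne_zero (M : ℕ) : xi M ≠ 0 := Complex.exp_ne_zero _

/-- the spectral projection onto the `ζ^r`-eigenspace of `pMat t`. -/
noncomputable def specProj (t : Equiv.Perm Q) (M r : ℕ) : Matrix Q Q ℂ :=
  ((M : ℂ)⁻¹) • ∑ k ∈ range M, (xi M ^ (k * r)) • pMat t ^ k

/-- geometric sum of a root of unity. -/
theorem sum_pow_eq_zero_of_pow_eq_one {x : ℂ} {M : ℕ} (hx : x ^ M = 1) (hx1 : x ≠ 1) :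
    ∑ k ∈ range M, x ^ k = 0 := by
  rw [geom_sum_eq hx1, hx, sub_self, zero_div]

theorem pMat_mul_sum {t : Equiv.Perm Q} {M : ℕ} (hM : 0 < M) (htM : t ^ M = 1) (r : ℕ) :
    pMat t * ∑ k ∈ range M, (xi M ^ (k * r)) • pMat t ^ k
      = zeta M ^ r • ∑ k ∈ range M, (xi M ^ (k * r)) • pMat t ^ k := by
  rw [Finset.mul_sum]
  -- shift the summation index
  have h1 : ∀ k ∈ range M, pMat t * (xi M ^ (k * r) • pMat t ^ k)
      = zeta M ^ r • (xi M ^ ((k + 1) * r) • pMat t ^ (k + 1)) := by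
    intro k _
    rw [Matrix.mul_smul, smul_smul, ← pow_succ']
    congr 1
    rw [add_mul, one_mul, pow_add, ← mul_assoc, mul_comm (zeta M ^ r), mul_assoc,
      ← mul_pow, zeta_mul_xi, one_pow, mul_one]
  rw [Finset.sum_congr rfl h1, ← Finset.smul_sum]
  congr 1
  have h2 := Finset.sum_range_succ' (fun k => xi M ^ (k * r) • pMat t ^ k) M
  have h3 := Finset.sum_range_succ (fun k => xi M ^ (k * r) • pMat t ^ k) M
  have h4 : xi M ^ (M * r) • pMat t ^ M = (1 : Matrix Q Q ℂ) := by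
    rw [pMat_pow_eq_one htM, pow_mul, xi_pow_self hM, one_pow, one_smul]
  have h5 : xi M ^ (0 * r) • pMat t ^ 0 = (1 : Matrix Q Q ℂ) := by simp
  rw [h4] at h3
  rw [h5] at h2
  exact add_right_cancel (h2.symm.trans h3)

theorem pMat_mul_specProj {t : Equiv.Perm Q} {M : ℕ} (hM : 0 < M) (htM : t ^ M = 1) (r : ℕ) :
    pMat t * specProj t M r = zeta M ^ r • specProj t M r := by
  unfold specProj
  rw [Matrix.mul_smul, pMat_mul_sum hM htM, smul_comm]

theorem commute_pMat_specProj (t : Equiv.Perm Q) (M r : ℕ) :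
    Commute (pMat t) (specProj t M r) := by
  unfold specProj
  refine Commute.smul_right ?_ _
  refine Commute.sum_right _ _ _ fun k _ => ?_
  exact Commute.smul_right (Commute.pow_right (Commute.refl _) k) _

theorem specProj_mul_pMat {t : Equiv.Perm Q} {M : ℕ} (hM : 0 < M) (htM : t ^ M = 1) (r : ℕ) :
    specProj t M r * pMat t = zeta M ^ r • specProj t M r := by
  rw [← (commute_pMat_specProj t M r).eq, pMat_mul_specProj hM htM]

theorem pMat_pow_mul_specProj {t : Equiv.Perm Q} {M : ℕ} (hM : 0 < M) (htM : t ^ M = 1)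
    (k s : ℕ) : pMat t ^ k * specProj t M s = zeta M ^ (k * s) • specProj t M s := by
  induction k with
  | zero => simp
  | succ k ih =>
    rw [pow_succ, Matrix.mul_assoc, pMat_mul_specProj hM htM, Matrix.mul_smul, ih, smul_smul,
      add_mul, one_mul, pow_add, mul_comm]

theorem specProj_mul {J : Type*} (t : Equiv.Perm Q) (M r : ℕ) (X : Matrix Q J ℂ) :
    specProj t M r * X = ((M : ℂ)⁻¹) • ∑ k ∈ range M, (xi M ^ (k * r) • pMat t ^ k) * X := by
  unfold specProj
  rw [Matrix.smul_mul, Matrix.sum_mul]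

theorem specProj_mul_specProj_self {t : Equiv.Perm Q} {M : ℕ} (hM : 0 < M) (htM : t ^ M = 1)
    (s : ℕ) : specProj t M s * specProj t M s = specProj t M s := by
  rw [specProj_mul]
  have h1 : ∀ k ∈ range M, (xi M ^ (k * s) • pMat t ^ k) * specProj t M s = specProj t M s := by
    intro k _
    rw [Matrix.smul_mul, pMat_pow_mul_specProj hM htM, smul_smul, ← mul_pow, xi_mul_zeta,
      one_pow, one_smul]
  rw [Finset.sum_congr rfl h1, Finset.sum_const, Finset.card_range, ← Nat.cast_smul_eq_nsmul ℂ,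
    smul_smul, inv_mul_cancel₀ (Nat.cast_ne_zero.mpr hM.ne'), one_smul]

theorem specProj_mul_specProj_of_ne {t : Equiv.Perm Q} {M : ℕ} (hM : 0 < M) (htM : t ^ M = 1)
    {r s : ℕ} (hr : r < M) (hs : s < M) (hrs : r ≠ s) :
    specProj t M r * specProj t M s = 0 := by
  rw [specProj_mul]
  have h1 : ∀ k ∈ range M, (xi M ^ (k * r) • pMat t ^ k) * specProj t M s
      = (xi M ^ r * zeta M ^ s) ^ k • specProj t M s := by
    intro k _
    rw [Matrix.smul_mul, pMat_pow_mul_specProj hM htM, smul_smul, mul_pow, ← pow_mul, ← pow_mul,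
      mul_comm r k, mul_comm s k]
  rw [Finset.sum_congr rfl h1, ← Finset.sum_smul]
  have hx : (xi M ^ r * zeta M ^ s) ^ M = 1 := by
    rw [mul_pow, ← pow_mul, ← pow_mul, mul_comm r M, mul_comm s M, pow_mul, pow_mul,
      xi_pow_self hM, zeta_pow_self hM, one_pow, one_pow, one_mul]
  have hx1 : xi M ^ r * zeta M ^ s ≠ 1 := by
    intro h
    apply hrs
    have h2 : zeta M ^ s = zeta M ^ r := by
      have h3 : zeta M ^ r * (xi M ^ r * zeta M ^ s) = zeta M ^ r := by rw [h, mul_one]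
      rw [← mul_assoc, ← mul_pow, zeta_mul_xi, one_pow, one_mul] at h3
      exact h3
    exact ((zeta_isPrimitiveRoot hM).pow_inj hs hr h2).symm
  rw [sum_pow_eq_zero_of_pow_eq_one hx hx1, zero_smul, smul_zero]

theorem sum_specProj {t : Equiv.Perm Q} {M : ℕ} (hM : 0 < M) :
    ∑ r ∈ range M, specProj t M r = 1 := by
  unfold specProj
  rw [← Finset.smul_sum, Finset.sum_comm]
  have h1 : ∀ k ∈ range M, ∑ r ∈ range M, xi M ^ (k * r) • pMat t ^ k
      = if k = 0 then (M : ℂ) • (1 : Matrix Q Q ℂ) else 0 := by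
    intro k hk
    rw [← Finset.sum_smul]
    split_ifs with h0
    · subst h0
      simp
    · have hx : (xi M ^ k) ^ M = 1 := by
        rw [← pow_mul, mul_comm, pow_mul, xi_pow_self hM, one_pow]
      have hx1 : xi M ^ k ≠ 1 := by
        intro h
        apply h0
        have h2 : zeta M ^ k = zeta M ^ 0 := by
          have h3 : zeta M ^ k * xi M ^ k = zeta M ^ k := by rw [h, mul_one]
          rw [← mul_pow, zeta_mul_xi, one_pow] at h3
          rw [pow_zero, ← h3]
        exact (zeta_isPrimitiveRoot hM).pow_inj (Finset.mem_range.mp hk) hM h2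
      have : ∑ r ∈ range M, xi M ^ (k * r) = 0 := by
        simp_rw [pow_mul]
        exact sum_pow_eq_zero_of_pow_eq_one hx hx1
      rw [this, zero_smul]
  rw [Finset.sum_congr rfl h1, Finset.sum_ite_eq' (range M) 0, if_pos (Finset.mem_range.mpr hM),
    smul_smul, inv_mul_cancel₀ (Nat.cast_ne_zero.mpr hM.ne'), one_smul]

/-- the scalar `exp (2πi r z / M)`. -/
noncomputable def eexp (M r : ℕ) (z : ℂ) : ℂ := cexp (2 * Real.pi * I * r * z / M)

theorem eexp_add (M r : ℕ) (z w : ℂ) : eexp M r (z + w) = eexp M r z * eexp M r w := by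
  unfold eexp
  rw [← Complex.exp_add]
  congr 1
  ring

theorem eexp_zero (M r : ℕ) : eexp M r 0 = 1 := by
  simp [eexp]

theorem eexp_zero_left (M : ℕ) (z : ℂ) : eexp M 0 z = 1 := by
  simp [eexp]

theorem eexp_one (M r : ℕ) : eexp M r 1 = zeta M ^ r := by
  unfold eexp zeta
  rw [← Complex.exp_nat_mul]
  congr 1
  ring

theorem eexp_ne_zero (M r : ℕ) (z : ℂ) : eexp M r z ≠ 0 := Complex.exp_ne_zero _

theorem norm_eexp (M r : ℕ) (z : ℂ) :
    ‖eexp M r z‖ = Real.exp (-(2 * Real.pi * r * z.im / M)) := by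
  unfold eexp
  rw [Complex.norm_exp]
  congr 1
  have : (2 * (Real.pi : ℂ) * I * r * z / M) = ((2 * Real.pi * r / M : ℝ) : ℂ) * (I * z) := by
    push_cast; ring
  rw [this, Complex.re_ofReal_mul]
  simp
  ring

/-- `V(z) = ∑_{r<M} exp(2πi r z/M) E_r`. -/
noncomputable def vMat (t : Equiv.Perm Q) (M : ℕ) (z : ℂ) : Matrix Q Q ℂ :=
  ∑ r ∈ range M, eexp M r z • specProj t M r

theorem vMat_zero {t : Equiv.Perm Q} {M : ℕ} (hM : 0 < M) : vMat t M 0 = 1 := by
  unfold vMat
  simp only [eexp_zero, one_smul]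
  exact sum_specProj hM

theorem vMat_add {t : Equiv.Perm Q} {M : ℕ} (hM : 0 < M) (htM : t ^ M = 1) (z w : ℂ) :
    vMat t M (z + w) = vMat t M z * vMat t M w := by
  unfold vMat
  rw [Matrix.sum_mul]
  refine Finset.sum_congr rfl fun r hr => ?_
  rw [Matrix.mul_sum, Finset.sum_eq_single r]
  · rw [Matrix.smul_mul, Matrix.mul_smul, specProj_mul_specProj_self hM htM, smul_smul,
      eexp_add]
  · intro s hs hsr
    rw [Matrix.smul_mul, Matrix.mul_smul,
      specProj_mul_specProj_of_ne hM htM (Finset.mem_range.mp hr) (Finset.mem_range.mp hs)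
        (Ne.symm hsr), smul_zero, smul_zero]
  · intro h; exact absurd hr h

theorem vMat_one {t : Equiv.Perm Q} {M : ℕ} (hM : 0 < M) (htM : t ^ M = 1) :
    vMat t M 1 = pMat t := by
  unfold vMat
  have h1 : ∀ r ∈ range M, eexp M r 1 • specProj t M r = pMat t * specProj t M r := by
    intro r _
    rw [pMat_mul_specProj hM htM, eexp_one]
  rw [Finset.sum_congr rfl h1, ← Matrix.mul_sum, sum_specProj hM, Matrix.mul_one]

theorem vMat_add_one {t : Equiv.Perm Q} {M : ℕ} (hM : 0 < M) (htM : t ^ M = 1) (z : ℂ) :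
    vMat t M (z + 1) = pMat t * vMat t M z := by
  rw [add_comm, vMat_add hM htM, vMat_one hM htM]

theorem vMat_mul_neg {t : Equiv.Perm Q} {M : ℕ} (hM : 0 < M) (htM : t ^ M = 1) (z : ℂ) :
    vMat t M z * vMat t M (-z) = 1 := by
  rw [← vMat_add hM htM, add_neg_cancel, vMat_zero hM]

theorem vMat_neg_mul {t : Equiv.Perm Q} {M : ℕ} (hM : 0 < M) (htM : t ^ M = 1) (z : ℂ) :
    vMat t M (-z) * vMat t M z = 1 := by
  rw [← vMat_add hM htM, neg_add_cancel, vMat_zero hM]

end Fermat.Agent.S20.Free.Cusp
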