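import Fermat.Agent.S20.Free.Spectral

/-!
# P-S20-FREE block D, part 3: traces of the spectral projections of a permutation matrix

`∑_{r<M} (r/M) tr E_r = (n - #orbits)/2` for `M = orderOf t`.
-/

set_option autoImplicit false

open Matrix Complex Finset

namespace Fermat.Agent.S20.Free.Cusp

variable {Q : Type*} [Fintype Q] [DecidableEq Q]

/-- number of fixed points of `t ^ k`, as the trace of the permutation matrix. -/
noncomputable def fixNum (t : Equiv.Perm Q) (k : ℕ) : ℂ := (pMat t ^ k).trace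

theorem fixNum_eq (t : Equiv.Perm Q) (k : ℕ) :
    fixNum t k = ((Function.fixedPoints ⇑(t ^ k)).ncard : ℂ) := by
  unfold fixNum
  rw [pMat_pow, Matrix.trace_permutation]

theorem fixNum_sub {t : Equiv.Perm Q} {M : ℕ} (htM : t ^ M = 1) {k : ℕ} (hk : k ≤ M) :
    fixNum t (M - k) = fixNum t k := by
  unfold fixNum
  have h1 : t ^ (M - k) = (t ^ k)⁻¹ := by
    apply eq_inv_of_mul_eq_one_left
    rw [← pow_add, Nat.sub_add_cancel hk, htM]
  rw [pMat_pow, pMat_pow, h1, ← Matrix.transpose_permMatrix, Matrix.trace_transpose]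

theorem fixNum_add_self {t : Equiv.Perm Q} {M : ℕ} (htM : t ^ M = 1) (k : ℕ) :
    fixNum t (k + M) = fixNum t k := by
  unfold fixNum
  rw [pow_add, pMat_pow_eq_one htM, mul_one]

theorem trace_specProj (t : Equiv.Perm Q) (M r : ℕ) :
    (specProj t M r).trace = (M : ℂ)⁻¹ * ∑ k ∈ range M, xi M ^ (k * r) * fixNum t k := by
  unfold specProj fixNum
  rw [Matrix.trace_smul, Matrix.trace_sum, smul_eq_mul]
  congr 1
  refine Finset.sum_congr rfl fun k _ => ?_
  rw [Matrix.trace_smul, smul_eq_mul]

/-- reflection of a sum over `range M` for a function with `f M = f 0`. -/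
theorem sum_range_reflect' {M : ℕ} (f : ℕ → ℂ) (hf : f M = f 0) :
    ∑ k ∈ range M, f (M - k) = ∑ k ∈ range M, f k := by
  rcases M with _ | M'
  · simp
  · rw [Finset.sum_range_succ', Finset.sum_range_succ' (fun k => f k)]
    rw [Nat.sub_zero, hf]
    congr 1
    rw [← Finset.sum_range_reflect (fun k => f (k + 1))]
    refine Finset.sum_congr rfl fun k hk => ?_
    have hk' := Finset.mem_range.mp hk
    congr 1
    omega

theorem trace_specProj_symm {t : Equiv.Perm Q} {M : ℕ} (hM : 0 < M) (htM : t ^ M = 1) {r : ℕ}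
    (hr : r ≤ M) : (specProj t M (M - r)).trace = (specProj t M r).trace := by
  rw [trace_specProj, trace_specProj]
  congr 1
  rw [← sum_range_reflect' (fun k => xi M ^ (k * r) * fixNum t k)]
  · refine Finset.sum_congr rfl fun k hk => ?_
    have hk' := (Finset.mem_range.mp hk).le
    rw [fixNum_sub htM hk']
    congr 1
    -- ξ^(k (M-r)) = ξ^((M-k) r)
    have h1 : xi M ^ (k * (M - r)) * xi M ^ (k * r) = 1 := by
      rw [← pow_add, ← Nat.mul_add, Nat.sub_add_cancel hr, mul_comm, pow_mul, xi_pow_self hM,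
        one_pow]
    have h2 : xi M ^ ((M - k) * r) * xi M ^ (k * r) = 1 := by
      rw [← pow_add, ← Nat.add_mul, Nat.sub_add_cancel hk', pow_mul, xi_pow_self hM, one_pow]
    have h3 : xi M ^ (k * r) ≠ 0 := pow_ne_zero _ (xi_ne_zero M)
    exact mul_right_cancel₀ h3 (h1.trans h2.symm)
  · show xi M ^ (M * r) * fixNum t M = xi M ^ (0 * r) * fixNum t 0
    rw [pow_mul, xi_pow_self hM, one_pow, zero_mul, pow_zero]
    have := fixNum_add_self htM 0
    rw [zero_add] at this
    rw [this]

theorem sum_trace_specProj {t : Equiv.Perm Q} {M : ℕ} (hM : 0 < M) :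
    ∑ r ∈ range M, (specProj t M r).trace = (Fintype.card Q : ℂ) := by
  rw [← Matrix.trace_sum, sum_specProj hM, Matrix.trace_one]

theorem two_mul_sum_mul_trace_specProj {t : Equiv.Perm Q} {M : ℕ} (hM : 0 < M)
    (htM : t ^ M = 1) :
    2 * ∑ r ∈ range M, (r : ℂ) * (specProj t M r).trace
      = (M : ℂ) * ((Fintype.card Q : ℂ) - (specProj t M 0).trace) := by
  rw [← sum_trace_specProj (t := t) hM]
  obtain ⟨M', rfl⟩ : ∃ M', M = M' + 1 := ⟨M - 1, by omega⟩
  rw [Finset.sum_range_succ', Finset.sum_range_succ' (fun r => (specProj t (M' + 1) r).trace)]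
  simp only [Nat.cast_zero, zero_mul, add_zero, add_sub_cancel_right]
  have h1 : ∑ r ∈ range M', ((r + 1 : ℕ) : ℂ) * (specProj t (M' + 1) (r + 1)).trace
      = ∑ r ∈ range M', ((M' - r : ℕ) : ℂ) * (specProj t (M' + 1) (r + 1)).trace := by
    rw [← Finset.sum_range_reflect]
    refine Finset.sum_congr rfl fun r hr => ?_
    have hr' := Finset.mem_range.mp hr
    have e1 : M' - 1 - r + 1 = M' - r := by omega
    have e2 : M' - r = M' + 1 - (r + 1) := by omega
    rw [e1]
    congr 1
    rw [e2, trace_specProj_symm hM htM (by omega)]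
  have h2 : 2 * ∑ r ∈ range M', ((r + 1 : ℕ) : ℂ) * (specProj t (M' + 1) (r + 1)).trace
      = ∑ r ∈ range M', ((r + 1 : ℕ) : ℂ) * (specProj t (M' + 1) (r + 1)).trace
        + ∑ r ∈ range M', ((M' - r : ℕ) : ℂ) * (specProj t (M' + 1) (r + 1)).trace := by
    rw [← h1]; ring
  rw [h2, ← Finset.sum_add_distrib, Finset.mul_sum]
  refine Finset.sum_congr rfl fun r hr => ?_
  have hr' := Finset.mem_range.mp hr
  rw [← add_mul]
  congr 1
  rw [← Nat.cast_add]
  congr 1
  omega

/-- **Burnside**: the trace of the projection onto the invariants is the number of orbits. -/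
theorem trace_specProj_zero (t : Equiv.Perm Q) :
    (specProj t (orderOf t) 0).trace
      = (Nat.card (MulAction.orbitRel.Quotient (Subgroup.zpowers t) Q) : ℂ) := by
  classical
  have hfin : IsOfFinOrder t := isOfFinOrder_of_finite t
  have hM : 0 < orderOf t := hfin.orderOf_pos
  rw [trace_specProj]
  simp only [mul_zero, pow_zero, one_mul]
  letI : Fintype (Subgroup.zpowers t) := Fintype.ofFinite _
  letI : Fintype (MulAction.orbitRel.Quotient (Subgroup.zpowers t) Q) := Fintype.ofFinite _
  have hB := MulAction.sum_card_fixedBy_eq_card_orbits_mul_card_group (Subgroup.zpowers t) Q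
  have hcard : Fintype.card (Subgroup.zpowers t) = orderOf t := by
    rw [← Nat.card_eq_fintype_card, Nat.card_zpowers]
  -- rewrite the left side of Burnside as a sum over `range (orderOf t)`
  have hsum : ∑ g : Subgroup.zpowers t, Fintype.card (MulAction.fixedBy Q g)
      = ∑ k ∈ range (orderOf t), (Function.fixedPoints ⇑(t ^ k)).ncard := by
    rw [← (finEquivZPowers hfin).sum_comp, ← Fin.sum_univ_eq_sum_range
      (fun k => (Function.fixedPoints ⇑(t ^ k)).ncard)]
    refine Finset.sum_congr rfl fun k _ => ?_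
    rw [← Nat.card_eq_fintype_card, ← Nat.card_coe_set_eq]
    rfl
  have hC : (∑ k ∈ range (orderOf t), fixNum t k)
      = (Nat.card (MulAction.orbitRel.Quotient (Subgroup.zpowers t) Q) : ℂ) * (orderOf t : ℂ) := by
    simp_rw [fixNum_eq]
    rw [← Nat.cast_sum, ← hsum, hB, hcard, Nat.card_eq_fintype_card, Nat.cast_mul]
  rw [hC]
  have hM' : (orderOf t : ℂ) ≠ 0 := Nat.cast_ne_zero.mpr hM.ne'
  field_simp

/-- the exponent: `∑_{r<M} r tr(E_r) / M = (n - #orbits)/2`. -/
theorem sum_mul_trace_specProj_orderOf (t : Equiv.Perm Q) :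
    2 * ∑ r ∈ range (orderOf t), (r : ℂ) * (specProj t (orderOf t) r).trace
      = (orderOf t : ℂ) * ((Fintype.card Q : ℂ)
          - (Nat.card (MulAction.orbitRel.Quotient (Subgroup.zpowers t) Q) : ℂ)) := by
  have hfin : IsOfFinOrder t := isOfFinOrder_of_finite t
  rw [two_mul_sum_mul_trace_specProj hfin.orderOf_pos (pow_orderOf_eq_one t), trace_specProj_zero]

end Fermat.Agent.S20.Free.Cusp
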