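import Mathlib

/-!
# P-S20-FREE: twisted-periodic holomorphic functions on `ℍ`

If `w : ℍ → ℂ` is holomorphic, bounded at `i∞` and satisfies `w (τ + 1) = e^{2πiθ} w τ` with
`θ < 1`, then `e^{-2πiθτ} w τ` has a limit at `i∞`; if this limit is zero then
`e^{-2πiθτ} w τ = O(e^{2πiτ})`.
-/

set_option autoImplicit false

open Filter Topology Function Complex Asymptotics
open UpperHalfPlane hiding I
open scoped Manifold Real

namespace Fermat.Agent.S20.Free

local notation "I∞" => comap Complex.im atTop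
local notation "𝕢" => Periodic.qParam

/-- Periodicity of `f ∘ ofComplex` on `ℂ` from periodicity on `ℍ`. -/
theorem twisted_periodic_comp_ofComplex {f : ℍ → ℂ} {h : ℝ}
    (hf : ∀ z : ℍ, f (h +ᵥ z) = f z) : Periodic (f ∘ ofComplex) h := by
  intro w
  by_cases hw : 0 < im w
  · have hw2 : 0 < im (w + h) := by simp [hw]
    simp only [comp_apply, ofComplex_apply_of_im_pos hw2, ofComplex_apply_of_im_pos hw]
    rw [← hf ⟨w, hw⟩]
    congr 1
    ext
    simp [add_comm]
  · have hw' : im w ≤ 0 := not_lt.mp hw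
    have hw2 : im (w + h) ≤ 0 := by simpa using hw'
    simp [ofComplex_apply_of_im_nonpos hw2, ofComplex_apply_of_im_nonpos hw']

/-- The untwisted function `v τ = e^{-2πiθτ} w τ`. -/
noncomputable def untwist (θ : ℝ) (w : ℍ → ℂ) : ℍ → ℂ :=
  fun τ => cexp (-(2 * π * I * θ * τ)) * w τ

theorem untwist_apply (θ : ℝ) (w : ℍ → ℂ) (τ : ℍ) :
    untwist θ w τ = cexp (-(2 * π * I * θ * τ)) * w τ := rfl

theorem mdiff_untwist {θ : ℝ} {w : ℍ → ℂ} (hw : MDiff w) : MDiff (untwist θ w) := by
  rw [UpperHalfPlane.mdifferentiable_iff] at hw ⊢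
  have h1 : DifferentiableOn ℂ (fun z : ℂ => cexp (-(2 * π * I * θ * z)) * (w ∘ ofComplex) z)
      {z | 0 < z.im} := by
    refine DifferentiableOn.mul ?_ hw
    exact (Differentiable.cexp (by fun_prop)).differentiableOn
  refine h1.congr fun z hz => ?_
  have hz' : 0 < z.im := hz
  simp only [comp_apply, untwist_apply, ofComplex_apply_of_im_pos hz']

theorem untwist_vadd {θ : ℝ} {w : ℍ → ℂ}
    (hper : ∀ τ : ℍ, w ((1 : ℝ) +ᵥ τ) = cexp (2 * π * I * θ) * w τ) (τ : ℍ) :
    untwist θ w ((1 : ℝ) +ᵥ τ) = untwist θ w τ := by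
  rw [untwist_apply, untwist_apply, hper, ← mul_assoc, ← Complex.exp_add]
  congr 2
  rw [coe_vadd]
  push_cast
  ring

section main

variable {θ : ℝ} {w : ℍ → ℂ}

/-- `q · v → 0` at `i∞` (on `ℂ`), where `v` is the untwisted function. -/
theorem twisted_tendsto_qParam_mul (hθ : θ < 1) (hbd : IsBoundedAtImInfty w) :
    Tendsto (fun z : ℂ => 𝕢 1 z * (untwist θ w ∘ ofComplex) z) I∞ (𝓝 0) := by
  -- on the upper half plane the function is `exp (2πi(1-θ) z) * w z`
  have h1 : (fun z : ℂ => cexp (2 * π * I * (1 - θ) * z) * (w ∘ ofComplex) z)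
      =ᶠ[I∞] fun z : ℂ => 𝕢 1 z * (untwist θ w ∘ ofComplex) z := by
    filter_upwards [preimage_mem_comap (Ioi_mem_atTop 0)] with z hz
    have hz' : 0 < z.im := hz
    simp only [comp_apply, untwist_apply, ofComplex_apply_of_im_pos hz', Periodic.qParam,
      ← mul_assoc, ← Complex.exp_add]
    congr 2
    show 2 * π * I * (1 - θ) * z = 2 * π * I * z / (1 : ℝ) + -(2 * π * I * θ * z)
    push_cast
    ring
  refine Tendsto.congr' h1 ?_
  have h2 : Tendsto (fun z : ℂ => cexp (2 * π * I * (1 - θ) * z)) I∞ (𝓝 0) := by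
    rw [tendsto_zero_iff_norm_tendsto_zero]
    have : ∀ z : ℂ, ‖cexp (2 * π * I * (1 - θ) * z)‖ = Real.exp (-(2 * π * (1 - θ)) * z.im) := by
      intro z
      rw [Complex.norm_exp]
      congr 1
      simp
    simp only [this]
    refine Real.tendsto_exp_atBot.comp ?_
    refine Tendsto.const_mul_atTop_of_neg ?_ tendsto_comap
    have : 0 < 1 - θ := by linarith
    have := Real.pi_pos
    nlinarith
  have h3 : (w ∘ ofComplex) =O[I∞] fun _ => (1 : ℂ) := by
    have h := hbd.comp_tendsto tendsto_comap_im_ofComplex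
    refine h.trans (isBigO_of_le _ fun z => ?_)
    simp
  have h4 : (fun z : ℂ => cexp (2 * π * I * (1 - θ) * z) * (w ∘ ofComplex) z)
      =o[I∞] (fun _ => (1 : ℂ) * (1 : ℂ)) :=
    ((isLittleO_one_iff ℂ).mpr h2).mul_isBigO h3
  simpa using (isLittleO_one_iff ℂ).mp (by simpa using h4)

/-- Removable-singularity estimate for the cusp function of the untwisted function. -/
theorem twisted_isLittleO (hθ : θ < 1) (hbd : IsBoundedAtImInfty w) :
    (fun q => Periodic.cuspFunction 1 (untwist θ w ∘ ofComplex) q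
        - Periodic.cuspFunction 1 (untwist θ w ∘ ofComplex) 0)
      =o[𝓝[≠] 0] fun q => (q - 0)⁻¹ := by
  set F := Periodic.cuspFunction 1 (untwist θ w ∘ ofComplex) with hF
  have h1 : Tendsto (fun q => q * F q) (𝓝[≠] 0) (𝓝 0) := by
    have h := (twisted_tendsto_qParam_mul hθ hbd).comp (Periodic.invQParam_tendsto one_pos)
    refine h.congr' ?_
    filter_upwards [self_mem_nhdsWithin] with q hq
    simp only [comp_apply]
    rw [Periodic.qParam_right_inv one_ne_zero hq, hF, Periodic.cuspFunction_eq_of_nonzero _ _ hq]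
    rfl
  rw [isLittleO_iff_tendsto']
  · have h2 : Tendsto (fun q : ℂ => q * F q - q * F 0) (𝓝[≠] 0) (𝓝 (0 - 0 * F 0)) :=
      h1.sub ((tendsto_id.mono_left nhdsWithin_le_nhds).mul_const _)
    simp only [zero_mul, sub_zero] at h2
    refine h2.congr' ?_
    filter_upwards [self_mem_nhdsWithin] with q hq
    have hq' : q ≠ 0 := hq
    simp only [sub_zero, div_inv_eq_mul]
    ring
  · filter_upwards [self_mem_nhdsWithin] with q hq h0
    have hq' : q ≠ 0 := hq
    simp [hq'] at h0

variable (hθ : θ < 1) (hw : MDiff w) (hbd : IsBoundedAtImInfty w)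
  (hper : ∀ τ : ℍ, w ((1 : ℝ) +ᵥ τ) = cexp (2 * π * I * θ) * w τ)

include hθ hw hbd hper in
/-- The untwisted function tends to the `limUnder` of its cusp function. -/
theorem twisted_tendsto_limUnder :
    Tendsto (untwist θ w) atImInfty
      (𝓝 (limUnder (𝓝[≠] 0) (Periodic.cuspFunction 1 (untwist θ w ∘ ofComplex)))) := by
  set f := untwist θ w ∘ ofComplex with hf
  have hfper : Periodic f (1 : ℝ) := twisted_periodic_comp_ofComplex (untwist_vadd hper)
  have hhol : ∀ᶠ z in I∞, DifferentiableAt ℂ f z :=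
    eventually_of_mem (preimage_mem_comap (Ioi_mem_atTop 0))
      (fun z hz => UpperHalfPlane.mdifferentiableAt_iff.mp ((mdiff_untwist hw) ⟨z, hz⟩))
  have hd := Periodic.eventually_differentiableAt_cuspFunction_nhds_ne_zero one_pos hfper hhol
  have hlim := Complex.tendsto_limUnder_of_differentiable_on_punctured_nhds_of_isLittleO hd
    (twisted_isLittleO hθ hbd)
  have h1 : Tendsto (fun τ : ℍ => 𝕢 1 (τ : ℂ)) atImInfty (𝓝[≠] 0) :=
    (Periodic.qParam_tendsto one_pos).comp tendsto_coe_atImInfty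
  refine (hlim.comp h1).congr fun τ => ?_
  simp only [comp_apply]
  rw [Periodic.eq_cuspFunction one_ne_zero hfper]
  simp [hf]

include hθ hw hbd hper in
/-- **Twisted-periodic functions have a limit after untwisting.** -/
theorem twisted_exists_tendsto : ∃ a : ℂ, Tendsto (untwist θ w) atImInfty (𝓝 a) :=
  ⟨_, twisted_tendsto_limUnder hθ hw hbd hper⟩

include hθ hw hbd hper in
/-- If the untwisted function tends to `0`, it is `O(e^{2πiτ})`: one more full power of `q`. -/
theorem twisted_isBigO_of_tendsto_zero (h0 : Tendsto (untwist θ w) atImInfty (𝓝 0)) :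
    (untwist θ w) =O[atImInfty] (fun τ : ℍ => cexp (2 * π * I * τ)) := by
  set f := untwist θ w ∘ ofComplex with hf
  set F := Periodic.cuspFunction 1 f with hF
  have hfper : Periodic f (1 : ℝ) := twisted_periodic_comp_ofComplex (untwist_vadd hper)
  have hlim0 : limUnder (𝓝[≠] 0) F = 0 :=
    tendsto_nhds_unique (twisted_tendsto_limUnder hθ hw hbd hper) h0
  have hdiff : DifferentiableOn ℂ F (Metric.ball 0 1 \ {0}) := by
    intro q hq
    have hq1 : ‖q‖ < 1 := by simpa using hq.1
    have hq0 : q ≠ 0 := by simpa using hq.2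
    have him := Periodic.im_invQParam_pos_of_norm_lt_one one_pos hq1 hq0
    have h1 := Periodic.differentiableAt_cuspFunction one_ne_zero hfper
      (UpperHalfPlane.mdifferentiableAt_iff.mp ((mdiff_untwist hw) ⟨_, him⟩))
    rw [UpperHalfPlane.coe_mk, Periodic.qParam_right_inv one_ne_zero hq0] at h1
    exact h1.differentiableWithinAt
  have hupd := Complex.differentiableOn_update_limUnder_of_isLittleO
    (Metric.ball_mem_nhds 0 one_pos) hdiff (twisted_isLittleO hθ hbd)
  rw [hlim0] at hupd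
  set F' := Function.update F 0 0 with hF'
  have hF'0 : F' 0 = 0 := Function.update_self ..
  have hdiffAt : DifferentiableAt ℂ F' 0 :=
    hupd.differentiableAt (Metric.ball_mem_nhds 0 one_pos)
  have hO : (fun q => F' q - F' 0) =O[𝓝 0] fun q => q - 0 := hdiffAt.isBigO_sub
  simp only [hF'0, sub_zero] at hO
  have hq : Tendsto (fun τ : ℍ => 𝕢 1 (τ : ℂ)) atImInfty (𝓝 0) :=
    UpperHalfPlane.qParam_tendsto_atImInfty one_pos
  refine (hO.comp_tendsto hq).congr (fun τ => ?_) (fun τ => ?_)
  · simp only [comp_apply]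
    rw [hF', Function.update_of_ne (Periodic.qParam_ne_zero _), hF,
      Periodic.eq_cuspFunction one_ne_zero hfper]
    simp [hf]
  · simp [Periodic.qParam]

omit hθ hw hbd hper in
theorem twist_mul_untwist (θ : ℝ) (w : ℍ → ℂ) (τ : ℍ) :
    cexp (2 * π * I * θ * τ) * untwist θ w τ = w τ := by
  rw [untwist_apply, ← mul_assoc, ← Complex.exp_add, add_neg_cancel, Complex.exp_zero, one_mul]

include hθ hw hbd hper in
/-- A twisted-periodic function is `O(e^{2πiθτ})`. -/
theorem twisted_isBigO : w =O[atImInfty] (fun τ : ℍ => cexp (2 * π * I * θ * τ)) := by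
  obtain ⟨a, ha⟩ := twisted_exists_tendsto hθ hw hbd hper
  have h1 : (untwist θ w) =O[atImInfty] (fun _ : ℍ => (1 : ℂ)) := ha.isBigO_one ℂ
  have h2 := (isBigO_refl (fun τ : ℍ => cexp (2 * π * I * θ * τ)) atImInfty).mul h1
  refine h2.congr (fun τ => twist_mul_untwist θ w τ) (fun τ => ?_)
  simp

include hθ hw hbd hper in
/-- If the leading coefficient vanishes, a twisted-periodic function is `O(e^{2πi(1+θ)τ})`. -/
theorem twisted_isBigO_of_tendsto_zero' (h0 : Tendsto (untwist θ w) atImInfty (𝓝 0)) :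
    w =O[atImInfty] (fun τ : ℍ => cexp (2 * π * I * (1 + θ) * τ)) := by
  have h1 := twisted_isBigO_of_tendsto_zero hθ hw hbd hper h0
  have h2 := (isBigO_refl (fun τ : ℍ => cexp (2 * π * I * θ * τ)) atImInfty).mul h1
  refine h2.congr (fun τ => twist_mul_untwist θ w τ) (fun τ => ?_)
  rw [← Complex.exp_add]
  congr 1
  ring

end main

end Fermat.Agent.S20.Free
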