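import Mathlib

/-!
# P-S20-FREE: twisted periodic holomorphic functions on the upper half plane

If `w` is holomorphic and bounded at `i∞` and `w (τ + 1) = exp (2 π i s) w τ` with `0 ≤ s < 1`, then
`w τ * exp (-2 π i s τ)` has a limit at `i∞`; if this limit is zero then `w` decays like
`exp (-2 π Im τ)`.
-/

set_option autoImplicit false

open UpperHalfPlane hiding I
open Filter Function Complex
open scoped Topology Manifold Real

namespace Fermat.Agent.S20.Free.Twisted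

local notation "𝕢" => Function.Periodic.qParam

/-- periodicity on `ℍ` in terms of `ofComplex`. -/
theorem periodic_comp_ofComplex_of_vadd {φ : ℍ → ℂ} (h : ∀ τ : ℍ, φ ((1 : ℝ) +ᵥ τ) = φ τ) :
    Periodic (φ ∘ ofComplex) ((1 : ℝ) : ℂ) := by
  intro w
  by_cases hw : 0 < im w
  · have hw' : 0 < im (w + ((1 : ℝ) : ℂ)) := by simpa using hw
    simp only [comp_apply, ofComplex_apply_of_im_pos hw', ofComplex_apply_of_im_pos hw]
    rw [← h ⟨w, hw⟩]
    congr 1
    ext
    simp [add_comm]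
  · have hw0 : im w ≤ 0 := not_lt.mp hw
    have hw' : im (w + ((1 : ℝ) : ℂ)) ≤ 0 := by simpa using hw0
    simp only [comp_apply, ofComplex_apply_of_im_nonpos hw', ofComplex_apply_of_im_nonpos hw0]

theorem qParam_vadd_one (τ : ℍ) : 𝕢 1 (((1 : ℝ) +ᵥ τ : ℍ) : ℂ) = 𝕢 1 (τ : ℂ) := by
  have h1 : (((1 : ℝ) +ᵥ τ : ℍ) : ℂ) = (τ : ℂ) + ((1 : ℝ) : ℂ) := by
    rw [coe_vadd]; ring
  rw [h1]
  simp only [Function.Periodic.qParam, ofReal_one, div_one]
  rw [mul_add, mul_one]
  exact Complex.exp_periodic _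

/-- A `1`-periodic holomorphic function `φ` on `ℍ` such that `φ * q` tends to zero at `i∞` has a
limit at `i∞`. -/
theorem exists_tendsto_of_periodic_of_mul_qParam {φ : ℍ → ℂ} (hφ : MDiff φ)
    (hper : ∀ τ : ℍ, φ ((1 : ℝ) +ᵥ τ) = φ τ)
    (hz : IsZeroAtImInfty (fun τ : ℍ => φ τ * 𝕢 1 τ)) :
    ∃ a : ℂ, Tendsto φ atImInfty (𝓝 a) := by
  set ψ : ℍ → ℂ := fun τ : ℍ => φ τ * 𝕢 1 τ with hψ
  have hψper : Periodic (ψ ∘ ofComplex) ((1 : ℝ) : ℂ) := by
    apply periodic_comp_ofComplex_of_vadd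
    intro τ
    simp only [hψ]
    rw [hper, qParam_vadd_one]
  have hψhol : MDiff ψ := by
    refine hφ.mul ?_
    intro τ
    rw [UpperHalfPlane.mdifferentiableAt_iff]
    have : DifferentiableAt ℂ (𝕢 1) (τ : ℂ) := (Function.Periodic.differentiable_qParam (h := 1)) _
    refine this.congr_of_eventuallyEq ?_
    filter_upwards [isOpen_upperHalfPlaneSet.mem_nhds τ.im_pos] with z hz
    simp [ofComplex_apply_of_im_pos hz]
  have hdiff : DifferentiableAt ℂ (cuspFunction 1 ψ) 0 :=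
    differentiableAt_cuspFunction one_pos hψper hψhol hz.isBoundedAtImInfty (by simp)
  have h0 : cuspFunction 1 ψ 0 = 0 := hz.cuspFunction_apply_zero one_pos
  have hcont : ContinuousAt (dslope (cuspFunction 1 ψ) 0) 0 :=
    continuousAt_dslope_same.mpr hdiff
  refine ⟨dslope (cuspFunction 1 ψ) 0 0, ?_⟩
  have hcomp : (dslope (cuspFunction 1 ψ) 0 ∘ fun τ : ℍ => 𝕢 1 (τ : ℂ)) = φ := by
    funext τ
    have hq : 𝕢 1 (τ : ℂ) ≠ 0 := Function.Periodic.qParam_ne_zero _
    simp only [comp_apply]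
    rw [dslope_of_ne _ hq, slope_def_field, h0, sub_zero, sub_zero,
      eq_cuspFunction τ one_ne_zero hψper]
    simp only [hψ]
    field_simp
  have := hcont.tendsto.comp (qParam_tendsto_atImInfty one_pos)
  rwa [hcomp] at this

/-- `τ ↦ exp (c τ)` is holomorphic on `ℍ`. -/
theorem mdiff_cexp_mul (c : ℂ) : MDiff (fun τ : ℍ => cexp (c * (τ : ℂ))) := by
  intro τ
  rw [UpperHalfPlane.mdifferentiableAt_iff]
  have : DifferentiableAt ℂ (fun z : ℂ => cexp (c * z)) (τ : ℂ) := by fun_prop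
  refine this.congr_of_eventuallyEq ?_
  filter_upwards [isOpen_upperHalfPlaneSet.mem_nhds τ.im_pos] with z hz
  simp [ofComplex_apply_of_im_pos hz]

theorem norm_cexp_two_pi_I_mul (c : ℝ) (τ : ℍ) :
    ‖cexp (2 * π * I * c * (τ : ℂ))‖ = Real.exp (-2 * π * c * τ.im) := by
  rw [Complex.norm_exp]
  congr 1
  simp only [mul_re, mul_im, re_ofNat, im_ofNat, ofReal_re, ofReal_im, Complex.I_re, Complex.I_im, coe_re, coe_im]
  ring

theorem tendsto_exp_neg_mul_im {c : ℝ} (hc : 0 < c) :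
    Tendsto (fun τ : ℍ => Real.exp (-2 * π * c * τ.im)) atImInfty (𝓝 0) := by
  refine Real.tendsto_exp_atBot.comp ?_
  have h1 : Tendsto (fun τ : ℍ => τ.im) atImInfty atTop := tendsto_comap
  have h2 : -2 * π * c < 0 := by nlinarith [Real.pi_pos]
  exact h1.const_mul_atTop_of_neg h2

theorem isZeroAtImInfty_cexp {c : ℝ} (hc : 0 < c) :
    IsZeroAtImInfty (fun τ : ℍ => cexp (2 * π * I * c * (τ : ℂ))) := by
  unfold IsZeroAtImInfty ZeroAtFilter
  rw [tendsto_zero_iff_norm_tendsto_zero]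
  simp_rw [norm_cexp_two_pi_I_mul]
  exact tendsto_exp_neg_mul_im hc

theorem isZeroAtImInfty_bdd_mul {f g : ℍ → ℂ} (hf : IsBoundedAtImInfty f)
    (hg : IsZeroAtImInfty g) : IsZeroAtImInfty (fun τ => f τ * g τ) := by
  unfold IsZeroAtImInfty ZeroAtFilter at *
  unfold IsBoundedAtImInfty BoundedAtFilter at hf
  have h1 : g =o[atImInfty] (1 : ℍ → ℝ) := (Asymptotics.isLittleO_one_iff ℝ).mpr hg
  have h2 := hf.mul_isLittleO h1
  have h3 : (fun τ => f τ * g τ) =o[atImInfty] (1 : ℍ → ℝ) := by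
    refine h2.congr_right ?_
    intro τ
    simp
  exact (Asymptotics.isLittleO_one_iff ℝ).mp h3

/-- The untwisting of `w` by the exponent `s`. -/
noncomputable def untwist (w : ℍ → ℂ) (s : ℝ) : ℍ → ℂ :=
  fun τ : ℍ => w τ * cexp (-(2 * π * I * s * (τ : ℂ)))

theorem untwist_apply (w : ℍ → ℂ) (s : ℝ) (τ : ℍ) :
    untwist w s τ = w τ * cexp (-(2 * π * I * s * (τ : ℂ))) := rfl

theorem mdiff_untwist {w : ℍ → ℂ} (s : ℝ) (hw : MDiff w) : MDiff (untwist w s) := by
  refine hw.mul ?_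
  have := mdiff_cexp_mul (-(2 * π * I * s))
  simpa only [neg_mul] using this

theorem untwist_vadd_one {w : ℍ → ℂ} {s : ℝ}
    (hper : ∀ τ : ℍ, w ((1 : ℝ) +ᵥ τ) = cexp (2 * π * I * s) * w τ) (τ : ℍ) :
    untwist w s ((1 : ℝ) +ᵥ τ) = untwist w s τ := by
  simp only [untwist]
  rw [hper, coe_vadd]
  have : cexp (-(2 * π * I * s * ((1 : ℝ) + (τ : ℂ)))) =
      cexp (-(2 * π * I * s * (τ : ℂ))) * cexp (-(2 * π * I * s)) := by
    rw [← Complex.exp_add]
    congr 1
    push_cast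
    ring
  rw [this]
  have h1 : cexp (2 * π * I * s) * cexp (-(2 * π * I * s)) = 1 := by
    rw [← Complex.exp_add, add_neg_cancel, Complex.exp_zero]
  calc cexp (2 * π * I * s) * w τ * (cexp (-(2 * π * I * s * (τ : ℂ))) * cexp (-(2 * π * I * s)))
      = w τ * cexp (-(2 * π * I * s * (τ : ℂ))) *
        (cexp (2 * π * I * s) * cexp (-(2 * π * I * s))) := by ring
    _ = _ := by rw [h1, mul_one]

/-- **Twisted periodic functions have a leading coefficient.** -/
theorem exists_tendsto_of_twisted {w : ℍ → ℂ} {s : ℝ} (hs1 : s < 1)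
    (hw : MDiff w) (hbd : IsBoundedAtImInfty w)
    (hper : ∀ τ : ℍ, w ((1 : ℝ) +ᵥ τ) = cexp (2 * π * I * s) * w τ) :
    ∃ a : ℂ, Tendsto (untwist w s) atImInfty (𝓝 a) := by
  refine exists_tendsto_of_periodic_of_mul_qParam (mdiff_untwist s hw) (untwist_vadd_one hper) ?_
  have h1 : (fun τ : ℍ => untwist w s τ * 𝕢 1 (τ : ℂ)) =
      fun τ : ℍ => w τ * cexp (2 * π * I * ((1 - s : ℝ)) * (τ : ℂ)) := by
    funext τ
    rw [untwist_apply, mul_assoc]
    congr 1
    simp only [Function.Periodic.qParam, ofReal_one, div_one]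
    rw [← Complex.exp_add]
    congr 1
    push_cast
    ring
  rw [h1]
  exact isZeroAtImInfty_bdd_mul hbd (isZeroAtImInfty_cexp (by linarith))

/-- **Decay of twisted periodic functions with vanishing leading coefficient.** -/
theorem isBigO_of_twisted_of_tendsto_zero {w : ℍ → ℂ} {s : ℝ} (hs0 : 0 ≤ s)
    (hw : MDiff w)
    (hper : ∀ τ : ℍ, w ((1 : ℝ) +ᵥ τ) = cexp (2 * π * I * s) * w τ)
    (hlim : Tendsto (untwist w s) atImInfty (𝓝 0)) :
    w =O[atImInfty] fun τ : ℍ => Real.exp (-2 * π * τ.im) := by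
  have hz : IsZeroAtImInfty (untwist w s) := hlim
  have h1 : untwist w s =O[atImInfty] fun τ : ℍ => Real.exp (-2 * π * τ.im / 1) :=
    hz.exp_decay_atImInfty one_pos
      (by simpa using periodic_comp_ofComplex_of_vadd (untwist_vadd_one hper))
      (mdiff_untwist s hw) hz.isBoundedAtImInfty
  simp only [div_one] at h1
  refine Asymptotics.IsBigO.trans (Asymptotics.IsBigO.of_bound 1 ?_) h1
  filter_upwards with τ
  have hw' : w τ = untwist w s τ * cexp (2 * π * I * s * (τ : ℂ)) := by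
    rw [untwist_apply, mul_assoc, ← Complex.exp_add, neg_add_cancel, Complex.exp_zero, mul_one]
  rw [one_mul]
  conv_lhs => rw [hw']
  rw [norm_mul, norm_cexp_two_pi_I_mul]
  have h2 : Real.exp (-2 * π * s * τ.im) ≤ 1 := by
    rw [Real.exp_le_one_iff]
    have := τ.im_pos
    have := Real.pi_pos
    have : 0 ≤ π * s * τ.im := by positivity
    nlinarith
  calc ‖untwist w s τ‖ * Real.exp (-2 * π * s * τ.im) ≤ ‖untwist w s τ‖ * 1 :=
        mul_le_mul_of_nonneg_left h2 (norm_nonneg _)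
    _ = ‖untwist w s τ‖ := mul_one _

end Fermat.Agent.S20.Free.Twisted
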